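/-
S16, UPPER BOUND (U): interface (helper39).

Exact Lean shapes of the "no congruence" lemmas on weight-2 forms of level `Γ₀(p)` that the
top assembly `UAsm39.lean` consumes, and of the two inputs (Eisenstein series of level `p`;
`l = p`).  No `sorry`: package owners prove `theorem _ : <Stmt>` in their own files.

Notation: `σ'_p(k) = ∑_{d ∣ k, p ∤ d} d`, `E = (p-1)/24 + ∑ σ'_p(k) q^k`.
`NoCong p l b` says: there is no `G ∈ M₂(Γ₀(p))` with `a₀(G) = 1` and `a_k(G) ∈ l^b ℤ_(l)`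
for all `k ≥ 1` (`ℤ_(l)` = rationals with denominator prime to `l`).
-/
import Mathlib
import Fermat.Prelude.Def_FLTPrelim_Modularity
import Fermat.Prelude.Def_ModularCurve_ModularUnit

set_option autoImplicit false

namespace Fermat.Agent.S16.UIface39

open CongruenceSubgroup ModularFormClass

/-- `σ'_p(k)`: the sum of the divisors of `k` that are prime to `p`. -/
def sigmaP (p k : ℕ) : ℤ := ∑ d ∈ k.divisors.filter (fun d => ¬ p ∣ d), (d : ℤ)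

/-- `x ∈ l^b ℤ_(l)`: `x = l^b · m / d` with `m ∈ ℤ`, `d ∈ ℕ`, `l ∤ d`. -/
def InPow (l b : ℕ) (x : ℂ) : Prop :=
  ∃ (m : ℤ) (d : ℕ), ¬ l ∣ d ∧ x * (d : ℂ) = (l : ℂ) ^ b * (m : ℂ)

/-- There is no weight-2 form on `Γ₀(p)` which is `≡ 1 mod l^b` (coefficients `l`-integral
rationals). -/
def NoCong (p l b : ℕ) : Prop :=
  ∀ G : ModularForm (Gamma0 p) 2, qCoeff (G : UpperHalfPlane → ℂ) 0 = 1 →
    (∀ k : ℕ, 1 ≤ k → InPow l b (qCoeff (G : UpperHalfPlane → ℂ) k)) → False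

/-- (U1) trace identity / "Lemma T": `G ≡ 1 mod l^b`, `l ≠ p` forces `l^b ∣ p + 1`. -/
def U1Stmt : Prop :=
  ∀ p l b : ℕ, p.Prime → 5 ≤ p → l.Prime → l ≠ p → ¬ l ^ b ∣ p + 1 → NoCong p l b

/-- (U2) `l ≥ 5`, `l ∣ p + 1`: symmetric functions of the conjugates + weak Swinnerton-Dyer. -/
def USwDStmt : Prop :=
  ∀ p l : ℕ, p.Prime → 5 ≤ p → l.Prime → 5 ≤ l → l ≠ p → l ∣ p + 1 → NoCong p l 1

/-- (U4) `l = 3`: no `G ≡ 1 mod 9` when `9 ∣ p + 1`. -/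
def U9Stmt : Prop := ∀ p : ℕ, p.Prime → 5 ≤ p → 9 ∣ p + 1 → NoCong p 3 2

/-- (U5) = (D) = (B2), `l = 2`: no `G ≡ 1 mod 8` when `8 ∣ p + 1`. -/
def U8Stmt : Prop := ∀ p : ℕ, p.Prime → 5 ≤ p → 8 ∣ p + 1 → NoCong p 2 3

/-- (U3) `l = p`: no integral cusp form of level `p` is `≡ ∑ σ'_p(k) q^k mod p`
(Serre: it would be a level-one form of weight `p + 1` mod `p`; weak Swinnerton-Dyer). -/
def UpStmt : Prop :=
  ∀ p : ℕ, p.Prime → 5 ≤ p → ∀ f : CuspForm (Gamma0 p) 2,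
    (∀ k : ℕ, ∃ m : ℤ, qCoeff (f : UpperHalfPlane → ℂ) k = (m : ℂ)) →
    (∀ k : ℕ, 1 ≤ k → ∃ c : ℤ,
      qCoeff (f : UpperHalfPlane → ℂ) k = ((sigmaP p k + (p : ℤ) * c : ℤ) : ℂ)) → False

/-- (EIS) the Eisenstein series `24 E = p E₂(pz) - E₂(z)` of level `p`. -/
def EisStmt : Prop :=
  ∀ p : ℕ, p.Prime → ∃ E : ModularForm (Gamma0 p) 2,
    qCoeff (E : UpperHalfPlane → ℂ) 0 = (p : ℂ) - 1 ∧
    ∀ k : ℕ, 1 ≤ k → qCoeff (E : UpperHalfPlane → ℂ) k = 24 * ((sigmaP p k : ℤ) : ℂ)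

/-- The conclusion of (U) in elementary form: an integral cusp form congruent to the Eisenstein
series modulo `M` forces `M ∣ n = (p-1)/gcd(p-1,12)`. -/
def UpperStmt : Prop :=
  ∀ p : ℕ, p.Prime → ∀ (M : ℕ) (f : CuspForm (Gamma0 p) 2),
    (∀ k : ℕ, ∃ m : ℤ, qCoeff (f : UpperHalfPlane → ℂ) k = (m : ℂ)) →
    (∀ k : ℕ, 1 ≤ k → ∃ c : ℤ,
      qCoeff (f : UpperHalfPlane → ℂ) k = ((sigmaP p k + (M : ℤ) * c : ℤ) : ℂ)) →
    M ∣ ModularCurve.eisensteinNumerator p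

end Fermat.Agent.S16.UIface39
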