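/-
S16, (U)-CONJ BRIDGE (helper9): the two CONJ libraries on main, `Conj53` (helper53) and `Conj81`
(helper81), define the same objects under different names.  This file identifies them (all by
`rfl`) and transports helper53's weight-2 relation (C4) `Conj53.bS_weight_two` to the `Conj81`
vocabulary (`bco`, Mathlib `ModularForm.trace`) in every shape that a consumer announced.

* `gS_eq_Hs`   : `Conj53.gS f = Conj81.Hs f`                     (`f ∣[k] S`)
* `bS_eq_bco`  : `Conj53.bS f n = Conj81.bco f n`                (`q^(1/p)`-coefficients of `f ∣ S`)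
* `zeta_pow_eq_zet` : `Conj53.zeta p ^ j = Conj81.zet p j`        (`ζ_p^j`)
* `bco_weight_two`      : `Conj81.bco G n = -(p⁻¹) * a_{pn}(G)`          (helper53 shape)
* `bco_weight_two_one_div` : `… = -(1 / p) * a_{pn}(G)`                  (helper99 / helper51 `hC4`)
* `bco_weight_two_div`  : `… = -a_{pn}(G) / p`                           (helper40 / helper72 shape)
* `bS_weight_two_one_div`, `bS_weight_two_div` : same for `Conj53.bS`.
* `hasSum_Hs_weight_two` : the expansion of `G ∣ S` in `Conj81` vocabulary.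
-/
import Fermat.Agent.S16.Conj53.WeightTwo
import Fermat.Agent.S16.Conj81.QExp

set_option autoImplicit false

open UpperHalfPlane ModularForm CongruenceSubgroup ModularGroup
open scoped MatrixGroups ModularForm

namespace Fermat.Agent.S16.ConjBridge9

variable {p : ℕ} {k : ℤ}

/-- `f ∣[k] S` in both vocabularies. -/
theorem gS_eq_Hs (f : ModularForm (Gamma0 p) k) : Conj53.gS f = Conj81.Hs f := rfl

/-- The `q^(1/p)`-coefficients of `f ∣[k] S` in both vocabularies. -/
theorem bS_eq_bco [Fact p.Prime] (f : ModularForm (Gamma0 p) k) (n : ℕ) :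
    Conj53.bS f n = Conj81.bco f n := rfl

/-- `ζ_p^j` in both vocabularies. -/
theorem zeta_pow_eq_zet (j : ℕ) : Conj53.zeta p ^ j = Conj81.zet p j := by
  unfold Conj53.zeta Conj81.zet
  rw [← Complex.exp_nat_mul]
  congr 1
  ring

variable [hp : Fact p.Prime]

/-- **(C4)** in `Conj81` vocabulary (helper53's shape). -/
theorem bco_weight_two (G : ModularForm (Gamma0 p) 2) (n : ℕ) :
    Conj81.bco G n = -((p : ℂ)⁻¹) * (qExpansion 1 G).coeff (p * n) :=
  Conj53.bS_weight_two G n

/-- **(C4)**, shape `-(1/p) * a_{pn}`. -/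
theorem bco_weight_two_one_div (G : ModularForm (Gamma0 p) 2) (n : ℕ) :
    Conj81.bco G n = -(1 / (p : ℂ)) * (qExpansion 1 G).coeff (p * n) := by
  rw [bco_weight_two, one_div]

/-- **(C4)**, shape `-a_{pn} / p`. -/
theorem bco_weight_two_div (G : ModularForm (Gamma0 p) 2) (n : ℕ) :
    Conj81.bco G n = -(qExpansion 1 G).coeff (p * n) / (p : ℂ) := by
  rw [bco_weight_two]
  ring

/-- **(C4)** for `Conj53.bS`, shape `-(1/p) * a_{pn}`. -/
theorem bS_weight_two_one_div (G : ModularForm (Gamma0 p) 2) (n : ℕ) :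
    Conj53.bS G n = -(1 / (p : ℂ)) * (qExpansion 1 G).coeff (p * n) :=
  bco_weight_two_one_div G n

/-- **(C4)** for `Conj53.bS`, shape `-a_{pn} / p`. -/
theorem bS_weight_two_div (G : ModularForm (Gamma0 p) 2) (n : ℕ) :
    Conj53.bS G n = -(qExpansion 1 G).coeff (p * n) / (p : ℂ) :=
  bco_weight_two_div G n

/-- Expansion of `G ∣ S` in weight two, `Conj81` vocabulary. -/
theorem hasSum_Hs_weight_two (G : ModularForm (Gamma0 p) 2) (τ : ℍ) :
    HasSum (fun m : ℕ => -((p : ℂ)⁻¹) * (qExpansion 1 G).coeff (p * m)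
      * Function.Periodic.qParam (p : ℝ) τ ^ m) (Conj81.Hs G τ) :=
  Conj53.hasSum_gS_weight_two G τ

/-- In weight two, Mathlib's trace to level one vanishes coefficientwise (sanity form of (C4) at
indices divisible by `p`): `a_m(G) + p * b_{pm}(G) = 0`. -/
theorem coeff_add_bco_weight_two (G : ModularForm (Gamma0 p) 2) (m : ℕ) :
    (qExpansion 1 G).coeff m + (p : ℂ) * Conj81.bco G (p * m) = 0 :=
  Conj53.coeff_add_bS_weight_two G m

end Fermat.Agent.S16.ConjBridge9
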