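/-
S16, UPPER BOUND (U): top assembly (helper39).

`upper_of` : `U1Stmt → USwDStmt → U9Stmt → U8Stmt → UpStmt → EisStmt → UpperStmt` restricted to
`5 ≤ p`; the primes `p = 2, 3` are handled by `upper_small` from `S₂(Γ₀(p)) = 0`.
-/
import Mathlib
import Fermat.Agent.S16.UIface39
import Fermat.Prelude.Thm_CongruenceSubgroup_one_mem_strictPeriods_Gamma0

set_option autoImplicit false

namespace Fermat.Agent.S16.UAsm39

open CongruenceSubgroup ModularFormClass UpperHalfPlane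
open Fermat.Agent.S16.UIface39

/-! ### cusp forms as modular forms, q-coefficients of linear combinations -/

/-- A cusp form, regarded as a modular form. -/
def toMF {N : ℕ} {k : ℤ} (f : CuspForm (Gamma0 N) k) : ModularForm (Gamma0 N) k where
  toSlashInvariantForm := f.toSlashInvariantForm
  holo' := f.holo'
  bdd_at_cusps' hc := fun g hg => (f.zero_at_cusps' hc g hg).boundedAtFilter

@[simp] theorem coe_toMF {N : ℕ} {k : ℤ} (f : CuspForm (Gamma0 N) k) :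
    (toMF f : ℍ → ℂ) = (f : ℍ → ℂ) := rfl

theorem hG (N : ℕ) :
    (1 : ℝ) ∈ (Subgroup.map (Matrix.SpecialLinearGroup.mapGL ℝ) (Gamma0 N)).strictPeriods :=
  CongruenceSubgroup.one_mem_strictPeriods_Gamma0 N

theorem qc_sub {N : ℕ} {k : ℤ} (f g : ModularForm (Gamma0 N) k) (n : ℕ) :
    qCoeff (⇑(f - g)) n = qCoeff (⇑f) n - qCoeff (⇑g) n := by
  simp only [qCoeff, FunLike.coe_sub]
  rw [ModularForm.qExpansion_sub one_pos (hG N) f g, map_sub]

theorem qc_smul {N : ℕ} {k : ℤ} (c : ℂ) (f : ModularForm (Gamma0 N) k) (n : ℕ) :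
    qCoeff (⇑(c • f)) n = c * qCoeff (⇑f) n := by
  have h1 : ⇑(c • f) = c • ⇑f := by
    ext z
    simp
  simp only [qCoeff, h1]
  rw [ModularForm.qExpansion_smul one_pos (hG N) c f]
  simp

/-! ### arithmetic -/

theorem eisNum_mul_gcd (p : ℕ) :
    ModularCurve.eisensteinNumerator p * Nat.gcd (p - 1) 12 = p - 1 :=
  Nat.div_mul_cancel (Nat.gcd_dvd_left _ _)

theorem eisNum_pos {p : ℕ} (hp : 2 ≤ p) : 0 < ModularCurve.eisensteinNumerator p := by
  have h := eisNum_mul_gcd p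
  rcases Nat.eq_zero_or_pos (ModularCurve.eisensteinNumerator p) with h0 | h0
  · rw [h0, zero_mul] at h; omega
  · exact h0

/-- `g ∣ 12`, `4 ∤ g` implies `12 / g` even. -/
theorem even_twelve_div {g : ℕ} (hg : g ∣ 12) (h4 : ¬ 4 ∣ g) : 2 ∣ 12 / g := by
  have hle : g ≤ 12 := Nat.le_of_dvd (by norm_num) hg
  interval_cases g <;> omega

/-- `g ∣ 12`, `3 ∤ g` implies `3 ∣ 12 / g`. -/
theorem three_dvd_twelve_div {g : ℕ} (hg : g ∣ 12) (h3 : ¬ 3 ∣ g) : 3 ∣ 12 / g := by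
  have hle : g ≤ 12 := Nat.le_of_dvd (by norm_num) hg
  interval_cases g <;> omega


/-! ### the form `G = (E - 24 f)/(p - 1)` -/

theorem qc_cusp_zero {N : ℕ} {k : ℤ} (f : CuspForm (Gamma0 N) k) :
    qCoeff (⇑f) 0 = 0 := by
  simp only [qCoeff]
  exact CuspFormClass.qExpansion_coeff_zero f one_pos (hG N)

theorem exists_G (hE : EisStmt) {p : ℕ} (hp : p.Prime) (f : CuspForm (Gamma0 p) 2) (M : ℕ)
    (hf : ∀ k : ℕ, 1 ≤ k → ∃ c : ℤ,
      qCoeff (f : ℍ → ℂ) k = ((sigmaP p k + (M : ℤ) * c : ℤ) : ℂ)) :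
    ∃ G : ModularForm (Gamma0 p) 2, qCoeff (G : ℍ → ℂ) 0 = 1 ∧
      ∀ k : ℕ, 1 ≤ k → ∃ c : ℤ,
        qCoeff (G : ℍ → ℂ) k * ((p : ℂ) - 1) = -24 * (M : ℂ) * (c : ℂ) := by
  obtain ⟨E, hE0, hEk⟩ := hE p hp
  have hp1 : ((p : ℂ) - 1) ≠ 0 := by
    have h2 := hp.two_le
    have : (p : ℂ) ≠ 1 := by
      intro h
      have : p = 1 := by exact_mod_cast h
      omega
    exact sub_ne_zero.mpr this
  refine ⟨((p : ℂ) - 1)⁻¹ • (E - (24 : ℂ) • toMF f), ?_, ?_⟩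
  · rw [qc_smul, qc_sub, qc_smul, hE0, coe_toMF, qc_cusp_zero]
    field_simp
    ring
  · intro k hk
    obtain ⟨c, hc⟩ := hf k hk
    refine ⟨c, ?_⟩
    rw [qc_smul, qc_sub, qc_smul, hEk k hk, coe_toMF, hc]
    push_cast
    field_simp
    ring

/-! ### the arithmetic step -/

theorem inPow_of {p l : ℕ} (hp2 : 2 ≤ p) (hl : l.Prime) {M s n' : ℕ}
    (hn : ModularCurve.eisensteinNumerator p = l ^ s * n') (hn' : ¬ l ∣ n')
    (hM : l ^ (s + 1) ∣ M) (b : ℕ) (hb : l ^ b ∣ l * (2 * (12 / Nat.gcd (p - 1) 12)))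
    (x : ℂ) (c : ℤ) (hx : x * ((p : ℂ) - 1) = -24 * (M : ℂ) * (c : ℂ)) : InPow l b x := by
  obtain ⟨M', rfl⟩ := hM
  obtain ⟨t, ht⟩ := hb
  set g := Nat.gcd (p - 1) 12 with hg
  have hg12 : g ∣ 12 := Nat.gcd_dvd_right _ _
  have hgq : g * (12 / g) = 12 := Nat.mul_div_cancel' hg12
  have hpm : p - 1 = l ^ s * n' * g := by rw [← hn]; exact (eisNum_mul_gcd p).symm
  have hg0 : g ≠ 0 := by
    intro h0; rw [h0, zero_mul] at hgq; omega
  have hpC : ((p : ℂ) - 1) = (l : ℂ) ^ s * (n' : ℂ) * (g : ℂ) := by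
    have h1 : ((p - 1 : ℕ) : ℂ) = (p : ℂ) - 1 := by
      rw [Nat.cast_sub (by omega)]; simp
    rw [← h1, hpm]; push_cast; ring
  have h24 : (24 : ℂ) = 2 * (g : ℂ) * ((12 / g : ℕ) : ℂ) := by
    have : ((g * (12 / g) : ℕ) : ℂ) = 12 := by rw [hgq]; norm_num
    push_cast at this
    linear_combination (-2 : ℂ) * this
  have htC : (l : ℂ) * (2 * ((12 / g : ℕ) : ℂ)) = (l : ℂ) ^ b * (t : ℂ) := by
    have := congrArg (fun z : ℕ => (z : ℂ)) ht
    simpa using this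
  have hl0 : (l : ℂ) ≠ 0 := by exact_mod_cast hl.ne_zero
  have hgC : (g : ℂ) ≠ 0 := by exact_mod_cast hg0
  refine ⟨-(t : ℤ) * (M' : ℤ) * c, n', hn', ?_⟩
  have hne : (l : ℂ) ^ s * (g : ℂ) ≠ 0 := mul_ne_zero (pow_ne_zero _ hl0) hgC
  apply mul_right_cancel₀ hne
  have : x * (n' : ℂ) * ((l : ℂ) ^ s * (g : ℂ)) = x * ((p : ℂ) - 1) := by rw [hpC]; ring
  rw [this, hx, h24]
  push_cast
  have e1 : (l : ℂ) ^ b * (-(t : ℂ) * (M' : ℂ) * (c : ℂ)) * ((l : ℂ) ^ s * (g : ℂ))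
      = -((l : ℂ) ^ b * (t : ℂ)) * (M' : ℂ) * (c : ℂ) * ((l : ℂ) ^ s * (g : ℂ)) := by ring
  rw [e1, ← htC]
  ring

/-! ### the assembly -/

theorem upper_of (hU1 : U1Stmt) (hSwD : USwDStmt) (h9 : U9Stmt) (h8 : U8Stmt) (hUp : UpStmt)
    (hE : EisStmt) {p : ℕ} (hp : p.Prime) (hp5 : 5 ≤ p) (M : ℕ) (f : CuspForm (Gamma0 p) 2)
    (hint : ∀ k : ℕ, ∃ m : ℤ, qCoeff (f : ℍ → ℂ) k = (m : ℂ))
    (hf : ∀ k : ℕ, 1 ≤ k → ∃ c : ℤ,
      qCoeff (f : ℍ → ℂ) k = ((sigmaP p k + (M : ℤ) * c : ℤ) : ℂ)) :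
    M ∣ ModularCurve.eisensteinNumerator p := by
  have hnpos := eisNum_pos (p := p) (by omega)
  rw [Nat.dvd_iff_prime_pow_dvd_dvd]
  intro l r hl hlr
  by_contra hnot
  obtain ⟨s, n', hn', hn⟩ :=
    Nat.exists_eq_pow_mul_and_not_dvd hnpos.ne' l hl.ne_one
  have hsr : s + 1 ≤ r := by
    by_contra h
    have hle : r ≤ s := by omega
    exact hnot (hn ▸ Dvd.dvd.mul_right (pow_dvd_pow l hle) n')
  have hM : l ^ (s + 1) ∣ M := (pow_dvd_pow l hsr).trans hlr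
  by_cases hlp : l = p
  · -- `l = p`
    subst hlp
    have hpM : l ∣ M := (dvd_pow_self l (Nat.succ_ne_zero s)).trans hM
    obtain ⟨M₁, rfl⟩ := hpM
    refine hUp l hp hp5 f hint (fun k hk => ?_)
    obtain ⟨c, hc⟩ := hf k hk
    exact ⟨(M₁ : ℤ) * c, by rw [hc]; push_cast; ring⟩
  · obtain ⟨G, hG0, hGk⟩ := exists_G hE hp f M hf
    set g := Nat.gcd (p - 1) 12 with hg
    have hg12 : g ∣ 12 := Nat.gcd_dvd_right _ _
    have hgp : g ∣ p - 1 := Nat.gcd_dvd_left _ _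
    have key : ∀ b : ℕ, l ^ b ∣ l * (2 * (12 / g)) → NoCong p l b → False := by
      intro b hb hNC
      refine hNC G hG0 (fun k hk => ?_)
      obtain ⟨c, hc⟩ := hGk k hk
      exact inPow_of (by omega) hl hn hn' hM b hb _ c hc
    by_cases hl2 : l = 2
    · subst hl2
      by_cases h4 : 4 ∣ p - 1
      · refine key 2 ⟨12 / g, by ring⟩ (hU1 p 2 2 hp hp5 hl hlp ?_)
        omega
      · have h4g : ¬ 4 ∣ g := fun h => h4 (h.trans hgp)
        obtain ⟨q, hq⟩ := even_twelve_div hg12 h4g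
        have hb : 2 ^ 3 ∣ 2 * (2 * (12 / g)) := ⟨q, by rw [hq]; ring⟩
        by_cases h8p : 8 ∣ p + 1
        · exact key 3 hb (h8 p hp hp5 h8p)
        · exact key 3 hb (hU1 p 2 3 hp hp5 hl hlp (by norm_num; exact h8p))
    · by_cases hl3 : l = 3
      · subst hl3
        by_cases h3 : 3 ∣ p - 1
        · refine key 1 ⟨2 * (12 / g), by ring⟩ (hU1 p 3 1 hp hp5 hl hlp ?_)
          omega
        · have h3g : ¬ 3 ∣ g := fun h => h3 (h.trans hgp)
          obtain ⟨q, hq⟩ := three_dvd_twelve_div hg12 h3g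
          have hb : 3 ^ 2 ∣ 3 * (2 * (12 / g)) := ⟨2 * q, by rw [hq]; ring⟩
          by_cases h9p : 9 ∣ p + 1
          · exact key 2 hb (h9 p hp hp5 h9p)
          · exact key 2 hb (hU1 p 3 2 hp hp5 hl hlp (by norm_num; exact h9p))
      · have hl5 : 5 ≤ l := by
          have h2 := hl.two_le
          rcases Nat.lt_or_ge l 5 with h | h
          · interval_cases l
            · exact absurd rfl hl2
            · exact absurd rfl hl3
            · exact absurd hl (by norm_num)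
          · exact h
        have hb : l ^ 1 ∣ l * (2 * (12 / g)) := ⟨2 * (12 / g), by ring⟩
        by_cases hlp1 : l ∣ p + 1
        · exact key 1 hb (hSwD p l hp hp5 hl hl5 hlp hlp1)
        · exact key 1 hb (hU1 p l 1 hp hp5 hl hlp (by simpa using hlp1))

end Fermat.Agent.S16.UAsm39
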