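import Mathlib
import Fermat.Prelude.Def_ModularForm_HeckeOperatorForms
import Fermat.Prelude.Thm_ModularFormClass_qCoeff_heckeT
import Fermat.Prelude.Thm_CongruenceSubgroup_one_mem_strictPeriods_Gamma0

/-!
# S16, package (U)-A (Lemma T), part T1: the Hecke relation for Ramanujan's `τ`

`tau n` is the `n`-th `q`-expansion coefficient of Mathlib's `ModularForm.discriminant`.
Using the Prelude Hecke operator `CuspForm.heckeTLin 12` at level `Gamma0 1` and the
one-dimensionality of `S₁₂(SL₂(ℤ))` we prove, for every prime `p` and every `n`,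

  `tau (n * p) + (if p ∣ n then p ^ 11 * tau (n / p) else 0) = tau p * tau n`,

and in particular `tau (p ^ 2) + p ^ 11 = tau p ^ 2`.
-/

set_option autoImplicit false

open UpperHalfPlane ModularForm CongruenceSubgroup
open scoped MatrixGroups

namespace Fermat.Agent.S16.LemmaT72

/-- Ramanujan's `τ`: the `q`-expansion coefficients of the discriminant. -/
noncomputable def tau (n : ℕ) : ℂ :=
  (UpperHalfPlane.qExpansion 1 ModularForm.discriminant).coeff n

theorem tau_def (n : ℕ) :
    tau n = (UpperHalfPlane.qExpansion 1 ModularForm.discriminant).coeff n := rfl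

theorem tau_one : tau 1 = 1 := ModularForm.discriminant_qExpansion_coeff_one

theorem gamma0_one_eq : (Gamma0 1 : Subgroup (GL (Fin 2) ℝ)) = 𝒮ℒ := by
  have : (CongruenceSubgroup.Gamma0 1) = ⊤ := by
    ext g
    simp [CongruenceSubgroup.Gamma0_mem, Subsingleton.elim (α := ZMod 1) _ 0]
  rw [this, MonoidHom.range_eq_map]

/-- The discriminant as a cusp form of level `Gamma0 1`. -/
noncomputable def discGamma0 : CuspForm (Gamma0 1) 12 :=
  CuspForm.mcast rfl CuspForm.discriminant gamma0_one_eq

theorem coe_discGamma0 : (discGamma0 : ℍ → ℂ) = ModularForm.discriminant := rfl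

theorem tau_zero : tau 0 = 0 := by
  have := CuspFormClass.qExpansion_coeff_zero (f := discGamma0) one_pos
    (CongruenceSubgroup.one_mem_strictPeriods_Gamma0 1)
  simpa [tau, coe_discGamma0] using this

/-- `T_p Δ = c • Δ` for some scalar `c`, as functions on the upper half plane. -/
theorem exists_heckeT_discriminant_eq {p : ℕ} (hp : p.Prime) :
    ∃ c : ℂ, ModularForm.heckeT 12 p (ModularForm.discriminant : ℍ → ℂ)
      = c • (ModularForm.discriminant : ℍ → ℂ) := by
  have hp1 : ¬ p ∣ 1 := fun h => hp.one_lt.ne' (Nat.dvd_one.mp h)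
  obtain ⟨c, hc⟩ := CuspForm.exists_smul_discriminant_of_weight_eq_twelve
    (CuspForm.mcast rfl (CuspForm.heckeTLin 12 hp hp1 discGamma0) gamma0_one_eq.symm)
  refine ⟨c, ?_⟩
  have := congrArg (fun f : CuspForm 𝒮ℒ 12 => (f : ℍ → ℂ)) hc
  exact this.symm

/-- The Hecke relation for `τ` at a prime `p`. -/
theorem tau_mul_prime {p : ℕ} (hp : p.Prime) (n : ℕ) :
    tau (n * p) + (if p ∣ n then (p : ℂ) ^ 11 * tau (n / p) else 0) = tau p * tau n := by
  have hp1 : ¬ p ∣ 1 := fun h => hp.one_lt.ne' (Nat.dvd_one.mp h)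
  obtain ⟨c, hc⟩ := exists_heckeT_discriminant_eq hp
  have hΓ := CongruenceSubgroup.one_mem_strictPeriods_Gamma0 1
  -- coefficient formula for `T_p Δ`
  have h1 : ∀ m : ℕ, ModularFormClass.qCoeff
      (ModularForm.heckeT 12 p (ModularForm.discriminant : ℍ → ℂ)) m
      = tau (m * p) + (if p ∣ m then (p : ℂ) ^ 11 * tau (m / p) else 0) := by
    intro m
    have := ModularFormClass.qCoeff_heckeT discGamma0 hΓ hp.ne_zero m
    rw [coe_discGamma0] at this
    rw [this, ModularForm.coeffHeckeT_apply]
    norm_num [ModularFormClass.qCoeff, tau]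
  -- coefficient formula for `c • Δ`
  have h2 : ∀ m : ℕ, ModularFormClass.qCoeff (c • (ModularForm.discriminant : ℍ → ℂ)) m
      = c * tau m := by
    intro m
    have := ModularForm.qExpansion_smul one_pos hΓ c discGamma0
    rw [coe_discGamma0] at this
    simp [ModularFormClass.qCoeff, this, tau]
  have hc1 : c = tau p := by
    have := h1 1
    rw [hc, h2 1, tau_one, if_neg hp1] at this
    simpa using this
  have := h1 n
  rw [hc, h2 n, hc1] at this
  exact this.symm

/-- `τ(p²) + p¹¹ = τ(p)²`. -/
theorem tau_prime_sq {p : ℕ} (hp : p.Prime) :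
    tau (p ^ 2) + (p : ℂ) ^ 11 = tau p ^ 2 := by
  have := tau_mul_prime hp p
  rw [if_pos dvd_rfl, Nat.div_self hp.pos, tau_one, mul_one] at this
  rw [sq, sq]
  exact this

end Fermat.Agent.S16.LemmaT72
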