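import Mathlib
import Fermat.Agent.S16.LemmaT72
import Fermat.Agent.S16.UIface39
import Fermat.Agent.S24.JBridge80

/-!
# S16, package (U)-A (Lemma T), parts T2 + glue

* `tau_int` : Ramanujan's `τ(n)` is an integer (from `S24/JBridge80`).
* `TraceIds p a` : the two instances (`M = 1`, `M = p`) of the coefficient identity
  `p¹² · a_M(G · Δ(p·)) = a_{pM}((U_p G) · Δ)` coming from `Tr(G · Δ(p·)) = 0 ∈ S₁₄(SL₂ ℤ)`.
* `dvd_of_traceIds` : pure algebra: `a₀ = 1`, `a_k ∈ l^b ℤ_(l)` (`k ≥ 1`), `l ≠ p`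
  and `TraceIds p a` imply `l ^ b ∣ p + 1`.
* `u1Stmt_of_traceIds` : `UIface39.U1Stmt` from the trace identities.
-/

set_option autoImplicit false

open UpperHalfPlane ModularForm CongruenceSubgroup
open scoped MatrixGroups

namespace Fermat.Agent.S16.LemmaT72

open Fermat.Agent.S16.UIface39

/-- `τ(n) ∈ ℤ`. -/
theorem tau_int (n : ℕ) : ∃ z : ℤ, tau n = (z : ℂ) := by
  refine ⟨PowerSeries.coeff n (PowerSeries.X * ModularCurve.dedekindEtaUnit), ?_⟩
  rw [tau, Fermat.Agent.S24.JBridge80.qExpansion_discriminant_eq,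
    ← PowerSeries.map_X (Int.castRingHom ℂ), ← map_mul, PowerSeries.coeff_map]
  simp

/-! ### Closure properties of `InPow l b` (`= l^b ℤ_(l)`) -/

theorem inPow_zero {l : ℕ} (hl : l.Prime) (b : ℕ) : InPow l b 0 :=
  ⟨0, 1, fun h => hl.one_lt.ne' (Nat.dvd_one.mp h), by simp⟩

theorem InPow.add {l b : ℕ} (hl : l.Prime) {x y : ℂ} (hx : InPow l b x) (hy : InPow l b y) :
    InPow l b (x + y) := by
  obtain ⟨m, d, hd, hxd⟩ := hx
  obtain ⟨m', d', hd', hyd⟩ := hy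
  refine ⟨m * d' + m' * d, d * d', ?_, ?_⟩
  · intro h
    rcases (Nat.Prime.dvd_mul hl).mp h with h | h
    · exact hd h
    · exact hd' h
  · push_cast
    linear_combination (d' : ℂ) * hxd + (d : ℂ) * hyd

theorem InPow.int_mul {l b : ℕ} {x : ℂ} (z : ℤ) (hx : InPow l b x) : InPow l b ((z : ℂ) * x) := by
  obtain ⟨m, d, hd, hxd⟩ := hx
  refine ⟨z * m, d, hd, ?_⟩
  push_cast
  linear_combination (z : ℂ) * hxd

theorem InPow.mul_int {l b : ℕ} {x : ℂ} (hx : InPow l b x) (z : ℤ) : InPow l b (x * (z : ℂ)) := by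
  rw [mul_comm]; exact InPow.int_mul z hx

theorem InPow.neg {l b : ℕ} {x : ℂ} (hx : InPow l b x) : InPow l b (-x) := by
  simpa using InPow.int_mul (-1) hx

theorem InPow.sum {l b : ℕ} (hl : l.Prime) {ι : Type*} (s : Finset ι) (f : ι → ℂ)
    (h : ∀ i ∈ s, InPow l b (f i)) : InPow l b (∑ i ∈ s, f i) := by
  classical
  induction s using Finset.induction_on with
  | empty => simpa using inPow_zero hl b
  | insert i s hi ih =>
    rw [Finset.sum_insert hi]
    exact InPow.add hl (h i (Finset.mem_insert_self i s))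
      (ih fun j hj => h j (Finset.mem_insert_of_mem hj))

/-- An integer in `l^b ℤ_(l)` is divisible by `l^b`. -/
theorem InPow.dvd_of_int {l b : ℕ} (hl : l.Prime) {z : ℤ} (h : InPow l b (z : ℂ)) :
    (l : ℤ) ^ b ∣ z := by
  obtain ⟨m, d, hd, hzd⟩ := h
  have h1 : z * (d : ℤ) = (l : ℤ) ^ b * m := by exact_mod_cast hzd
  have hcop : IsCoprime ((l : ℤ) ^ b) (d : ℤ) := by
    apply IsCoprime.pow_left
    rw [Int.isCoprime_iff_gcd_eq_one]
    have := (Nat.Prime.coprime_iff_not_dvd hl).mpr hd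
    simpa [Int.gcd_natCast_natCast] using this
  exact hcop.dvd_of_dvd_mul_right ⟨m, h1⟩

/-! ### The algebraic core -/

/-- The two instances (`M = 1` and `M = p`) of the coefficient identity
`p¹² · a_M(G · Δ(p·)) = a_{pM}((U_p G) · Δ)`, i.e. of `Tr(G · Δ(p·)) = 0`, for the coefficient
sequence `a` of `G`. -/
structure TraceIds (p : ℕ) (a : ℕ → ℂ) : Prop where
  one : ∑ x ∈ Finset.HasAntidiagonal.antidiagonal p, a (p * x.1) * tau x.2 = 0
  sq : ∑ x ∈ Finset.HasAntidiagonal.antidiagonal (p ^ 2), a (p * x.1) * tau x.2 = (p : ℂ) ^ 12 * a 0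

/-- Splitting off the `i = 0` term; the rest lies in `l^b ℤ_(l)`. -/
theorem sum_antidiagonal_split {l b p : ℕ} (hl : l.Prime) (hp : 0 < p) (a : ℕ → ℂ)
    (ha : ∀ k : ℕ, 1 ≤ k → InPow l b (a k)) (n : ℕ) :
    ∃ r : ℂ, InPow l b r ∧
      ∑ x ∈ Finset.HasAntidiagonal.antidiagonal n, a (p * x.1) * tau x.2 = a 0 * tau n + r := by
  refine ⟨∑ i ∈ Finset.range n, a (p * (i + 1)) * tau (n - (i + 1)), ?_, ?_⟩
  · apply InPow.sum hl
    intro i _
    obtain ⟨z, hz⟩ := tau_int (n - (i + 1))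
    rw [hz]
    apply InPow.mul_int
    apply ha
    exact Nat.mul_pos hp (Nat.succ_pos i)
  · rw [Finset.Nat.sum_antidiagonal_eq_sum_range_succ_mk, Finset.sum_range_succ']
    simp [add_comm]

/-- **Lemma T, algebraic core.**  -/
theorem dvd_of_traceIds {p l b : ℕ} (hp : p.Prime) (hl : l.Prime) (hlp : l ≠ p) (a : ℕ → ℂ)
    (h0 : a 0 = 1) (ha : ∀ k : ℕ, 1 ≤ k → InPow l b (a k)) (hT : TraceIds p a) :
    l ^ b ∣ p + 1 := by
  obtain ⟨t, ht⟩ := tau_int p
  obtain ⟨t2, ht2⟩ := tau_int (p ^ 2)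
  -- `τ(p) ∈ l^b ℤ_(l)`
  obtain ⟨r1, hr1, e1⟩ := sum_antidiagonal_split hl hp.pos a ha p
  rw [hT.one, h0, one_mul] at e1
  have htI : InPow l b (t : ℂ) := by
    have : (t : ℂ) = -r1 := by rw [← ht]; linear_combination -e1
    rw [this]; exact InPow.neg hr1
  -- `p¹² - τ(p²) ∈ l^b ℤ_(l)`
  obtain ⟨r2, hr2, e2⟩ := sum_antidiagonal_split hl hp.pos a ha (p ^ 2)
  rw [hT.sq, h0, one_mul, mul_one] at e2
  -- `τ(p²) + p¹¹ = τ(p)²`
  have hR := tau_prime_sq hp
  rw [ht, ht2] at hR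
  have hR' : t2 + (p : ℤ) ^ 11 = t ^ 2 := by exact_mod_cast hR
  have key : InPow l b (((p : ℤ) ^ 11 * ((p : ℤ) + 1) : ℤ) : ℂ) := by
    have : (((p : ℤ) ^ 11 * ((p : ℤ) + 1) : ℤ) : ℂ) = r2 + (t : ℂ) * (t : ℂ) := by
      push_cast
      rw [ht2] at e2
      linear_combination e2 + hR
    rw [this]
    exact InPow.add hl hr2 (InPow.int_mul t htI)
  have hdvd := InPow.dvd_of_int hl key
  have hcop : IsCoprime ((l : ℤ) ^ b) ((p : ℤ) ^ 11) := by
    apply IsCoprime.pow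
    rw [Int.isCoprime_iff_gcd_eq_one]
    have := (Nat.coprime_primes hl hp).mpr hlp
    simpa [Int.gcd_natCast_natCast] using this
  have := hcop.dvd_of_dvd_mul_left hdvd
  exact_mod_cast this

/-- **Lemma T** in the shape of `UIface39.U1Stmt`, from the trace identities. -/
theorem u1Stmt_of_traceIds
    (hT : ∀ (p : ℕ), p.Prime → ∀ G : ModularForm (Gamma0 p) 2,
      TraceIds p (ModularFormClass.qCoeff (G : ℍ → ℂ))) :
    U1Stmt := by
  intro p l b hp _ hl hlp hnd G h0 hG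
  exact hnd (dvd_of_traceIds hp hl hlp _ h0 hG (hT p hp G))

end Fermat.Agent.S16.LemmaT72
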