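import Mathlib
import Fermat.Agent.S16.LemmaT72
import Fermat.Agent.S16.Conj81.QExp
import Fermat.Agent.S16.EllP40.LevelRaise

/-!
# S16, package (U)-A (Lemma T), part T3: the trace identity `Tr(G · Δ(p·)) = 0`

* `levelOne_weight14_eq_zero` : a level one form of weight `14` with vanishing constant term is `0`.
* `discP p : ModularForm (Gamma0 p) 12`, `discP p z = Δ(p z)`; its `q`-expansion and the
  `q^(1/p)`-expansion of its `S`-conjugate, `bco (discP p) n = p⁻¹² τ(n)`.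
-/

set_option autoImplicit false

open UpperHalfPlane ModularForm CongruenceSubgroup ModularGroup
open scoped MatrixGroups ModularForm Manifold

namespace Fermat.Agent.S16.LemmaT72

open Fermat.Agent.S16.Conj81 Fermat.Agent.S16.EllP40

/-! ### (T3a) `S₁₄(SL₂(ℤ)) = 0` -/

theorem levelOne_weight14_eq_zero (F : ModularForm 𝒮ℒ 14)
    (h0 : (qExpansion 1 F).coeff 0 = 0) : F = 0 := by
  suffices CuspForm.discriminantEquiv (toCuspForm F h0) = 0 by
    simpa [CuspForm.discriminantEquiv.map_eq_zero_iff, DFunLike.ext_iff]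
  rw [← mcast_eq_zero_iff (b := 2) (by norm_num) rfl]
  exact rank_zero_iff_forall_zero.mp levelOne_weight_two_rank_zero _

/-- Version with a weight that is only propositionally `14`. -/
theorem levelOne_weight14_eq_zero' {k : ℤ} (hk : k = 14) (F : ModularForm 𝒮ℒ k)
    (h0 : (qExpansion 1 F).coeff 0 = 0) : F = 0 := by
  subst hk
  exact levelOne_weight14_eq_zero F h0

/-! ### (T3b) `Δ(p z)` on `Γ₀(p)` -/

/-- The discriminant as a modular form of level one. -/
noncomputable def discMF : ModularForm 𝒮ℒ 12 := CuspForm.toModularFormₗ CuspForm.discriminant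

theorem coe_discMF : (discMF : ℍ → ℂ) = ModularForm.discriminant := rfl

theorem qExpansion_discMF_coeff (n : ℕ) : (qExpansion 1 discMF).coeff n = tau n := rfl

variable (p : ℕ) [hp : Fact p.Prime]

instance : NeZero p := ⟨hp.out.ne_zero⟩

/-- `z ↦ Δ(p z)` as a modular form of weight `12` on `Γ₀(p)`. -/
noncomputable def discP : ModularForm (Gamma0 p) 12 := raise p discMF

theorem discP_apply (z : ℍ) :
    discP p z = ModularForm.discriminant (heckeDiagMatrix p • z) := raise_apply p discMF z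

theorem qExpansion_discP_coeff (n : ℕ) :
    (qExpansion 1 (discP p)).coeff n = if p ∣ n then tau (n / p) else 0 :=
  raise_qExpansion_coeff p discMF n

/-- `Δ(-1/w) = w¹² Δ(w)`. -/
theorem discriminant_S_smul (w : ℍ) :
    ModularForm.discriminant (S • w) = ModularForm.discriminant w * (w : ℂ) ^ (12 : ℕ) := by
  have h := congrFun ModularForm.discriminant_S_invariant w
  rw [SL_slash_apply, denom_S] at h
  have hw : (w : ℂ) ≠ 0 := ne_zero w
  rw [← h, mul_assoc, zpow_neg, ← zpow_natCast]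
  have : ((w : ℂ) ^ (12 : ℤ))⁻¹ * (w : ℂ) ^ ((12 : ℕ) : ℤ) = 1 := by
    rw [Nat.cast_ofNat]
    exact inv_mul_cancel₀ (zpow_ne_zero _ hw)
  rw [this, mul_one]

/-- `p · (-1/z) = -1/(z/p)`. -/
theorem heckeDiagMatrix_smul_S_smul (z : ℍ) :
    heckeDiagMatrix p • (S • z) = S • (heckeMatrix p 0 • z) := by
  have hp0 : p ≠ 0 := hp.out.ne_zero
  have hpc : (p : ℂ) ≠ 0 := by exact_mod_cast hp0
  have hz : (z : ℂ) ≠ 0 := ne_zero z
  have e1 : ∀ w : ℍ, ((S • w : ℍ) : ℂ) = (-(w : ℂ))⁻¹ := fun w => by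
    rw [modular_S_smul, coe_mk]
  ext
  rw [coe_heckeDiagMatrix_smul hp0, e1, e1, coe_heckeMatrix_smul hp0]
  simp only [Nat.cast_zero, add_zero]
  field_simp

/-- The `S`-conjugate of `Δ(p z)` is `p⁻¹² Δ(z/p)`. -/
theorem Hs_discP_apply (z : ℍ) :
    Hs (discP p) z = ((p : ℂ) ^ (12 : ℕ))⁻¹ * ModularForm.discriminant (heckeMatrix p 0 • z) := by
  have hp0 : p ≠ 0 := hp.out.ne_zero
  have hpc : (p : ℂ) ≠ 0 := by exact_mod_cast hp0
  have hz : (z : ℂ) ≠ 0 := ne_zero z
  rw [Hs_def, SL_slash_apply, denom_S, discP_apply, heckeDiagMatrix_smul_S_smul,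
    discriminant_S_smul, coe_heckeMatrix_smul hp0]
  simp only [Nat.cast_zero, add_zero]
  rw [zpow_neg, ← Nat.cast_ofNat (R := ℤ) (n := 12), zpow_natCast]
  field_simp

theorem qParam_heckeMatrix_smul (z : ℍ) :
    Function.Periodic.qParam 1 ((heckeMatrix p 0 • z : ℍ) : ℂ)
      = Function.Periodic.qParam (p : ℝ) (z : ℂ) := by
  have hp0 : p ≠ 0 := hp.out.ne_zero
  rw [coe_heckeMatrix_smul hp0]
  unfold Function.Periodic.qParam
  congr 1
  push_cast
  ring

/-- Analyticity at `0` of the cusp function (in `q^(1/p)`) of an `S`-conjugate. -/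
theorem analyticAt_cuspFunction_Hs {k : ℤ} (f : ModularForm (Gamma0 p) k) :
    AnalyticAt ℂ (cuspFunction (p : ℝ) (Hs f)) 0 :=
  analyticAt_cuspFunction_zero (p_pos_real (p := p)) (Hs_periodic f) (Hs_mdiff f) (Hs_bdd f)

/-- Uniqueness of `q`-expansion coefficients for plain functions. -/
theorem qExpansion_coeff_unique_fun {h : ℝ} (f : ℍ → ℂ) {c : ℕ → ℂ} (hh : 0 < h)
    (hfa : AnalyticAt ℂ (cuspFunction h f) 0)
    (hf : ∀ τ : ℍ, HasSum (fun m ↦ c m • Function.Periodic.qParam h τ ^ m) (f τ)) (m : ℕ) :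
    c m = (qExpansion h f).coeff m := by
  let _ : FunLike (ℍ → ℂ) ℍ ℂ := ⟨fun f => f, fun _ _ h => h⟩
  exact UpperHalfPlane.qExpansion_coeff_unique (F := ℍ → ℂ) f hh hfa hf m

/-- The `q^(1/p)`-expansion of the `S`-conjugate of `Δ(p z)`: `b_n = p⁻¹² τ(n)`. -/
theorem bco_discP (n : ℕ) : bco (discP p) n = ((p : ℂ) ^ (12 : ℕ))⁻¹ * tau n := by
  have key : ∀ z : ℍ, HasSum (fun m : ℕ => (((p : ℂ) ^ (12 : ℕ))⁻¹ * tau m) •
      Function.Periodic.qParam (p : ℝ) (z : ℂ) ^ m) (Hs (discP p) z) := ?_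
  · have := qExpansion_coeff_unique_fun (Hs (discP p)) (p_pos_real (p := p))
      (analyticAt_cuspFunction_Hs p (discP p)) (c := fun n => ((p : ℂ) ^ (12 : ℕ))⁻¹ * tau n)
      key n
    rw [bco]
    exact this.symm
  intro z
  have h1 := ModularForm.hasSum_qExpansion (h := 1) discMF one_pos
    (by rw [Subgroup.strictPeriods_SL2Z]; exact AddSubgroup.mem_zmultiples 1) (heckeMatrix p 0 • z)
  rw [qParam_heckeMatrix_smul] at h1
  rw [Hs_discP_apply]
  have h2 := h1.mul_left (((p : ℂ) ^ (12 : ℕ))⁻¹)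
  have e : (fun m : ℕ => (((p : ℂ) ^ (12 : ℕ))⁻¹ * tau m) •
      Function.Periodic.qParam (p : ℝ) (z : ℂ) ^ m)
      = fun i => ((p : ℂ) ^ (12 : ℕ))⁻¹ * ((qExpansion 1 discMF).coeff i *
        Function.Periodic.qParam (p : ℝ) (z : ℂ) ^ i) := by
    funext m
    rw [qExpansion_discMF_coeff, smul_eq_mul, mul_assoc]
  rw [e]
  exact h2

/-! ### (T3c) products -/

variable {p}

theorem Hs_mul {k₁ k₂ : ℤ} (f : ModularForm (Gamma0 p) k₁) (g : ModularForm (Gamma0 p) k₂) :
    Hs (f.mul g) = Hs f * Hs g := by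
  rw [Hs_def, Hs_def, Hs_def, ModularForm.coe_mul, mul_slash_SL2]

theorem bco_mul {k₁ k₂ : ℤ} (f : ModularForm (Gamma0 p) k₁) (g : ModularForm (Gamma0 p) k₂)
    (n : ℕ) :
    bco (f.mul g) n = ∑ x ∈ Finset.HasAntidiagonal.antidiagonal n, bco f x.1 * bco g x.2 := by
  rw [bco, Hs_mul, qExpansion_mul (analyticAt_cuspFunction_Hs p f) (analyticAt_cuspFunction_Hs p g),
    PowerSeries.coeff_mul]
  rfl

theorem one_mem_strictPeriods_Gamma0' (N : ℕ) :
    (1 : ℝ) ∈ (Gamma0 N : Subgroup (GL (Fin 2) ℝ)).strictPeriods := by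
  rw [strictPeriods_Gamma0]; exact AddSubgroup.mem_zmultiples 1

theorem qExpansion_mul_coeff {k₁ k₂ : ℤ} (f : ModularForm (Gamma0 p) k₁)
    (g : ModularForm (Gamma0 p) k₂) (n : ℕ) :
    (qExpansion 1 (f.mul g)).coeff n = ∑ x ∈ Finset.HasAntidiagonal.antidiagonal n,
      (qExpansion 1 f).coeff x.1 * (qExpansion 1 g).coeff x.2 := by
  rw [ModularForm.qExpansion_mul one_pos (one_mem_strictPeriods_Gamma0' p) f g,
    PowerSeries.coeff_mul]

/-! ### (T3e) the trace of `G · Δ(p·)` vanishes -/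

/-- `Tr(G · Δ(p·)) = 0` in coefficient form: `a_m(X) + p · b_{pm}(X) = 0` for `X = G · Δ(p·)`. -/
theorem trace_mul_discP_coeff (G : ModularForm (Gamma0 p) 2) (m : ℕ) :
    (qExpansion 1 (G.mul (discP p))).coeff m + (p : ℂ) * bco (G.mul (discP p)) (p * m) = 0 := by
  have h0 : (qExpansion 1 (ModularForm.trace 𝒮ℒ (G.mul (discP p)))).coeff 0 = 0 := by
    rw [qExpansion_trace_coeff, qExpansion_mul_coeff, bco_mul, mul_zero]
    simp [qExpansion_discP_coeff, bco_discP, tau_zero]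
  have hz := levelOne_weight14_eq_zero' (by norm_num) _ h0
  rw [← qExpansion_trace_coeff, hz]
  simp [qExpansion_zero]

end Fermat.Agent.S16.LemmaT72
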