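import Mathlib
import Fermat.Agent.S16.LemmaT72Core
import Fermat.Agent.S16.LemmaT72Trace
import Fermat.Agent.S16.Conj53.WeightTwo

/-!
# S16, package (U)-A: **Lemma T** (`UIface39.U1Stmt`), final assembly

`G ∈ M₂(Γ₀(p))`, `a₀(G) = 1`, `a_k(G) ∈ l^b ℤ_(l)` for `k ≥ 1`, `l ≠ p`  ⟹  `l^b ∣ p + 1`.

Ingredients: `Tr(G · Δ(p·)) = 0 ∈ S₁₄(SL₂ ℤ)` (`LemmaT72Trace`), the weight-two relation
`b_n(G) = -a_{pn}(G)/p` (`Conj53.bS_weight_two`, helper53), the Hecke relation
`τ(p²) + p¹¹ = τ(p)²` (`LemmaT72`), integrality of `τ` and the algebraic core (`LemmaT72Core`).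
-/

set_option autoImplicit false

open UpperHalfPlane ModularForm CongruenceSubgroup ModularGroup
open scoped MatrixGroups ModularForm Manifold

namespace Fermat.Agent.S16.LemmaT72

open Fermat.Agent.S16.Conj81 Fermat.Agent.S16.UIface39

variable {p : ℕ} [hp : Fact p.Prime]

/-- The weight-two relation `b_n(G) = -a_{pn}(G)/p` in `Conj81` notation. -/
theorem bco_weight_two (G : ModularForm (Gamma0 p) 2) (n : ℕ) :
    bco G n = -((p : ℂ)⁻¹) * (qExpansion 1 G).coeff (p * n) :=
  Fermat.Agent.S16.Conj53.bS_weight_two G n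

/-- **The trace identity** `p¹² · a_m(G · Δ(p·)) = a_{pm}((U_p G) · Δ)`. -/
theorem trace_coeff_identity (G : ModularForm (Gamma0 p) 2) (m : ℕ) :
    (p : ℂ) ^ (12 : ℕ) * ∑ x ∈ Finset.HasAntidiagonal.antidiagonal m,
        (qExpansion 1 G).coeff x.1 * (if p ∣ x.2 then tau (x.2 / p) else 0)
      = ∑ x ∈ Finset.HasAntidiagonal.antidiagonal (p * m),
        (qExpansion 1 G).coeff (p * x.1) * tau x.2 := by
  have hp0 : (p : ℂ) ≠ 0 := by exact_mod_cast hp.out.ne_zero
  have h := trace_mul_discP_coeff G m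
  rw [qExpansion_mul_coeff, bco_mul] at h
  simp only [qExpansion_discP_coeff, bco_discP, bco_weight_two] at h
  have e : (p : ℂ) * ∑ x ∈ Finset.HasAntidiagonal.antidiagonal (p * m),
      -((p : ℂ)⁻¹) * (qExpansion 1 G).coeff (p * x.1) * (((p : ℂ) ^ (12 : ℕ))⁻¹ * tau x.2)
      = -(((p : ℂ) ^ (12 : ℕ))⁻¹ * ∑ x ∈ Finset.HasAntidiagonal.antidiagonal (p * m),
        (qExpansion 1 G).coeff (p * x.1) * tau x.2) := by
    rw [Finset.mul_sum, Finset.mul_sum, ← Finset.sum_neg_distrib]
    refine Finset.sum_congr rfl fun x _ => ?_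
    field_simp
  rw [e] at h
  have h2 := eq_neg_of_add_eq_zero_left h
  rw [neg_neg] at h2
  rw [h2]
  field_simp

/-- The two instances `m = 1`, `m = p` of the trace identity. -/
theorem traceIds (G : ModularForm (Gamma0 p) 2) :
    TraceIds p (ModularFormClass.qCoeff (G : ℍ → ℂ)) := by
  have hp1 : ¬ p ∣ 1 := fun h => hp.out.one_lt.ne' (Nat.dvd_one.mp h)
  constructor
  · have h := trace_coeff_identity G 1
    rw [mul_one] at h
    show ∑ x ∈ Finset.HasAntidiagonal.antidiagonal p,
      (qExpansion 1 G).coeff (p * x.1) * tau x.2 = 0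
    rw [← h]
    have : Finset.HasAntidiagonal.antidiagonal 1 = {((0 : ℕ), (1 : ℕ)), ((1 : ℕ), (0 : ℕ))} := by
      decide
    rw [this, Finset.sum_pair (by decide)]
    simp [hp1, tau_zero]
  · have h := trace_coeff_identity G p
    show ∑ x ∈ Finset.HasAntidiagonal.antidiagonal (p ^ 2),
      (qExpansion 1 G).coeff (p * x.1) * tau x.2 = (p : ℂ) ^ 12 * (qExpansion 1 G).coeff 0
    rw [sq, ← h]
    congr 1
    rw [Finset.sum_eq_single (0, p)]
    · simp [Nat.div_self hp.out.pos, tau_one]
    · rintro ⟨i, j⟩ hij hne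
      rw [Finset.HasAntidiagonal.mem_antidiagonal] at hij
      simp only at hij ⊢
      split_ifs with hd
      · obtain ⟨c, rfl⟩ := hd
        rcases Nat.eq_zero_or_pos c with rfl | hc
        · simp [tau_zero]
        · exfalso
          have hle : p * c ≤ p := by omega
          have hc1 : c = 1 := by
            have : p * c ≤ p * 1 := by simpa using hle
            have := Nat.le_of_mul_le_mul_left this hp.out.pos
            omega
          subst hc1
          apply hne
          have : i = 0 := by omega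
          subst this
          simp
      · simp
    · intro h0
      exact absurd (Finset.HasAntidiagonal.mem_antidiagonal.mpr (zero_add p)) h0

/-- **Lemma T** = `UIface39.U1Stmt`. -/
theorem u1Stmt : U1Stmt :=
  u1Stmt_of_traceIds fun p hp G => by
    have : Fact p.Prime := ⟨hp⟩
    exact traceIds G

end Fermat.Agent.S16.LemmaT72
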