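import Mathlib
import Fermat.Agent.S16.Lift59.General
import Fermat.Agent.S21
import Fermat.Agent.S21.GCBound

/-!
# S16 (L2)-LIFT: integral lifting of parabolic classes modulo `n` for `Γ₀(N)`

`exists_integral_lift`: for `n` prime to `N`, every additive character
`χ : Γ₀(N) → ZMod n` killing the parabolic elements (`tr² = 4`) and the elements of finite order
is the reduction modulo `n` of an integral parabolic character `ψ : Γ₀(N) → ℤ`.

Inputs: helper52's Shapiro machinery (S21/ParabolicDim), the dimension equality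
`dim parabolicHoms ℂ Γ₀(N) ℂ = 2 g` (S21 + S20) and the coset counts of S24.  (helper59)
-/

set_option autoImplicit false
set_option linter.unusedSectionVars false
set_option linter.style.haveILetI false

namespace Fermat.Agent.S16.Lift59

open scoped MatrixGroups
open Module ModularGroup ModularCurve ModularCurve.Period CongruenceSubgroup
open Fermat.Agent.S21.ParabolicDim Fermat.Agent.S24

section Dim

variable (N : ℕ) [NeZero N]

/-- `dim parabolicHoms ℂ Γ₀(N) ℂ = 2 dim S₂(Γ₀(N))` (S21). -/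
theorem finrank_parabolicHoms_eq_two_mul :
    finrank ℂ (parabolicHoms ℂ (Gamma0 N) ℂ) = 2 * finrank ℂ (CuspForm (Gamma0 N) 2) := by
  obtain ⟨hinj, hrange⟩ := Fermat.Agent.S21.result N
  rw [← hrange, LinearMap.finrank_range_of_inj hinj]
  exact Fermat.Agent.S21.Assembly.finrank_prod_cuspForm N

/-- `dim parabolicHoms ℂ Γ₀(N) ℂ = 2 g` (S21 + S20). -/
theorem finrank_parabolicHoms_eq_genus :
    (finrank ℂ (parabolicHoms ℂ (Gamma0 N) ℂ) : ℚ) = 2 * genusFormula N := by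
  rw [finrank_parabolicHoms_eq_two_mul, ← Fermat.Agent.S20.result N]
  push_cast
  ring

/-- The dimension bound of helper52 is attained by `Γ₀(N)`. -/
theorem index_add_two_le :
    (Gamma0 N).index + 2 ≤ finrank ℂ (parabolicHoms ℂ (Gamma0 N) ℂ)
      + Nat.card (MulAction.orbitRel.Quotient
          (Subgroup.zpowers (ModularGroup.S : SL(2, ℤ))) (SL(2, ℤ) ⧸ Gamma0 N))
      + Nat.card (MulAction.orbitRel.Quotient
          (Subgroup.zpowers ((ModularGroup.S : SL(2, ℤ)) * ModularGroup.T)) (SL(2, ℤ) ⧸ Gamma0 N))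
      + Nat.card (MulAction.orbitRel.Quotient
          (Subgroup.zpowers (ModularGroup.T : SL(2, ℤ))) (SL(2, ℤ) ⧸ Gamma0 N)) := by
  have h := finrank_parabolicHoms_eq_genus N
  have hidx : (Gamma0 N).index = dedekindPsi N := card_X0Cosets N
  have hS : 2 * Nat.card (MulAction.orbitRel.Quotient
      (Subgroup.zpowers (ModularGroup.S : SL(2, ℤ))) (SL(2, ℤ) ⧸ Gamma0 N))
      = dedekindPsi N + nuTwo N := two_mul_numOrbits_S N
  have hST : 3 * Nat.card (MulAction.orbitRel.Quotient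
      (Subgroup.zpowers ((ModularGroup.S : SL(2, ℤ)) * ModularGroup.T)) (SL(2, ℤ) ⧸ Gamma0 N))
      = dedekindPsi N + 2 * nuThree N := three_mul_numOrbits_ST N
  have hT : Nat.card (MulAction.orbitRel.Quotient
      (Subgroup.zpowers (ModularGroup.T : SL(2, ℤ))) (SL(2, ℤ) ⧸ Gamma0 N))
      = cuspCount N := numOrbits_T N
  generalize Nat.card (MulAction.orbitRel.Quotient
      (Subgroup.zpowers (ModularGroup.S : SL(2, ℤ))) (SL(2, ℤ) ⧸ Gamma0 N)) = a at hS ⊢
  generalize Nat.card (MulAction.orbitRel.Quotient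
      (Subgroup.zpowers ((ModularGroup.S : SL(2, ℤ)) * ModularGroup.T)) (SL(2, ℤ) ⧸ Gamma0 N)) = b
      at hST ⊢
  generalize Nat.card (MulAction.orbitRel.Quotient
      (Subgroup.zpowers (ModularGroup.T : SL(2, ℤ))) (SL(2, ℤ) ⧸ Gamma0 N)) = c at hT ⊢
  rw [hidx]
  subst hT
  have hSq : (2 : ℚ) * a = dedekindPsi N + nuTwo N := by exact_mod_cast hS
  have hSTq : (3 : ℚ) * b = dedekindPsi N + 2 * nuThree N := by exact_mod_cast hST
  unfold genusFormula at h
  have hq : ((dedekindPsi N + 2 : ℕ) : ℚ)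
      ≤ ((finrank ℂ (parabolicHoms ℂ (Gamma0 N) ℂ) + a + b + cuspCount N : ℕ) : ℚ) := by
    push_cast
    linarith
  exact_mod_cast hq

end Dim

section Elements

theorem S_pow_four : (ModularGroup.S : SL(2, ℤ)) ^ 4 = 1 := by
  have h : (ModularGroup.S : SL(2, ℤ)) ^ 4 = (ModularGroup.S ^ 2) ^ 2 := by rw [← pow_mul]
  rw [h, S_sq]
  simp

theorem ST_pow_six : ((ModularGroup.S : SL(2, ℤ)) * ModularGroup.T) ^ 6 = 1 := by
  have h : ((ModularGroup.S : SL(2, ℤ)) * ModularGroup.T) ^ 6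
      = ((ModularGroup.S * ModularGroup.T) ^ 3) ^ 2 := by rw [← pow_mul]
  rw [h, ST_cube]
  simp

/-- A conjugate of a power of an element of finite order has finite order. -/
theorem isOfFinOrder_conj_pow {G : Type*} [Group G] (H : Subgroup G) {g : G} {e : ℕ} (he : 0 < e)
    (hg : g ^ e = 1) (r : G) (d : ℕ) (hm : r⁻¹ * (g ^ d * r) ∈ H) :
    IsOfFinOrder (⟨_, hm⟩ : H) := by
  rw [isOfFinOrder_iff_pow_eq_one]
  refine ⟨e, he, ?_⟩
  apply Subtype.ext
  rw [Subgroup.coe_pow, Subgroup.coe_one]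
  show (r⁻¹ * (g ^ d * r)) ^ e = 1
  have h1 : r⁻¹ * (g ^ d * r) = r⁻¹ * g ^ d * r⁻¹⁻¹ := by group
  rw [h1, conj_pow, ← pow_mul, mul_comm d e, pow_mul, hg, one_pow]
  group

variable (N : ℕ)

theorem Gamma_le_Gamma0' : Gamma N ≤ Gamma0 N := by
  intro γ hγ
  rw [Gamma_mem] at hγ
  rw [Gamma0_mem]
  exact hγ.2.2.1

/-- `T ^ N` acts trivially on `SL(2, ℤ) ⧸ Γ₀(N)`. -/
theorem T_pow_smul (x : SL(2, ℤ) ⧸ Gamma0 N) : (ModularGroup.T : SL(2, ℤ)) ^ N • x = x := by
  induction x using Quotient.inductionOn' with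
  | h g =>
    show (((ModularGroup.T ^ N * g : SL(2, ℤ))) : SL(2, ℤ) ⧸ Gamma0 N) = (g : SL(2, ℤ) ⧸ Gamma0 N)
    rw [QuotientGroup.eq]
    apply Gamma_le_Gamma0' N
    have hT : (ModularGroup.T : SL(2, ℤ)) ^ N ∈ Gamma N := by
      have := ModularGroup_T_pow_mem_Gamma (N : ℤ) (N : ℤ) dvd_rfl
      rwa [zpow_natCast, Int.natAbs_natCast] at this
    have hnorm : (Gamma N).Normal := Gamma_normal N
    have h1 : (ModularGroup.T ^ N * g)⁻¹ * g = g⁻¹ * (ModularGroup.T ^ N)⁻¹ * g⁻¹⁻¹ := by group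
    rw [h1]
    exact hnorm.conj_mem _ ((Gamma N).inv_mem hT) g⁻¹

end Elements

section Main

variable (N : ℕ) [NeZero N]

/-- **Integral lifting** of parabolic classes modulo `n` for `Γ₀(N)`, `n` prime to `N`. -/
theorem exists_integral_lift (n : ℕ) (hn : 0 < n) (hcop : Nat.Coprime n N)
    (χ : Additive (Gamma0 N) →+ ZMod n) (hpar : IsParabolicHom (Gamma0 N) χ)
    (hfin : ∀ γ : Gamma0 N, IsOfFinOrder γ → χ (Additive.ofMul γ) = 0) :
    ∃ ψ : Additive (Gamma0 N) →+ ℤ, IsParabolicHom (Gamma0 N) ψ ∧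
      ∀ γ : Gamma0 N, ((ψ (Additive.ofMul γ) : ℤ) : ZMod n) = χ (Additive.ofMul γ) := by
  have hneg : (-1 : SL(2, ℤ)) ∈ Gamma0 N := Fermat.Agent.S21.GCBound.neg_one_mem_Gamma0 N
  obtain ⟨ψ, ⟨φ, hφP, hφψ⟩, hψχ⟩ := general_lift ℂ (Gamma0 N) (s := ModularGroup.S)
    (u := ModularGroup.S * ModularGroup.T) (t := ModularGroup.T) (z := -1) rfl S_sq ST_cube hneg
    neg_one_central closure_S_ST (parabolicHoms ℂ (Gamma0 N) ℂ)
    (by
      intro φ hφ
      rw [mem_parabolicHoms_iff] at hφ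
      apply hφ ⟨-1, hneg⟩
      show ((-1 : SL(2, ℤ)) : Matrix (Fin 2) (Fin 2) ℤ).trace ^ 2 = 4
      simp)
    (by
      intro φ hφ m x hm
      rw [mem_parabolicHoms_iff] at hφ
      apply hφ ⟨_, hm⟩
      show ((_ : SL(2, ℤ)) : Matrix (Fin 2) (Fin 2) ℤ).trace ^ 2 = 4
      rw [trace_conj_T_pow]
      norm_num)
    N (Nat.pos_of_ne_zero (NeZero.ne N)) (T_pow_smul N) (index_add_two_le N) n hn hcop χ
    (fun d x hm => hfin _ (isOfFinOrder_conj_pow (Gamma0 N) (by norm_num : 0 < 4) S_pow_four _ d hm))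
    (fun d x hm => hfin _ (isOfFinOrder_conj_pow (Gamma0 N) (by norm_num : 0 < 6) ST_pow_six _ d hm))
    (by
      intro d x hm
      apply hpar ⟨_, hm⟩
      show ((_ : SL(2, ℤ)) : Matrix (Fin 2) (Fin 2) ℤ).trace ^ 2 = 4
      rw [trace_conj_T_pow]
      norm_num)
  refine ⟨ψ, ?_, fun γ => hψχ _⟩
  intro γ hγ
  rw [mem_parabolicHoms_iff] at hφP
  have h := hφP γ hγ
  rw [hφψ] at h
  exact_mod_cast h

/-- The same, with `ψ` in the submodule `parabolicHoms ℤ Γ₀(N) ℤ`. -/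
theorem exists_mem_parabolicHoms_lift (n : ℕ) (hn : 0 < n) (hcop : Nat.Coprime n N)
    (χ : Additive (Gamma0 N) →+ ZMod n) (hpar : IsParabolicHom (Gamma0 N) χ)
    (hfin : ∀ γ : Gamma0 N, IsOfFinOrder γ → χ (Additive.ofMul γ) = 0) :
    ∃ ψ ∈ parabolicHoms ℤ (Gamma0 N) ℤ,
      ∀ γ : Gamma0 N, ((ψ (Additive.ofMul γ) : ℤ) : ZMod n) = χ (Additive.ofMul γ) := by
  obtain ⟨ψ, hψ, h⟩ := exists_integral_lift N n hn hcop χ hpar hfin
  exact ⟨ψ, hψ, h⟩

end Main

end Fermat.Agent.S16.Lift59
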