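/-
S16 package (L)-SHIMURA-CLASS (helper18): the Shimura homomorphism
`ψ : Γ₀(p) → ℤ/n`, `γ ↦ log (d_γ mod p) mod n`, `n = eisensteinNumerator p = (p-1)/gcd(p-1,12)`.
* `shimura p : Additive (Gamma0 p) →+ ZMod (eisensteinNumerator p)`, `shimura_surjective`;
* `shimura_eq_zero_of_trace_sq_le` (vanishes when `trace² ≤ 4`: parabolic, elliptic, `±1`),
  `isParabolicHom_shimura` (Prelude `IsParabolicHom`), `shimura_eq_zero_of_isOfFinOrder`
  (`trace_sq_le_of_pow_eq_one` : finite order in `SL(2,ℤ)` ⟹ `trace² ≤ 4`);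
* Eisenstein property in relational form (independent of how the Hecke operator on `Hom(Γ,A)` is
  packaged): `shimura_hecke` (`α i * γ = γ' i * α (σ i)`, `σ` a permutation, `α i` upper triangular
  mod `p` with unit lower right entry ⟹ `∑ ψ(γ' i) = |ι| • ψ(γ)`; for `T_ℓ`: `|ι| = ℓ+1`),
  `shimura_heckeT` (the standard representatives), `shimura_heckeU` (`∑_{j<p} ψ(γ'_j) = ψ(γ)`).
Complete proofs, Mathlib + two Prelude definition files only.
-/
import Mathlib
import Fermat.Prelude.Def_ModularCurve_ModularUnit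
import Fermat.Prelude.Def_ModularCurve_PeriodMap

set_option autoImplicit false

namespace Fermat.Agent.S16.Shimura18

open CongruenceSubgroup Matrix
open scoped MatrixGroups

noncomputable section

variable (p : ℕ) [hp : Fact p.Prime]

/-- `γ ↦ d_γ mod p` as a homomorphism to the units of `ZMod p`. -/
def delta : Gamma0 p →* (ZMod p)ˣ := (Gamma0Map p).toHomUnits

lemma coe_delta (γ : Gamma0 p) : ((delta p γ : (ZMod p)ˣ) : ZMod p) = ((γ.1 1 1 : ℤ) : ZMod p) :=
  rfl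

/-- `gcd (p-1) 12`. -/
def gg : ℕ := Nat.gcd (p - 1) 12

omit hp in
lemma en_mul_gg : ModularCurve.eisensteinNumerator p * gg p = p - 1 :=
  Nat.div_mul_cancel (Nat.gcd_dvd_left _ _)

lemma card_units : Nat.card (ZMod p)ˣ = p - 1 := by
  rw [Nat.card_eq_fintype_card, ZMod.card_units_eq_totient, Nat.totient_prime hp.out]

lemma en_dvd_card : ModularCurve.eisensteinNumerator p ∣ Nat.card (ZMod p)ˣ := by
  rw [card_units]; exact ModularCurve.eisensteinNumerator_dvd p

instance : NeZero (Nat.card (ZMod p)ˣ) := ⟨by rw [card_units]; have := hp.out.two_le; omega⟩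

/-- discrete logarithm followed by reduction mod `n`. -/
def logMul : (ZMod p)ˣ →* Multiplicative (ZMod (ModularCurve.eisensteinNumerator p)) :=
  (AddMonoidHom.toMultiplicative
    (ZMod.castHom (en_dvd_card p) (ZMod (ModularCurve.eisensteinNumerator p))).toAddMonoidHom).comp
    (zmodCyclicMulEquiv (inferInstance : IsCyclic (ZMod p)ˣ)).symm.toMonoidHom

lemma logMul_surjective : Function.Surjective (logMul p) := by
  intro y
  obtain ⟨x, hx⟩ := ZMod.ringHom_surjective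
    (ZMod.castHom (en_dvd_card p) (ZMod (ModularCurve.eisensteinNumerator p))) (Multiplicative.toAdd y)
  refine ⟨zmodCyclicMulEquiv (inferInstance : IsCyclic (ZMod p)ˣ) (Multiplicative.ofAdd x), ?_⟩
  simp only [logMul, MonoidHom.coe_comp, Function.comp_apply, MulEquiv.coe_toMonoidHom,
    MulEquiv.symm_apply_apply]
  exact congrArg Multiplicative.ofAdd hx

/-- if `u ^ gcd(p-1,12) = 1` then `u` is killed by `logMul`. -/
lemma logMul_eq_one_of_pow {u : (ZMod p)ˣ} (hu : u ^ gg p = 1) : logMul p u = 1 := by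
  set e := zmodCyclicMulEquiv (inferInstance : IsCyclic (ZMod p)ˣ) with he
  set x : ZMod (Nat.card (ZMod p)ˣ) := Multiplicative.toAdd (e.symm u) with hx
  have h1 : (gg p) • x = 0 := by
    have : (e.symm u) ^ gg p = 1 := by rw [← map_pow, hu, map_one]
    have h2 := congrArg Multiplicative.toAdd this
    simpa using h2
  have h3 : (Nat.card (ZMod p)ˣ) ∣ gg p * x.val := by
    rw [← ZMod.natCast_eq_zero_iff]
    push_cast
    rw [ZMod.natCast_zmod_val, ← nsmul_eq_mul]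
    exact h1
  have hc : Nat.card (ZMod p)ˣ = gg p * ModularCurve.eisensteinNumerator p := by
    rw [card_units, ← en_mul_gg, mul_comm]
  have h3' : gg p * ModularCurve.eisensteinNumerator p ∣ gg p * x.val := hc ▸ h3
  have hg : 0 < gg p := Nat.gcd_pos_of_pos_right _ (by norm_num)
  have h4 : ModularCurve.eisensteinNumerator p ∣ x.val := Nat.dvd_of_mul_dvd_mul_left hg h3'
  show Multiplicative.ofAdd ((ZMod.castHom (en_dvd_card p) _) x) = 1
  rw [ZMod.castHom_apply, ZMod.cast_eq_val, (ZMod.natCast_eq_zero_iff _ _).mpr h4]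
  rfl


/-- the Shimura homomorphism `Γ₀(p) → ℤ/n`, `n = (p-1)/gcd(p-1,12)`. -/
def shimuraMul : Gamma0 p →* Multiplicative (ZMod (ModularCurve.eisensteinNumerator p)) :=
  (logMul p).comp (delta p)

/-- additive form. -/
def shimura : Additive (Gamma0 p) →+ ZMod (ModularCurve.eisensteinNumerator p) :=
  MonoidHom.toAdditiveLeft (shimuraMul p)

lemma shimura_apply (γ : Gamma0 p) :
    shimura p (Additive.ofMul γ) = Multiplicative.toAdd (logMul p (delta p γ)) := rfl

lemma shimura_eq_zero_of_pow {γ : Gamma0 p} (h : delta p γ ^ gg p = 1) :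
    shimura p (Additive.ofMul γ) = 0 := by
  rw [shimura_apply, logMul_eq_one_of_pow p h]; rfl

lemma delta_surjective : Function.Surjective (delta p) := by
  intro u
  set d₀ : ℕ := (u : ZMod p).val with hd₀
  have hcop : IsCoprime (d₀ : ℤ) (p : ℤ) :=
    Nat.isCoprime_iff_coprime.mpr (ZMod.val_coe_unit_coprime u)
  obtain ⟨a, b, hab⟩ := hcop
  have hdet : (!![a, -b; (p : ℤ), (d₀ : ℤ)] : Matrix (Fin 2) (Fin 2) ℤ).det = 1 := by
    rw [Matrix.det_fin_two_of]; linarith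
  let γ : SL(2, ℤ) := ⟨!![a, -b; (p : ℤ), (d₀ : ℤ)], hdet⟩
  have hγ : γ ∈ Gamma0 p := by
    rw [Gamma0_mem]
    show (((!![a, -b; (p : ℤ), (d₀ : ℤ)] : Matrix (Fin 2) (Fin 2) ℤ) 1 0 : ℤ) : ZMod p) = 0
    simp
  refine ⟨⟨γ, hγ⟩, Units.ext ?_⟩
  rw [coe_delta]
  show (((!![a, -b; (p : ℤ), (d₀ : ℤ)] : Matrix (Fin 2) (Fin 2) ℤ) 1 1 : ℤ) : ZMod p) = u
  simp [hd₀]

lemma shimura_surjective : Function.Surjective (shimura p) := by
  intro y
  obtain ⟨u, hu⟩ := logMul_surjective p (Multiplicative.ofAdd y)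
  obtain ⟨γ, rfl⟩ := delta_surjective p u
  exact ⟨Additive.ofMul γ, by rw [shimura_apply, hu]; rfl⟩


/-- the Lucas sequence `u₀ = 0, u₁ = 1, u_{k+2} = t u_{k+1} - u_k`. -/
def lucasU (t : ℤ) : ℕ → ℤ
  | 0 => 0
  | 1 => 1
  | (k + 2) => t * lucasU t (k + 1) - lucasU t k

lemma sq_eq_trace_smul_sub_one (M : Matrix (Fin 2) (Fin 2) ℤ) (hdet : M.det = 1) :
    M * M = M.trace • M - 1 := by
  rw [Matrix.det_fin_two] at hdet
  ext i j
  fin_cases i <;> fin_cases j
  · show (M * M) 0 0 = (M.trace • M - 1) 0 0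
    simp only [Matrix.mul_apply, Fin.sum_univ_two, Matrix.sub_apply, Matrix.smul_apply,
      Matrix.one_apply_eq, smul_eq_mul, Matrix.trace_fin_two]
    linear_combination (-1 : ℤ) * hdet
  · show (M * M) 0 1 = (M.trace • M - 1) 0 1
    simp only [Matrix.mul_apply, Fin.sum_univ_two, Matrix.sub_apply, Matrix.smul_apply,
      smul_eq_mul, Matrix.trace_fin_two]
    rw [Matrix.one_apply_ne (by decide)]
    ring
  · show (M * M) 1 0 = (M.trace • M - 1) 1 0
    simp only [Matrix.mul_apply, Fin.sum_univ_two, Matrix.sub_apply, Matrix.smul_apply,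
      smul_eq_mul, Matrix.trace_fin_two]
    rw [Matrix.one_apply_ne (by decide)]
    ring
  · show (M * M) 1 1 = (M.trace • M - 1) 1 1
    simp only [Matrix.mul_apply, Fin.sum_univ_two, Matrix.sub_apply, Matrix.smul_apply,
      Matrix.one_apply_eq, smul_eq_mul, Matrix.trace_fin_two]
    linear_combination (-1 : ℤ) * hdet

lemma pow_succ_eq_lucas (M : Matrix (Fin 2) (Fin 2) ℤ) (hdet : M.det = 1) (k : ℕ) :
    M ^ (k + 1) = lucasU M.trace (k + 1) • M - lucasU M.trace k • (1 : Matrix (Fin 2) (Fin 2) ℤ) := by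
  induction k with
  | zero => simp [lucasU]
  | succ k ih =>
    rw [pow_succ, ih, sub_mul, smul_mul_assoc, smul_mul_assoc, one_mul,
      sq_eq_trace_smul_sub_one M hdet]
    simp only [lucasU]
    module

lemma lucasU_abs_lt {t : ℤ} (ht : 3 ≤ |t|) (k : ℕ) : |lucasU t k| < |lucasU t (k + 1)| := by
  induction k with
  | zero => simp [lucasU]
  | succ k ih =>
    have h1 : lucasU t (k + 2) = t * lucasU t (k + 1) - lucasU t k := rfl
    rw [h1]
    have h2 : |t * lucasU t (k + 1)| - |lucasU t k| ≤ |t * lucasU t (k + 1) - lucasU t k| :=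
      abs_sub_abs_le_abs_sub _ _
    rw [abs_mul] at h2
    have h3 : 0 ≤ |lucasU t k| := abs_nonneg _
    nlinarith

theorem trace_sq_le_of_pow_eq_one (A : SL(2, ℤ)) {m : ℕ} (hm : 0 < m) (h : A ^ m = 1) :
    ((A : Matrix (Fin 2) (Fin 2) ℤ).trace) ^ 2 ≤ 4 := by
  by_contra hcon
  rw [not_le] at hcon
  set M : Matrix (Fin 2) (Fin 2) ℤ := A.1 with hM
  have hdet : M.det = 1 := A.2
  have ht : 3 ≤ |M.trace| := by
    by_contra h3
    rw [not_le] at h3
    have : |M.trace| ≤ 2 := by omega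
    have := abs_le.mp this
    nlinarith
  obtain ⟨k, rfl⟩ : ∃ k, m = k + 1 := ⟨m - 1, by omega⟩
  have hpow : M ^ (k + 1) = 1 := by
    have := congrArg (fun B : SL(2, ℤ) => (B : Matrix (Fin 2) (Fin 2) ℤ)) h
    simpa using this
  rw [pow_succ_eq_lucas M hdet] at hpow
  have hu : lucasU M.trace (k + 1) ≠ 0 := by
    have := lucasU_abs_lt ht k
    intro h0
    rw [h0, abs_zero] at this
    exact absurd this (not_lt.mpr (abs_nonneg _))
  have h01 := congrFun (congrFun hpow 0) 1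
  have h10 := congrFun (congrFun hpow 1) 0
  simp only [Matrix.sub_apply, Matrix.smul_apply, smul_eq_mul] at h01 h10
  rw [Matrix.one_apply_ne (by decide), mul_zero, sub_zero] at h01 h10
  have hb : M 0 1 = 0 := (mul_eq_zero.mp h01).resolve_left hu
  have hc : M 1 0 = 0 := (mul_eq_zero.mp h10).resolve_left hu
  rw [Matrix.det_fin_two, hb, hc] at hdet
  have had : M 0 0 * M 1 1 = 1 := by linarith
  rw [Matrix.trace_fin_two] at hcon
  rcases Int.eq_one_or_neg_one_of_mul_eq_one' had with ⟨h1, h2⟩ | ⟨h1, h2⟩ <;>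
    rw [h1, h2] at hcon <;> norm_num at hcon

/-! ### vanishing on parabolic and elliptic elements -/

/-- `d² - t d + 1 = 0` in `ZMod p` for `γ ∈ Γ₀(p)` with trace `t` and lower right entry `d`. -/
lemma delta_quadratic (γ : Gamma0 p) :
    ((delta p γ : (ZMod p)ˣ) : ZMod p) ^ 2 -
      (((γ.1 : Matrix (Fin 2) (Fin 2) ℤ).trace : ℤ) : ZMod p) * ((delta p γ : (ZMod p)ˣ) : ZMod p)
        + 1 = 0 := by
  have hdet : (γ.1 : Matrix (Fin 2) (Fin 2) ℤ).det = 1 := γ.1.2
  rw [Matrix.det_fin_two] at hdet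
  have hc : (((γ.1 : Matrix (Fin 2) (Fin 2) ℤ) 1 0 : ℤ) : ZMod p) = 0 := Gamma0_mem.mp γ.2
  have h1 := congrArg (Int.cast : ℤ → ZMod p) hdet
  push_cast at h1
  rw [hc, mul_zero, sub_zero] at h1
  rw [coe_delta, Matrix.trace_fin_two]
  push_cast
  linear_combination (-1 : ZMod p) * h1

lemma pow_gg_eq_one_of_pow_twelve {u : (ZMod p)ˣ} (h : u ^ 12 = 1) : u ^ gg p = 1 := by
  have h2 : u ^ (p - 1) = 1 := ZMod.units_pow_card_sub_one_eq_one p u
  exact pow_gcd_eq_one.mpr ⟨h2, h⟩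

lemma delta_pow_twelve_of_trace_sq_le (γ : Gamma0 p)
    (ht : ((γ.1 : Matrix (Fin 2) (Fin 2) ℤ).trace) ^ 2 ≤ 4) : delta p γ ^ 12 = 1 := by
  have hq := delta_quadratic p γ
  set t : ℤ := (γ.1 : Matrix (Fin 2) (Fin 2) ℤ).trace with htdef
  set d : ZMod p := ((delta p γ : (ZMod p)ˣ) : ZMod p) with hd
  apply Units.ext
  rw [Units.val_pow_eq_pow_val, Units.val_one]
  change d ^ 12 = 1
  have hcases : t = -2 ∨ t = -1 ∨ t = 0 ∨ t = 1 ∨ t = 2 := by
    have h1 : -2 ≤ t := by nlinarith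
    have h2 : t ≤ 2 := by nlinarith
    omega
  rcases hcases with h | h | h | h | h <;> rw [h] at hq <;> push_cast at hq
  · -- (d+1)^2 = 0
    have h0 : (d + 1) ^ 2 = 0 := by linear_combination hq
    have h1 : d = -1 := by
      have := pow_eq_zero_iff (two_ne_zero) |>.mp h0
      linear_combination this
    rw [h1]; norm_num
  · -- d^2 + d + 1 = 0 → d^3 = 1
    have h3 : d ^ 3 = 1 := by linear_combination (d - 1) * hq
    calc d ^ 12 = (d ^ 3) ^ 4 := by ring
      _ = 1 := by rw [h3, one_pow]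
  · have h2 : d ^ 2 = -1 := by linear_combination hq
    calc d ^ 12 = (d ^ 2) ^ 6 := by ring
      _ = 1 := by rw [h2]; norm_num
  · have h3 : d ^ 3 = -1 := by linear_combination (d + 1) * hq
    calc d ^ 12 = (d ^ 3) ^ 4 := by ring
      _ = 1 := by rw [h3]; norm_num
  · have h0 : (d - 1) ^ 2 = 0 := by linear_combination hq
    have h1 : d = 1 := by
      have := pow_eq_zero_iff (two_ne_zero) |>.mp h0
      linear_combination this
    rw [h1]; norm_num

/-- the Shimura class vanishes on all elements with `|trace| ≤ 2` (parabolic, elliptic, `±1`). -/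
theorem shimura_eq_zero_of_trace_sq_le (γ : Gamma0 p)
    (ht : ((γ.1 : Matrix (Fin 2) (Fin 2) ℤ).trace) ^ 2 ≤ 4) :
    shimura p (Additive.ofMul γ) = 0 :=
  shimura_eq_zero_of_pow p (pow_gg_eq_one_of_pow_twelve p (delta_pow_twelve_of_trace_sq_le p γ ht))

/-- the Shimura class is a parabolic homomorphism in the sense of the Prelude. -/
theorem isParabolicHom_shimura :
    ModularCurve.Period.IsParabolicHom (Gamma0 p) (shimura p) := fun γ hγ =>
  shimura_eq_zero_of_trace_sq_le p γ (le_of_eq hγ)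


/-- elements of finite order are killed by the Shimura class. -/
theorem shimura_eq_zero_of_isOfFinOrder (γ : Gamma0 p) (h : IsOfFinOrder γ) :
    shimura p (Additive.ofMul γ) = 0 := by
  obtain ⟨m, hm, hpow⟩ := isOfFinOrder_iff_pow_eq_one.mp h
  refine shimura_eq_zero_of_trace_sq_le p γ (trace_sq_le_of_pow_eq_one γ.1 hm ?_)
  have := congrArg (Subtype.val : Gamma0 p → SL(2, ℤ)) hpow
  simpa using this

/-! ### Hecke relations -/

/-- lower right entry of a product, when the left factor is upper triangular mod `p`. -/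
lemma lowerRight_mul {M N : Matrix (Fin 2) (Fin 2) ℤ} (hM : ((M 1 0 : ℤ) : ZMod p) = 0) :
    (((M * N) 1 1 : ℤ) : ZMod p) = ((M 1 1 : ℤ) : ZMod p) * ((N 1 1 : ℤ) : ZMod p) := by
  rw [Matrix.mul_apply, Fin.sum_univ_two]
  push_cast
  rw [hM, zero_mul, zero_add]

/-- basic relation: if `α γ = γ' β` with `α` upper triangular mod `p` and `γ, γ' ∈ Γ₀(p)`, then
`d(α) d(γ) = d(γ') d(β)` mod `p`. -/
lemma lowerRight_rel {α β : Matrix (Fin 2) (Fin 2) ℤ} (hα : ((α 1 0 : ℤ) : ZMod p) = 0)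
    (γ γ' : Gamma0 p)
    (h : α * (γ.1 : Matrix (Fin 2) (Fin 2) ℤ) = (γ'.1 : Matrix (Fin 2) (Fin 2) ℤ) * β) :
    ((α 1 1 : ℤ) : ZMod p) * ((delta p γ : (ZMod p)ˣ) : ZMod p) =
      ((delta p γ' : (ZMod p)ˣ) : ZMod p) * ((β 1 1 : ℤ) : ZMod p) := by
  have h1 := lowerRight_mul p (N := (γ.1 : Matrix (Fin 2) (Fin 2) ℤ)) hα
  have h2 := lowerRight_mul p (M := (γ'.1 : Matrix (Fin 2) (Fin 2) ℤ)) (N := β) (Gamma0_mem.mp γ'.2)
  rw [coe_delta, coe_delta, ← h1, ← h2, h]

lemma shimura_sum {ι : Type*} [Fintype ι] (γ' : ι → Gamma0 p) :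
    ∑ i, shimura p (Additive.ofMul (γ' i)) =
      Multiplicative.toAdd (logMul p (∏ i, delta p (γ' i))) := by
  rw [map_prod, toAdd_prod]
  rfl

/-- **Eisenstein property, `T_ℓ`-type.**  Let `α i` (`i : ι`) be integer matrices, upper triangular
mod `p`, whose lower right entries are units mod `p`.  If `α i * γ = γ' i * α (σ i)` for a
permutation `σ`, then `∑ i, ψ(γ' i) = |ι| • ψ(γ)`. -/
theorem shimura_hecke {ι : Type*} [Fintype ι] (α : ι → Matrix (Fin 2) (Fin 2) ℤ)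
    (hα : ∀ i, ((α i 1 0 : ℤ) : ZMod p) = 0) (hu : ∀ i, IsUnit (((α i 1 1 : ℤ) : ZMod p)))
    (σ : Equiv.Perm ι) (γ : Gamma0 p) (γ' : ι → Gamma0 p)
    (h : ∀ i, α i * (γ.1 : Matrix (Fin 2) (Fin 2) ℤ) =
      ((γ' i).1 : Matrix (Fin 2) (Fin 2) ℤ) * α (σ i)) :
    ∑ i, shimura p (Additive.ofMul (γ' i)) = Fintype.card ι • shimura p (Additive.ofMul γ) := by
  rw [shimura_sum]
  let u : ι → (ZMod p)ˣ := fun i => (hu i).unit
  have hrel : ∀ i, delta p (γ' i) = delta p γ * u i * (u (σ i))⁻¹ := by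
    intro i
    rw [eq_mul_inv_iff_mul_eq]
    apply Units.ext
    have := lowerRight_rel p (hα i) γ (γ' i) (h i)
    simp only [Units.val_mul, u, IsUnit.unit_spec]
    rw [← this]; ring
  have hprod : ∏ i, delta p (γ' i) = delta p γ ^ Fintype.card ι := by
    simp_rw [hrel]
    rw [Finset.prod_mul_distrib, Finset.prod_mul_distrib, Finset.prod_const, Finset.card_univ,
      Finset.prod_inv_distrib, Equiv.prod_comp σ u, mul_assoc, mul_inv_cancel, mul_one]
  rw [hprod, map_pow, toAdd_pow]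
  rfl

/-- `p = 1` in `ℤ/n`. -/
lemma natCast_p_eq_one : ((p : ℕ) : ZMod (ModularCurve.eisensteinNumerator p)) = 1 := by
  have h := ModularCurve.eisensteinNumerator_dvd p
  have hp1 : 1 ≤ p := hp.out.one_le
  have : ((p - 1 : ℕ) : ZMod (ModularCurve.eisensteinNumerator p)) = 0 :=
    (ZMod.natCast_eq_zero_iff _ _).mpr h
  rw [Nat.cast_sub hp1, Nat.cast_one, sub_eq_zero] at this
  exact this

/-- `U_p`-type relation: if `α γ = γ' β` with `α = [[*,*],[0,p]]`, `β = [[1,*],[0,p]]`, then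
`ψ(γ') = ψ(γ)`. -/
theorem shimura_heckeU_single {α β : Matrix (Fin 2) (Fin 2) ℤ}
    (hα10 : α 1 0 = 0) (hα11 : α 1 1 = p) (hβ00 : β 0 0 = 1) (hβ10 : β 1 0 = 0) (hβ11 : β 1 1 = p)
    (γ γ' : Gamma0 p)
    (h : α * (γ.1 : Matrix (Fin 2) (Fin 2) ℤ) = (γ'.1 : Matrix (Fin 2) (Fin 2) ℤ) * β) :
    shimura p (Additive.ofMul γ') = shimura p (Additive.ofMul γ) := by
  have hp0 : (p : ℤ) ≠ 0 := by exact_mod_cast hp.out.ne_zero
  have h10 := congrFun (congrFun h 1) 0
  have h11 := congrFun (congrFun h 1) 1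
  simp only [Matrix.mul_apply, Fin.sum_univ_two, hα10, hα11, hβ00, hβ10, hβ11, zero_mul, zero_add,
    mul_one, mul_zero, add_zero] at h10 h11
  -- h10 : p * c = c', h11 : p * d = c' * β01 + d' * p
  have hd : ((γ.1 : Matrix (Fin 2) (Fin 2) ℤ) 1 1) =
      ((γ.1 : Matrix (Fin 2) (Fin 2) ℤ) 1 0) * β 0 1 + ((γ'.1 : Matrix (Fin 2) (Fin 2) ℤ) 1 1) := by
    apply mul_left_cancel₀ hp0
    rw [h11, ← h10]; ring
  have hδ : delta p γ' = delta p γ := by
    apply Units.ext
    rw [coe_delta, coe_delta, hd]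
    push_cast
    rw [Gamma0_mem.mp γ.2, zero_mul, zero_add]
  rw [shimura_apply, shimura_apply, hδ]

/-- **Eisenstein property, `U_p`-type.** -/
theorem shimura_heckeU {ι : Type*} [Fintype ι] (hcard : Fintype.card ι = p)
    (α : ι → Matrix (Fin 2) (Fin 2) ℤ)
    (hα00 : ∀ i, α i 0 0 = 1) (hα10 : ∀ i, α i 1 0 = 0) (hα11 : ∀ i, α i 1 1 = p)
    (σ : ι → ι) (γ : Gamma0 p) (γ' : ι → Gamma0 p)
    (h : ∀ i, α i * (γ.1 : Matrix (Fin 2) (Fin 2) ℤ) =
      ((γ' i).1 : Matrix (Fin 2) (Fin 2) ℤ) * α (σ i)) :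
    ∑ i, shimura p (Additive.ofMul (γ' i)) = shimura p (Additive.ofMul γ) := by
  have : ∀ i, shimura p (Additive.ofMul (γ' i)) = shimura p (Additive.ofMul γ) := fun i =>
    shimura_heckeU_single p (hα10 i) (hα11 i) (hα00 (σ i)) (hα10 (σ i)) (hα11 (σ i)) γ (γ' i) (h i)
  simp_rw [this]
  rw [Finset.sum_const, Finset.card_univ, hcard, nsmul_eq_mul, natCast_p_eq_one, one_mul]


/-- the standard representatives of `T_ℓ`: `[[1,j],[0,ℓ]]` (`j < ℓ`) and `[[ℓ,0],[0,1]]`. -/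
def heckeRep (ℓ : ℕ) : Option (Fin ℓ) → Matrix (Fin 2) (Fin 2) ℤ
  | some j => !![1, (j : ℕ); 0, (ℓ : ℤ)]
  | none => !![(ℓ : ℤ), 0; 0, 1]

/-- **Eisenstein property for `T_ℓ`, `ℓ ≠ p`, standard representatives.** -/
theorem shimura_heckeT {ℓ : ℕ} (hℓ : ℓ.Prime) (hℓp : ℓ ≠ p) (σ : Equiv.Perm (Option (Fin ℓ)))
    (γ : Gamma0 p) (γ' : Option (Fin ℓ) → Gamma0 p)
    (h : ∀ i, heckeRep ℓ i * (γ.1 : Matrix (Fin 2) (Fin 2) ℤ) =
      ((γ' i).1 : Matrix (Fin 2) (Fin 2) ℤ) * heckeRep ℓ (σ i)) :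
    ∑ i, shimura p (Additive.ofMul (γ' i)) = (ℓ + 1) • shimura p (Additive.ofMul γ) := by
  have hℓu : IsUnit ((ℓ : ℤ) : ZMod p) := by
    rw [isUnit_iff_ne_zero]
    intro h0
    have h1 : ((ℓ : ℕ) : ZMod p) = 0 := by exact_mod_cast h0
    rw [ZMod.natCast_eq_zero_iff] at h1
    exact hℓp ((Nat.prime_dvd_prime_iff_eq hp.out hℓ).mp h1).symm
  have := shimura_hecke p (heckeRep ℓ) (by rintro (_ | j) <;> simp [heckeRep])
    (by
      rintro (_ | j)
      · simp [heckeRep]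
      · simpa [heckeRep] using hℓu) σ γ γ' h
  rw [this, Fintype.card_option, Fintype.card_fin]

end

end Fermat.Agent.S16.Shimura18

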