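import Fermat.Agent.S16.LowerFinal90
import Fermat.Agent.S16.Lift59.ShimuraLift

/-!
# S16 (L): the lower bound, unconditionally

`eisCong_lower p : Dual3.EisCong p (eisensteinNumerator p)` (hypothesis `hL` of `Wire3.s16_of`) and
`dvd_card_lower p : eisensteinNumerator p ∣ #(𝕋 / I 𝕋)`, from `LowerFinal90` (assembly) and
helper59's integral lift of the Shimura class (`Lift59.exists_shimura_lift`). (helper90)
-/

set_option autoImplicit false

namespace Fermat.Agent.S16.LowerDone90

open ModularCurve CuspForm CongruenceSubgroup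

variable (p : ℕ) [hp : Fact p.Prime]

/-- **(L)**: the Eisenstein congruence modulo `eisensteinNumerator p`. -/
theorem eisCong_lower : Fermat.Agent.S16.Dual3.EisCong p (eisensteinNumerator p) := by
  obtain ⟨φ, _, hpar, hlift, -⟩ := Fermat.Agent.S16.Lift59.exists_shimura_lift p
  exact Fermat.Agent.S16.LowerFinal90.eisCong_of_lift p φ hpar hlift

/-- **(L)**, frozen shape: `eisensteinNumerator p ∣ #(𝕋 / I 𝕋)`. -/
theorem dvd_card_lower :
    eisensteinNumerator p ∣ Nat.card (↥(heckeLatticeAlgebra p ∅) ⧸
      Ideal.map ((latticeRestrictHom p ∅).toRingHom.comp (heckeEvalForms p 2))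
        (eisensteinIdeal p)) := by
  obtain ⟨φ, _, hpar, hlift, -⟩ := Fermat.Agent.S16.Lift59.exists_shimura_lift p
  exact Fermat.Agent.S16.LowerFinal90.dvd_card_of_lift p φ hpar hlift

end Fermat.Agent.S16.LowerDone90
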