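import Mathlib
import Fermat.Agent.S23.LevelOneIntSpan
import Fermat.Agent.S24.JBridge80

/-!
# Level-one Sturm bound over an arbitrary additive subgroup (integral Miller basis)

For every additive subgroup `S ≤ ℂ` and every level-one modular form `f` of weight `k`:
if the `q`-expansion coefficients `a_n(f)` lie in `S` for all `n ≤ k / 12`, then **all**
coefficients lie in `S`.

* `S = ⊥` is the classical Sturm bound,
* `S = O` (a subring) is integrality from the first coefficients,
* `S = ℓ • O` is the Sturm bound modulo `ℓ` over `O`.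

The reason is that `E₄`, `E₆`, `Δ / q` and `(Δ / q)⁻¹` all have integer `q`-expansions, so peeling
`f = a₀ E₄^a E₆^b + Δ g` only forms `ℤ`-linear combinations of the first coefficients.
-/

set_option autoImplicit false

open UpperHalfPlane ModularForm ModularFormClass MatrixGroups EisensteinSeries

namespace Fermat.Agent.S16.SturmMod32

open Fermat.Agent.S23.LevelOne

/-! ### Power series algebra -/

section Algebra

variable (S : AddSubgroup ℂ)

/-- Multiplying by a power series with integer coefficients preserves "the coefficients up to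
`d` lie in `S`". -/
lemma coeff_intSeries_mul_mem_of_le {A P : PowerSeries ℂ} (hA : A ∈ intSeries) {d : ℕ}
    (hP : ∀ n ≤ d, PowerSeries.coeff n P ∈ S) : ∀ n ≤ d, PowerSeries.coeff n (A * P) ∈ S := by
  intro n hn
  rw [PowerSeries.coeff_mul]
  refine S.sum_mem fun ij hij => ?_
  obtain ⟨m, hm⟩ := (mem_intSeries_iff A).mp hA ij.1
  have hle : ij.2 ≤ d := (Finset.HasAntidiagonal.antidiagonal.snd_le hij).trans hn
  rw [hm, ← zsmul_eq_mul]
  exact S.zsmul_mem (hP _ hle) m

/-- Multiplying by a power series with integer coefficients preserves "all coefficients lie in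
`S`". -/
lemma coeff_intSeries_mul_mem {A P : PowerSeries ℂ} (hA : A ∈ intSeries)
    (hP : ∀ n, PowerSeries.coeff n P ∈ S) : ∀ n, PowerSeries.coeff n (A * P) ∈ S :=
  fun n => coeff_intSeries_mul_mem_of_le S hA (d := n) (fun m _ => hP m) n le_rfl

/-- The complexification of the Prelude's integral unit `Δ / q = ∏ (1 - qⁿ)²⁴`. -/
noncomputable def etaUnitC : PowerSeries ℂ :=
  ModularCurve.dedekindEtaUnit.map (Int.castRingHom ℂ)

/-- The complexification of the inverse of `Δ / q`. -/
noncomputable def etaUnitInvC : PowerSeries ℂ :=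
  ModularCurve.dedekindEtaUnitInv.map (Int.castRingHom ℂ)

lemma etaUnitC_mem : etaUnitC ∈ intSeries := ⟨_, rfl⟩

lemma etaUnitInvC_mem : etaUnitInvC ∈ intSeries := ⟨_, rfl⟩

lemma etaUnitInvC_mul_etaUnitC : etaUnitInvC * etaUnitC = 1 := by
  rw [etaUnitInvC, etaUnitC, ← map_mul, mul_comm, ModularCurve.dedekindEtaUnit_mul_inv, map_one]

lemma X_mem_intSeries : (PowerSeries.X : PowerSeries ℂ) ∈ intSeries :=
  ⟨PowerSeries.X, by simp⟩

/-- If `F = X * (Δ/q) * H` and the coefficients of `F` up to `d + 1` lie in `S`, then the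
coefficients of `H` up to `d` lie in `S`. -/
lemma coeff_mem_of_eq_X_mul_etaUnit_mul {F H : PowerSeries ℂ}
    (hFH : F = PowerSeries.X * etaUnitC * H) {d : ℕ}
    (hF : ∀ n ≤ d + 1, PowerSeries.coeff n F ∈ S) : ∀ n ≤ d, PowerSeries.coeff n H ∈ S := by
  have hH : H = etaUnitInvC * (etaUnitC * H) := by
    rw [← mul_assoc, etaUnitInvC_mul_etaUnitC, one_mul]
  have hUH : ∀ n ≤ d, PowerSeries.coeff n (etaUnitC * H) ∈ S := by
    intro n hn
    have h1 : PowerSeries.coeff (n + 1) F = PowerSeries.coeff n (etaUnitC * H) := by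
      rw [hFH, mul_assoc, PowerSeries.coeff_succ_X_mul]
    rw [← h1]
    exact hF (n + 1) (by omega)
  rw [hH]
  exact coeff_intSeries_mul_mem_of_le S etaUnitInvC_mem hUH

/-- If `F = X * (Δ/q) * H` and all coefficients of `H` lie in `S`, so do those of `F`. -/
lemma coeff_mem_X_mul_etaUnit_mul {F H : PowerSeries ℂ}
    (hFH : F = PowerSeries.X * etaUnitC * H)
    (hH : ∀ n, PowerSeries.coeff n H ∈ S) : ∀ n, PowerSeries.coeff n F ∈ S := by
  rw [hFH]
  exact coeff_intSeries_mul_mem S (intSeries.mul_mem X_mem_intSeries etaUnitC_mem) hH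

end Algebra

/-! ### Peeling off the constant term -/

section Main

lemma qExpansion_discriminant :
    qExpansion 1 ModularForm.discriminant = PowerSeries.X * etaUnitC :=
  Fermat.Agent.S24.JBridge80.qExpansion_discriminant_eq

/-- **Peeling**: `f = a₀(f) · E₄^a E₆^b + Δ · h` on `q`-expansions, with `h` of weight `k - 12`. -/
lemma exists_qExpansion_eq_add {k : ℤ} (f : ModularForm 𝒮ℒ k) {a b : ℕ}
    (hab : (a : ℤ) * 4 + (b : ℤ) * 6 = k) :
    ∃ h : ModularForm 𝒮ℒ (k - 12),
      qExpansion 1 f = (qExpansion 1 f).coeff 0 • qExpansion 1 (monomialForm a b hab) +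
        PowerSeries.X * etaUnitC * qExpansion 1 h := by
  set m0 := monomialForm a b hab with hm0
  set a0 : ℂ := (qExpansion 1 f).coeff 0 with ha0
  set f' : ModularForm 𝒮ℒ k := f - a0 • m0 with hf'
  have hq : qExpansion 1 f' = qExpansion 1 f - a0 • qExpansion 1 m0 := by
    rw [hf', FunLike.coe_sub, ModularForm.qExpansion_sub one_pos one_mem_strictPeriods_SL,
      FunLike.coe_smul, ModularForm.qExpansion_smul one_pos one_mem_strictPeriods_SL]
  have h0 : (qExpansion 1 f').coeff 0 = 0 := by
    rw [hq, map_sub, PowerSeries.coeff_smul, qExpansion_monomialForm_coeff_zero]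
    simp [ha0]
  refine ⟨CuspForm.discriminantEquiv (toCuspForm f' h0), ?_⟩
  have h1 := qExpansion_eq_qExpansion_discriminant_mul f' h0
  rw [qExpansion_discriminant, hq] at h1
  rw [← h1]
  abel

variable (S : AddSubgroup ℂ)

lemma coeff_smul_monomialForm_mem {c : ℂ} (hc : c ∈ S) (a b : ℕ) {w : ℤ}
    (hw : (a : ℤ) * 4 + (b : ℤ) * 6 = w) (n : ℕ) :
    PowerSeries.coeff n (c • qExpansion 1 (monomialForm a b hw)) ∈ S := by
  obtain ⟨m, hm⟩ := (mem_intSeries_iff _).mp (qExpansion_monomialForm_mem_intSeries a b hw) n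
  rw [PowerSeries.coeff_smul, hm, smul_eq_mul, mul_comm, ← zsmul_eq_mul]
  exact S.zsmul_mem hc m

lemma coeff_qExpansion_zero_mem {k : ℤ} (n : ℕ) :
    (qExpansion 1 ((0 : ModularForm 𝒮ℒ k) : ℍ → ℂ)).coeff n ∈ S := by
  rw [FunLike.coe_zero, qExpansion_zero]
  simp

lemma exists_monomial_weight' {n : ℕ} (hn2 : Even n) (hn : n ≠ 2) :
    ∃ a b : ℕ, (a : ℤ) * 4 + (b : ℤ) * 6 = (n : ℤ) := by
  rcases Nat.lt_or_ge n 3 with h | h
  · obtain rfl : n = 0 := by
      rcases hn2 with ⟨m, hm⟩; omega
    exact ⟨0, 0, by norm_num⟩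
  · exact exists_monomial_weight h hn2

/-- Inductive form of the main theorem. -/
theorem coeff_mem_aux : ∀ (N : ℕ) (k : ℤ), k < N → ∀ f : ModularForm 𝒮ℒ k,
    (∀ n ≤ k.toNat / 12, (qExpansion 1 f).coeff n ∈ S) → ∀ n, (qExpansion 1 f).coeff n ∈ S := by
  intro N
  induction N with
  | zero =>
    intro k hk f _ n
    have hf : f = 0 := by
      ext z; simpa using congrFun (levelOne_neg_weight_eq_zero (by simpa using hk) f) z
    rw [hf]; exact coeff_qExpansion_zero_mem S n
  | succ N ih =>
    intro k hk f hf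
    have hk' : k ≤ (N : ℤ) := by push_cast at hk; omega
    rcases lt_or_eq_of_le hk' with hlt | rfl
    · exact ih k hlt f hf
    rcases Nat.even_or_odd N with hev | hodd
    swap
    · intro n
      rw [levelOne_odd_weight_eq_zero (by exact_mod_cast hodd) f]
      exact coeff_qExpansion_zero_mem S n
    by_cases h2 : N = 2
    · subst h2
      intro n
      rw [rank_zero_iff_forall_zero.mp levelOne_weight_two_rank_zero f]
      exact coeff_qExpansion_zero_mem S n
    obtain ⟨a, b, hab⟩ := exists_monomial_weight' hev h2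
    obtain ⟨h, hh⟩ := exists_qExpansion_eq_add f hab
    have ha0 : (qExpansion 1 f).coeff 0 ∈ S := hf 0 (Nat.zero_le _)
    have hmono := coeff_smul_monomialForm_mem S ha0 a b hab
    -- the `Δ`-part
    set F' : PowerSeries ℂ := PowerSeries.X * etaUnitC * qExpansion 1 h with hF'
    have hF'eq : F' = qExpansion 1 f -
        (qExpansion 1 f).coeff 0 • qExpansion 1 (monomialForm a b hab) := by
      rw [eq_sub_iff_add_eq, add_comm]; exact hh.symm
    suffices hall : ∀ n, PowerSeries.coeff n F' ∈ S by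
      intro n
      rw [hh, map_add]
      exact S.add_mem (hmono n) (hall n)
    rcases Nat.lt_or_ge N 12 with h12 | h12
    · have hzero : h = 0 := by
        ext z
        simpa using congrFun (levelOne_neg_weight_eq_zero (by omega) h) z
      intro n
      rw [hF', hzero, FunLike.coe_zero, qExpansion_zero, mul_zero]
      simp
    · have hlow : ∀ n ≤ (N - 12) / 12 + 1, PowerSeries.coeff n F' ∈ S := by
        intro n hn
        rw [hF'eq, map_sub]
        refine S.sub_mem (hf n ?_) (hmono n)
        rw [Int.toNat_natCast]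
        omega
      have hhlow : ∀ n ≤ ((N : ℤ) - 12).toNat / 12, (qExpansion 1 h).coeff n ∈ S := by
        have : ((N : ℤ) - 12).toNat = N - 12 := by omega
        rw [this]
        exact coeff_mem_of_eq_X_mul_etaUnit_mul S hF' hlow
      have hhall := ih ((N : ℤ) - 12) (by omega) h hhlow
      exact coeff_mem_X_mul_etaUnit_mul S hF' hhall

/-- **Level-one Sturm bound over an additive subgroup (integer weight).**
If the `q`-expansion coefficients `a_n(f)`, `n ≤ k / 12`, of a level-one modular form of weight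
`k` lie in an additive subgroup `S ≤ ℂ`, then all coefficients of `f` lie in `S`. -/
theorem coeff_mem_of_forall_le_int {k : ℤ} (f : ModularForm 𝒮ℒ k)
    (h : ∀ n ≤ k.toNat / 12, (qExpansion 1 f).coeff n ∈ S) :
    ∀ n, (qExpansion 1 f).coeff n ∈ S :=
  coeff_mem_aux S (k.toNat + 1) k (by have := Int.self_le_toNat k; push_cast; omega) f h

/-- **Level-one Sturm bound over an additive subgroup (natural weight).** -/
theorem coeff_mem_of_forall_le {k : ℕ} (f : ModularForm 𝒮ℒ (k : ℤ))
    (h : ∀ n ≤ k / 12, (qExpansion 1 f).coeff n ∈ S) :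
    ∀ n, (qExpansion 1 f).coeff n ∈ S :=
  coeff_mem_of_forall_le_int S f (by simpa using h)

/-- Contrapositive form: a coefficient outside `S` forces a coefficient of index `≤ k / 12`
outside `S`. -/
theorem exists_le_coeff_notMem {k : ℤ} (f : ModularForm 𝒮ℒ k) {n : ℕ}
    (hn : (qExpansion 1 f).coeff n ∉ S) :
    ∃ m ≤ k.toNat / 12, (qExpansion 1 f).coeff m ∉ S := by
  by_contra hcon
  push Not at hcon
  exact hn (coeff_mem_of_forall_le_int S f hcon n)

/-- Every coefficient of a level-one form is a `ℤ`-linear combination of the coefficients of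
index `≤ k / 12` (existence of the integral Miller basis, coefficientwise form). -/
theorem coeff_mem_closure {k : ℤ} (f : ModularForm 𝒮ℒ k) (n : ℕ) :
    (qExpansion 1 f).coeff n ∈
      AddSubgroup.closure {x : ℂ | ∃ m ≤ k.toNat / 12, x = (qExpansion 1 f).coeff m} :=
  coeff_mem_of_forall_le_int
    (AddSubgroup.closure {x : ℂ | ∃ m ≤ k.toNat / 12, x = (qExpansion 1 f).coeff m}) f
    (fun m hm => AddSubgroup.subset_closure (show _ ∈ {x : ℂ | ∃ m ≤ k.toNat / 12, x = (qExpansion 1 f).coeff m} from ⟨m, hm, rfl⟩)) n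

end Main

/-! ### Corollaries over a subring `O ⊆ ℂ` -/

section Subring

variable (O : Subring ℂ)

/-- The additive subgroup `ℓ · O` of `ℂ`. -/
def mulSubgroup (l : ℂ) : AddSubgroup ℂ :=
  O.toAddSubgroup.map (AddMonoidHom.mulLeft l)

lemma mem_mulSubgroup {l x : ℂ} : x ∈ mulSubgroup O l ↔ ∃ y ∈ O, x = l * y := by
  simp only [mulSubgroup, AddSubgroup.mem_map, Subring.mem_toAddSubgroup,
    AddMonoidHom.coe_mulLeft]
  constructor
  · rintro ⟨y, hy, rfl⟩; exact ⟨y, hy, rfl⟩
  · rintro ⟨y, hy, rfl⟩; exact ⟨y, hy, rfl⟩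

/-- The image in `ℂ` of an ideal `I` of the subring `O`, as an additive subgroup. -/
def idealSubgroup (I : Ideal O) : AddSubgroup ℂ :=
  I.toAddSubgroup.map O.subtype.toAddMonoidHom

lemma mem_idealSubgroup {I : Ideal O} {x : ℂ} :
    x ∈ idealSubgroup O I ↔ ∃ y ∈ I, x = (y : ℂ) := by
  simp only [idealSubgroup, AddSubgroup.mem_map, Submodule.mem_toAddSubgroup]
  constructor
  · rintro ⟨y, hy, rfl⟩; exact ⟨y, hy, rfl⟩
  · rintro ⟨y, hy, rfl⟩; exact ⟨y, hy, rfl⟩

/-- **Integrality from the first coefficients.** -/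
theorem coeff_mem_subring {k : ℤ} (f : ModularForm 𝒮ℒ k)
    (h : ∀ n ≤ k.toNat / 12, (qExpansion 1 f).coeff n ∈ O) :
    ∀ n, (qExpansion 1 f).coeff n ∈ O :=
  coeff_mem_of_forall_le_int O.toAddSubgroup f h

/-- **Sturm bound modulo `ℓ` over `O`.** If the first `k / 12 + 1` coefficients of a level-one
form of weight `k` lie in `ℓ · O`, then all coefficients do. -/
theorem coeff_mem_mul_subring {k : ℤ} (l : ℂ) (f : ModularForm 𝒮ℒ k)
    (h : ∀ n ≤ k.toNat / 12, ∃ y ∈ O, (qExpansion 1 f).coeff n = l * y) :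
    ∀ n, ∃ y ∈ O, (qExpansion 1 f).coeff n = l * y := by
  intro n
  exact (mem_mulSubgroup O).mp
    (coeff_mem_of_forall_le_int (mulSubgroup O l) f
      (fun m hm => (mem_mulSubgroup O).mpr (h m hm)) n)

/-- **Sturm bound modulo an ideal of `O`.** -/
theorem coeff_mem_ideal {k : ℤ} (I : Ideal O) (f : ModularForm 𝒮ℒ k)
    (h : ∀ n ≤ k.toNat / 12, ∃ y ∈ I, (qExpansion 1 f).coeff n = (y : ℂ)) :
    ∀ n, ∃ y ∈ I, (qExpansion 1 f).coeff n = (y : ℂ) := by
  intro n
  exact (mem_idealSubgroup O).mp
    (coeff_mem_of_forall_le_int (idealSubgroup O I) f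
      (fun m hm => (mem_idealSubgroup O).mpr (h m hm)) n)

/-- The shape used by the norm argument: a level-one form of weight `k` with a coefficient of
index `n` outside `ℓ · O` has a coefficient of index `≤ k / 12` outside `ℓ · O`.  In particular
"all coefficients below `n` lie in `ℓ · O`, the `n`-th does not" forces `n ≤ k / 12`. -/
theorem le_of_coeff_notMem_mul_subring {k : ℤ} (l : ℂ) (f : ModularForm 𝒮ℒ k) {n : ℕ}
    (hlow : ∀ m < n, ∃ y ∈ O, (qExpansion 1 f).coeff m = l * y)
    (hn : ¬ ∃ y ∈ O, (qExpansion 1 f).coeff n = l * y) : n ≤ k.toNat / 12 := by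
  by_contra hcon
  push Not at hcon
  exact hn (coeff_mem_mul_subring O l f (fun m hm => hlow m (lt_of_le_of_lt hm hcon)) n)

end Subring

end Fermat.Agent.S16.SturmMod32
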