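/-
S16, upper bound (U), package NORM23 / NORM–STURM (helper8): the instances.

For `l` prime, `N ∈ {2, 3}` an auxiliary prime level, `c = l^e` with `24 = (N-1) l^e u`,
`N + 1 = l^e u'` (`u, u'` prime to `l`) and `l^(e+1) ∣ p + 1`: there is no
`G ∈ M₂(Γ₀(p))`, `l`-integral, with `G ≡ 1 mod l^(e+1)`.
Instances `(l, N, e) = (2, 3, 2)`, `(3, 2, 1)`, `(l ≥ 5, 2, 0)` give `U8Stmt`, `U9Stmt`,
`USwDStmt` of `UIface39`.
-/
import Mathlib
import Fermat.Agent.S16.Norm23Core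
import Fermat.Agent.S16.Conj53.WeightTwo
import Fermat.Agent.S16.Eis17.QExp
import Fermat.Agent.S16.SturmMod32
import Fermat.Agent.S16.UIface39

set_option autoImplicit false

open UpperHalfPlane ModularForm CongruenceSubgroup ModularGroup Function
open scoped MatrixGroups ModularForm Manifold

namespace Fermat.Agent.S16.Norm23

open Fermat.Agent.S16.Conj53 Fermat.Agent.S16.Norm23Core

/-! ### Expansions of the conjugates at period `M * p` -/

section Expansion

variable {p : ℕ} {k : ℤ}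

/-- Uniqueness of `q`-expansions, for plain functions. -/
theorem qExpansion_coeff_unique_fn {h : ℝ} {f : ℍ → ℂ} {c : ℕ → ℂ} (hh : 0 < h)
    (hfanalytic : AnalyticAt ℂ (cuspFunction h f) 0)
    (hf : ∀ τ : ℍ, HasSum (fun m ↦ c m • Function.Periodic.qParam h τ ^ m) (f τ)) (m : ℕ) :
    c m = (qExpansion h f).coeff m := by
  have h1 := (hasFPowerSeriesOnBall_cuspFunction hh hfanalytic hf).hasFPowerSeriesAt
  have h2 := hfanalytic.hasFPowerSeriesAt
  have h3 := h1.eq_formalMultilinearSeries h2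
  have h4 := congr_arg (FormalMultilinearSeries.coeff · m) h3
  simp only [FormalMultilinearSeries.coeff_ofScalars] at h4
  rw [qExpansion_coeff, h4, div_eq_inv_mul]

theorem periodic_of_vadd (g : ℍ → ℂ) (c : ℝ) (h : ∀ τ : ℍ, g (c +ᵥ τ) = g τ) :
    Periodic (g ∘ ofComplex) (c : ℂ) := by
  intro w
  by_cases! hw : 0 < Complex.im w
  · have h2 : 0 < Complex.im (w + (c : ℂ)) := by simp [hw]
    simp only [comp_apply, ofComplex_apply_of_im_pos h2, ofComplex_apply_of_im_pos hw]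
    rw [← h ⟨w, hw⟩]
    congr 1
    ext
    simp [add_comm]
  · have h2 : Complex.im (w + (c : ℂ)) ≤ 0 := by simpa using hw
    simp only [comp_apply]
    rw [ofComplex_apply_of_im_nonpos h2, ofComplex_apply_of_im_nonpos hw]

theorem tr_vadd_p (f : ModularForm (Gamma0 p) k) (n : ℤ) (τ : ℍ) :
    tr f n (((p : ℕ) : ℝ) +ᵥ τ) = tr f n τ := by
  rw [tr_apply, tr_apply, vadd_comm, gS_vadd_p]

theorem T_zpow_mem (n : ℤ) : (T ^ n : SL(2, ℤ)) ∈ Gamma0 p := by
  rw [Gamma0_mem]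
  have h10 : ((T ^ n : SL(2, ℤ)) 1 0 : ℤ) = 0 := by simp [coe_T_zpow]
  rw [h10]
  simp

variable [hp : Fact p.Prime]

omit hp in
theorem conj_vadd_p (f : ModularForm (Gamma0 p) k) (a : Option (ZMod p)) (τ : ℍ) :
    conj f a (((p : ℕ) : ℝ) +ᵥ τ) = conj f a τ := by
  cases a with
  | none =>
    simp only [conj]
    have hT : ((f : ℍ → ℂ) ∣[k] (T ^ (p : ℤ))) = f := slash_of_mem f _ (T_zpow_mem _)
    have := congrFun hT τ
    rw [slash_T_zpow_apply] at this
    simpa using this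
  | some j => exact tr_vadd_p f _ τ

theorem conj_periodic (f : ModularForm (Gamma0 p) k) (a : Option (ZMod p)) :
    Periodic (conj f a ∘ ofComplex) ((p : ℝ) : ℂ) :=
  periodic_of_vadd _ _ (conj_vadd_p f a)

/-- The coefficients of the `q^{1/p}`-expansion of `conj f a`. -/
noncomputable def cco (f : ModularForm (Gamma0 p) k) : Option (ZMod p) → ℕ → ℂ
  | none, n => if p ∣ n then (qExpansion 1 f).coeff (n / p) else 0
  | some j, n => bS f n * (zeta p ^ ((j.val : ℕ) : ℤ)) ^ n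

theorem p_pos_real : (0 : ℝ) < (p : ℝ) := by exact_mod_cast hp.out.pos

theorem analyticAt_conj (f : ModularForm (Gamma0 p) k) (a : Option (ZMod p)) {M : ℕ}
    (hM : 0 < M) : AnalyticAt ℂ (cuspFunction ((M * p : ℕ) : ℝ) (conj f a)) 0 := by
  have hpos : (0 : ℝ) < ((M * p : ℕ) : ℝ) := by
    exact_mod_cast Nat.mul_pos hM hp.out.pos
  refine analyticAt_cuspFunction_zero hpos ?_ (conj_mdiff f a) (conj_bdd f a)
  have e : (((M * p : ℕ) : ℝ) : ℂ) = (M : ℂ) * ((p : ℝ) : ℂ) := by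
    push_cast
    ring
  rw [e]
  exact (conj_periodic f a).nat_mul M

theorem qExpansion_conj_coeff (f : ModularForm (Gamma0 p) k) (a : Option (ZMod p)) (n : ℕ) :
    (qExpansion (p : ℝ) (conj f a)).coeff n = cco f a n := by
  have : NeZero p := ⟨hp.out.ne_zero⟩
  cases a with
  | none =>
    have hper : Periodic ((f : ℍ → ℂ) ∘ ofComplex) ((1 : ℝ) : ℂ) :=
      SlashInvariantFormClass.periodic_comp_ofComplex f
        (CongruenceSubgroup.one_mem_strictPeriods_Gamma0 p)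
    have h := UpperHalfPlane.qExpansion_coeff_nat_mul (h := 1) one_pos hper
      (conj_mdiff f none) (conj_bdd f none) (M := p) hp.out.pos n
    rw [mul_one] at h
    exact h
  | some j =>
    have han : AnalyticAt ℂ (cuspFunction (p : ℝ) (conj f (some j))) 0 := by
      have := analyticAt_conj f (some j) (M := 1) one_pos
      simpa using this
    have key : ∀ τ : ℍ, HasSum (fun m : ℕ => (bS f m * (zeta p ^ ((j.val : ℕ) : ℤ)) ^ m) •
        Periodic.qParam (p : ℝ) τ ^ m) (conj f (some j) τ) := by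
      intro τ
      have := hasSum_tr f ((j.val : ℕ) : ℤ) τ
      simpa only [smul_eq_mul, conj] using this
    have hpr : (0 : ℝ) < (p : ℝ) := p_pos_real
    have h2 := qExpansion_coeff_unique_fn hpr han key n
    rw [← h2]
    rfl

theorem qExpansion_conj_coeff_mul (f : ModularForm (Gamma0 p) k) (a : Option (ZMod p)) {M : ℕ}
    (hM : 0 < M) (n : ℕ) :
    (qExpansion ((M * p : ℕ) : ℝ) (conj f a)).coeff n
      = if M ∣ n then cco f a (n / M) else 0 := by
  have h := UpperHalfPlane.qExpansion_coeff_nat_mul (h := (p : ℝ)) p_pos_real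
    (conj_periodic f a) (conj_mdiff f a) (conj_bdd f a) (M := M) hM n
  rw [qExpansion_conj_coeff] at h
  rw [← h]
  push_cast
  rfl

end Expansion

/-! ### Expansions of the factors of the resultant at period `N * p` -/

section Res

variable {p N : ℕ} [hp : Fact p.Prime] [hN : Fact N.Prime] {k : ℤ}

/-- The coefficients of the `q^{1/(Np)}`-expansion of `resFun f g c (a, b)`. -/
noncomputable def rco (f : ModularForm (Gamma0 p) k) (g : ModularForm (Gamma0 N) k) (c : ℂ)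
    (ab : Option (ZMod p) × Option (ZMod N)) (n : ℕ) : ℂ :=
  c * ((if N ∣ n then cco f ab.1 (n / N) else 0) - (if p ∣ n then cco g ab.2 (n / p) else 0))

theorem analyticAt_conj_right (g : ModularForm (Gamma0 N) k) (b : Option (ZMod N)) :
    AnalyticAt ℂ (cuspFunction ((N * p : ℕ) : ℝ) (conj g b)) 0 := by
  have := analyticAt_conj g b (M := p) hp.out.pos
  rwa [Nat.mul_comm] at this

theorem analyticAt_sub (f : ModularForm (Gamma0 p) k) (g : ModularForm (Gamma0 N) k)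
    (ab : Option (ZMod p) × Option (ZMod N)) :
    AnalyticAt ℂ (cuspFunction ((N * p : ℕ) : ℝ) (conj f ab.1 - conj g ab.2)) 0 := by
  have h1 := analyticAt_conj f ab.1 (M := N) hN.out.pos
  have h2 := analyticAt_conj_right (p := p) g ab.2
  rw [cuspFunction_sub h1.continuousAt h2.continuousAt]
  exact h1.sub h2

theorem analyticAt_resFun (f : ModularForm (Gamma0 p) k) (g : ModularForm (Gamma0 N) k) (c : ℂ)
    (ab : Option (ZMod p) × Option (ZMod N)) :
    AnalyticAt ℂ (cuspFunction ((N * p : ℕ) : ℝ) (resFun f g c ab)) 0 := by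
  have h := analyticAt_sub f g ab
  unfold resFun
  rw [cuspFunction_smul h.continuousAt]
  exact h.const_smul

theorem qExpansion_resFun_coeff (f : ModularForm (Gamma0 p) k) (g : ModularForm (Gamma0 N) k)
    (c : ℂ) (ab : Option (ZMod p) × Option (ZMod N)) (n : ℕ) :
    (qExpansion ((N * p : ℕ) : ℝ) (resFun f g c ab)).coeff n = rco f g c ab n := by
  have h1 := analyticAt_conj f ab.1 (M := N) hN.out.pos
  have h2 := analyticAt_conj_right (p := p) g ab.2
  unfold resFun rco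
  rw [qExpansion_smul (analyticAt_sub f g ab), qExpansion_sub h1 h2]
  rw [PowerSeries.coeff_smul, map_sub, qExpansion_conj_coeff_mul f ab.1 hN.out.pos]
  have h3 := qExpansion_conj_coeff_mul g ab.2 hp.out.pos n
  rw [Nat.mul_comm] at h3
  rw [h3, smul_eq_mul]

end Res

/-! ### The auxiliary form `X_N = (N E₂(Nz) - E₂(z)) / (N - 1)` -/

section Aux

open Fermat.Agent.S16.Eis17

/-- `X_N = eis2 N / (N - 1) = 1 + (24/(N-1)) ∑ σ^{(N)}(n) q^n`. -/
noncomputable def XN (N : ℕ) [NeZero N] : ModularForm (Gamma0 N) 2 :=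
  (((N : ℂ) - 1)⁻¹) • eis2 N

theorem qExpansion_XN_coeff (N : ℕ) [NeZero N] (m : ℕ) :
    (qExpansion 1 (XN N)).coeff m = ((N : ℂ) - 1)⁻¹ * (qExpansion 1 (eis2 N)).coeff m := by
  have h := ModularForm.qExpansion_smul (h := 1) one_pos
    (CongruenceSubgroup.one_mem_strictPeriods_Gamma0 N) (((N : ℂ) - 1)⁻¹) (eis2 N)
  have e : ((XN N : ModularForm (Gamma0 N) 2) : ℍ → ℂ) = (((N : ℂ) - 1)⁻¹) • (eis2 N : ℍ → ℂ) := by
    unfold XN
    exact FunLike.coe_smul _ _
  rw [e, h, PowerSeries.coeff_smul, smul_eq_mul]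

theorem qExpansion_XN_coeff_zero (N : ℕ) [NeZero N] (hN1 : N ≠ 1) :
    (qExpansion 1 (XN N)).coeff 0 = 1 := by
  rw [qExpansion_XN_coeff, qExpansion_eis2_coeff_zero]
  have : (N : ℂ) - 1 ≠ 0 := by
    rw [sub_ne_zero]
    exact_mod_cast hN1
  exact inv_mul_cancel₀ this

theorem qExpansion_XN_coeff_of_ne_zero (N : ℕ) [NeZero N] (m : ℕ) (hm : m ≠ 0) :
    (qExpansion 1 (XN N)).coeff m = ((N : ℂ) - 1)⁻¹ * (24 * (sigmaNot N m : ℂ)) := by
  rw [qExpansion_XN_coeff, qExpansion_eis2_coeff_of_ne_zero N m hm]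

theorem sigmaNot_one (N : ℕ) (hN : 1 < N) : sigmaNot N 1 = 1 := by
  unfold sigmaNot
  rw [Nat.divisors_one, Finset.filter_singleton, if_pos]
  · simp
  · intro h
    exact absurd (Nat.le_of_dvd one_pos h) (by omega)

theorem sigmaNot_prime_mul {N : ℕ} (hN : N.Prime) (m : ℕ) (hm : m ≠ 0) :
    sigmaNot N (N * m) = sigmaNot N m := by
  unfold sigmaNot
  apply Finset.sum_congr _ (fun _ _ => rfl)
  ext d
  simp only [Finset.mem_filter, Nat.mem_divisors]
  constructor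
  · rintro ⟨⟨hd, _⟩, hNd⟩
    refine ⟨⟨?_, hm⟩, hNd⟩
    exact (Nat.Coprime.dvd_mul_left ((Nat.Prime.coprime_iff_not_dvd hN).mpr hNd).symm).mp hd
  · rintro ⟨⟨hd, _⟩, hNd⟩
    exact ⟨⟨Dvd.dvd.mul_left hd N, mul_ne_zero hN.ne_zero hm⟩, hNd⟩

end Aux

/-! ### Arithmetic of the coefficients -/

section Arith

open Fermat.Agent.S16.Eis17 Fermat.Agent.S16.UIface39

variable {p N l : ℕ} [hp : Fact p.Prime] [hN : Fact N.Prime] [hl : Fact l.Prime]

omit hp hN in
theorem exists_of_inPow {b : ℕ} {x : ℂ} (h : InPow l b x) :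
    ∃ y ∈ ellInt l, x = (l : ℂ) ^ b * y := by
  obtain ⟨m, d, hd, hx⟩ := h
  have hd0 : (d : ℂ) ≠ 0 := by
    intro h0
    exact hd (by rw [Nat.cast_eq_zero.mp h0]; exact dvd_zero l)
  refine ⟨(m : ℂ) / (d : ℂ), intCast_div_natCast_mem_ellInt m hd, ?_⟩
  field_simp
  exact hx

omit hp hN in
theorem zeta_zpow_pow_mem (q : ℕ) [NeZero q] (j n : ℕ) :
    (zeta q ^ ((j : ℕ) : ℤ)) ^ n ∈ ellInt l := by
  rw [zpow_natCast]
  exact (ellInt l).pow_mem ((ellInt l).pow_mem
    (mem_ellInt_of_pow_eq_one (Nat.pos_of_ne_zero (NeZero.ne q)) zeta_pow_p) j) n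

omit hp hN in
theorem not_dvd_of_prime_ne {q : ℕ} (hq : q.Prime) (hlq : l ≠ q) : ¬ l ∣ q := fun h =>
  hlq ((Nat.prime_dvd_prime_iff_eq hl.out hq).mp h)

/-- Shape of the expansion of the conjugates of `G`: `1 + l^(e+1) * (series over O)`. -/
theorem shape_cco_G (G : ModularForm (Gamma0 p) 2) (e : ℕ) (hlp : l ≠ p)
    (hpl : l ^ (e + 1) ∣ p + 1) (hG0 : (qExpansion 1 G).coeff 0 = 1)
    (hGk : ∀ k : ℕ, 1 ≤ k → ∃ y ∈ ellInt l, (qExpansion 1 G).coeff k = (l : ℂ) ^ (e + 1) * y)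
    (a : Option (ZMod p)) (n : ℕ) :
    ∃ y ∈ ellInt l, cco G a n = (if n = 0 then 1 else 0) + (l : ℂ) ^ (e + 1) * y := by
  have : NeZero p := ⟨hp.out.ne_zero⟩
  have hp0 : (p : ℂ) ≠ 0 := by exact_mod_cast hp.out.ne_zero
  have hpinv : ((p : ℂ))⁻¹ ∈ ellInt l := inv_natCast_mem_ellInt (not_dvd_of_prime_ne hp.out hlp)
  cases a with
  | none =>
    simp only [cco]
    by_cases hn : n = 0
    · subst hn
      exact ⟨0, (ellInt l).zero_mem, by simp [hG0]⟩
    · by_cases hd : p ∣ n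
      · obtain ⟨t, rfl⟩ := hd
        have ht : t ≠ 0 := fun h => hn (by simp [h])
        obtain ⟨y, hy, hyc⟩ := hGk t (Nat.one_le_iff_ne_zero.mpr ht)
        refine ⟨y, hy, ?_⟩
        rw [if_pos (dvd_mul_right p t), Nat.mul_div_cancel_left t hp.out.pos, hyc, if_neg hn,
          zero_add]
      · exact ⟨0, (ellInt l).zero_mem, by simp [hd, hn]⟩
  | some j =>
    simp only [cco]
    rw [bS_weight_two]
    by_cases hn : n = 0
    · subst hn
      obtain ⟨t, ht⟩ := hpl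
      refine ⟨-((t : ℂ) * ((p : ℂ))⁻¹), (ellInt l).neg_mem
        ((ellInt l).mul_mem (natCast_mem (ellInt l) t) hpinv), ?_⟩
      have ht' : ((p : ℂ) + 1) = (l : ℂ) ^ (e + 1) * (t : ℂ) := by exact_mod_cast ht
      rw [mul_zero, hG0, pow_zero, if_pos rfl]
      have : (l : ℂ) ^ (e + 1) * -((t : ℂ) * ((p : ℂ))⁻¹) = -(((p : ℂ) + 1) * ((p : ℂ))⁻¹) := by
        rw [ht']; ring
      rw [this]
      field_simp
      ring
    · obtain ⟨y, hy, hyc⟩ := hGk (p * n)
        (Nat.one_le_iff_ne_zero.mpr (mul_ne_zero hp.out.ne_zero hn))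
      refine ⟨-((p : ℂ))⁻¹ * y * (zeta p ^ ((j.val : ℕ) : ℤ)) ^ n,
        (ellInt l).mul_mem ((ellInt l).mul_mem ((ellInt l).neg_mem hpinv) hy)
          (zeta_zpow_pow_mem p j.val n), ?_⟩
      rw [hyc, if_neg hn]
      ring

omit hp hl in
/-- higher coefficients of `X_N` in terms of `24 = (N - 1) l^e u`. -/
theorem XN_coeff_eq (e u : ℕ) (h24 : 24 = (N - 1) * l ^ e * u) (m : ℕ) (hm : m ≠ 0) :
    haveI : NeZero N := ⟨hN.out.ne_zero⟩
    (qExpansion 1 (XN N)).coeff m = (l : ℂ) ^ e * (u : ℂ) * (sigmaNot N m : ℂ) := by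
  haveI : NeZero N := ⟨hN.out.ne_zero⟩
  rw [qExpansion_XN_coeff_of_ne_zero N m hm]
  have hN1 : (N : ℂ) - 1 ≠ 0 := by
    rw [sub_ne_zero]
    exact_mod_cast hN.out.one_lt.ne'
  have h24' : (24 : ℂ) = ((N : ℂ) - 1) * (l : ℂ) ^ e * (u : ℂ) := by
    have h1 : ((N - 1 : ℕ) : ℂ) = (N : ℂ) - 1 := by
      rw [Nat.cast_sub hN.out.one_lt.le]; simp
    have := congrArg (Nat.cast (R := ℂ)) h24
    push_cast at this
    rw [h1] at this
    exact this
  rw [h24']
  field_simp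

omit hp hl in
/-- Shape of the expansion of `X_N` itself (at period `N`). -/
theorem shape_cco_X_none (e u : ℕ) (h24 : 24 = (N - 1) * l ^ e * u) (n : ℕ) :
    haveI : NeZero N := ⟨hN.out.ne_zero⟩
    ∃ W : ℕ, cco (XN N) none n = (if n = 0 then 1 else 0) + (l : ℂ) ^ e * (u : ℂ) * (W : ℂ) ∧
      (n < N → W = 0) ∧ (n = N → W = 1) := by
  haveI : NeZero N := ⟨hN.out.ne_zero⟩
  simp only [cco]
  by_cases hn : n = 0
  · subst hn
    refine ⟨0, ?_, fun _ => rfl, fun h => absurd h.symm hN.out.ne_zero⟩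
    simp [qExpansion_XN_coeff_zero N hN.out.one_lt.ne']
  · by_cases hd : N ∣ n
    · obtain ⟨t, rfl⟩ := hd
      have ht : t ≠ 0 := fun h => hn (by simp [h])
      refine ⟨sigmaNot N t, ?_, ?_, ?_⟩
      · rw [if_pos (dvd_mul_right N t), Nat.mul_div_cancel_left t hN.out.pos,
          XN_coeff_eq e u h24 t ht, if_neg hn, zero_add]
      · intro hlt
        exfalso
        have : N * 1 ≤ N * t := Nat.mul_le_mul_left N (Nat.one_le_iff_ne_zero.mpr ht)
        omega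
      · intro hEq
        have ht1 : t = 1 := by
          have : N * t = N * 1 := by rw [hEq, mul_one]
          exact Nat.eq_of_mul_eq_mul_left hN.out.pos this
        rw [ht1, sigmaNot_one N hN.out.one_lt]
    · refine ⟨0, by simp [hd, hn], fun _ => rfl, fun h => absurd (h ▸ dvd_refl N) ?_⟩
      rw [h] at hd
      exact fun _ => hd (dvd_refl N)

omit hp in
/-- Shape of the expansion of the other conjugates of `X_N` (at period `N`). -/
theorem shape_cco_X_some (e u : ℕ) (h24 : 24 = (N - 1) * l ^ e * u) (i : ZMod N) (n : ℕ) :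
    haveI : NeZero N := ⟨hN.out.ne_zero⟩
    ∃ W ∈ ellInt l, cco (XN N) (some i) n = -((N : ℂ))⁻¹ * (if n = 0 then 1 else 0)
      - (l : ℂ) ^ e * (u : ℂ) * ((N : ℂ))⁻¹ * W ∧ (n = 0 → W = 0) := by
  haveI : NeZero N := ⟨hN.out.ne_zero⟩
  simp only [cco]
  rw [bS_weight_two]
  by_cases hn : n = 0
  · subst hn
    refine ⟨0, (ellInt l).zero_mem, ?_, fun _ => rfl⟩
    simp [qExpansion_XN_coeff_zero N hN.out.one_lt.ne']
  · refine ⟨(sigmaNot N n : ℂ) * (zeta N ^ ((i.val : ℕ) : ℤ)) ^ n,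
      (ellInt l).mul_mem (natCast_mem (ellInt l) _) (zeta_zpow_pow_mem N i.val n), ?_,
      fun h => absurd h hn⟩
    rw [XN_coeff_eq e u h24 (N * n) (mul_ne_zero hN.out.ne_zero hn),
      sigmaNot_prime_mul hN.out n hn, if_neg hn]
    ring

omit hp hN hl in
theorem mul_eq_zero_iff_right_of_pos {M t : ℕ} (hM : 0 < M) : M * t = 0 ↔ t = 0 := by
  constructor
  · intro h
    rcases Nat.mul_eq_zero.mp h with h | h
    · omega
    · exact h
  · intro h; simp [h]

theorem lift_shape_G (G : ModularForm (Gamma0 p) 2) (e : ℕ) (hlp : l ≠ p)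
    (hpl : l ^ (e + 1) ∣ p + 1) (hG0 : (qExpansion 1 G).coeff 0 = 1)
    (hGk : ∀ k : ℕ, 1 ≤ k → ∃ y ∈ ellInt l, (qExpansion 1 G).coeff k = (l : ℂ) ^ (e + 1) * y)
    (a : Option (ZMod p)) {M : ℕ} (hM : 0 < M) (n : ℕ) :
    ∃ y ∈ ellInt l, (if M ∣ n then cco G a (n / M) else 0)
      = (if n = 0 then 1 else 0) + (l : ℂ) ^ (e + 1) * y := by
  by_cases hd : M ∣ n
  · obtain ⟨t, rfl⟩ := hd
    obtain ⟨y, hy, hyc⟩ := shape_cco_G G e hlp hpl hG0 hGk a t
    refine ⟨y, hy, ?_⟩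
    rw [if_pos (dvd_mul_right M t), Nat.mul_div_cancel_left t hM, hyc]
    simp only [mul_eq_zero_iff_right_of_pos hM]
  · have hn : n ≠ 0 := fun h => hd (h ▸ dvd_zero M)
    exact ⟨0, (ellInt l).zero_mem, by simp [hd, hn]⟩

omit hl in
theorem lift_shape_X_none (e u : ℕ) (h24 : 24 = (N - 1) * l ^ e * u) (n : ℕ) :
    haveI : NeZero N := ⟨hN.out.ne_zero⟩
    ∃ W : ℕ, (if p ∣ n then cco (XN N) none (n / p) else 0)
      = (if n = 0 then 1 else 0) + (l : ℂ) ^ e * (u : ℂ) * (W : ℂ) ∧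
      (n < N * p → W = 0) ∧ (n = N * p → W = 1) := by
  haveI : NeZero N := ⟨hN.out.ne_zero⟩
  by_cases hd : p ∣ n
  · obtain ⟨t, rfl⟩ := hd
    obtain ⟨W, hW, hlt, heq⟩ := shape_cco_X_none (l := l) e u h24 t
    refine ⟨W, ?_, ?_, ?_⟩
    · rw [if_pos (dvd_mul_right p t), Nat.mul_div_cancel_left t hp.out.pos, hW]
      simp only [mul_eq_zero_iff_right_of_pos hp.out.pos]
    · intro h
      apply hlt
      rw [Nat.mul_comm N p] at h
      exact Nat.lt_of_mul_lt_mul_left h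
    · intro h
      apply heq
      rw [Nat.mul_comm N p] at h
      exact Nat.eq_of_mul_eq_mul_left hp.out.pos h
  · have hn : n ≠ 0 := fun h => hd (h ▸ dvd_zero p)
    refine ⟨0, by simp [hd, hn], fun _ => rfl, fun h => absurd ?_ hd⟩
    rw [h]
    exact dvd_mul_left p N

theorem lift_shape_X_some (e u : ℕ) (h24 : 24 = (N - 1) * l ^ e * u) (i : ZMod N) (n : ℕ) :
    haveI : NeZero N := ⟨hN.out.ne_zero⟩
    ∃ W ∈ ellInt l, (if p ∣ n then cco (XN N) (some i) (n / p) else 0)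
      = -((N : ℂ))⁻¹ * (if n = 0 then 1 else 0)
        - (l : ℂ) ^ e * (u : ℂ) * ((N : ℂ))⁻¹ * W ∧ (n = 0 → W = 0) := by
  haveI : NeZero N := ⟨hN.out.ne_zero⟩
  by_cases hd : p ∣ n
  · obtain ⟨t, rfl⟩ := hd
    obtain ⟨W, hWm, hW, h0⟩ := shape_cco_X_some (l := l) e u h24 i t
    refine ⟨W, hWm, ?_, ?_⟩
    · rw [if_pos (dvd_mul_right p t), Nat.mul_div_cancel_left t hp.out.pos, hW]
      simp only [mul_eq_zero_iff_right_of_pos hp.out.pos]
    · intro h
      exact h0 ((mul_eq_zero_iff_right_of_pos hp.out.pos).mp h)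
  · have hn : n ≠ 0 := fun h => hd (h ▸ dvd_zero p)
    exact ⟨0, (ellInt l).zero_mem, by simp [hd, hn], fun _ => rfl⟩

theorem rco_none_shape (G : ModularForm (Gamma0 p) 2) (e u : ℕ) (hlp : l ≠ p)
    (hpl : l ^ (e + 1) ∣ p + 1) (hG0 : (qExpansion 1 G).coeff 0 = 1)
    (hGk : ∀ k : ℕ, 1 ≤ k → ∃ y ∈ ellInt l, (qExpansion 1 G).coeff k = (l : ℂ) ^ (e + 1) * y)
    (h24 : 24 = (N - 1) * l ^ e * u) (a : Option (ZMod p)) (n : ℕ) :
    haveI : NeZero N := ⟨hN.out.ne_zero⟩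
    ∃ y ∈ ellInt l, ∃ W : ℕ, rco G (XN N) (((l : ℂ) ^ e)⁻¹) (a, none) n
      = (l : ℂ) * y - (u : ℂ) * (W : ℂ) ∧ (n < N * p → W = 0) ∧ (n = N * p → W = 1) := by
  haveI : NeZero N := ⟨hN.out.ne_zero⟩
  obtain ⟨y, hy, hyc⟩ := lift_shape_G G e hlp hpl hG0 hGk a hN.out.pos n
  obtain ⟨W, hW, h1, h2⟩ := lift_shape_X_none (p := p) (l := l) e u h24 n
  refine ⟨y, hy, W, ?_, h1, h2⟩
  unfold rco
  simp only
  rw [hyc, hW]
  have hl0 : (l : ℂ) ≠ 0 := Nat.cast_ne_zero.mpr hl.out.ne_zero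
  field_simp
  ring

theorem rco_some_shape (G : ModularForm (Gamma0 p) 2) (e u u' : ℕ) (hlp : l ≠ p)
    (hpl : l ^ (e + 1) ∣ p + 1) (hG0 : (qExpansion 1 G).coeff 0 = 1)
    (hGk : ∀ k : ℕ, 1 ≤ k → ∃ y ∈ ellInt l, (qExpansion 1 G).coeff k = (l : ℂ) ^ (e + 1) * y)
    (h24 : 24 = (N - 1) * l ^ e * u) (hN1 : N + 1 = l ^ e * u') (a : Option (ZMod p))
    (i : ZMod N) (n : ℕ) :
    haveI : NeZero N := ⟨hN.out.ne_zero⟩
    ∃ y ∈ ellInt l, ∃ W ∈ ellInt l, rco G (XN N) (((l : ℂ) ^ e)⁻¹) (a, some i) n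
      = (if n = 0 then (u' : ℂ) * ((N : ℂ))⁻¹ else 0) + (l : ℂ) * y
        + (u : ℂ) * ((N : ℂ))⁻¹ * W ∧ (n = 0 → W = 0) := by
  haveI : NeZero N := ⟨hN.out.ne_zero⟩
  obtain ⟨y, hy, hyc⟩ := lift_shape_G G e hlp hpl hG0 hGk a hN.out.pos n
  obtain ⟨W, hWm, hW, h0⟩ := lift_shape_X_some (p := p) (l := l) e u h24 i n
  refine ⟨y, hy, W, hWm, ?_, h0⟩
  unfold rco
  simp only
  rw [hyc, hW]
  have hl0 : (l : ℂ) ≠ 0 := Nat.cast_ne_zero.mpr hl.out.ne_zero
  have hN0 : (N : ℂ) ≠ 0 := Nat.cast_ne_zero.mpr hN.out.ne_zero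
  have hN1' : (N : ℂ) + 1 = (l : ℂ) ^ e * (u' : ℂ) := by exact_mod_cast hN1
  by_cases hn : n = 0
  · simp only [hn, if_true]
    field_simp
    linear_combination hN1'
  · simp only [hn, if_false]
    field_simp
    ring

omit hp hN in
theorem isUnit_mk_of_eq (x : ellInt l) (v y : ℂ) (hv : v ∈ ellInt l) (hvinv : v⁻¹ ∈ ellInt l)
    (hv0 : v ≠ 0) (hy : y ∈ ellInt l) (hx : (x : ℂ) = v + (l : ℂ) * y) :
    IsUnit (Ideal.Quotient.mk (Ideal.span {((l : ℕ) : ellInt l)}) x) := by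
  have hxe : x = ⟨v, hv⟩ + ((l : ℕ) : ellInt l) * ⟨y, hy⟩ := Subtype.ext (by simpa using hx)
  have h0 : Ideal.Quotient.mk (Ideal.span {((l : ℕ) : ellInt l)}) ((l : ℕ) : ellInt l) = 0 :=
    Ideal.Quotient.eq_zero_iff_mem.mpr (Ideal.mem_span_singleton_self _)
  rw [hxe, map_add, map_mul, h0, zero_mul, add_zero]
  apply IsUnit.map
  exact isUnit_iff_exists_inv.mpr ⟨⟨v⁻¹, hvinv⟩, Subtype.ext (by simp [hv0])⟩

end Arith

/-! ### The main theorem -/

section Main

open Fermat.Agent.S16.Eis17 Fermat.Agent.S16.UIface39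

/-- **NORM–STURM.**  `N ≤ 3` an auxiliary prime level, `l` a prime, `24 = (N-1) l^e u`,
`N + 1 = l^e u'` with `u, u'` prime to `l`, `l ≠ p, N` and `l^(e+1) ∣ p + 1`: there is no
`G ∈ M₂(Γ₀(p))` with `G ≡ 1 mod l^(e+1)`. -/
theorem noCong_of (p N l : ℕ) (hp : p.Prime) (hN : N.Prime) (hl : l.Prime) (hN3 : N ≤ 3)
    (hlp : l ≠ p) (hlN : l ≠ N) (e u u' : ℕ) (hu : ¬ l ∣ u) (hu' : ¬ l ∣ u')
    (h24 : 24 = (N - 1) * l ^ e * u) (hN1 : N + 1 = l ^ e * u')
    (hpl : l ^ (e + 1) ∣ p + 1) : NoCong p l (e + 1) := by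
  intro G hG0 hGk
  haveI : Fact p.Prime := ⟨hp⟩
  haveI : Fact N.Prime := ⟨hN⟩
  haveI : Fact l.Prime := ⟨hl⟩
  haveI : NeZero N := ⟨hN.ne_zero⟩
  have hG0' : (qExpansion 1 G).coeff 0 = 1 := hG0
  have hGk' : ∀ k : ℕ, 1 ≤ k →
      ∃ y ∈ ellInt l, (qExpansion 1 G).coeff k = (l : ℂ) ^ (e + 1) * y :=
    fun k hk => exists_of_inPow (hGk k hk)
  have hl0 : (l : ℂ) ≠ 0 := Nat.cast_ne_zero.mpr hl.ne_zero
  have hN0 : (N : ℂ) ≠ 0 := Nat.cast_ne_zero.mpr hN.ne_zero
  have hNinv : ((N : ℂ))⁻¹ ∈ ellInt l := inv_natCast_mem_ellInt (not_dvd_of_prime_ne hN hlN)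
  have hu0 : (u : ℂ) ≠ 0 := by
    intro h0
    exact hu (by rw [Nat.cast_eq_zero.mp h0]; exact dvd_zero l)
  have hu'0 : (u' : ℂ) ≠ 0 := by
    intro h0
    exact hu' (by rw [Nat.cast_eq_zero.mp h0]; exact dvd_zero l)
  set c : ℂ := ((l : ℂ) ^ e)⁻¹ with hc
  -- the coefficients are `l`-integral
  have hmem : ∀ (ab : Option (ZMod p) × Option (ZMod N)) (n : ℕ),
      rco G (XN N) c ab n ∈ ellInt l := by
    rintro ⟨a, b⟩ n
    cases b with
    | none =>
      obtain ⟨y, hy, W, h, -, -⟩ := rco_none_shape G e u hlp hpl hG0' hGk' h24 a n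
      rw [h]
      exact (ellInt l).sub_mem ((ellInt l).mul_mem (natCast_mem (ellInt l) l) hy)
        ((ellInt l).mul_mem (natCast_mem (ellInt l) u) (natCast_mem (ellInt l) W))
    | some i =>
      obtain ⟨y, hy, W, hW, h, -⟩ := rco_some_shape G e u u' hlp hpl hG0' hGk' h24 hN1 a i n
      rw [h]
      refine (ellInt l).add_mem ((ellInt l).add_mem ?_
        ((ellInt l).mul_mem (natCast_mem (ellInt l) l) hy))
        ((ellInt l).mul_mem ((ellInt l).mul_mem (natCast_mem (ellInt l) u) hNinv) hW)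
      split_ifs
      · exact (ellInt l).mul_mem (natCast_mem (ellInt l) u') hNinv
      · exact (ellInt l).zero_mem
  let Q : Option (ZMod p) × Option (ZMod N) → PowerSeries (ellInt l) :=
    fun ab => PowerSeries.mk fun n => ⟨rco G (XN N) c ab n, hmem ab n⟩
  have hcardι : Fintype.card (Option (ZMod p) × Option (ZMod N)) = (p + 1) * (N + 1) := card_index
  have hcard1 : (Finset.univ.filter
      fun ab : Option (ZMod p) × Option (ZMod N) => ab.2 = none).card = p + 1 := by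
    have : (Finset.univ.filter fun ab : Option (ZMod p) × Option (ZMod N) => ab.2 = none)
        = (Finset.univ : Finset (Option (ZMod p))) ×ˢ ({none} : Finset (Option (ZMod N))) := by
      ext ⟨a, b⟩
      simp only [Finset.mem_filter, Finset.mem_univ, true_and, Finset.mem_product,
        Finset.mem_singleton]
    rw [this, Finset.card_product, Finset.card_univ, Finset.card_singleton, mul_one,
      Fintype.card_option, ZMod.card]
  refine normSturm_false (ellInt l) (Ideal.span {((l : ℕ) : ellInt l)}) span_ell_ne_top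
    (h := N * p) (Nat.mul_pos hN.pos hp.pos) Finset.univ
    (Finset.univ.filter fun ab : Option (ZMod p) × Option (ZMod N) => ab.2 = none)
    (Finset.filter_subset _ _) (resFun G (XN N) c)
    (fun ab _ => analyticAt_resFun G (XN N) c ab) Q ?_ ?_ ?_ (resForm G (XN N) c)
    (coe_resForm G (XN N) c)
    (((2 : ℤ) * (Fintype.card (Option (ZMod p) × Option (ZMod N)) : ℤ)).toNat / 12) ?_
    (fun S h => SturmMod32.coeff_mem_of_forall_le_int S (resForm G (XN N) c) h)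
  · -- the expansions
    intro ab _
    ext n
    rw [qExpansion_resFun_coeff, PowerSeries.coeff_map, PowerSeries.coeff_mk]
    rfl
  · -- the factors with `b = none`
    intro ab hab
    obtain ⟨a, b⟩ := ab
    have hb : b = none := by simpa using hab
    subst hb
    constructor
    · intro m hm
      obtain ⟨y, hy, W, h, hW0, -⟩ := rco_none_shape G e u hlp hpl hG0' hGk' h24 a m
      rw [PowerSeries.coeff_mk, mem_span_ell_iff]
      refine ⟨y, hy, ?_⟩
      show rco G (XN N) c (a, none) m = (l : ℂ) * y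
      rw [h, hW0 hm]
      simp
    · obtain ⟨y, hy, W, h, -, hW1⟩ := rco_none_shape G e u hlp hpl hG0' hGk' h24 a (N * p)
      rw [PowerSeries.coeff_mk]
      refine isUnit_mk_of_eq _ (-(u : ℂ)) y ((ellInt l).neg_mem (natCast_mem (ellInt l) u)) ?_
        (neg_ne_zero.mpr hu0) hy ?_
      · rw [inv_neg]
        exact (ellInt l).neg_mem (inv_natCast_mem_ellInt hu)
      · show rco G (XN N) c (a, none) (N * p) = -(u : ℂ) + (l : ℂ) * y
        rw [h, hW1 rfl]
        push_cast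
        ring
  · -- the factors with `b ≠ none`
    intro ab hab
    obtain ⟨a, b⟩ := ab
    have hb : b ≠ none := by simpa using hab
    obtain ⟨i, rfl⟩ := Option.ne_none_iff_exists'.mp hb
    obtain ⟨y, hy, W, hW, h, hW0⟩ := rco_some_shape G e u u' hlp hpl hG0' hGk' h24 hN1 a i 0
    rw [PowerSeries.coeff_mk]
    refine isUnit_mk_of_eq _ ((u' : ℂ) * ((N : ℂ))⁻¹) y
      ((ellInt l).mul_mem (natCast_mem (ellInt l) u') hNinv) ?_
      (mul_ne_zero hu'0 (inv_ne_zero hN0)) hy ?_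
    · rw [mul_inv, inv_inv]
      exact (ellInt l).mul_mem (inv_natCast_mem_ellInt hu') (natCast_mem (ellInt l) N)
    · show rco G (XN N) c (a, some i) 0 = (u' : ℂ) * ((N : ℂ))⁻¹ + (l : ℂ) * y
      rw [h, hW0 rfl]
      simp
  · -- the Sturm bound
    rw [hcard1, hcardι]
    have h4 : (N + 1) ≤ 4 := by omega
    have hle : (p + 1) * (N + 1) ≤ (p + 1) * 4 := Nat.mul_le_mul_left _ h4
    have : ((2 : ℤ) * (((p + 1) * (N + 1) : ℕ) : ℤ)).toNat = 2 * ((p + 1) * (N + 1)) := by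
      rw [show (2 : ℤ) * (((p + 1) * (N + 1) : ℕ) : ℤ) = ((2 * ((p + 1) * (N + 1)) : ℕ) : ℤ) by
        push_cast; ring]
      exact Int.toNat_natCast _
    rw [this]
    omega

end Main

/-! ### The three instances -/

section Instances

open Fermat.Agent.S16.UIface39

/-- (U5) = (D): no `G ≡ 1 mod 8` when `8 ∣ p + 1`  [`(l, N, e, u, u') = (2, 3, 2, 3, 1)`]. -/
theorem u8Stmt : U8Stmt := by
  intro p hp hp5 h8
  exact noCong_of p 3 2 hp (by norm_num) (by norm_num) le_rfl (by omega) (by norm_num) 2 3 1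
    (by norm_num) (by norm_num) (by norm_num) (by norm_num) (by simpa using h8)

/-- (U4) = (C): no `G ≡ 1 mod 9` when `9 ∣ p + 1`  [`(l, N, e, u, u') = (3, 2, 1, 8, 1)`]. -/
theorem u9Stmt : U9Stmt := by
  intro p hp hp5 h9
  exact noCong_of p 2 3 hp (by norm_num) (by norm_num) (by norm_num) (by omega) (by norm_num)
    1 8 1 (by norm_num) (by norm_num) (by norm_num) (by norm_num) (by simpa using h9)

/-- (U2) = (B): no `G ≡ 1 mod l` when `l ≥ 5`, `l ≠ p`, `l ∣ p + 1`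
[`(l, N, e, u, u') = (l, 2, 0, 24, 3)`]. -/
theorem uSwDStmt : USwDStmt := by
  intro p l hp hp5 hl hl5 hlp hdvd
  refine noCong_of p 2 l hp (by norm_num) hl (by norm_num) hlp (by omega) 0 24 3 ?_ ?_
    (by norm_num) (by norm_num) (by simpa using hdvd)
  · intro h
    have hle := Nat.le_of_dvd (by norm_num) h
    interval_cases l <;> revert h <;> revert hl <;> norm_num
  · intro h
    have hle := Nat.le_of_dvd (by norm_num) h
    omega

end Instances

end Fermat.Agent.S16.Norm23
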