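/-
S16 (Mazur's Eisenstein index), package (0): DUALITY REDUCTION (helper3).
`s16_of_UL`: the frozen S16 statement follows from
  (U) `∀ M, EisCong p M → M ∣ eisensteinNumerator p`  and  (L) `EisCong p (eisensteinNumerator p)`,
where `EisCong p M` says: some integral weight-2 cusp form of level `Γ₀(p)` has `q`-expansion
`≡ ∑ σ'(k) q^k (mod M)`, `σ'(k) = ∑_{d ∣ k, p ∤ d} d`.
-/
import Fermat.Prelude.Def_CuspForm_HeckeLocal
import Fermat.Prelude.Def_CuspForm_HeckeEvalForms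
import Fermat.Prelude.Def_HeckeGalois_EichlerShimura
import Fermat.Prelude.Def_ModularCurve_ModularUnit
import Fermat.Agent.S49.Basic

set_option autoImplicit false
set_option linter.unusedSectionVars false

open ModularCurve CuspForm ModularFormClass CongruenceSubgroup

namespace Fermat.Agent.S16.Dual3

open Fermat.Agent.S49 (qc_add qc_zsmul qc_heckeT qc_heckeU mem_intLattice_iff_qc eq_zero_of_qc
  qc_cusp_zero qc_smul)

section arithmetic

/-- `σ'(k) = ∑_{d ∣ k, p ∤ d} d`, the `k`-th coefficient of the weight-2 Eisenstein series of level `p`. -/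
def sigmaP (p k : ℕ) : ℤ := ∑ d ∈ k.divisors with ¬ p ∣ d, (d : ℤ)

lemma sigmaP_one (p : ℕ) (hp : p ≠ 1) : sigmaP p 1 = 1 := by
  have : ¬ p ∣ 1 := by rwa [Nat.dvd_one]
  simp [sigmaP, Finset.filter_singleton, this]

/-- `σ'` as a natural number. -/
def sigmaPn (p k : ℕ) : ℕ := ∑ d ∈ k.divisors with ¬ p ∣ d, d

lemma sigmaP_eq (p k : ℕ) : sigmaP p k = (sigmaPn p k : ℤ) := by
  simp [sigmaP, sigmaPn]

/-- `σ'(p k) = σ'(k)`. -/
lemma sigmaPn_mul_self {p : ℕ} (hp : p.Prime) (k : ℕ) (hk : k ≠ 0) :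
    sigmaPn p (k * p) = sigmaPn p k := by
  unfold sigmaPn
  apply Finset.sum_congr _ (fun _ _ => rfl)
  ext d
  simp only [Finset.mem_filter, Nat.mem_divisors]
  constructor
  · rintro ⟨⟨hd, -⟩, hpd⟩
    refine ⟨⟨?_, hk⟩, hpd⟩
    exact (Nat.Coprime.dvd_mul_right ((Nat.Prime.coprime_iff_not_dvd hp).mpr hpd).symm).mp hd
  · rintro ⟨⟨hd, -⟩, hpd⟩
    exact ⟨⟨Dvd.dvd.mul_right hd p, mul_ne_zero hk hp.ne_zero⟩, hpd⟩

/-- the Hecke recursion satisfied by `σ'` at a prime `ℓ ≠ p`. -/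
lemma sigmaPn_mul_prime {p ℓ : ℕ} (hp : p.Prime) (hℓ : ℓ.Prime) (hℓp : ℓ ≠ p) (k : ℕ) (hk : k ≠ 0) :
    sigmaPn p (k * ℓ) + (if ℓ ∣ k then ℓ * sigmaPn p (k / ℓ) else 0) = (1 + ℓ) * sigmaPn p k := by
  classical
  have hpl : ∀ e : ℕ, p ∣ ℓ * e ↔ p ∣ e := by
    intro e
    constructor
    · intro h
      rcases (Nat.Prime.dvd_mul hp).mp h with h1 | h1
      · exact absurd ((Nat.prime_dvd_prime_iff_eq hp hℓ).mp h1).symm hℓp
      · exact h1
    · intro h; exact Dvd.dvd.mul_left h ℓ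
  -- split the divisors of `k ℓ`
  have h1 : sigmaPn p (k * ℓ) =
      (∑ d ∈ ((k * ℓ).divisors.filter (fun d => ¬ p ∣ d)).filter (fun d => d ∣ k), d) +
      (∑ d ∈ ((k * ℓ).divisors.filter (fun d => ¬ p ∣ d)).filter (fun d => ¬ d ∣ k), d) := by
    unfold sigmaPn
    rw [Finset.sum_filter_add_sum_filter_not]
  have h2 : ((k * ℓ).divisors.filter (fun d => ¬ p ∣ d)).filter (fun d => d ∣ k) =
      k.divisors.filter (fun d => ¬ p ∣ d) := by
    ext d
    simp only [Finset.mem_filter, Nat.mem_divisors]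
    constructor
    · rintro ⟨⟨⟨-, -⟩, hpd⟩, hdk⟩
      exact ⟨⟨hdk, hk⟩, hpd⟩
    · rintro ⟨⟨hdk, -⟩, hpd⟩
      exact ⟨⟨⟨Dvd.dvd.mul_right hdk ℓ, mul_ne_zero hk hℓ.ne_zero⟩, hpd⟩, hdk⟩
  have h3 : ((k * ℓ).divisors.filter (fun d => ¬ p ∣ d)).filter (fun d => ¬ d ∣ k) =
      ((k.divisors.filter (fun d => ¬ p ∣ d)).filter (fun e => ¬ ℓ * e ∣ k)).image (fun e => ℓ * e) := by
    ext d
    simp only [Finset.mem_filter, Nat.mem_divisors, Finset.mem_image]
    constructor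
    · rintro ⟨⟨⟨hd, -⟩, hpd⟩, hdk⟩
      have hld : ℓ ∣ d := by
        by_contra hld
        have hcop : Nat.Coprime d ℓ := ((Nat.Prime.coprime_iff_not_dvd hℓ).mpr hld).symm
        exact hdk ((Nat.Coprime.dvd_mul_right hcop).mp hd)
      obtain ⟨e, rfl⟩ := hld
      refine ⟨e, ⟨⟨⟨?_, hk⟩, ?_⟩, hdk⟩, rfl⟩
      · rw [mul_comm k ℓ] at hd
        exact (Nat.mul_dvd_mul_iff_left hℓ.pos).mp hd
      · rwa [hpl] at hpd
    · rintro ⟨e, ⟨⟨⟨hek, -⟩, hpe⟩, hlek⟩, rfl⟩
      refine ⟨⟨⟨?_, mul_ne_zero hk hℓ.ne_zero⟩, ?_⟩, hlek⟩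
      · rw [mul_comm k ℓ]; exact Nat.mul_dvd_mul_left ℓ hek
      · rwa [hpl]
  have h4 : (∑ d ∈ ((k.divisors.filter (fun d => ¬ p ∣ d)).filter
      (fun e => ¬ ℓ * e ∣ k)).image (fun e => ℓ * e), d) =
      ℓ * ∑ e ∈ (k.divisors.filter (fun d => ¬ p ∣ d)).filter (fun e => ¬ ℓ * e ∣ k), e := by
    rw [Finset.sum_image (fun a _ b _ hab => Nat.eq_of_mul_eq_mul_left hℓ.pos hab), Finset.mul_sum]
  have h5 : sigmaPn p k =
      (∑ e ∈ (k.divisors.filter (fun d => ¬ p ∣ d)).filter (fun e => ℓ * e ∣ k), e) +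
      (∑ e ∈ (k.divisors.filter (fun d => ¬ p ∣ d)).filter (fun e => ¬ ℓ * e ∣ k), e) := by
    unfold sigmaPn
    rw [Finset.sum_filter_add_sum_filter_not]
  have h6 : (∑ e ∈ (k.divisors.filter (fun d => ¬ p ∣ d)).filter (fun e => ℓ * e ∣ k), e) =
      if ℓ ∣ k then sigmaPn p (k / ℓ) else 0 := by
    split_ifs with hlk
    · unfold sigmaPn
      apply Finset.sum_congr _ (fun _ _ => rfl)
      obtain ⟨c, rfl⟩ := hlk
      have hc : c ≠ 0 := fun h => hk (by rw [h, mul_zero])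
      rw [Nat.mul_div_cancel_left c hℓ.pos]
      ext e
      simp only [Finset.mem_filter, Nat.mem_divisors]
      constructor
      · rintro ⟨⟨⟨-, -⟩, hpe⟩, hle⟩
        exact ⟨⟨(Nat.mul_dvd_mul_iff_left hℓ.pos).mp hle, hc⟩, hpe⟩
      · rintro ⟨⟨hec, -⟩, hpe⟩
        exact ⟨⟨⟨Dvd.dvd.mul_left hec ℓ, hk⟩, hpe⟩, Nat.mul_dvd_mul_left ℓ hec⟩
    · apply Finset.sum_eq_zero
      intro e he
      simp only [Finset.mem_filter] at he
      exact absurd (Dvd.dvd.trans (Dvd.intro e rfl) he.2) hlk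
  rw [h1, h2, h3, h4]
  rw [h6] at h5
  have h7 : (∑ d ∈ k.divisors.filter (fun d => ¬ p ∣ d), d) = sigmaPn p k := rfl
  rw [h7]
  split_ifs at h5 ⊢ with hlk
  · rw [h5]; ring
  · rw [h5]; ring

end arithmetic

section lattice

variable (p : ℕ) [NeZero p]

abbrev Lat : Type := ↥(intLattice p 2)
abbrev Tl : Type := ↥(heckeLatticeAlgebra p ∅)
noncomputable def phi : HeckeAlg →+* Tl p :=
  (latticeRestrictHom p ∅).toRingHom.comp (heckeEvalForms p 2)
noncomputable def act (Q : HeckeAlg) : Module.End ℤ (Lat p) := (phi p Q : Module.End ℤ (Lat p))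
lemma coe_act (Q : HeckeAlg) (g : Lat p) :
    ((act p Q g : Lat p) : CuspForm (Gamma0 p) 2) =
      ((heckeEvalForms p 2 Q : heckeAlgebra p 2 ∅) :
        Module.End ℂ (CuspForm (Gamma0 p) 2)) (g : CuspForm (Gamma0 p) 2) := rfl


lemma act_mul (Q Q' : HeckeAlg) (g : Lat p) : act p (Q * Q') g = act p Q (act p Q' g) := by
  unfold act
  rw [map_mul]
  rfl

lemma act_add (Q Q' : HeckeAlg) (g : Lat p) : act p (Q + Q') g = act p Q g + act p Q' g := by
  unfold act
  rw [map_add]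
  rfl

lemma act_C (c : ℤ) (g : Lat p) : act p (MvPolynomial.C c) g = c • g := by
  apply Subtype.ext
  rw [coe_act, heckeEvalForms_C]
  simp

lemma act_one (g : Lat p) : act p 1 g = g := by
  unfold act
  rw [map_one]
  rfl

/-- integer `q`-expansion coefficients of an element of the lattice. -/
noncomputable def a (g : Lat p) (k : ℕ) : ℤ :=
  Classical.choose ((mem_intLattice_iff_qc (g : CuspForm (Gamma0 p) 2)).mp g.2 k)

lemma a_spec (g : Lat p) (k : ℕ) :
    qCoeff (g : CuspForm (Gamma0 p) 2) k = ((a p g k : ℤ) : ℂ) :=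
  Classical.choose_spec ((mem_intLattice_iff_qc (g : CuspForm (Gamma0 p) 2)).mp g.2 k)

lemma a_eq_of {g : Lat p} {k : ℕ} {m : ℤ} (h : qCoeff (g : CuspForm (Gamma0 p) 2) k = (m : ℂ)) :
    a p g k = m := by
  have := a_spec p g k
  rw [h] at this
  exact_mod_cast this.symm

lemma a_add (g h : Lat p) (k : ℕ) : a p (g + h) k = a p g k + a p h k := by
  apply a_eq_of
  rw [Submodule.coe_add, qc_add, a_spec, a_spec]
  push_cast; ring

lemma a_zsmul (c : ℤ) (g : Lat p) (k : ℕ) : a p (c • g) k = c * a p g k := by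
  apply a_eq_of
  rw [Submodule.coe_smul, qc_zsmul, a_spec]
  push_cast; ring

lemma a_zero_idx (g : Lat p) : a p g 0 = 0 := by
  apply a_eq_of
  rw [qc_cusp_zero]; simp

lemma ext_a {g h : Lat p} (H : ∀ k, a p g k = a p h k) : g = h := by
  apply Subtype.ext
  rw [← sub_eq_zero]
  apply eq_zero_of_qc
  intro n
  rw [Fermat.Agent.S49.qc_sub, a_spec p g, a_spec p h, H n, sub_self]

lemma act_gen_of_not_dvd (ℓ : Nat.Primes) (h : ¬ (ℓ : ℕ) ∣ p) (g : Lat p) :
    ((act p (heckeGen ℓ) g : Lat p) : CuspForm (Gamma0 p) 2) =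
      CuspForm.heckeTLin 2 ℓ.2 h (g : CuspForm (Gamma0 p) 2) := by
  rw [coe_act, heckeEvalForms_heckeGen_of_not_dvd h]
  rfl

lemma act_gen_of_dvd (ℓ : Nat.Primes) (h : (ℓ : ℕ) ∣ p) (g : Lat p) :
    ((act p (heckeGen ℓ) g : Lat p) : CuspForm (Gamma0 p) 2) =
      CuspForm.heckeULin 2 h (g : CuspForm (Gamma0 p) 2) := by
  rw [coe_act, heckeEvalForms_heckeGen_of_dvd h]
  rfl

lemma a_act_gen_of_not_dvd (ℓ : Nat.Primes) (h : ¬ (ℓ : ℕ) ∣ p) (g : Lat p) (k : ℕ) :
    a p (act p (heckeGen ℓ) g) k =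
      a p g (k * ℓ) + if (ℓ : ℕ) ∣ k then (ℓ : ℤ) * a p g (k / ℓ) else 0 := by
  apply a_eq_of
  rw [act_gen_of_not_dvd p ℓ h, qc_heckeT ℓ.2 h, a_spec, a_spec]
  split_ifs <;> push_cast <;> simp

lemma a_act_gen_of_dvd (ℓ : Nat.Primes) (h : (ℓ : ℕ) ∣ p) (g : Lat p) (k : ℕ) :
    a p (act p (heckeGen ℓ) g) k = a p g (k * ℓ) := by
  apply a_eq_of
  rw [act_gen_of_dvd p ℓ h, qc_heckeU ℓ.2.ne_zero h, a_spec]

end lattice

section eis

variable (p : ℕ) [hp : Fact p.Prime]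

/-- the Eisenstein character `ℤ[X_ℓ] → ℤ`. -/
noncomputable def eps : HeckeAlg →ₐ[ℤ] ℤ := MvPolynomial.aeval (eisensteinSystem p)

lemma eps_gen_of_not_dvd (ℓ : Nat.Primes) (h : ¬ (ℓ : ℕ) ∣ p) :
    eps p (heckeGen ℓ) = 1 + (ℓ : ℕ) := by
  rw [eps, aeval_heckeGen, eisensteinSystem_of_not_dvd h]

lemma eps_gen_of_dvd (ℓ : Nat.Primes) (h : (ℓ : ℕ) ∣ p) : eps p (heckeGen ℓ) = 1 := by
  rw [eps, aeval_heckeGen, eisensteinSystem_of_dvd h]

lemma eps_C (c : ℤ) : eps p (MvPolynomial.C c) = c := by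
  rw [eps, MvPolynomial.aeval_C]; rfl

lemma mem_eisensteinIdeal_iff (Q : HeckeAlg) : Q ∈ eisensteinIdeal p ↔ eps p Q = 0 :=
  mem_eigenIdeal_iff _ _

/-- `g` is Eisenstein mod `M` with constant `c`: `a_k(g) ≡ c σ'(k) (mod M)` for `k ≥ 1`. -/
def IsEis (M : ℕ) (c : ℤ) (g : Lat p) : Prop :=
  ∀ k : ℕ, 1 ≤ k → (M : ℤ) ∣ a p g k - c * sigmaP p k

lemma isEis_act (M : ℕ) (Q : HeckeAlg) :
    ∀ (c : ℤ) (g : Lat p), IsEis p M c g → IsEis p M (eps p Q * c) (act p Q g) := by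
  induction Q using MvPolynomial.induction_on with
  | C z =>
    intro c g hg k hk
    rw [act_C, a_zsmul, eps_C]
    have := hg k hk
    obtain ⟨u, hu⟩ := this
    exact ⟨z * u, by linear_combination z * hu⟩
  | add Q Q' hQ hQ' =>
    intro c g hg k hk
    rw [act_add, a_add, map_add]
    obtain ⟨u, hu⟩ := hQ c g hg k hk
    obtain ⟨v, hv⟩ := hQ' c g hg k hk
    exact ⟨u + v, by linear_combination hu + hv⟩
  | mul_X Q ℓ hQ =>
    intro c g hg
    have hgen : IsEis p M (eps p (heckeGen ℓ) * c) (act p (heckeGen ℓ) g) := by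
      intro k hk
      by_cases hl : (ℓ : ℕ) ∣ p
      · rw [a_act_gen_of_dvd p ℓ hl, eps_gen_of_dvd p ℓ hl, one_mul]
        have hlp : (ℓ : ℕ) = p := (Nat.prime_dvd_prime_iff_eq ℓ.2 hp.out).mp hl
        have h1 := hg (k * ℓ) (Nat.mul_pos hk ℓ.2.pos)
        have e : sigmaP p (k * (ℓ : ℕ)) = sigmaP p k := by
          rw [sigmaP_eq, sigmaP_eq, hlp, sigmaPn_mul_self hp.out k (by omega)]
        rw [e] at h1
        exact h1
      · rw [a_act_gen_of_not_dvd p ℓ hl, eps_gen_of_not_dvd p ℓ hl]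
        have hlp : (ℓ : ℕ) ≠ p := fun h => hl (h ▸ dvd_rfl)
        have hid := sigmaPn_mul_prime hp.out ℓ.2 hlp k (by omega)
        have h1 := hg (k * ℓ) (Nat.mul_pos hk ℓ.2.pos)
        by_cases hlk : (ℓ : ℕ) ∣ k
        · rw [if_pos hlk] at hid ⊢
          have hk' : 1 ≤ k / ℓ := Nat.div_pos (Nat.le_of_dvd hk hlk) ℓ.2.pos
          have h2 := hg (k / ℓ) hk'
          obtain ⟨u, hu⟩ := h1
          obtain ⟨v, hv⟩ := h2
          rw [sigmaP_eq] at hu hv ⊢
          have hid' : ((sigmaPn p (k * ℓ) : ℤ)) + (ℓ : ℕ) * (sigmaPn p (k / ℓ) : ℤ) =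
              (1 + (ℓ : ℕ)) * (sigmaPn p k : ℤ) := by exact_mod_cast hid
          exact ⟨u + (ℓ : ℕ) * v, by linear_combination hu + ((ℓ : ℕ) : ℤ) * hv + c * hid'⟩
        · rw [if_neg hlk] at hid ⊢
          obtain ⟨u, hu⟩ := h1
          rw [sigmaP_eq] at hu ⊢
          have hid' : ((sigmaPn p (k * ℓ) : ℤ)) + 0 = (1 + (ℓ : ℕ)) * (sigmaPn p k : ℤ) := by
            exact_mod_cast hid
          exact ⟨u, by linear_combination hu + c * hid'⟩
    have := hQ _ _ hgen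
    intro k hk
    have h3 := this k hk
    rw [show MvPolynomial.X ℓ = heckeGen ℓ from rfl, act_mul, map_mul]
    rw [← mul_assoc] at h3
    exact h3

end eis

section surj

variable (p : ℕ) [hp : Fact p.Prime]

lemma heckeEvalForms_surjective : Function.Surjective (heckeEvalForms p 2) := by
  rintro ⟨y, hy⟩
  refine Algebra.adjoin_induction (p := fun y hy => ∃ Q : HeckeAlg,
      heckeEvalForms p 2 Q = (⟨y, hy⟩ : heckeAlgebra p 2 ∅)) ?_ ?_ ?_ ?_ hy
  · rintro x (⟨ℓ, hℓ, hℓN, -, rfl⟩ | ⟨q, hqN, hq, -, rfl⟩)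
    · refine ⟨heckeGen ⟨ℓ, hℓ⟩, ?_⟩
      rw [heckeEvalForms_heckeGen_of_not_dvd (N := p) (ℓ := ⟨ℓ, hℓ⟩) hℓN]
      rfl
    · refine ⟨heckeGen ⟨q, hq⟩, ?_⟩
      rw [heckeEvalForms_heckeGen_of_dvd (N := p) (q := ⟨q, hq⟩) hqN]
      rfl
  · intro r
    exact ⟨MvPolynomial.C r, by rw [heckeEvalForms_C]; rfl⟩
  · rintro x y hx hy ⟨Q, hQ⟩ ⟨Q', hQ'⟩
    exact ⟨Q + Q', by rw [map_add, hQ, hQ']; rfl⟩
  · rintro x y hx hy ⟨Q, hQ⟩ ⟨Q', hQ'⟩
    exact ⟨Q * Q', by rw [map_mul, hQ, hQ']; rfl⟩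

lemma phi_surjective : Function.Surjective (phi p) := by
  intro t
  obtain ⟨s, hs⟩ := latticeRestrictHom_surjective p ∅ t
  obtain ⟨Q, hQ⟩ := heckeEvalForms_surjective p s
  exact ⟨Q, by rw [← hs, ← hQ]; rfl⟩

/-- the Eisenstein ideal of the integral Hecke algebra (as in the frozen statement). -/
noncomputable def J : Ideal (Tl p) := Ideal.map (phi p) (eisensteinIdeal p)

lemma mem_J_iff (t : Tl p) : t ∈ J p ↔ ∃ Q : HeckeAlg, eps p Q = 0 ∧ phi p Q = t := by
  unfold J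
  rw [Ideal.mem_map_iff_of_surjective _ (phi_surjective p)]
  simp only [mem_eisensteinIdeal_iff]

lemma phi_sub_eps_mem_J (Q : HeckeAlg) : phi p Q - ((eps p Q : ℤ) : Tl p) ∈ J p := by
  rw [mem_J_iff]
  refine ⟨Q - MvPolynomial.C (eps p Q), ?_, ?_⟩
  · rw [map_sub, eps_C, sub_self]
  · rw [map_sub]
    congr 1
    have : (MvPolynomial.C (eps p Q) : HeckeAlg) = ((eps p Q : ℤ) : HeckeAlg) := by
      simp
    rw [this, map_intCast]

lemma intCast_apply (z : ℤ) (g : Lat p) :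
    ((((z : ℤ) : Tl p) : Module.End ℤ (Lat p))) g = z • g := by
  simp

/-- Claim A: an Eisenstein congruence mod `M` forces `M ∣ z` for every integer `z` in `J`. -/
theorem dvd_of_intCast_mem_J (M : ℕ) (f : Lat p) (hf : IsEis p M 1 f) (z : ℤ)
    (hz : ((z : ℤ) : Tl p) ∈ J p) : (M : ℤ) ∣ z := by
  obtain ⟨Q, hQ0, hQ⟩ := (mem_J_iff p _).mp hz
  have h1 := isEis_act p M Q 1 f hf 1 le_rfl
  rw [hQ0, zero_mul, zero_mul, sub_zero] at h1
  have h2 : act p Q f = z • f := by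
    unfold act
    rw [hQ]
    exact intCast_apply p z f
  rw [h2, a_zsmul] at h1
  have h3 := hf 1 le_rfl
  rw [one_mul, sigmaP_one p hp.out.ne_one] at h3
  obtain ⟨u, hu⟩ := h1
  obtain ⟨v, hv⟩ := h3
  exact ⟨u - z * v, by linear_combination hu - z * hv⟩

end surj

section linalg

open Module

/-- two finite free `ℤ`-modules in (two-sided) nondegenerate duality: every functional on `A`
has a nonzero multiple induced by an element of `B`. -/
lemma exists_smul_mem_range {A B : Type*} [AddCommGroup A] [AddCommGroup B]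
    [Module.Finite ℤ A] [Module.Free ℤ A] [Module.Finite ℤ B] [Module.Free ℤ B]
    (i₁ : A →ₗ[ℤ] (B →ₗ[ℤ] ℤ)) (i₂ : B →ₗ[ℤ] (A →ₗ[ℤ] ℤ))
    (h₁ : Function.Injective i₁) (h₂ : Function.Injective i₂) (μ : A →ₗ[ℤ] ℤ) :
    ∃ N : ℤ, N ≠ 0 ∧ N • μ ∈ LinearMap.range i₂ := by
  have e1 : finrank ℤ A ≤ finrank ℤ B := by
    have := LinearMap.finrank_le_finrank_of_injective h₁
    rwa [Module.finrank_linearMap_self] at this
  have e2 : finrank ℤ B ≤ finrank ℤ A := by
    have := LinearMap.finrank_le_finrank_of_injective h₂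
    rwa [Module.finrank_linearMap_self] at this
  have e3 : finrank ℤ (LinearMap.range i₂) = finrank ℤ B := LinearMap.finrank_range_of_inj h₂
  have e4 := (LinearMap.range i₂).finrank_quotient_add_finrank
  rw [e3, Module.finrank_linearMap_self] at e4
  have e5 : finrank ℤ ((A →ₗ[ℤ] ℤ) ⧸ LinearMap.range i₂) = 0 := by omega
  obtain ⟨N, hN, hN0⟩ := (Module.finrank_eq_zero_iff.mp e5) (Submodule.Quotient.mk μ)
  refine ⟨N, hN, ?_⟩
  rw [← Submodule.Quotient.mk_smul, Submodule.Quotient.mk_eq_zero] at hN0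
  exact hN0

end linalg

section heckeTn

variable (p : ℕ) [hp : Fact p.Prime]

/-- the `k`-th Hecke operator as a polynomial in the generators. -/
lemma exists_heckeTn : ∀ k : ℕ, 1 ≤ k → ∃ Q : HeckeAlg,
    (∀ g : Lat p, a p (act p Q g) 1 = a p g k) ∧ eps p Q = sigmaP p k := by
  intro k
  induction k using Nat.strong_induction_on with
  | _ k ih =>
    intro hk
    rcases Nat.eq_or_lt_of_le hk with h1 | h1
    · subst h1
      refine ⟨1, fun g => by rw [act_one], ?_⟩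
      rw [map_one, sigmaP_one p hp.out.ne_one]
    · -- k ≥ 2
      have hk1 : k ≠ 1 := by omega
      have hℓ : (k.minFac).Prime := Nat.minFac_prime hk1
      set ℓ : Nat.Primes := ⟨k.minFac, hℓ⟩ with hℓdef
      obtain ⟨k', hk'⟩ : (ℓ : ℕ) ∣ k := Nat.minFac_dvd k
      have hk'pos : 1 ≤ k' := by
        rcases Nat.eq_zero_or_pos k' with h0 | h0
        · rw [h0, mul_zero] at hk'; omega
        · exact h0
      have hk'lt : k' < k := by
        rw [hk']
        exact lt_mul_of_one_lt_left hk'pos hℓ.one_lt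
      obtain ⟨Q', hQ'a, hQ'e⟩ := ih k' hk'lt hk'pos
      have hkk : k' * (ℓ : ℕ) = k := by rw [hk', mul_comm]
      by_cases hl : (ℓ : ℕ) ∣ p
      · refine ⟨Q' * heckeGen ℓ, fun g => ?_, ?_⟩
        · rw [act_mul, hQ'a, a_act_gen_of_dvd p ℓ hl, hkk]
        · rw [map_mul, hQ'e, eps_gen_of_dvd p ℓ hl, mul_one]
          have hlp : (ℓ : ℕ) = p := (Nat.prime_dvd_prime_iff_eq ℓ.2 hp.out).mp hl
          rw [sigmaP_eq, sigmaP_eq, ← hkk, hlp, sigmaPn_mul_self hp.out k' (by omega)]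
      · have hlp : (ℓ : ℕ) ≠ p := fun h => hl (h ▸ dvd_rfl)
        have hid := sigmaPn_mul_prime hp.out ℓ.2 hlp k' (by omega)
        by_cases hlk : (ℓ : ℕ) ∣ k'
        · have hk''pos : 1 ≤ k' / ℓ := Nat.div_pos (Nat.le_of_dvd hk'pos hlk) ℓ.2.pos
          have hk''lt : k' / ℓ < k := lt_of_le_of_lt (Nat.div_le_self _ _) hk'lt
          obtain ⟨Q'', hQ''a, hQ''e⟩ := ih (k' / ℓ) hk''lt hk''pos
          refine ⟨Q' * heckeGen ℓ + MvPolynomial.C (-(ℓ : ℕ) : ℤ) * Q'', fun g => ?_, ?_⟩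
          · rw [act_add, a_add, act_mul, hQ'a, a_act_gen_of_not_dvd p ℓ hl, if_pos hlk, act_mul,
              act_C, a_zsmul, hQ''a, hkk]
            ring
          · rw [map_add, map_mul, map_mul, hQ'e, hQ''e, eps_gen_of_not_dvd p ℓ hl, eps_C]
            rw [if_pos hlk] at hid
            rw [sigmaP_eq, sigmaP_eq, sigmaP_eq, ← hkk]
            have hid' : ((sigmaPn p (k' * ℓ) : ℤ)) + (ℓ : ℕ) * (sigmaPn p (k' / ℓ) : ℤ) =
                (1 + (ℓ : ℕ)) * (sigmaPn p k' : ℤ) := by exact_mod_cast hid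
            linear_combination -hid'
        · refine ⟨Q' * heckeGen ℓ, fun g => ?_, ?_⟩
          · rw [act_mul, hQ'a, a_act_gen_of_not_dvd p ℓ hl, if_neg hlk, add_zero, hkk]
          · rw [map_mul, hQ'e, eps_gen_of_not_dvd p ℓ hl]
            rw [if_neg hlk] at hid
            rw [sigmaP_eq, sigmaP_eq, ← hkk]
            have hid' : ((sigmaPn p (k' * ℓ) : ℤ)) + 0 = (1 + (ℓ : ℕ)) * (sigmaPn p k' : ℤ) := by
              exact_mod_cast hid
            linear_combination -hid'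

end heckeTn

section pairing

variable (p : ℕ) [hp : Fact p.Prime]

/-- first `q`-coefficient as a linear functional on the lattice. -/
noncomputable def a1 : Lat p →ₗ[ℤ] ℤ where
  toFun g := a p g 1
  map_add' g h := a_add p g h 1
  map_smul' c g := by simpa using a_zsmul p c g 1

/-- the pairing `(t, g) ↦ a₁(t g)`, as a map `L → Hom(T, ℤ)`. -/
noncomputable def i₂ : Lat p →ₗ[ℤ] (Tl p →ₗ[ℤ] ℤ) where
  toFun g :=
    { toFun := fun t => a p ((t : Module.End ℤ (Lat p)) g) 1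
      map_add' := fun t t' => by
        have : ((t + t' : Tl p) : Module.End ℤ (Lat p)) g =
            (t : Module.End ℤ (Lat p)) g + (t' : Module.End ℤ (Lat p)) g := rfl
        rw [this, a_add]
      map_smul' := fun c t => by
        have : ((c • t : Tl p) : Module.End ℤ (Lat p)) g = c • ((t : Module.End ℤ (Lat p)) g) := rfl
        rw [this, a_zsmul]; rfl }
  map_add' g h := by
    ext t
    simp only [LinearMap.coe_mk, AddHom.coe_mk, map_add, LinearMap.add_apply]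
    rw [a_add]
  map_smul' c g := by
    ext t
    simp only [LinearMap.coe_mk, AddHom.coe_mk, map_smul, LinearMap.smul_apply, RingHom.id_apply]
    rw [a_zsmul]; rfl

lemma i₂_apply (g : Lat p) (t : Tl p) : i₂ p g t = a p ((t : Module.End ℤ (Lat p)) g) 1 := rfl

/-- the pairing as a map `T → Hom(L, ℤ)`. -/
noncomputable def i₁ : Tl p →ₗ[ℤ] (Lat p →ₗ[ℤ] ℤ) where
  toFun t := (a1 p).comp (t : Module.End ℤ (Lat p))
  map_add' t t' := by
    ext g
    have : ((t + t' : Tl p) : Module.End ℤ (Lat p)) g =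
        (t : Module.End ℤ (Lat p)) g + (t' : Module.End ℤ (Lat p)) g := rfl
    simp only [LinearMap.comp_apply, LinearMap.add_apply]
    rw [this, map_add]
  map_smul' c t := by
    ext g
    have : ((c • t : Tl p) : Module.End ℤ (Lat p)) g = c • ((t : Module.End ℤ (Lat p)) g) := rfl
    simp only [LinearMap.comp_apply, LinearMap.smul_apply, RingHom.id_apply]
    rw [this, map_smul]

lemma i₁_apply (t : Tl p) (g : Lat p) : i₁ p t g = a p ((t : Module.End ℤ (Lat p)) g) 1 := rfl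

lemma i₂_injective : Function.Injective (i₂ p) := by
  rw [injective_iff_map_eq_zero]
  intro g hg
  apply ext_a
  intro k
  rcases Nat.eq_zero_or_pos k with h0 | h0
  · rw [h0, a_zero_idx, a_zero_idx]
  · obtain ⟨Q, hQ, -⟩ := exists_heckeTn p k h0
    have := LinearMap.congr_fun hg (phi p Q)
    rw [i₂_apply] at this
    have h2 : a p (act p Q g) 1 = 0 := this
    rw [hQ] at h2
    rw [h2]
    symm
    apply a_eq_of
    rw [Submodule.coe_zero, Fermat.Agent.S49.qc_zero]; simp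

lemma i₁_injective : Function.Injective (i₁ p) := by
  rw [injective_iff_map_eq_zero]
  intro t ht
  apply Subtype.ext
  apply LinearMap.ext
  intro g
  show (t : Module.End ℤ (Lat p)) g = 0
  apply ext_a
  intro k
  have hz : a p (0 : Lat p) k = 0 := by
    apply a_eq_of
    rw [Submodule.coe_zero, Fermat.Agent.S49.qc_zero]; simp
  rw [hz]
  rcases Nat.eq_zero_or_pos k with h0 | h0
  · rw [h0, a_zero_idx]
  · obtain ⟨Q, hQ, -⟩ := exists_heckeTn p k h0
    rw [← hQ]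
    -- commute
    have hcomm : act p Q ((t : Module.End ℤ (Lat p)) g) =
        (t : Module.End ℤ (Lat p)) (act p Q g) := by
      have : phi p Q * t = t * phi p Q := mul_comm _ _
      have h3 := congrArg (fun s : Tl p => (s : Module.End ℤ (Lat p)) g) this
      exact h3
    rw [hcomm]
    have := LinearMap.congr_fun ht (act p Q g)
    rw [i₁_apply] at this
    exact this

end pairing

section claimB

variable (p : ℕ) [hp : Fact p.Prime]

/-- the Eisenstein character mod `M` on the Hecke algebra. -/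
lemma exists_char (M : ℕ) (hK : ∀ z : ℤ, ((z : ℤ) : Tl p) ∈ J p → (M : ℤ) ∣ z) :
    ∃ ψ : Tl p →+* ZMod M, ∀ Q : HeckeAlg, ψ (phi p Q) = ((eps p Q : ℤ) : ZMod M) := by
  let g : HeckeAlg →+* ZMod M := (Int.castRingHom (ZMod M)).comp (eps p).toRingHom
  have hg : RingHom.ker (phi p) ≤ RingHom.ker g := by
    intro Q hQ
    rw [RingHom.mem_ker] at hQ ⊢
    have h1 := phi_sub_eps_mem_J p Q
    rw [hQ, zero_sub] at h1
    have h2 : ((eps p Q : ℤ) : Tl p) ∈ J p := by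
      have := (J p).neg_mem h1
      rwa [neg_neg] at this
    have h3 := hK _ h2
    show ((eps p Q : ℤ) : ZMod M) = 0
    exact (ZMod.intCast_zmod_eq_zero_iff_dvd _ _).mpr h3
  refine ⟨(phi p).liftOfSurjective (phi_surjective p) ⟨g, hg⟩, fun Q => ?_⟩
  rw [RingHom.liftOfSurjective_comp_apply]
  rfl

/-- divide an element of the lattice all of whose coefficients are divisible by `N`. -/
lemma exists_div (N : ℤ) (hN : N ≠ 0) (f₀ : Lat p) (c : ℕ → ℤ) (hc : ∀ k, a p f₀ k = N * c k) :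
    ∃ f : Lat p, ∀ k, a p f k = c k := by
  have hmem : ((N : ℂ)⁻¹ • (f₀ : CuspForm (Gamma0 p) 2)) ∈ intLattice p 2 := by
    rw [Fermat.Agent.S49.mem_intLattice_iff_qc]
    intro k
    refine ⟨c k, ?_⟩
    rw [Fermat.Agent.S49.qc_smul, a_spec, hc k]
    have : (N : ℂ) ≠ 0 := by exact_mod_cast hN
    push_cast
    field_simp
  refine ⟨⟨_, hmem⟩, fun k => ?_⟩
  apply a_eq_of
  show qCoeff (⇑((N : ℂ)⁻¹ • (f₀ : CuspForm (Gamma0 p) 2))) k = _
  rw [Fermat.Agent.S49.qc_smul, a_spec, hc k]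
  have : (N : ℂ) ≠ 0 := by exact_mod_cast hN
  push_cast
  field_simp

/-- Claim B: if `M` divides every integer lying in `J`, there is an Eisenstein congruence
mod `M`. -/
theorem exists_isEis (M : ℕ) (hK : ∀ z : ℤ, ((z : ℤ) : Tl p) ∈ J p → (M : ℤ) ∣ z) :
    ∃ f : Lat p, IsEis p M 1 f := by
  obtain ⟨ψ, hψ⟩ := exists_char p M hK
  -- lift `ψ` to an integral functional
  let ψl : Tl p →ₗ[ℤ] ZMod M := ψ.toAddMonoidHom.toIntLinearMap
  let π : ℤ →ₗ[ℤ] ZMod M := (Int.castAddHom (ZMod M)).toIntLinearMap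
  have hπ : Function.Surjective π := ZMod.intCast_surjective
  obtain ⟨μ, hμ⟩ := Module.projective_lifting_property π ψl hπ
  have hμ' : ∀ t : Tl p, ((μ t : ℤ) : ZMod M) = ψ t := fun t => LinearMap.congr_fun hμ t
  have : Module.Finite ℤ (Lat p) := intLattice.moduleFinite p
  have : Module.Free ℤ (Lat p) := intLattice.moduleFree p
  obtain ⟨N, hN, f₀, hf₀⟩ := exists_smul_mem_range (i₁ p) (i₂ p) (i₁_injective p)
    (i₂_injective p) μ
  -- coefficients of `f₀`
  have hcoef : ∀ k : ℕ, 1 ≤ k → ∀ Q : HeckeAlg,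
      (∀ g : Lat p, a p (act p Q g) 1 = a p g k) → a p f₀ k = N * μ (phi p Q) := by
    intro k _ Q hQ
    rw [← hQ f₀]
    have := LinearMap.congr_fun hf₀ (phi p Q)
    rw [i₂_apply] at this
    rw [show act p Q f₀ = ((phi p Q : Tl p) : Module.End ℤ (Lat p)) f₀ from rfl, this]
    rfl
  classical
  let c : ℕ → ℤ := fun k => if hk : 1 ≤ k then μ (phi p (Classical.choose (exists_heckeTn p k hk)))
    else 0
  have hc : ∀ k, a p f₀ k = N * c k := by
    intro k
    by_cases hk : 1 ≤ k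
    · simp only [c, dif_pos hk]
      exact hcoef k hk _ (Classical.choose_spec (exists_heckeTn p k hk)).1
    · have : k = 0 := by omega
      simp only [c, dif_neg hk, mul_zero]
      rw [this, a_zero_idx]
  obtain ⟨f, hf⟩ := exists_div p N hN f₀ c hc
  refine ⟨f, fun k hk => ?_⟩
  rw [hf k, one_mul]
  simp only [c, dif_pos hk]
  have hQ := (Classical.choose_spec (exists_heckeTn p k hk)).2
  set Q := Classical.choose (exists_heckeTn p k hk)
  rw [← hQ]
  have h1 := hμ' (phi p Q)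
  rw [hψ Q] at h1
  exact (ZMod.intCast_eq_intCast_iff_dvd_sub (eps p Q) (μ (phi p Q)) M).mp h1.symm

end claimB

section final

variable (p : ℕ) [hp : Fact p.Prime]

/-- Eisenstein congruence mod `M`: an integral weight-2 cusp form on `Γ₀(p)` with
`a_k ≡ σ'(k) (mod M)` for all `k ≥ 1`. -/
def EisCong (p M : ℕ) : Prop :=
  ∃ f ∈ CuspForm.intLattice p 2, ∀ k : ℕ, 1 ≤ k →
    ∃ c : ℤ, qCoeff f k = ((sigmaP p k + M * c : ℤ) : ℂ)

lemma eisCong_iff (M : ℕ) : EisCong p M ↔ ∃ f : Lat p, IsEis p M 1 f := by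
  constructor
  · rintro ⟨f, hf, h⟩
    refine ⟨⟨f, hf⟩, fun k hk => ?_⟩
    obtain ⟨c, hc⟩ := h k hk
    have : a p ⟨f, hf⟩ k = sigmaP p k + M * c := a_eq_of p hc
    exact ⟨c, by rw [this]; ring⟩
  · rintro ⟨f, h⟩
    refine ⟨f.1, f.2, fun k hk => ?_⟩
    obtain ⟨c, hc⟩ := h k hk
    refine ⟨c, ?_⟩
    rw [a_spec p f k]
    congr 1
    linear_combination hc

lemma one_le_eisensteinNumerator : 1 ≤ eisensteinNumerator p := by
  unfold eisensteinNumerator
  have h1 : 1 ≤ p - 1 := by have := hp.out.two_le; omega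
  have h2 : Nat.gcd (p - 1) 12 ∣ p - 1 := Nat.gcd_dvd_left _ _
  exact Nat.div_pos (Nat.le_of_dvd h1 h2) (Nat.gcd_pos_of_pos_left _ h1)

/-- every element of `T` is congruent to an integer modulo `J`. -/
lemma intCast_surjective_mod_J :
    Function.Surjective (Int.castRingHom (Tl p ⧸ J p)) := by
  intro x
  obtain ⟨t, rfl⟩ := Ideal.Quotient.mk_surjective x
  obtain ⟨Q, rfl⟩ := phi_surjective p t
  refine ⟨eps p Q, ?_⟩
  have h := phi_sub_eps_mem_J p Q
  rw [← Ideal.Quotient.eq] at h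
  rw [h]
  simp

theorem card_quotient_J (hU : ∀ M : ℕ, 0 < M → EisCong p M → M ∣ eisensteinNumerator p)
    (hL : EisCong p (eisensteinNumerator p)) :
    Nat.card (Tl p ⧸ J p) = eisensteinNumerator p := by
  set n := eisensteinNumerator p with hn
  have hn1 : 1 ≤ n := one_le_eisensteinNumerator p
  -- the kernel of `ℤ → T/J`
  set K : Ideal ℤ := RingHom.ker (Int.castRingHom (Tl p ⧸ J p)) with hK
  have hmemK : ∀ z : ℤ, z ∈ K ↔ ((z : ℤ) : Tl p) ∈ J p := by
    intro z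
    rw [hK, RingHom.mem_ker, eq_intCast]
    rw [← Ideal.Quotient.eq_zero_iff_mem]
    simp
  obtain ⟨m, hm⟩ : ∃ m : ℤ, K = Ideal.span {m} := by
    have : K.IsPrincipal := inferInstance
    exact ⟨_, this.span_singleton_generator.symm⟩
  have hmK : m ∈ K := by rw [hm]; exact Ideal.mem_span_singleton_self m
  have hdvd : ∀ z ∈ K, m ∣ z := by
    intro z hz
    rw [hm] at hz
    exact Ideal.mem_span_singleton.mp hz
  -- cardinality
  have hcard : Nat.card (Tl p ⧸ J p) = m.natAbs := by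
    have e1 : (ℤ ⧸ K) ≃+* (Tl p ⧸ J p) :=
      RingHom.quotientKerEquivOfSurjective (intCast_surjective_mod_J p)
    rw [← Nat.card_congr e1.toEquiv, hm, Nat.card_congr (Int.quotientSpanEquivZMod m).toEquiv,
      Nat.card_zmod]
  rw [hcard]
  -- lower bound: n ∣ m
  obtain ⟨fL, hfL⟩ := (eisCong_iff p n).mp hL
  have hnm : (n : ℤ) ∣ m := dvd_of_intCast_mem_J p n fL hfL m ((hmemK m).mp hmK)
  -- upper bound
  by_cases hm0 : m = 0
  · exfalso
    have hK0 : ∀ z : ℤ, ((z : ℤ) : Tl p) ∈ J p → (((n + 1 : ℕ)) : ℤ) ∣ z := by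
      intro z hz
      have := hdvd z ((hmemK z).mpr hz)
      rw [hm0, zero_dvd_iff] at this
      rw [this]; exact dvd_zero _
    have h1 := hU (n + 1) (by omega) ((eisCong_iff p (n + 1)).mpr (exists_isEis p (n + 1) hK0))
    have := Nat.le_of_dvd (by omega) h1
    omega
  · have hK1 : ∀ z : ℤ, ((z : ℤ) : Tl p) ∈ J p → ((m.natAbs : ℕ) : ℤ) ∣ z := by
      intro z hz
      have := hdvd z ((hmemK z).mpr hz)
      exact Int.natAbs_dvd.mpr this
    have hpos : 0 < m.natAbs := Int.natAbs_pos.mpr hm0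
    have h1 := hU m.natAbs hpos ((eisCong_iff p _).mpr (exists_isEis p _ hK1))
    have h2 : n ∣ m.natAbs := Int.natCast_dvd.mp hnm
    exact Nat.dvd_antisymm h1 h2

/-- **S16 from (U) and (L)**, in the frozen shape. -/
theorem s16_of_UL (hU : ∀ M : ℕ, 0 < M → EisCong p M → M ∣ eisensteinNumerator p)
    (hL : EisCong p (eisensteinNumerator p)) :
    Nat.card (↥(heckeLatticeAlgebra p ∅) ⧸
        Ideal.map ((latticeRestrictHom p ∅).toRingHom.comp (heckeEvalForms p 2))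
          (eisensteinIdeal p)) =
      eisensteinNumerator p :=
  card_quotient_J p hU hL

end final

end Fermat.Agent.S16.Dual3
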