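/-
S16, UPPER BOUND (U): small primes `p = 2, 3` and the adapter to helper3's `Dual3.s16_of_UL`
(helper39).

* `cusp_zero_two`, `cusp_zero_three` : `S₂(Γ₀(2)) = S₂(Γ₀(3)) = 0` (Sturm bound + index).
* `upper_small` : the upper bound for `p ∈ {2, 3}`.
* `upperStmt_of` : `U1Stmt → USwDStmt → U9Stmt → U8Stmt → UpStmt → EisStmt → UpperStmt`.
* `hU_of_upperStmt` : `UpperStmt → ∀ M, 0 < M → Dual3.EisCong p M → M ∣ eisensteinNumerator p`,
  the exact hypothesis `hU` of `Dual3.s16_of_UL`.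
-/
import Mathlib
import Fermat.Agent.S16.UAsm39
import Fermat.Agent.S16.Dual3
import Fermat.Agent.S24.CosetIndex
import Fermat.Prelude.Thm_ModularForm_sturm_bound_Gamma0

set_option autoImplicit false

namespace Fermat.Agent.S16.UFinal39

open CongruenceSubgroup ModularFormClass UpperHalfPlane
open Fermat.Agent.S16.UIface39 Fermat.Agent.S16.UAsm39

theorem dedekindPsi_two : ModularCurve.dedekindPsi 2 = 3 := by
  unfold ModularCurve.dedekindPsi
  rw [Nat.Prime.divisors Nat.prime_two]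
  have h1 : Squarefree 1 := squarefree_one
  have h2 : Squarefree 2 := Nat.prime_two.squarefree
  rw [Finset.filter_true_of_mem
    (by intro x hx; simp at hx; rcases hx with rfl | rfl <;> assumption)]
  simp

theorem dedekindPsi_three : ModularCurve.dedekindPsi 3 = 4 := by
  unfold ModularCurve.dedekindPsi
  rw [Nat.Prime.divisors Nat.prime_three]
  have h1 : Squarefree 1 := squarefree_one
  have h3 : Squarefree 3 := Nat.prime_three.squarefree
  rw [Finset.filter_true_of_mem
    (by intro x hx; simp at hx; rcases hx with rfl | rfl <;> assumption)]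
  simp

/-- A weight-2 cusp form on `Γ₀(N)` vanishes as soon as `2 ψ(N) < 12`. -/
theorem cusp_zero_of_index (N : ℕ) [NeZero N] (hN : 2 * ModularCurve.dedekindPsi N < 12)
    (f : CuspForm (Gamma0 N) 2) : f = 0 := by
  have hzero : (CuspForm.toModularFormₗ f) = 0 := by
    apply ModularForm.sturm_bound_Gamma0 N
    intro n hn
    have hidx := Fermat.Agent.S24.CosetCount.index_Gamma0 N
    have hn0 : n = 0 := by
      have : ((2 : ℤ) * ((CongruenceSubgroup.Gamma0 N).index : ℤ)).toNat / 12 = 0 := by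
        rw [hidx]
        omega
      omega
    subst hn0
    exact CuspFormClass.qExpansion_coeff_zero
      (Γ := (Subgroup.map (Matrix.SpecialLinearGroup.mapGL ℝ) (CongruenceSubgroup.Gamma0 N)))
      (k := 2) f one_pos (hG N)
  exact CuspForm.toModularFormₗ_injective (by simpa using hzero)

theorem cusp_zero_two (f : CuspForm (Gamma0 2) 2) : f = 0 :=
  cusp_zero_of_index 2 (by rw [dedekindPsi_two]; norm_num) f

theorem cusp_zero_three (f : CuspForm (Gamma0 3) 2) : f = 0 :=
  cusp_zero_of_index 3 (by rw [dedekindPsi_three]; norm_num) f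

theorem sigmaP_one {p : ℕ} (hp : p ≠ 1) : sigmaP p 1 = 1 := by
  have : ¬ p ∣ 1 := by rwa [Nat.dvd_one]
  simp [sigmaP, Finset.filter_singleton, this]

/-- If `S₂(Γ₀(p)) = 0` then only `M = 1` admits an Eisenstein congruence. -/
theorem dvd_one_of_cusp_zero {p : ℕ} (hp1 : p ≠ 1) (hzero : ∀ f : CuspForm (Gamma0 p) 2, f = 0)
    (M : ℕ) (f : CuspForm (Gamma0 p) 2)
    (hf : ∀ k : ℕ, 1 ≤ k → ∃ c : ℤ,
      qCoeff (f : ℍ → ℂ) k = ((sigmaP p k + (M : ℤ) * c : ℤ) : ℂ)) : M ∣ 1 := by
  obtain ⟨c, hc⟩ := hf 1 le_rfl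
  rw [hzero f] at hc
  have h0 : qCoeff (⇑(0 : CuspForm (Gamma0 p) 2)) 1 = 0 := by
    simp only [qCoeff, FunLike.coe_zero]
    rw [UpperHalfPlane.qExpansion_zero, map_zero]
  rw [h0, sigmaP_one hp1] at hc
  have hc' : (1 : ℤ) + (M : ℤ) * c = 0 := by exact_mod_cast hc.symm
  have : (M : ℤ) ∣ 1 := ⟨-c, by linarith⟩
  exact_mod_cast this

theorem upper_small {p : ℕ} (hp : p = 2 ∨ p = 3) (M : ℕ) (f : CuspForm (Gamma0 p) 2)
    (hf : ∀ k : ℕ, 1 ≤ k → ∃ c : ℤ,
      qCoeff (f : ℍ → ℂ) k = ((sigmaP p k + (M : ℤ) * c : ℤ) : ℂ)) :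
    M ∣ ModularCurve.eisensteinNumerator p := by
  rcases hp with rfl | rfl
  · exact (dvd_one_of_cusp_zero (by norm_num) cusp_zero_two M f hf).trans (one_dvd _)
  · exact (dvd_one_of_cusp_zero (by norm_num) cusp_zero_three M f hf).trans (one_dvd _)

/-- The upper bound for all primes from the package statements. -/
theorem upperStmt_of (hU1 : U1Stmt) (hSwD : USwDStmt) (h9 : U9Stmt) (h8 : U8Stmt) (hUp : UpStmt)
    (hE : EisStmt) : UpperStmt := by
  intro p hp M f hint hf
  by_cases hp5 : 5 ≤ p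
  · exact upper_of hU1 hSwD h9 h8 hUp hE hp hp5 M f hint hf
  · have h2 := hp.two_le
    have hp23 : p = 2 ∨ p = 3 := by
      have : p < 5 := by omega
      interval_cases p
      · left; rfl
      · right; rfl
      · exact absurd hp (by norm_num)
    exact upper_small hp23 M f hf

theorem sigmaP_eq (p k : ℕ) : Fermat.Agent.S16.Dual3.sigmaP p k = sigmaP p k := rfl

/-- The hypothesis `hU` of `Dual3.s16_of_UL`. -/
theorem hU_of_upperStmt (h : UpperStmt) (p : ℕ) [hp : Fact p.Prime] (M : ℕ) (_hM : 0 < M)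
    (hc : Fermat.Agent.S16.Dual3.EisCong p M) : M ∣ ModularCurve.eisensteinNumerator p := by
  obtain ⟨f, hf, hk⟩ := hc
  refine h p hp.out M f ((Fermat.Agent.S49.mem_intLattice_iff_qc f).mp hf) (fun k hk1 => ?_)
  obtain ⟨c, hc⟩ := hk k hk1
  exact ⟨c, by rw [hc, sigmaP_eq]⟩

end Fermat.Agent.S16.UFinal39
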