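/-
S16 final wiring helpers (helper3).

* `hU_of_upperStmt` : helper39's `UIface39.UpperStmt` gives hypothesis `hU` of `Dual3.s16_of_UL`.
* `hL_of_forall_dvd`, `hL_of_operator` : the shape in which the cohomological lower bound
  (Shimura class + Hecke-equivariant period map) delivers hypothesis `hL` of `Dual3.s16_of_UL`:
  "a Hecke polynomial `Q` with Eisenstein value `0` which acts on `S₂(Γ₀(p))` as the integer `z`
  has `n ∣ z`".
* `s16_of` : final statement from both.
-/
import Fermat.Agent.S16.Dual3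
import Fermat.Agent.S16.UIface39
import Fermat.Agent.S23.Final

set_option autoImplicit false

open ModularCurve CuspForm ModularFormClass CongruenceSubgroup

namespace Fermat.Agent.S16.Wire3

open Fermat.Agent.S16.Dual3

/-- The two definitions of `σ'` agree (definitionally). -/
lemma sigmaP_eq (p k : ℕ) : Fermat.Agent.S16.UIface39.sigmaP p k = Dual3.sigmaP p k := rfl

/-- helper39's `UpperStmt` gives `hU`. -/
theorem hU_of_upperStmt (h : Fermat.Agent.S16.UIface39.UpperStmt) (p : ℕ) [hp : Fact p.Prime]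
    (M : ℕ) (_hM : 0 < M) (hE : EisCong p M) : M ∣ eisensteinNumerator p := by
  obtain ⟨f, hf, hc⟩ := hE
  refine h p hp.out M f ((Fermat.Agent.S49.mem_intLattice_iff_qc f).mp hf) ?_
  intro k hk
  obtain ⟨c, hc⟩ := hc k hk
  exact ⟨c, by rw [hc, sigmaP_eq]⟩

/-- (L) from "every integer in `J` is divisible by `n`". -/
theorem hL_of_forall_dvd (p : ℕ) [Fact p.Prime] (M : ℕ)
    (hK : ∀ z : ℤ, ((z : ℤ) : Tl p) ∈ J p → (M : ℤ) ∣ z) : EisCong p M :=
  (eisCong_iff p M).mpr (exists_isEis p M hK)

/-- If `Q` acts on the lattice as the integer `z`, then it acts on all of `S₂(Γ₀(p))` as `z`. -/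
theorem heckeEvalForms_eq_intCast_of_phi (p : ℕ) [Fact p.Prime] (Q : HeckeAlg) (z : ℤ)
    (h : phi p Q = (z : Tl p)) :
    heckeEvalForms p 2 Q = ((z : ℤ) : heckeAlgebra p 2 ∅) := by
  have hint : HasIntegralStructure p 2 := Fermat.Agent.S23.Final.hasIntegralStructure p 2
  apply (latticeRestrictHom_bijective p ∅ hint).1
  rw [map_intCast]
  exact h

/-- (L), operator form: if every Hecke polynomial `Q` with `eps Q = 0` (i.e. in the abstract
Eisenstein ideal) which acts on `S₂(Γ₀(p))` as multiplication by an integer `z` has `M ∣ z`, then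
there is an Eisenstein congruence mod `M`. -/
theorem hL_of_operator (p : ℕ) [Fact p.Prime] (M : ℕ)
    (h : ∀ (Q : HeckeAlg) (z : ℤ), Q ∈ eisensteinIdeal p →
      (∀ f : CuspForm (Gamma0 p) 2,
        ((heckeEvalForms p 2 Q : heckeAlgebra p 2 ∅) :
          Module.End ℂ (CuspForm (Gamma0 p) 2)) f = (z : ℂ) • f) → (M : ℤ) ∣ z) :
    EisCong p M := by
  refine hL_of_forall_dvd p M fun z hz => ?_
  obtain ⟨Q, hQ0, hQ⟩ := (mem_J_iff p _).mp hz
  refine h Q z ((mem_eisensteinIdeal_iff p Q).mpr hQ0) fun f => ?_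
  rw [heckeEvalForms_eq_intCast_of_phi p Q z hQ]
  have h1 : (((z : ℤ) : heckeAlgebra p 2 ∅) : Module.End ℂ (CuspForm (Gamma0 p) 2)) =
      ((z : ℤ) : Module.End ℂ (CuspForm (Gamma0 p) 2)) := by
    norm_cast
  rw [h1, Module.End.intCast_apply]
  exact (Int.cast_smul_eq_zsmul ℂ z f).symm

/-- **S16** from helper39's `UpperStmt` and the lower bound `EisCong p n`. -/
theorem s16_of (hU : Fermat.Agent.S16.UIface39.UpperStmt) (p : ℕ) [Fact p.Prime]
    (hL : EisCong p (eisensteinNumerator p)) :
    Nat.card (↥(heckeLatticeAlgebra p ∅) ⧸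
        Ideal.map ((latticeRestrictHom p ∅).toRingHom.comp (heckeEvalForms p 2))
          (eisensteinIdeal p)) =
      eisensteinNumerator p :=
  s16_of_UL p (fun M hM hE => hU_of_upperStmt hU p M hM hE) hL

end Fermat.Agent.S16.Wire3
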