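/-
S16 / (U)-ESYMM (helper74): elementary symmetric functions of the translates of a modular form.

Generalises Mathlib's `ModularForm.norm` / `ModularForm.trace`.
-/
import Mathlib
import Fermat.Prelude.Thm_UpperHalfPlane_qExpansion_coeff_nat_mul
import Fermat.Agent.S24.HasQExp

set_option autoImplicit false

open UpperHalfPlane SlashInvariantForm
open scoped ModularForm Topology Filter Manifold MatrixGroups

noncomputable section

namespace Fermat.Agent.S16.Esymm74

variable {𝒢 ℋ : Subgroup (GL (Fin 2) ℝ)} {F : Type*} (f : F) [FunLike F ℍ ℂ] {k : ℤ}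

local notation "𝒬" => ℋ ⧸ (𝒢.subgroupOf ℋ)

section SIF

variable [SlashInvariantFormClass F 𝒢 k] (ℋ) [𝒢.IsFiniteRelIndex ℋ]

/-- The `j`-th elementary symmetric function of the `ℋ`-translates of `f`. -/
def esymmFun (j : ℕ) : ℍ → ℂ :=
  let := Fintype.ofFinite 𝒬
  ∑ S ∈ Finset.powersetCard j (Finset.univ : Finset 𝒬), ∏ q ∈ S, quotientFunc f q

lemma esymmFun_slash [ℋ.HasDetPlusMinusOne] {h : GL (Fin 2) ℝ} (hh : h ∈ ℋ) (j : ℕ) :
    esymmFun ℋ f j ∣[k * j] h = esymmFun ℋ f j := by
  classical
  let := Fintype.ofFinite 𝒬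
  unfold esymmFun
  rw [SlashAction.sum_slash]
  let σ : Equiv.Perm 𝒬 := MulAction.toPerm ((⟨h, hh⟩ : ℋ)⁻¹)
  have key : ∀ S ∈ Finset.powersetCard j (Finset.univ : Finset 𝒬),
      (∏ q ∈ S, quotientFunc f q) ∣[k * j] h
        = ∏ q ∈ S.map σ.toEmbedding, quotientFunc f q := by
    intro S hS
    have hc : S.card = j := (Finset.mem_powersetCard.mp hS).2
    rw [← hc, ModularForm.prod_slash, Subgroup.HasDetPlusMinusOne.abs_det hh, one_zpow, one_smul,
      Finset.prod_map]
    refine Finset.prod_congr rfl fun q _ => ?_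
    rw [quotientFunc_smul f hh]
    rfl
  rw [Finset.sum_congr rfl key]
  refine Finset.sum_bij' (fun S _ => S.map σ.toEmbedding) (fun S _ => S.map σ.symm.toEmbedding)
    ?_ ?_ ?_ ?_ ?_
  · intro S hS
    rw [Finset.mem_powersetCard] at hS ⊢
    exact ⟨Finset.subset_univ _, by rw [Finset.card_map]; exact hS.2⟩
  · intro S hS
    rw [Finset.mem_powersetCard] at hS ⊢
    exact ⟨Finset.subset_univ _, by rw [Finset.card_map]; exact hS.2⟩
  · intro S _
    ext q
    simp
  · intro S _
    ext q
    simp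
  · intro S _
    rfl

/-- The `j`-th elementary symmetric function of the translates, as a slash-invariant form of
weight `k * j` for `ℋ`. -/
protected def esymmSIF [ℋ.HasDetPlusMinusOne] (j : ℕ) : SlashInvariantForm ℋ (k * j) where
  toFun := esymmFun ℋ f j
  slash_action_eq' _ hh := esymmFun_slash ℋ f hh j

end SIF

section MF

variable (ℋ) [𝒢.IsFiniteRelIndex ℋ] [ℋ.HasDetPlusMinusOne] [ModularFormClass F 𝒢 k]

/-- The `j`-th elementary symmetric function of the translates of a modular form, as a modular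
form of weight `k * j` for `ℋ`. -/
def esymmForm (j : ℕ) : ModularForm ℋ (k * j) where
  __ := Esymm74.esymmSIF ℋ f j
  holo' := by
    let := Fintype.ofFinite 𝒬
    exact .sum fun S _ => .prod (Quotient.forall.mpr fun ⟨r, hr⟩ _ ↦ (ModularForm.translate f r⁻¹).holo')
  bdd_at_cusps' h γ := by
    rintro rfl
    let := Fintype.ofFinite 𝒬
    change IsBoundedAtImInfty (esymmFun ℋ f j ∣[k * j] γ)
    unfold esymmFun
    rw [IsBoundedAtImInfty, Filter.BoundedAtFilter, SlashAction.sum_slash, Finset.sum_fn]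
    refine .fun_sum fun S hS => ?_
    have hc : S.card = j := (Finset.mem_powersetCard.mp hS).2
    rw [← hc, ModularForm.prod_slash]
    apply Asymptotics.IsBigO.const_smul_left
    rw [show (1 : ℍ → ℝ) = (fun x ↦ ∏ i ∈ S, (1 : ℝ)) by ext; simp, Finset.prod_fn]
    refine .finsetProd (Quotient.forall.mpr fun ⟨r, hr⟩ _ ↦
      (ModularForm.translate f _).bdd_at_cusps' ?_ γ rfl)
    simpa using h.of_isFiniteRelIndex_conj hr

@[simp] lemma esymmForm_apply (j : ℕ) (τ : ℍ) :
    esymmForm ℋ f j τ = esymmFun ℋ f j τ := rfl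

/-- Pointwise description through `Multiset.esymm`, for an arbitrary enumeration `e : ι ≃ 𝒬` of
the cosets. -/
lemma esymmForm_apply_eq_esymm {ι : Type*} [Fintype ι] (e : ι ≃ 𝒬) (j : ℕ) (τ : ℍ) :
    esymmForm ℋ f j τ
      = ((Finset.univ : Finset ι).val.map fun i => quotientFunc f (e i) τ).esymm j := by
  classical
  let := Fintype.ofFinite 𝒬
  have h1 : ((Finset.univ : Finset ι).val.map fun i => quotientFunc f (e i) τ)
      = ((Finset.univ : Finset 𝒬).val.map fun q => quotientFunc f q τ) := by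
    rw [← Multiset.map_univ_val_equiv e, Multiset.map_map]
    rfl
  rw [h1, Finset.esymm_map_val, esymmForm_apply, esymmFun, Finset.sum_apply]
  refine Finset.sum_congr ?_ fun S _ => ?_
  · congr!
  · rw [Finset.prod_apply]

/-- **Vieta**: every translate of `f` is, at every point, a root of the monic polynomial whose
coefficients are the (level `ℋ`) forms `esymmForm ℋ f j`. -/
theorem vieta {ι : Type*} [Fintype ι] (e : ι ≃ 𝒬) (i₀ : ι) (τ : ℍ) :
    ∑ j ∈ Finset.range (Fintype.card ι + 1),
      (-1) ^ j * (esymmForm ℋ f j τ * quotientFunc f (e i₀) τ ^ (Fintype.card ι - j)) = 0 := by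
  classical
  set s : Multiset ℂ := (Finset.univ : Finset ι).val.map fun i => quotientFunc f (e i) τ with hs
  have hcard : Multiset.card s = Fintype.card ι := by simp [hs]
  have hV := Multiset.prod_X_sub_X_eq_sum_esymm s
  have hx : quotientFunc f (e i₀) τ ∈ s :=
    Multiset.mem_map.mpr ⟨i₀, Finset.mem_univ_val _, rfl⟩
  have hroot : ((s.map fun t => Polynomial.X - Polynomial.C t).prod).eval
      (quotientFunc f (e i₀) τ) = 0 := by
    rw [Polynomial.eval_multiset_prod]
    apply Multiset.prod_eq_zero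
    rw [Multiset.mem_map]
    refine ⟨Polynomial.X - Polynomial.C (quotientFunc f (e i₀) τ), ?_, by simp⟩
    exact Multiset.mem_map.mpr ⟨_, hx, rfl⟩
  rw [hV, Polynomial.eval_finsetSum, hcard] at hroot
  rw [← hroot]
  refine Finset.sum_congr rfl fun j _ => ?_
  simp [esymmForm_apply_eq_esymm ℋ f e j τ, hs]

end MF

/-! ### Transfer of `q`-expansions -/

section QExp

open Fermat.Agent.S24.HasQExp

lemma PSum.finset_sum {ι : Type*} (s : Finset ι) {P : ι → PowerSeries ℂ} {q : ℂ} {t : ι → ℂ}
    (h : ∀ i ∈ s, PSum (P i) q (t i)) : PSum (∑ i ∈ s, P i) q (∑ i ∈ s, t i) := by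
  classical
  induction s using Finset.induction_on with
  | empty => simpa using PSum.zero q
  | insert a s ha ih =>
    rw [Finset.sum_insert ha, Finset.sum_insert ha]
    exact (h a (Finset.mem_insert_self _ _)).add (ih fun i hi => h i (Finset.mem_insert_of_mem hi))

lemma PSum.finset_prod {ι : Type*} (s : Finset ι) {P : ι → PowerSeries ℂ} {q : ℂ} {t : ι → ℂ}
    (h : ∀ i ∈ s, PSum (P i) q (t i)) : PSum (∏ i ∈ s, P i) q (∏ i ∈ s, t i) := by
  classical
  induction s using Finset.induction_on with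
  | empty => simpa using PSum.C 1 q
  | insert a s ha ih =>
    rw [Finset.prod_insert ha, Finset.prod_insert ha]
    exact (h a (Finset.mem_insert_self _ _)).mul (ih fun i hi => h i (Finset.mem_insert_of_mem hi))

lemma PSum.esymm {ι : Type*} [Fintype ι] {P : ι → PowerSeries ℂ} {q : ℂ} {t : ι → ℂ}
    (h : ∀ i, PSum (P i) q (t i)) (j : ℕ) :
    PSum (((Finset.univ : Finset ι).val.map P).esymm j) q
      (((Finset.univ : Finset ι).val.map t).esymm j) := by
  rw [Finset.esymm_map_val, Finset.esymm_map_val]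
  exact PSum.finset_sum _ fun S _ => PSum.finset_prod _ fun i _ => h i

end QExp

section Transfer

open Fermat.Agent.S24.HasQExp ModularFormClass

variable {𝒢 : Subgroup (GL (Fin 2) ℝ)} [𝒢.IsFiniteRelIndex 𝒮ℒ] {F : Type*} [FunLike F ℍ ℂ]
  {k : ℤ} [ModularFormClass F 𝒢 k] (f : F)

/-- If every `SL₂(ℤ)`-translate of `f` has a convergent expansion `E i` in `q_N = exp(2πiτ/N)`,
then the level one form `esymmForm 𝒮ℒ f j` is the sum of the formal elementary symmetric function
of the `E i`. -/
theorem psum_esymmForm {ι : Type*} [Fintype ι] (e : ι ≃ 𝒮ℒ ⧸ (𝒢.subgroupOf 𝒮ℒ)) {N : ℕ}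
    (E : ι → PowerSeries ℂ)
    (hE : ∀ i (τ : ℍ), PSum (E i) (qN N τ) (quotientFunc f (e i) τ)) (j : ℕ) (τ : ℍ) :
    PSum (((Finset.univ : Finset ι).val.map E).esymm j) (qN N τ) (esymmForm 𝒮ℒ f j τ) := by
  rw [esymmForm_apply_eq_esymm 𝒮ℒ f e j τ]
  exact PSum.esymm (fun i => hE i τ) j

lemma natCast_mem_strictPeriods_SL (N : ℕ) : (N : ℝ) ∈ (𝒮ℒ).strictPeriods := by
  rw [Subgroup.strictPeriods_SL2Z, AddSubgroup.mem_zmultiples_iff]
  exact ⟨N, by simp⟩

/-- **Transfer of expansions**: the coefficients of the formal elementary symmetric function of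
the `q_N`-expansions of the translates are those of the `q`-expansion of `esymmForm 𝒮ℒ f j`,
spread out by `N`. -/
theorem coeff_esymm_eq {ι : Type*} [Fintype ι] (e : ι ≃ 𝒮ℒ ⧸ (𝒢.subgroupOf 𝒮ℒ)) {N : ℕ}
    (hN : 0 < N) (E : ι → PowerSeries ℂ)
    (hE : ∀ i (τ : ℍ), PSum (E i) (qN N τ) (quotientFunc f (e i) τ)) (j m : ℕ) :
    PowerSeries.coeff m (((Finset.univ : Finset ι).val.map E).esymm j)
      = if N ∣ m then (qExpansion 1 (esymmForm 𝒮ℒ f j)).coeff (m / N) else 0 := by
  have hN' : (0 : ℝ) < N := by exact_mod_cast hN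
  have h1 := ModularFormClass.qExpansion_coeff_unique (f := esymmForm 𝒮ℒ f j)
    (c := fun m => PowerSeries.coeff m (((Finset.univ : Finset ι).val.map E).esymm j))
    hN' (natCast_mem_strictPeriods_SL N)
    (fun τ => by
      have := psum_esymmForm f e E hE j τ
      simpa [Fermat.Agent.S24.HasQExp.PSum, qN, smul_eq_mul] using this) m
  rw [h1]
  have h2 := UpperHalfPlane.qExpansion_coeff_nat_mul (h := 1) one_pos
    (F := esymmForm 𝒮ℒ f j)
    (SlashInvariantFormClass.periodic_comp_ofComplex (esymmForm 𝒮ℒ f j)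
      one_mem_strictPeriods_SL)
    (ModularFormClass.holo (esymmForm 𝒮ℒ f j))
    (ModularFormClass.bdd_at_infty (esymmForm 𝒮ℒ f j)) hN m
  rw [mul_one] at h2
  exact h2

/-- Ring homomorphisms commute with `Multiset.esymm`. -/
lemma map_multiset_esymm {R S : Type*} [CommSemiring R] [CommSemiring S] (φ : R →+* S)
    (s : Multiset R) (j : ℕ) : φ (s.esymm j) = (s.map φ).esymm j := by
  simp only [Multiset.esymm, Multiset.powersetCard_map, map_multiset_sum, Multiset.map_map,
    Function.comp_def, map_multiset_prod]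

/-- **Integral transfer.** Let `O ⊆ ℂ` be a subring and suppose that every `SL₂(ℤ)`-translate of
`f` has a convergent `q_N`-expansion `E' i` with coefficients in `O`.  Then the formal elementary
symmetric function `P` of the `E' i` (a power series over `O`) is supported in degrees divisible
by `N`, and its `N n`-th coefficient is the `n`-th `q`-expansion coefficient of the level one form
`esymmForm 𝒮ℒ f j`. -/
theorem coeff_esymm_integral {ι : Type*} [Fintype ι] (e : ι ≃ 𝒮ℒ ⧸ (𝒢.subgroupOf 𝒮ℒ)) {N : ℕ}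
    (hN : 0 < N) (O : Subring ℂ) (E' : ι → PowerSeries O)
    (hE : ∀ i (τ : ℍ), PSum (PowerSeries.map O.subtype (E' i)) (qN N τ)
      (quotientFunc f (e i) τ)) (j : ℕ) :
    (∀ m, ¬ N ∣ m → PowerSeries.coeff m (((Finset.univ : Finset ι).val.map E').esymm j) = 0) ∧
    ∀ n, ((PowerSeries.coeff (N * n) (((Finset.univ : Finset ι).val.map E').esymm j) : O) : ℂ)
      = (qExpansion 1 (esymmForm 𝒮ℒ f j)).coeff n := by
  have key : ∀ m, ((PowerSeries.coeff m (((Finset.univ : Finset ι).val.map E').esymm j) : O) : ℂ)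
      = if N ∣ m then (qExpansion 1 (esymmForm 𝒮ℒ f j)).coeff (m / N) else 0 := by
    intro m
    have h := coeff_esymm_eq f e hN (fun i => PowerSeries.map O.subtype (E' i)) hE j m
    rw [← h]
    have h2 : ((Finset.univ : Finset ι).val.map fun i => PowerSeries.map O.subtype (E' i))
        = (((Finset.univ : Finset ι).val.map E').map (PowerSeries.map O.subtype)) := by
      rw [Multiset.map_map]; rfl
    rw [h2, ← map_multiset_esymm, PowerSeries.coeff_map]
    rfl
  refine ⟨fun m hm => ?_, fun n => ?_⟩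
  · have := key m
    rw [if_neg hm] at this
    exact_mod_cast this
  · rw [key (N * n), if_pos (dvd_mul_right N n), Nat.mul_div_cancel_left n hN]

/-- The `q`-expansion coefficients of `esymmForm 𝒮ℒ f j` lie in any subring containing the
coefficients of the `q_N`-expansions of all translates. -/
theorem qExpansion_esymmForm_coeff_mem {ι : Type*} [Fintype ι]
    (e : ι ≃ 𝒮ℒ ⧸ (𝒢.subgroupOf 𝒮ℒ)) {N : ℕ}
    (hN : 0 < N) (O : Subring ℂ) (E' : ι → PowerSeries O)
    (hE : ∀ i (τ : ℍ), PSum (PowerSeries.map O.subtype (E' i)) (qN N τ)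
      (quotientFunc f (e i) τ)) (j n : ℕ) :
    (qExpansion 1 (esymmForm 𝒮ℒ f j)).coeff n ∈ O := by
  rw [← (coeff_esymm_integral f e hN O E' hE j).2 n]
  exact SetLike.coe_mem _

/-- **Reduction.** In the situation of `coeff_esymm_integral`, let `A : O⟦X⟧` be the `q`-expansion
of `esymmForm 𝒮ℒ f j` (with coefficients in `O`).  For every ring homomorphism `φ : O →+* R`,
the image of `A` in `R⟦X⟧`, spread out by `N`, is the formal elementary symmetric function of the
images of the `E' i`. -/
theorem exists_qExpansion_reduction {ι : Type*} [Fintype ι]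
    (e : ι ≃ 𝒮ℒ ⧸ (𝒢.subgroupOf 𝒮ℒ)) {N : ℕ}
    (hN : 0 < N) (O : Subring ℂ) (E' : ι → PowerSeries O)
    (hE : ∀ i (τ : ℍ), PSum (PowerSeries.map O.subtype (E' i)) (qN N τ)
      (quotientFunc f (e i) τ)) (j : ℕ) :
    ∃ A : PowerSeries O,
      (∀ n, ((PowerSeries.coeff n A : O) : ℂ) = (qExpansion 1 (esymmForm 𝒮ℒ f j)).coeff n) ∧
      ∀ {R : Type*} [CommRing R] (φ : O →+* R) (m : ℕ),
        PowerSeries.coeff m
            (((Finset.univ : Finset ι).val.map fun i => PowerSeries.map φ (E' i)).esymm j)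
          = if N ∣ m then φ (PowerSeries.coeff (m / N) A) else 0 := by
  obtain ⟨h0, h1⟩ := coeff_esymm_integral f e hN O E' hE j
  refine ⟨PowerSeries.mk fun n =>
    PowerSeries.coeff (N * n) (((Finset.univ : Finset ι).val.map E').esymm j), fun n => ?_,
    fun {R} _ φ m => ?_⟩
  · rw [PowerSeries.coeff_mk, h1]
  · have h2 : ((Finset.univ : Finset ι).val.map fun i => PowerSeries.map φ (E' i))
        = (((Finset.univ : Finset ι).val.map E').map (PowerSeries.map φ)) := by
      rw [Multiset.map_map]; rfl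
    rw [h2, ← map_multiset_esymm, PowerSeries.coeff_map, PowerSeries.coeff_mk]
    split_ifs with hm
    · obtain ⟨c, rfl⟩ := hm
      rw [Nat.mul_div_cancel_left c hN]
    · rw [h0 m hm, map_zero]

end Transfer

end Fermat.Agent.S16.Esymm74
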