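/-
S16, upper bound (U) (helper27): GENERAL expansion transfer for helper53's `Conj53.esymmForm`
(the (C5) item of the CONJ package), any weight `k`.

If every conjugate `Conj53.conj f v` (`v : Option (ZMod p)`) is the sum of a power series `E v` in
`q_p = exp(2πiτ/p)`, then the `q`-expansion of the level-one form `Conj53.esymmForm f i` is the
`p`-decimation of the formal `i`-th elementary symmetric function of the `E v`; in particular the
norm `esymmForm f (p+1)` has `q`-expansion the decimation of `∏ v, E v`.  Integral versions over a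
subring `O ⊆ ℂ`, compatible with any ring homomorphism `O →+* R` (reduction mod an ideal).

Canonical choice of `E v`: `conjSeriesB f v` built from `a_n(f)` and helper53's `bS f n`.
-/
import Mathlib
import Fermat.Agent.S16.Conj53.Expansion
import Fermat.Agent.S16.Esymm74
import Fermat.Prelude.Thm_CongruenceSubgroup_one_mem_strictPeriods_Gamma0
import Fermat.Prelude.Thm_UpperHalfPlane_qExpansion_coeff_nat_mul

set_option autoImplicit false

open Finset

namespace Fermat.Agent.S16.ConjTransfer27

open CongruenceSubgroup ModularFormClass UpperHalfPlane Function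
open scoped MatrixGroups ModularForm Manifold
open Fermat.Agent.S24.HasQExp (qN)

local notation "PS" => Fermat.Agent.S24.HasQExp.PSum

set_option linter.unusedSectionVars false

variable {p : ℕ} [hp : Fact p.Prime] {k : ℤ}

/-! ### Canonical expansions of the conjugates -/

/-- The `q^{1/p}`-expansions of the `p + 1` conjugates of `f`, any weight: `f` itself spread out by
`p`, and `∑ b_n ζ^{jn} X^n` for `f ∣ S T^j`, with `b_n = Conj53.bS f n`, `ζ = Conj53.zeta p`. -/
noncomputable def conjSeriesB (f : ModularForm (Gamma0 p) k) : Option (ZMod p) → PowerSeries ℂ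
  | none => PowerSeries.mk fun n => if p ∣ n then (qExpansion 1 f).coeff (n / p) else 0
  | some j => PowerSeries.mk fun n => Conj53.bS f n * Conj53.zeta p ^ (j.val * n)

theorem coeff_conjSeriesB_none (f : ModularForm (Gamma0 p) k) (n : ℕ) :
    PowerSeries.coeff n (conjSeriesB f none)
      = if p ∣ n then (qExpansion 1 f).coeff (n / p) else 0 := by
  simp [conjSeriesB]

theorem coeff_conjSeriesB_some (f : ModularForm (Gamma0 p) k) (j : ZMod p) (n : ℕ) :
    PowerSeries.coeff n (conjSeriesB f (some j)) = Conj53.bS f n * Conj53.zeta p ^ (j.val * n) := by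
  simp [conjSeriesB]

theorem psum_conjSeriesB (f : ModularForm (Gamma0 p) k) (v : Option (ZMod p)) (τ : ℍ) :
    PS (conjSeriesB f v) (qN p τ) (Conj53.conj f v τ) := by
  have : NeZero p := ⟨hp.out.ne_zero⟩
  cases v with
  | none =>
    have h1 := ModularForm.hasSum_qExpansion (f := f) one_pos
      (CongruenceSubgroup.one_mem_strictPeriods_Gamma0 p) τ
    have hinj : Injective (fun n : ℕ => p * n) := fun a b hab =>
      Nat.eq_of_mul_eq_mul_left hp.out.pos hab
    set F : ℕ → ℂ := fun m => PowerSeries.coeff m (conjSeriesB f none) * qN p τ ^ m with hF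
    have h3 : ∀ x ∉ Set.range (fun n : ℕ => p * n), F x = 0 := by
      intro x hx
      have hx' : ¬ p ∣ x := by
        rintro ⟨c, rfl⟩
        exact hx ⟨c, rfl⟩
      simp [hF, conjSeriesB, hx']
    unfold Fermat.Agent.S24.HasQExp.PSum
    rw [← hinj.hasSum_iff h3]
    convert h1 using 1
    funext n
    simp only [comp_apply, hF, conjSeriesB, PowerSeries.coeff_mk, if_pos (dvd_mul_right p n),
      Nat.mul_div_cancel_left n hp.out.pos]
    rw [pow_mul, qN, Conj53.qParam_p_pow_p]
    rfl
  | some j =>
    have h1 := Conj53.hasSum_tr f (j.val : ℤ) τ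
    show HasSum _ (Conj53.tr f (j.val : ℤ) τ)
    convert h1 using 1
    funext m
    simp only [conjSeriesB, PowerSeries.coeff_mk]
    rw [zpow_natCast, ← pow_mul]
    rfl

/-! ### Pointwise description of `esymmForm` -/

theorem esymmForm_apply_eq (f : ModularForm (Gamma0 p) k) (i : ℕ) (τ : ℍ) :
    Conj53.esymmForm f i τ
      = ∑ s ∈ powersetCard i (univ : Finset (Option (ZMod p))), ∏ v ∈ s, Conj53.conj f v τ := by
  rw [Conj53.esymmForm_apply]
  unfold Conj53.esymmConj Conj53.esymmFun
  rw [Finset.sum_apply]
  refine Finset.sum_congr rfl fun s _ => ?_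
  rw [Finset.prod_apply]

theorem card_option_zmod : Fintype.card (Option (ZMod p)) = p + 1 := by
  rw [Fintype.card_option, ZMod.card]

/-- The norm: `esymmForm f (p+1)` is the product of all the conjugates. -/
theorem esymmForm_norm_apply (f : ModularForm (Gamma0 p) k) (τ : ℍ) :
    Conj53.esymmForm f (p + 1) τ = ∏ v : Option (ZMod p), Conj53.conj f v τ := by
  rw [esymmForm_apply_eq, ← card_option_zmod (p := p), ← Finset.card_univ,
    Finset.powersetCard_self, Finset.sum_singleton]

/-- Formal `i`-th elementary symmetric function of a family of power series. -/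
noncomputable def esymmSeries {R : Type*} [CommRing R] (E : Option (ZMod p) → PowerSeries R)
    (i : ℕ) : PowerSeries R :=
  ∑ s ∈ powersetCard i (univ : Finset (Option (ZMod p))), ∏ v ∈ s, E v

theorem esymmSeries_norm {R : Type*} [CommRing R] (E : Option (ZMod p) → PowerSeries R) :
    esymmSeries E (p + 1) = ∏ v : Option (ZMod p), E v := by
  unfold esymmSeries
  rw [← card_option_zmod (p := p), ← Finset.card_univ, Finset.powersetCard_self,
    Finset.sum_singleton]

theorem map_esymmSeries {R S : Type*} [CommRing R] [CommRing S] (φ : R →+* S)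
    (E : Option (ZMod p) → PowerSeries R) (i : ℕ) :
    PowerSeries.map φ (esymmSeries E i) = esymmSeries (fun v => PowerSeries.map φ (E v)) i := by
  unfold esymmSeries
  rw [map_sum]
  refine Finset.sum_congr rfl fun s _ => ?_
  rw [map_prod]

/-! ### Transfer -/

section Transfer

variable (f : ModularForm (Gamma0 p) k) (E : Option (ZMod p) → PowerSeries ℂ)

theorem psum_esymmSeries (hE : ∀ v (τ : ℍ), PS (E v) (qN p τ) (Conj53.conj f v τ)) (i : ℕ)
    (τ : ℍ) : PS (esymmSeries E i) (qN p τ) (Conj53.esymmForm f i τ) := by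
  rw [esymmForm_apply_eq]
  unfold esymmSeries
  exact Esymm74.PSum.finset_sum _ fun s _ => Esymm74.PSum.finset_prod _ fun v _ => hE v τ

/-- **Transfer of expansions** (all coefficients). -/
theorem coeff_esymmSeries_eq (hE : ∀ v (τ : ℍ), PS (E v) (qN p τ) (Conj53.conj f v τ))
    (i m : ℕ) :
    PowerSeries.coeff m (esymmSeries E i)
      = if p ∣ m then (qExpansion 1 (Conj53.esymmForm f i)).coeff (m / p) else 0 := by
  have hp0 : 0 < p := hp.out.pos
  have hp' : (0 : ℝ) < p := by exact_mod_cast hp0
  have h1 := ModularFormClass.qExpansion_coeff_unique (f := Conj53.esymmForm f i)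
    (c := fun m => PowerSeries.coeff m (esymmSeries E i))
    hp' (Esymm74.natCast_mem_strictPeriods_SL p)
    (fun τ => by
      have := psum_esymmSeries f E hE i τ
      simpa [Fermat.Agent.S24.HasQExp.PSum, qN, smul_eq_mul] using this) m
  rw [h1]
  have h2 := UpperHalfPlane.qExpansion_coeff_nat_mul (h := 1) one_pos
    (F := Conj53.esymmForm f i)
    (SlashInvariantFormClass.periodic_comp_ofComplex (Conj53.esymmForm f i)
      one_mem_strictPeriods_SL)
    (ModularFormClass.holo (Conj53.esymmForm f i))
    (ModularFormClass.bdd_at_infty (Conj53.esymmForm f i)) hp0 m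
  rw [mul_one] at h2
  exact h2

/-- **Transfer**: `a_n(esymmForm f i) = coeff_{pn}(esymm_i(E))`. -/
theorem qExpansion_esymmForm_coeff (hE : ∀ v (τ : ℍ), PS (E v) (qN p τ) (Conj53.conj f v τ))
    (i n : ℕ) :
    (qExpansion 1 (Conj53.esymmForm f i)).coeff n = PowerSeries.coeff (p * n) (esymmSeries E i) := by
  rw [coeff_esymmSeries_eq f E hE i (p * n), if_pos (dvd_mul_right p n),
    Nat.mul_div_cancel_left n hp.out.pos]

/-- **Transfer for the norm**: `a_n(esymmForm f (p+1)) = coeff_{pn}(∏ v, E v)`. -/
theorem qExpansion_norm_coeff (hE : ∀ v (τ : ℍ), PS (E v) (qN p τ) (Conj53.conj f v τ)) (n : ℕ) :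
    (qExpansion 1 (Conj53.esymmForm f (p + 1))).coeff n
      = PowerSeries.coeff (p * n) (∏ v : Option (ZMod p), E v) := by
  rw [qExpansion_esymmForm_coeff f E hE, esymmSeries_norm]

/-- The canonical instance, with `E = conjSeriesB f`. -/
theorem qExpansion_esymmForm_coeff_conjSeriesB (i n : ℕ) :
    (qExpansion 1 (Conj53.esymmForm f i)).coeff n
      = PowerSeries.coeff (p * n) (esymmSeries (conjSeriesB f) i) :=
  qExpansion_esymmForm_coeff f _ (psum_conjSeriesB f) i n

end Transfer

/-! ### Integral transfer -/

section Integral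

variable (f : ModularForm (Gamma0 p) k) (O : Subring ℂ) (E' : Option (ZMod p) → PowerSeries O)

/-- **Integral transfer.**  If every conjugate of `f` has a convergent `q_p`-expansion `E' v` with
coefficients in the subring `O`, then the formal `esymm_i(E')` (a power series over `O`) is
supported in degrees divisible by `p` and its `p n`-th coefficient is `a_n(esymmForm f i)`. -/
theorem coeff_esymmSeries_integral
    (hE : ∀ v (τ : ℍ), PS (PowerSeries.map O.subtype (E' v)) (qN p τ) (Conj53.conj f v τ))
    (i : ℕ) :
    (∀ m, ¬ p ∣ m → PowerSeries.coeff m (esymmSeries E' i) = 0) ∧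
    ∀ n, ((PowerSeries.coeff (p * n) (esymmSeries E' i) : O) : ℂ)
      = (qExpansion 1 (Conj53.esymmForm f i)).coeff n := by
  have key : ∀ m, ((PowerSeries.coeff m (esymmSeries E' i) : O) : ℂ)
      = if p ∣ m then (qExpansion 1 (Conj53.esymmForm f i)).coeff (m / p) else 0 := by
    intro m
    have h := coeff_esymmSeries_eq f (fun v => PowerSeries.map O.subtype (E' v)) hE i m
    rw [← h, ← map_esymmSeries, PowerSeries.coeff_map]
    rfl
  refine ⟨fun m hm => ?_, fun n => ?_⟩
  · have := key m
    rw [if_neg hm] at this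
    exact_mod_cast this
  · rw [key (p * n), if_pos (dvd_mul_right p n), Nat.mul_div_cancel_left n hp.out.pos]

/-- The `q`-expansion coefficients of `esymmForm f i` lie in any subring containing the
coefficients of the `q_p`-expansions of all conjugates. -/
theorem qExpansion_esymmForm_coeff_mem
    (hE : ∀ v (τ : ℍ), PS (PowerSeries.map O.subtype (E' v)) (qN p τ) (Conj53.conj f v τ))
    (i n : ℕ) : (qExpansion 1 (Conj53.esymmForm f i)).coeff n ∈ O := by
  rw [← (coeff_esymmSeries_integral f O E' hE i).2 n]
  exact SetLike.coe_mem _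

/-- **Reduction.**  In the situation of `coeff_esymmSeries_integral`, let `A : O⟦X⟧` be the
`q`-expansion of `esymmForm f i`.  For every ring homomorphism `φ : O →+* R`, the image of `A` in
`R⟦X⟧`, spread out by `p`, is the formal elementary symmetric function of the images of the
`E' v`. -/
theorem exists_qExpansion_reduction
    (hE : ∀ v (τ : ℍ), PS (PowerSeries.map O.subtype (E' v)) (qN p τ) (Conj53.conj f v τ))
    (i : ℕ) :
    ∃ A : PowerSeries O,
      (∀ n, ((PowerSeries.coeff n A : O) : ℂ) = (qExpansion 1 (Conj53.esymmForm f i)).coeff n) ∧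
      ∀ {R : Type*} [CommRing R] (φ : O →+* R) (m : ℕ),
        PowerSeries.coeff m (esymmSeries (fun v => PowerSeries.map φ (E' v)) i)
          = if p ∣ m then φ (PowerSeries.coeff (m / p) A) else 0 := by
  obtain ⟨h0, h1⟩ := coeff_esymmSeries_integral f O E' hE i
  refine ⟨PowerSeries.mk fun n => PowerSeries.coeff (p * n) (esymmSeries E' i), fun n => ?_,
    fun {R} _ φ m => ?_⟩
  · rw [PowerSeries.coeff_mk, h1]
  · rw [← map_esymmSeries, PowerSeries.coeff_map, PowerSeries.coeff_mk]
    split_ifs with hm
    · obtain ⟨c, rfl⟩ := hm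
      rw [Nat.mul_div_cancel_left c hp.out.pos]
    · rw [h0 m hm, map_zero]

/-- **Reduction for the norm.**  `A` = `q`-expansion of the norm `esymmForm f (p+1)` over `O`;
its image under `φ`, spread out by `p`, is `∏ v, φ(E' v)`. -/
theorem exists_norm_reduction
    (hE : ∀ v (τ : ℍ), PS (PowerSeries.map O.subtype (E' v)) (qN p τ) (Conj53.conj f v τ)) :
    ∃ A : PowerSeries O,
      (∀ n, ((PowerSeries.coeff n A : O) : ℂ)
        = (qExpansion 1 (Conj53.esymmForm f (p + 1))).coeff n) ∧
      ∀ {R : Type*} [CommRing R] (φ : O →+* R) (m : ℕ),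
        PowerSeries.coeff m (∏ v : Option (ZMod p), PowerSeries.map φ (E' v))
          = if p ∣ m then φ (PowerSeries.coeff (m / p) A) else 0 := by
  obtain ⟨A, hA1, hA2⟩ := exists_qExpansion_reduction f O E' hE (p + 1)
  refine ⟨A, hA1, fun {R} _ φ m => ?_⟩
  rw [← hA2 φ m, esymmSeries_norm]

end Integral

end Fermat.Agent.S16.ConjTransfer27
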