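/-
S16 / (L1)-THETA-A1 (helper94): the DISCRIMINANT MODULE of an even lattice of level `p`.

Input: integral matrices `A B : Matrix (Fin n) (Fin n) ℤ`, symmetric, with `A * B = B * A = p • 1`
(helper47 `Lattice47.exists_gram` provides such pairs with `n = 4`, even diagonals, `det A = p ^ 2`).
The lattice is `L = ℤ^n` with Gram matrix `A`; its dual is `L# = A⁻¹ ℤ^n = (1/p) B ℤ^n` and
`L#/L ≃ ℤ^n / A ℤ^n` via `h ↦ A h`: the class of `y` corresponds to `h = B y / p`.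

We take `Disc A := (Fin n → ℤ) ⧸ range (A.mulVecLin)` as the model of `L#/L` and export

* `Disc.card` : `Nat.card (Disc A) = A.det.natAbs`, `Disc.finite`;
* `Disc.nsmul_eq_zero` : `p • x = 0`;
* `qD : Disc A → ZMod p` with `qD (mk y) = ((yᵀ B y / 2 : ℤ) : ZMod p)` (for `B` even),
  `betaD : Disc A →+ Disc A →+ ZMod p` with `betaD (mk y) (mk y') = ((yᵀ B y' : ℤ) : ZMod p)`,
  `betaD_symm`, `qD_add`, `betaD_self`, `qD_zsmul`, `betaD_nondeg`
  (= the hypotheses of the finite Weil representation packages);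
* real representatives `vec B p y = (1/p) • B y` with `vec_add_range`, `gram_mulVec_vec`,
  `vec_quad`, `vec_bilin`, `shift_quad` and the link `stdAddChar_qD` to `cexp (π I vᵀ A v)`.
-/
import Mathlib

set_option autoImplicit false

namespace Fermat.Agent.S16.Disc94

open Matrix

variable {n : ℕ}

/-! ### Integral quadratic forms with even diagonal -/

/-- `yᵀ M y`. -/
def quad (M : Matrix (Fin n) (Fin n) ℤ) (y : Fin n → ℤ) : ℤ := y ⬝ᵥ M *ᵥ y

/-- `xᵀ M y`. -/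
def bil (M : Matrix (Fin n) (Fin n) ℤ) (x y : Fin n → ℤ) : ℤ := x ⬝ᵥ M *ᵥ y

theorem bil_add_left (M : Matrix (Fin n) (Fin n) ℤ) (x x' y : Fin n → ℤ) :
    bil M (x + x') y = bil M x y + bil M x' y := by
  simp [bil, add_dotProduct]

theorem bil_add_right (M : Matrix (Fin n) (Fin n) ℤ) (x y y' : Fin n → ℤ) :
    bil M x (y + y') = bil M x y + bil M x y' := by
  simp [bil, mulVec_add, dotProduct_add]

theorem bil_smul_left (M : Matrix (Fin n) (Fin n) ℤ) (c : ℤ) (x y : Fin n → ℤ) :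
    bil M (c • x) y = c * bil M x y := by
  unfold bil
  rw [smul_dotProduct, smul_eq_mul]

theorem bil_smul_right (M : Matrix (Fin n) (Fin n) ℤ) (c : ℤ) (x y : Fin n → ℤ) :
    bil M x (c • y) = c * bil M x y := by
  unfold bil
  rw [mulVec_smul, dotProduct_smul, smul_eq_mul]

theorem bil_comm {M : Matrix (Fin n) (Fin n) ℤ} (hM : M.IsSymm) (x y : Fin n → ℤ) :
    bil M x y = bil M y x := by
  unfold bil
  rw [dotProduct_mulVec, dotProduct_comm, ← mulVec_transpose, hM.eq]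

theorem quad_eq_bil (M : Matrix (Fin n) (Fin n) ℤ) (y : Fin n → ℤ) : quad M y = bil M y y := rfl

theorem quad_add {M : Matrix (Fin n) (Fin n) ℤ} (hM : M.IsSymm) (x y : Fin n → ℤ) :
    quad M (x + y) = quad M x + quad M y + 2 * bil M x y := by
  simp only [quad_eq_bil, bil_add_left, bil_add_right, bil_comm hM y x]
  ring

theorem quad_smul (M : Matrix (Fin n) (Fin n) ℤ) (c : ℤ) (y : Fin n → ℤ) :
    quad M (c • y) = c ^ 2 * quad M y := by
  simp only [quad_eq_bil, bil_smul_left, bil_smul_right]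
  ring

theorem quad_neg (M : Matrix (Fin n) (Fin n) ℤ) (y : Fin n → ℤ) : quad M (-y) = quad M y := by
  have := quad_smul M (-1) y
  simpa using this

theorem quad_single (M : Matrix (Fin n) (Fin n) ℤ) (i : Fin n) (c : ℤ) :
    quad M (Pi.single i c) = c ^ 2 * M i i := by
  simp [quad, dotProduct, mulVec, Pi.single_apply, Finset.sum_ite_eq']
  ring

/-- A symmetric integral matrix with even diagonal has an even quadratic form. -/
theorem even_quad {M : Matrix (Fin n) (Fin n) ℤ} (hM : M.IsSymm) (hev : ∀ i, Even (M i i))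
    (y : Fin n → ℤ) : Even (quad M y) := by
  have key : ∀ s : Finset (Fin n), Even (quad M (∑ i ∈ s, Pi.single i (y i))) := by
    intro s
    induction s using Finset.induction_on with
    | empty => simp [quad]
    | insert a s ha ih =>
      rw [Finset.sum_insert ha, quad_add hM]
      refine Even.add (Even.add ?_ ih) (even_two_mul _)
      rw [quad_single]
      exact (hev a).mul_left _
  have h := key Finset.univ
  rwa [Finset.univ_sum_single] at h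

/-! ### The relations coming from `A * B = p` -/

section Pair

variable {A B : Matrix (Fin n) (Fin n) ℤ} {p : ℕ}

theorem mulVec_mulVec_of_mul_eq (hBA : B * A = (p : ℤ) • (1 : Matrix (Fin n) (Fin n) ℤ))
    (x : Fin n → ℤ) : B *ᵥ (A *ᵥ x) = (p : ℤ) • x := by
  rw [mulVec_mulVec, hBA, smul_mulVec, one_mulVec]

/-- `(A x)ᵀ B y = p xᵀ y`. -/
theorem bil_range_left (hA : A.IsSymm) (hAB : A * B = (p : ℤ) • (1 : Matrix (Fin n) (Fin n) ℤ))
    (x y : Fin n → ℤ) : bil B (A *ᵥ x) y = (p : ℤ) * (x ⬝ᵥ y) := by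
  unfold bil
  have h1 : A *ᵥ x = x ᵥ* A := by rw [← mulVec_transpose, hA.eq]
  rw [dotProduct_mulVec, h1, vecMul_vecMul, hAB, vecMul_smul, vecMul_one, smul_dotProduct,
    smul_eq_mul]

/-- `yᵀ B (A x) = p yᵀ x`. -/
theorem bil_range_right (hBA : B * A = (p : ℤ) • (1 : Matrix (Fin n) (Fin n) ℤ))
    (x y : Fin n → ℤ) : bil B y (A *ᵥ x) = (p : ℤ) * (y ⬝ᵥ x) := by
  unfold bil
  rw [mulVec_mulVec_of_mul_eq hBA, dotProduct_smul, smul_eq_mul]

/-- `(A x)ᵀ B (A x) = p xᵀ A x`. -/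
theorem quad_range (hBA : B * A = (p : ℤ) • (1 : Matrix (Fin n) (Fin n) ℤ))
    (x : Fin n → ℤ) : quad B (A *ᵥ x) = (p : ℤ) * quad A x := by
  rw [quad_eq_bil, bil_range_right hBA, dotProduct_comm]
  rfl

end Pair

/-! ### The discriminant module -/

/-- The sublattice `A ℤ^n` of `ℤ^n`. -/
def rangeA (A : Matrix (Fin n) (Fin n) ℤ) : Submodule ℤ (Fin n → ℤ) := LinearMap.range A.mulVecLin

theorem mem_rangeA {A : Matrix (Fin n) (Fin n) ℤ} {y : Fin n → ℤ} :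
    y ∈ rangeA A ↔ ∃ x : Fin n → ℤ, A *ᵥ x = y := by
  simp [rangeA, LinearMap.mem_range]

/-- The discriminant module `ℤ^n / A ℤ^n ≃ L#/L`. -/
abbrev Disc (A : Matrix (Fin n) (Fin n) ℤ) : Type := (Fin n → ℤ) ⧸ rangeA A

namespace Disc

variable (A : Matrix (Fin n) (Fin n) ℤ)

/-- The class of `y`. -/
def mk (y : Fin n → ℤ) : Disc A := Submodule.Quotient.mk y

variable {A}

theorem mk_surjective : Function.Surjective (mk A) := Submodule.Quotient.mk_surjective _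

theorem mk_eq_mk_iff {y y' : Fin n → ℤ} : mk A y = mk A y' ↔ ∃ x : Fin n → ℤ, y - y' = A *ᵥ x := by
  unfold mk
  rw [Submodule.Quotient.eq, mem_rangeA]
  exact ⟨fun ⟨x, hx⟩ => ⟨x, hx.symm⟩, fun ⟨x, hx⟩ => ⟨x, hx.symm⟩⟩

theorem mk_eq_zero_iff {y : Fin n → ℤ} : mk A y = 0 ↔ ∃ x : Fin n → ℤ, A *ᵥ x = y := by
  unfold mk
  rw [Submodule.Quotient.mk_eq_zero, mem_rangeA]

@[simp] theorem mk_add (y y' : Fin n → ℤ) : mk A (y + y') = mk A y + mk A y' := rfl
@[simp] theorem mk_zero : mk A (0 : Fin n → ℤ) = 0 := rfl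
@[simp] theorem mk_neg (y : Fin n → ℤ) : mk A (-y) = -mk A y := rfl
@[simp] theorem mk_sub (y y' : Fin n → ℤ) : mk A (y - y') = mk A y - mk A y' := rfl
@[simp] theorem mk_zsmul (c : ℤ) (y : Fin n → ℤ) : mk A (c • y) = c • mk A y := rfl

@[simp] theorem mk_mulVec (x : Fin n → ℤ) : mk A (A *ᵥ x) = 0 := mk_eq_zero_iff.mpr ⟨x, rfl⟩

/-- `Nat.card (ℤ^n / A ℤ^n) = |det A|`. -/
theorem card (hdet : A.det ≠ 0) : Nat.card (Disc A) = A.det.natAbs := by
  have hinj : Function.Injective A.mulVecLin := by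
    intro x y hxy
    exact mulVec_injective_of_det_ne_zero hdet hxy
  let e : (Fin n → ℤ) ≃ₗ[ℤ] rangeA A := LinearEquiv.ofInjective A.mulVecLin hinj
  have h := Submodule.natAbs_det_equiv (rangeA A) e
  rw [← h]
  congr 1
  rw [← LinearMap.det_toLin' A]
  congr 1

theorem finite (hdet : A.det ≠ 0) : Finite (Disc A) := by
  apply Nat.finite_of_card_ne_zero
  rw [card hdet]
  exact Int.natAbs_ne_zero.mpr hdet

/-- `L#/L` is killed by the level. -/
theorem zsmul_eq_zero {B : Matrix (Fin n) (Fin n) ℤ} {p : ℕ}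
    (hAB : A * B = (p : ℤ) • (1 : Matrix (Fin n) (Fin n) ℤ)) (x : Disc A) : (p : ℤ) • x = 0 := by
  obtain ⟨y, rfl⟩ := mk_surjective x
  rw [← mk_zsmul, mk_eq_zero_iff]
  exact ⟨B *ᵥ y, by rw [mulVec_mulVec, hAB, smul_mulVec, one_mulVec]⟩

theorem nsmul_eq_zero {B : Matrix (Fin n) (Fin n) ℤ} {p : ℕ}
    (hAB : A * B = (p : ℤ) • (1 : Matrix (Fin n) (Fin n) ℤ)) (x : Disc A) : p • x = 0 := by
  have := zsmul_eq_zero hAB x
  rwa [natCast_zsmul] at this

end Disc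

/-! ### The discriminant form -/

section Form

variable {A B : Matrix (Fin n) (Fin n) ℤ} {p : ℕ}

/-- The bilinear form `(y, y') ↦ yᵀ B y' mod p` on `ℤ^n`, as a `ℤ`-bilinear map. -/
def betaZ (B : Matrix (Fin n) (Fin n) ℤ) (p : ℕ) :
    (Fin n → ℤ) →ₗ[ℤ] (Fin n → ℤ) →ₗ[ℤ] ZMod p :=
  LinearMap.mk₂ ℤ (fun x y => ((bil B x y : ℤ) : ZMod p))
    (fun x x' y => by simp [bil_add_left])
    (fun c x y => by rw [bil_smul_left, Int.cast_mul, zsmul_eq_mul])
    (fun x y y' => by simp [bil_add_right])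
    (fun c x y => by rw [bil_smul_right, Int.cast_mul, zsmul_eq_mul])

@[simp] theorem betaZ_apply (B : Matrix (Fin n) (Fin n) ℤ) (p : ℕ) (x y : Fin n → ℤ) :
    betaZ B p x y = ((bil B x y : ℤ) : ZMod p) := rfl

theorem rangeA_le_ker_betaZ (hA : A.IsSymm)
    (hAB : A * B = (p : ℤ) • (1 : Matrix (Fin n) (Fin n) ℤ)) :
    rangeA A ≤ LinearMap.ker (betaZ B p) := by
  intro y hy
  obtain ⟨x, rfl⟩ := mem_rangeA.mp hy
  rw [LinearMap.mem_ker]
  ext y'
  simp [bil_range_left hA hAB]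

theorem rangeA_le_ker_betaZ_flip (hBA : B * A = (p : ℤ) • (1 : Matrix (Fin n) (Fin n) ℤ)) :
    rangeA A ≤ LinearMap.ker (betaZ B p).flip := by
  intro y hy
  obtain ⟨x, rfl⟩ := mem_rangeA.mp hy
  rw [LinearMap.mem_ker]
  ext y'
  simp [bil_range_right hBA]

/-- The discriminant bilinear form on `ℤ^n / A ℤ^n`, with values in `ZMod p`, `ℤ`-bilinear. -/
def betaL (hA : A.IsSymm) (hAB : A * B = (p : ℤ) • (1 : Matrix (Fin n) (Fin n) ℤ))
    (hBA : B * A = (p : ℤ) • (1 : Matrix (Fin n) (Fin n) ℤ)) :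
    Disc A →ₗ[ℤ] Disc A →ₗ[ℤ] ZMod p :=
  (betaZ B p).liftQ₂ (rangeA A) (rangeA A) (rangeA_le_ker_betaZ hA hAB)
    (rangeA_le_ker_betaZ_flip hBA)

/-- The discriminant bilinear form as a biadditive map (the shape used by the Weil
representation packages). -/
def betaD (hA : A.IsSymm) (hAB : A * B = (p : ℤ) • (1 : Matrix (Fin n) (Fin n) ℤ))
    (hBA : B * A = (p : ℤ) • (1 : Matrix (Fin n) (Fin n) ℤ)) :
    Disc A →+ Disc A →+ ZMod p where
  toFun x := (betaL hA hAB hBA x).toAddMonoidHom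
  map_zero' := by ext; simp
  map_add' x y := by ext; simp

@[simp] theorem betaD_mk (hA : A.IsSymm)
    (hAB : A * B = (p : ℤ) • (1 : Matrix (Fin n) (Fin n) ℤ))
    (hBA : B * A = (p : ℤ) • (1 : Matrix (Fin n) (Fin n) ℤ)) (y y' : Fin n → ℤ) :
    betaD hA hAB hBA (Disc.mk A y) (Disc.mk A y') = ((bil B y y' : ℤ) : ZMod p) := rfl

theorem betaD_symm (hA : A.IsSymm) (hB : B.IsSymm)
    (hAB : A * B = (p : ℤ) • (1 : Matrix (Fin n) (Fin n) ℤ))
    (hBA : B * A = (p : ℤ) • (1 : Matrix (Fin n) (Fin n) ℤ)) (x y : Disc A) :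
    betaD hA hAB hBA x y = betaD hA hAB hBA y x := by
  obtain ⟨a, rfl⟩ := Disc.mk_surjective x
  obtain ⟨b, rfl⟩ := Disc.mk_surjective y
  rw [betaD_mk, betaD_mk, bil_comm hB]

/-- The discriminant quadratic form `q(h) = Q(h) mod 1`, scaled to `ZMod p` (`p` odd):
`qD x = 2⁻¹ * betaD x x`. -/
def qD (hA : A.IsSymm) (hAB : A * B = (p : ℤ) • (1 : Matrix (Fin n) (Fin n) ℤ))
    (hBA : B * A = (p : ℤ) • (1 : Matrix (Fin n) (Fin n) ℤ)) (x : Disc A) : ZMod p :=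
  (2 : ZMod p)⁻¹ * betaD hA hAB hBA x x

section Odd

variable [Fact p.Prime] (hp2 : p ≠ 2)

include hp2 in
theorem two_ne_zero_zmod : (2 : ZMod p) ≠ 0 := by
  have hp : p.Prime := Fact.out
  intro h
  have h2 : ((2 : ℕ) : ZMod p) = 0 := by exact_mod_cast h
  rw [ZMod.natCast_eq_zero_iff] at h2
  exact hp2 ((Nat.prime_dvd_prime_iff_eq hp Nat.prime_two).mp h2)

include hp2 in
theorem betaD_self (hA : A.IsSymm) (hAB : A * B = (p : ℤ) • (1 : Matrix (Fin n) (Fin n) ℤ))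
    (hBA : B * A = (p : ℤ) • (1 : Matrix (Fin n) (Fin n) ℤ)) (x : Disc A) :
    betaD hA hAB hBA x x = 2 * qD hA hAB hBA x := by
  unfold qD
  rw [← mul_assoc, mul_inv_cancel₀ (two_ne_zero_zmod hp2), one_mul]

include hp2 in
theorem qD_add (hA : A.IsSymm) (hB : B.IsSymm)
    (hAB : A * B = (p : ℤ) • (1 : Matrix (Fin n) (Fin n) ℤ))
    (hBA : B * A = (p : ℤ) • (1 : Matrix (Fin n) (Fin n) ℤ)) (x y : Disc A) :
    qD hA hAB hBA (x + y) = qD hA hAB hBA x + qD hA hAB hBA y + betaD hA hAB hBA x y := by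
  have h2 := two_ne_zero_zmod (p := p) hp2
  unfold qD
  simp only [map_add, AddMonoidHom.add_apply]
  rw [betaD_symm hA hB hAB hBA y x]
  field_simp
  ring

theorem qD_zsmul (hA : A.IsSymm) (hAB : A * B = (p : ℤ) • (1 : Matrix (Fin n) (Fin n) ℤ))
    (hBA : B * A = (p : ℤ) • (1 : Matrix (Fin n) (Fin n) ℤ)) (c : ℤ) (x : Disc A) :
    qD hA hAB hBA (c • x) = (c : ZMod p) ^ 2 * qD hA hAB hBA x := by
  unfold qD
  simp only [map_zsmul, AddMonoidHom.coe_smul, Pi.smul_apply, zsmul_eq_mul]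
  ring

theorem qD_neg (hA : A.IsSymm) (hAB : A * B = (p : ℤ) • (1 : Matrix (Fin n) (Fin n) ℤ))
    (hBA : B * A = (p : ℤ) • (1 : Matrix (Fin n) (Fin n) ℤ)) (x : Disc A) :
    qD hA hAB hBA (-x) = qD hA hAB hBA x := by
  have := qD_zsmul hA hAB hBA (-1) x
  simpa using this

@[simp] theorem qD_zero (hA : A.IsSymm) (hAB : A * B = (p : ℤ) • (1 : Matrix (Fin n) (Fin n) ℤ))
    (hBA : B * A = (p : ℤ) • (1 : Matrix (Fin n) (Fin n) ℤ)) :
    qD hA hAB hBA (0 : Disc A) = 0 := by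
  simp [qD]

include hp2 in
/-- On representatives: `qD [y] = (yᵀ B y / 2 mod p)` when `B` has even diagonal. -/
theorem qD_mk (hA : A.IsSymm) (hB : B.IsSymm) (hBev : ∀ i, Even (B i i))
    (hAB : A * B = (p : ℤ) • (1 : Matrix (Fin n) (Fin n) ℤ))
    (hBA : B * A = (p : ℤ) • (1 : Matrix (Fin n) (Fin n) ℤ)) (y : Fin n → ℤ) :
    qD hA hAB hBA (Disc.mk A y) = ((quad B y / 2 : ℤ) : ZMod p) := by
  have h2 := two_ne_zero_zmod (p := p) hp2
  obtain ⟨k, hk⟩ := even_quad hB hBev y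
  have hk' : quad B y = 2 * k := by rw [hk]; ring
  unfold qD
  rw [betaD_mk, ← quad_eq_bil, hk', Int.mul_ediv_cancel_left _ (by norm_num : (2 : ℤ) ≠ 0)]
  push_cast
  field_simp

/-- Nondegeneracy of the discriminant form. -/
theorem betaD_nondeg (hA : A.IsSymm) (hB : B.IsSymm)
    (hAB : A * B = (p : ℤ) • (1 : Matrix (Fin n) (Fin n) ℤ))
    (hBA : B * A = (p : ℤ) • (1 : Matrix (Fin n) (Fin n) ℤ)) (x : Disc A)
    (hx : ∀ y, betaD hA hAB hBA x y = 0) : x = 0 := by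
  have hp : p.Prime := Fact.out
  have hp0 : (p : ℤ) ≠ 0 := by exact_mod_cast hp.ne_zero
  obtain ⟨a, rfl⟩ := Disc.mk_surjective x
  -- `p ∣ (B a) i` for all `i`
  have hdiv : ∀ i, (p : ℤ) ∣ (B *ᵥ a) i := by
    intro i
    have h := hx (Disc.mk A (Pi.single i 1))
    rw [betaD_mk, ZMod.intCast_zmod_eq_zero_iff_dvd] at h
    have : bil B a (Pi.single i 1) = (B *ᵥ a) i := by
      rw [bil_comm hB]
      simp [bil]
    rwa [this] at h
  choose w hw using hdiv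
  -- `B a = p • w`, hence `p • a = A (B a) = p • A w`
  have hBa : B *ᵥ a = (p : ℤ) • w := by
    ext i
    simp [hw i]
  have h1 : (p : ℤ) • a = (p : ℤ) • (A *ᵥ w) := by
    have : A *ᵥ (B *ᵥ a) = (p : ℤ) • a := by
      rw [mulVec_mulVec, hAB, smul_mulVec, one_mulVec]
    rw [← this, hBa, mulVec_smul]
  have h2 : a = A *ᵥ w := by
    ext i
    have := congrFun h1 i
    simp only [Pi.smul_apply, smul_eq_mul] at this
    exact mul_left_cancel₀ hp0 this
  rw [Disc.mk_eq_zero_iff]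
  exact ⟨w, h2.symm⟩

end Odd

end Form

/-! ### Real representatives `h = B y / p ∈ L#` and the analytic glue -/

section Vec

variable {A B : Matrix (Fin n) (Fin n) ℤ} {p : ℕ}

/-- Cast of an integer vector to `ℝ^n`. -/
def castV (x : Fin n → ℤ) : Fin n → ℝ := fun i => (x i : ℝ)

@[simp] theorem castV_apply (x : Fin n → ℤ) (i : Fin n) : castV x i = (x i : ℝ) := rfl

theorem castV_add (x y : Fin n → ℤ) : castV (x + y) = castV x + castV y := by
  ext i; simp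

theorem castV_mulVec (M : Matrix (Fin n) (Fin n) ℤ) (x : Fin n → ℤ) :
    castV (M *ᵥ x) = (M.map (Int.cast : ℤ → ℝ)) *ᵥ castV x := by
  ext i
  simp [mulVec, dotProduct]

theorem castV_dotProduct (x y : Fin n → ℤ) : castV x ⬝ᵥ castV y = ((x ⬝ᵥ y : ℤ) : ℝ) := by
  simp [dotProduct]

/-- The representative `h = B y / p` of the class of `y`. -/
noncomputable def vec (B : Matrix (Fin n) (Fin n) ℤ) (p : ℕ) (y : Fin n → ℤ) : Fin n → ℝ :=
  (p : ℝ)⁻¹ • castV (B *ᵥ y)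

theorem vec_add (y y' : Fin n → ℤ) : vec B p (y + y') = vec B p y + vec B p y' := by
  simp [vec, mulVec_add, castV_add]

/-- Changing the representative by `A x` changes `h` by the integral vector `x`. -/
theorem vec_add_range (hp : p ≠ 0) (hBA : B * A = (p : ℤ) • (1 : Matrix (Fin n) (Fin n) ℤ))
    (y x : Fin n → ℤ) : vec B p (y + A *ᵥ x) = vec B p y + castV x := by
  have hp' : (p : ℝ) ≠ 0 := by exact_mod_cast hp
  rw [vec_add]
  congr 1
  ext i
  simp only [vec, mulVec_mulVec_of_mul_eq hBA, Pi.smul_apply, castV_apply, smul_eq_mul]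
  push_cast
  field_simp

/-- `A h = y`. -/
theorem map_mulVec_vec (hp : p ≠ 0) (hAB : A * B = (p : ℤ) • (1 : Matrix (Fin n) (Fin n) ℤ))
    (y : Fin n → ℤ) : (A.map (Int.cast : ℤ → ℝ)) *ᵥ vec B p y = castV y := by
  have hp' : (p : ℝ) ≠ 0 := by exact_mod_cast hp
  unfold vec
  rw [mulVec_smul, ← castV_mulVec, mulVec_mulVec, hAB, smul_mulVec, one_mulVec]
  ext i
  simp only [Pi.smul_apply, castV_apply, smul_eq_mul]
  push_cast
  field_simp

/-- `hᵀ A h' = y'ᵀ B y / p` (no symmetry of `B` needed). -/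
theorem vec_bilin' (hp : p ≠ 0) (hAB : A * B = (p : ℤ) • (1 : Matrix (Fin n) (Fin n) ℤ))
    (y y' : Fin n → ℤ) :
    vec B p y ⬝ᵥ (A.map (Int.cast : ℤ → ℝ)) *ᵥ vec B p y' = (bil B y' y : ℝ) / p := by
  rw [map_mulVec_vec hp hAB]
  unfold vec
  rw [smul_dotProduct, castV_dotProduct, smul_eq_mul, dotProduct_comm]
  unfold bil
  ring

/-- `hᵀ A h' = yᵀ B y' / p`. -/
theorem vec_bilin (hp : p ≠ 0) (hB : B.IsSymm)
    (hAB : A * B = (p : ℤ) • (1 : Matrix (Fin n) (Fin n) ℤ)) (y y' : Fin n → ℤ) :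
    vec B p y ⬝ᵥ (A.map (Int.cast : ℤ → ℝ)) *ᵥ vec B p y' = (bil B y y' : ℝ) / p := by
  rw [vec_bilin' hp hAB, bil_comm hB]

/-- `hᵀ A h = yᵀ B y / p`. -/
theorem vec_quad (hp : p ≠ 0) (hAB : A * B = (p : ℤ) • (1 : Matrix (Fin n) (Fin n) ℤ))
    (y : Fin n → ℤ) :
    vec B p y ⬝ᵥ (A.map (Int.cast : ℤ → ℝ)) *ᵥ vec B p y = (quad B y : ℝ) / p :=
  vec_bilin' hp hAB y y

/-- `xᵀ A h = xᵀ y` for integral `x`. -/
theorem castV_dot_map_mulVec_vec (hp : p ≠ 0)
    (hAB : A * B = (p : ℤ) • (1 : Matrix (Fin n) (Fin n) ℤ)) (x y : Fin n → ℤ) :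
    castV x ⬝ᵥ (A.map (Int.cast : ℤ → ℝ)) *ᵥ vec B p y = ((x ⬝ᵥ y : ℤ) : ℝ) := by
  rw [map_mulVec_vec hp hAB, castV_dotProduct]

/-- `(x + h)ᵀ A (x + h) - hᵀ A h = xᵀ A x + 2 xᵀ y` is an integer (even if `A` is even): the
integrality needed for the `T`-law of the shifted theta function. -/
theorem shift_quad (hp : p ≠ 0) (hA : A.IsSymm)
    (hAB : A * B = (p : ℤ) • (1 : Matrix (Fin n) (Fin n) ℤ)) (x y : Fin n → ℤ) :
    (castV x + vec B p y) ⬝ᵥ (A.map (Int.cast : ℤ → ℝ)) *ᵥ (castV x + vec B p y)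
      - vec B p y ⬝ᵥ (A.map (Int.cast : ℤ → ℝ)) *ᵥ vec B p y
      = ((quad A x + 2 * (x ⬝ᵥ y) : ℤ) : ℝ) := by
  have hAR : (A.map (Int.cast : ℤ → ℝ)).IsSymm := by
    ext i j
    simp only [transpose_apply, map_apply]
    rw [← hA.apply i j]
  have hcomm : vec B p y ⬝ᵥ (A.map (Int.cast : ℤ → ℝ)) *ᵥ castV x
      = castV x ⬝ᵥ (A.map (Int.cast : ℤ → ℝ)) *ᵥ vec B p y := by
    rw [dotProduct_mulVec, dotProduct_comm, ← mulVec_transpose, hAR.eq]
  have hxx : castV x ⬝ᵥ (A.map (Int.cast : ℤ → ℝ)) *ᵥ castV x = ((quad A x : ℤ) : ℝ) := by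
    rw [← castV_mulVec, castV_dotProduct]
    rfl
  simp only [mulVec_add, add_dotProduct, dotProduct_add]
  rw [hcomm, castV_dot_map_mulVec_vec hp hAB, hxx]
  push_cast
  ring

theorem even_shift_quad (hA : A.IsSymm) (hAev : ∀ i, Even (A i i)) (x y : Fin n → ℤ) :
    Even (quad A x + 2 * (x ⬝ᵥ y)) :=
  (even_quad hA hAev x).add (even_two_mul _)

open Complex in
/-- The `T`-law constant: `e(q(h)) = exp(π i hᵀ A h)`. -/
theorem stdAddChar_qD [Fact p.Prime] (hp2 : p ≠ 2) (hA : A.IsSymm) (hB : B.IsSymm)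
    (hBev : ∀ i, Even (B i i))
    (hAB : A * B = (p : ℤ) • (1 : Matrix (Fin n) (Fin n) ℤ))
    (hBA : B * A = (p : ℤ) • (1 : Matrix (Fin n) (Fin n) ℤ)) (y : Fin n → ℤ) :
    ZMod.stdAddChar (qD hA hAB hBA (Disc.mk A y)) =
      Complex.exp (Real.pi * I *
        ((vec B p y ⬝ᵥ (A.map (Int.cast : ℤ → ℝ)) *ᵥ vec B p y : ℝ) : ℂ)) := by
  have hp : p.Prime := Fact.out
  have hp' : (p : ℂ) ≠ 0 := by exact_mod_cast hp.ne_zero
  rw [qD_mk hp2 hA hB hBev hAB hBA, ZMod.stdAddChar_coe, vec_quad hp.ne_zero hAB]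
  obtain ⟨k, hk⟩ := even_quad hB hBev y
  have hk' : quad B y = 2 * k := by rw [hk]; ring
  rw [hk', Int.mul_ediv_cancel_left _ (by norm_num : (2 : ℤ) ≠ 0)]
  congr 1
  push_cast
  field_simp

open Complex in
/-- The `S`-law phase: `e(β(h, h')) = exp(2 π i hᵀ A h')`. -/
theorem stdAddChar_betaD [Fact p.Prime] (hA : A.IsSymm) (hB : B.IsSymm)
    (hAB : A * B = (p : ℤ) • (1 : Matrix (Fin n) (Fin n) ℤ))
    (hBA : B * A = (p : ℤ) • (1 : Matrix (Fin n) (Fin n) ℤ)) (y y' : Fin n → ℤ) :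
    ZMod.stdAddChar (betaD hA hAB hBA (Disc.mk A y) (Disc.mk A y')) =
      Complex.exp (2 * Real.pi * I *
        ((vec B p y ⬝ᵥ (A.map (Int.cast : ℤ → ℝ)) *ᵥ vec B p y' : ℝ) : ℂ)) := by
  have hp : p.Prime := Fact.out
  have hp' : (p : ℂ) ≠ 0 := by exact_mod_cast hp.ne_zero
  rw [betaD_mk, ZMod.stdAddChar_coe, vec_bilin hp.ne_zero hB hAB]
  congr 1
  push_cast
  field_simp

end Vec

/-! ### Cardinality `p ^ 2` for the helper47 Gram matrices -/

theorem Disc.card_eq_sq {A : Matrix (Fin n) (Fin n) ℤ} {p : ℕ} (hp : p ≠ 0)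
    (hdet : A.det = (p : ℤ) ^ 2) : Nat.card (Disc A) = p ^ 2 := by
  have hne : A.det ≠ 0 := by
    rw [hdet]
    exact pow_ne_zero _ (by exact_mod_cast hp)
  rw [Disc.card hne, hdet, Int.natAbs_pow, Int.natAbs_natCast]

theorem Disc.finite_of_det_eq_sq {A : Matrix (Fin n) (Fin n) ℤ} {p : ℕ} (hp : p ≠ 0)
    (hdet : A.det = (p : ℤ) ^ 2) : Finite (Disc A) := by
  apply Disc.finite
  rw [hdet]
  exact pow_ne_zero _ (by exact_mod_cast hp)

theorem Disc.fintype_card_eq_sq {A : Matrix (Fin n) (Fin n) ℤ} {p : ℕ} [Fintype (Disc A)]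
    (hp : p ≠ 0) (hdet : A.det = (p : ℤ) ^ 2) : Fintype.card (Disc A) = p ^ 2 := by
  rw [← Nat.card_eq_fintype_card, Disc.card_eq_sq hp hdet]

/-- A `Fintype` structure on the discriminant module (noncomputable). -/
@[instance_reducible] noncomputable def Disc.fintypeOfDet {A : Matrix (Fin n) (Fin n) ℤ} {p : ℕ} (hp : p ≠ 0)
    (hdet : A.det = (p : ℤ) ^ 2) : Fintype (Disc A) :=
  haveI := Disc.finite_of_det_eq_sq hp hdet
  Fintype.ofFinite _

end Fermat.Agent.S16.Disc94
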