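/-
S16, edge cases `p < 5` of the UPPER bound (helper66).

`UIface39.UpperStmt` quantifies over ALL primes `p`, while the no-congruence packages assume
`5 ≤ p`.  For `p = 2, 3` the space `S₂(Γ₀(p))` is zero (Sturm bound of the Prelude + the index
bound `[SL₂(ℤ) : Γ₀(p)] ≤ p + 1`), so an integral cusp form congruent to `∑ σ'_p(k) q^k` modulo
`M` forces `M ∣ 1`.
-/
import Mathlib
import Fermat.Prelude.Def_FLTPrelim_Modularity
import Fermat.Prelude.Def_ModularCurve_ModularUnit
import Fermat.Prelude.Thm_ModularForm_sturm_bound_Gamma0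
import Fermat.Prelude.Thm_CongruenceSubgroup_one_mem_strictPeriods_Gamma0
import Fermat.Agent.Lib.Gamma0Index
import Fermat.Agent.S16.UIface39

set_option autoImplicit false

namespace Fermat.Agent.S16.Edge66

open scoped MatrixGroups
open CongruenceSubgroup ModularFormClass

/-- The point of `ℙ¹(𝔽_p)` attached to the first column of `g`. -/
noncomputable def colPt (p : ℕ) [Fact p.Prime] (g : SL(2, ℤ)) : Option (ZMod p) :=
  if ((g 1 0 : ℤ) : ZMod p) = 0 then none else some (((g 0 0 : ℤ) : ZMod p) / ((g 1 0 : ℤ) : ZMod p))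

/-- For a prime `p`, the index of `Γ₀(p)` in `SL(2, ℤ)` is at most `p + 1`. -/
theorem index_Gamma0_prime_le (p : ℕ) [Fact p.Prime] : (Gamma0 p).index ≤ p + 1 := by
  have key := Fermat.Agent.Lib.Gamma0Index.index_le_card_of_separating (Gamma0 p)
    (T := Option (ZMod p)) (colPt p) ?_
  · have hc : Nat.card (Option (ZMod p)) = p + 1 := by
      rw [Nat.card_eq_fintype_card, Fintype.card_option, ZMod.card]
    rwa [hc] at key
  · intro g h hgh
    rw [Gamma0_mem]
    have e : ((g⁻¹ * h) 1 0 : ℤ) = - g 1 0 * h 0 0 + g 0 0 * h 1 0 := by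
      rw [Matrix.SpecialLinearGroup.coe_mul, Matrix.SpecialLinearGroup.coe_inv,
        Matrix.adjugate_fin_two]
      simp [Matrix.mul_apply, Fin.sum_univ_two]
    rw [e]
    push_cast
    unfold colPt at hgh
    by_cases hg : ((g 1 0 : ℤ) : ZMod p) = 0
    · by_cases hh : ((h 1 0 : ℤ) : ZMod p) = 0
      · rw [hg, hh]; ring
      · rw [if_pos hg, if_neg hh] at hgh
        exact absurd hgh (by simp)
    · by_cases hh : ((h 1 0 : ℤ) : ZMod p) = 0
      · rw [if_neg hg, if_pos hh] at hgh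
        exact absurd hgh (by simp)
      · rw [if_neg hg, if_neg hh, Option.some_inj, div_eq_div_iff hg hh] at hgh
        linear_combination hgh

/-- `S₂(Γ₀(p)) = 0` for a prime `p < 5` (Sturm bound). -/
theorem cuspForm_eq_zero_of_lt_five (p : ℕ) [Fact p.Prime] (hp : p < 5)
    (f : CuspForm (Gamma0 p) 2) : f = 0 := by
  have : NeZero p := ⟨(Fact.out : p.Prime).ne_zero⟩
  have h1 : (1 : ℝ) ∈ (Subgroup.map (Matrix.SpecialLinearGroup.mapGL ℝ)
      (Gamma0 p)).strictPeriods :=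
    CongruenceSubgroup.one_mem_strictPeriods_Gamma0 p
  have hzero : (CuspForm.toModularFormₗ f) = 0 := by
    apply ModularForm.sturm_bound_Gamma0 p
    intro n hn
    have hidx := index_Gamma0_prime_le p
    have hn0 : n = 0 := by
      have : ((2 : ℤ) * ((Gamma0 p).index : ℤ)).toNat / 12 = 0 := by
        omega
      omega
    subst hn0
    exact CuspFormClass.qExpansion_coeff_zero (Γ := (Subgroup.map (Matrix.SpecialLinearGroup.mapGL ℝ)
      (Gamma0 p))) (k := 2) f one_pos h1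
  exact CuspForm.toModularFormₗ_injective (by simpa using hzero)

theorem sigmaP_one (p : ℕ) (hp : 2 ≤ p) : UIface39.sigmaP p 1 = 1 := by
  unfold UIface39.sigmaP
  rw [Nat.divisors_one, Finset.filter_singleton, if_pos]
  · simp
  · intro h
    have := Nat.le_of_dvd one_pos h
    omega

/-- If `S₂(Γ₀(p))` vanishes, an Eisenstein congruence modulo `M` forces `M = 1`. -/
theorem dvd_of_cuspForm_eq_zero (p : ℕ) (hp2 : 2 ≤ p) (M : ℕ) (f : CuspForm (Gamma0 p) 2) (hf : f = 0)
    (hcong : ∀ k : ℕ, 1 ≤ k → ∃ c : ℤ,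
      qCoeff (f : UpperHalfPlane → ℂ) k = ((UIface39.sigmaP p k + (M : ℤ) * c : ℤ) : ℂ)) :
    M ∣ ModularCurve.eisensteinNumerator p := by
  obtain ⟨c, hc⟩ := hcong 1 le_rfl
  have h0 : qCoeff (f : UpperHalfPlane → ℂ) 1 = 0 := by
    subst hf
    unfold qCoeff
    have : ((0 : CuspForm (Gamma0 p) 2) : UpperHalfPlane → ℂ) = 0 := rfl
    rw [this, UpperHalfPlane.qExpansion_zero]
    simp
  rw [h0, sigmaP_one p hp2] at hc
  have hc' : (1 + (M : ℤ) * c : ℤ) = 0 := by exact_mod_cast hc.symm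
  have hM : (M : ℤ) ∣ 1 := ⟨-c, by linarith⟩
  have hM1 : M = 1 := by
    have := Int.natAbs_dvd_natAbs.mpr hM
    simpa using this
  rw [hM1]
  exact one_dvd _

/-- `UpperStmt` for the primes `p < 5`. -/
theorem upper_of_lt_five (p : ℕ) (hp : p.Prime) (hp5 : p < 5) (M : ℕ) (f : CuspForm (Gamma0 p) 2)
    (_hint : ∀ k : ℕ, ∃ m : ℤ, qCoeff (f : UpperHalfPlane → ℂ) k = (m : ℂ))
    (hcong : ∀ k : ℕ, 1 ≤ k → ∃ c : ℤ,
      qCoeff (f : UpperHalfPlane → ℂ) k = ((UIface39.sigmaP p k + (M : ℤ) * c : ℤ) : ℂ)) :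
    M ∣ ModularCurve.eisensteinNumerator p := by
  have : Fact p.Prime := ⟨hp⟩
  exact dvd_of_cuspForm_eq_zero p hp.two_le M f (cuspForm_eq_zero_of_lt_five p hp5 f) hcong

end Fermat.Agent.S16.Edge66
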