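import Mathlib
import Fermat.Agent.S24.Hermite

/-!
# S16, package (U)-EIS2N: the weight-2 Eisenstein series `N E₂(Nz) - E₂(z)` on `Γ₀(N)`
-/

set_option autoImplicit false

noncomputable section

namespace Fermat.Agent.S16.Eis2N6

open UpperHalfPlane ModularForm EisensteinSeries Matrix Complex Matrix.SpecialLinearGroup
open scoped MatrixGroups ModularForm Real Manifold Topology

/-- A real upper triangular matrix with positive diagonal, as an element of `GL(2, ℝ)`. -/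
def triGL (a b e : ℝ) (ha : 0 < a) (he : 0 < e) : GL (Fin 2) ℝ :=
  Matrix.GeneralLinearGroup.mkOfDetNeZero !![a, b; 0, e]
    (by rw [Matrix.det_fin_two_of]; have := mul_pos ha he; nlinarith)

@[simp] lemma triGL_val (a b e : ℝ) (ha : 0 < a) (he : 0 < e) :
    (triGL a b e ha he : Matrix (Fin 2) (Fin 2) ℝ) = !![a, b; 0, e] := rfl

lemma triGL_det (a b e : ℝ) (ha : 0 < a) (he : 0 < e) :
    (triGL a b e ha he).det.val = a * e := by
  simp [triGL, Matrix.GeneralLinearGroup.mkOfDetNeZero, Matrix.det_fin_two_of]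

lemma triGL_det_pos (a b e : ℝ) (ha : 0 < a) (he : 0 < e) :
    0 < (triGL a b e ha he).det.val := by
  rw [triGL_det]; exact mul_pos ha he

lemma denom_triGL (a b e : ℝ) (ha : 0 < a) (he : 0 < e) (z : ℂ) :
    denom (triGL a b e ha he) z = e := by
  simp [denom, triGL, Matrix.GeneralLinearGroup.mkOfDetNeZero]

lemma num_triGL (a b e : ℝ) (ha : 0 < a) (he : 0 < e) (z : ℂ) :
    num (triGL a b e ha he) z = a * z + b := by
  simp [num, triGL, Matrix.GeneralLinearGroup.mkOfDetNeZero]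

lemma coe_triGL_smul (a b e : ℝ) (ha : 0 < a) (he : 0 < e) (z : ℍ) :
    ((triGL a b e ha he • z : ℍ) : ℂ) = (a * z + b) / e := by
  rw [coe_smul_of_det_pos (triGL_det_pos a b e ha he), num_triGL, denom_triGL]

lemma sigma_triGL (a b e : ℝ) (ha : 0 < a) (he : 0 < e) (w : ℂ) :
    σ (triGL a b e ha he) w = w := by
  have h := triGL_det_pos a b e ha he
  simp only [σ, h, if_true]
  rfl

/-- slash by an upper triangular matrix, weight 2 -/
lemma slash_triGL (f : ℍ → ℂ) (a b e : ℝ) (ha : 0 < a) (he : 0 < e) (z : ℍ) :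
    (f ∣[(2 : ℤ)] triGL a b e ha he) z = (a / e : ℝ) * f (triGL a b e ha he • z) := by
  rw [ModularForm.slash_apply, sigma_triGL, denom_triGL, triGL_det, abs_of_pos (mul_pos ha he)]
  have he' : (e : ℂ) ≠ 0 := by exact_mod_cast he.ne'
  push_cast
  field_simp

lemma mapGL_apply' (g : SL(2, ℤ)) (i j : Fin 2) :
    ((mapGL ℝ g : GL (Fin 2) ℝ) : Matrix (Fin 2) (Fin 2) ℝ) i j = ((g i j : ℤ) : ℝ) := by
  rw [mapGL_coe_matrix]
  simp

/-! ### The function -/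

variable (N : ℕ) [NeZero N]

lemma natCast_pos' : (0 : ℝ) < (N : ℝ) := by exact_mod_cast Nat.pos_of_ne_zero (NeZero.ne N)

/-- `diag(N, 1)` -/
def alphaN : GL (Fin 2) ℝ := triGL (N : ℝ) 0 1 (natCast_pos' N) one_pos

lemma coe_alphaN_smul (z : ℍ) : ((alphaN N • z : ℍ) : ℂ) = (N : ℂ) * z := by
  rw [alphaN, coe_triGL_smul]; simp

/-- The function `z ↦ N E₂(Nz) - E₂(z)`. -/
def eisFun : ℍ → ℂ := E2 ∣[(2 : ℤ)] alphaN N - E2

lemma eisFun_apply (z : ℍ) : eisFun N z = (N : ℂ) * E2 (alphaN N • z) - E2 z := by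
  rw [eisFun, Pi.sub_apply, alphaN, slash_triGL]
  simp

/-- the constant `1 / (2 ζ(2))` -/
def kap : ℂ := 1 / (2 * riemannZeta 2)

/-- conjugating an element of `Γ₀(N)` by `diag(N,1)` -/
lemma exists_conj (g : SL(2, ℤ)) (hg : g ∈ CongruenceSubgroup.Gamma0 N) :
    ∃ g' : SL(2, ℤ), alphaN N * (mapGL ℝ g) = (mapGL ℝ g') * alphaN N ∧
      (g' 1 0 : ℤ) * N = g 1 0 ∧ g' 1 1 = g 1 1 := by
  rw [CongruenceSubgroup.Gamma0_mem] at hg
  obtain ⟨c', hc'⟩ := (ZMod.intCast_zmod_eq_zero_iff_dvd _ _).mp hg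
  have hdet : g 0 0 * g 1 1 - g 0 1 * g 1 0 = 1 := by
    have := g.det_coe
    rwa [Matrix.det_fin_two] at this
  have hdet' : (!![g 0 0, N * g 0 1; c', g 1 1] : Matrix (Fin 2) (Fin 2) ℤ).det = 1 := by
    rw [Matrix.det_fin_two_of]
    rw [hc'] at hdet
    linear_combination hdet
  obtain ⟨g', hg'⟩ : ∃ g' : SL(2, ℤ), (g' : Matrix (Fin 2) (Fin 2) ℤ) =
      !![g 0 0, N * g 0 1; c', g 1 1] := ⟨⟨_, hdet'⟩, rfl⟩
  have e00 : g' 0 0 = g 0 0 := by rw [hg']; rfl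
  have e01 : g' 0 1 = N * g 0 1 := by rw [hg']; rfl
  have e10 : g' 1 0 = c' := by rw [hg']; rfl
  have e11 : g' 1 1 = g 1 1 := by rw [hg']; rfl
  refine ⟨g', ?_, ?_, ?_⟩
  · ext i j
    fin_cases i <;> fin_cases j <;>
      simp [alphaN, triGL, Matrix.GeneralLinearGroup.mkOfDetNeZero, Matrix.mul_apply,
        Fin.sum_univ_two, hc', mul_comm, mapGL_apply', e00, e01, e10, e11]
  · rw [e10, hc', mul_comm]
  · exact e11

lemma D2_slash_alphaN (g g' : SL(2, ℤ)) (h10 : (g' 1 0 : ℤ) * N = g 1 0)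
    (h11 : g' 1 1 = g 1 1) : (D2 g') ∣[(2 : ℤ)] alphaN N = D2 g := by
  ext z
  rw [alphaN, slash_triGL]
  simp only [D2, ModularGroup.denom_apply]
  rw [← alphaN, coe_alphaN_smul]
  have h10' : ((g 1 0 : ℤ) : ℂ) = (g' 1 0 : ℤ) * (N : ℂ) := by
    rw [← h10]; push_cast; ring
  have hden : ((g 1 0 : ℤ) : ℂ) * z + ((g 1 1 : ℤ) : ℂ) ≠ 0 := by
    have := UpperHalfPlane.denom_ne_zero (mapGL ℝ g) z
    simpa [UpperHalfPlane.denom, mapGL_apply'] using this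
  rw [h10'] at hden ⊢
  rw [h11]
  have hden' : ((g' 1 0 : ℤ) : ℂ) * ((N : ℂ) * z) + ((g 1 1 : ℤ) : ℂ) ≠ 0 := by
    convert hden using 1; ring
  push_cast
  field_simp

lemma eisFun_slash (g : SL(2, ℤ)) (hg : g ∈ CongruenceSubgroup.Gamma0 N) :
    eisFun N ∣[(2 : ℤ)] (mapGL ℝ g) = eisFun N := by
  obtain ⟨g', hconj, h10, h11⟩ := exists_conj N g hg
  have hσ : σ (alphaN N) kap = kap := by rw [alphaN, sigma_triGL]
  have h1 : (E2 ∣[(2 : ℤ)] alphaN N) ∣[(2 : ℤ)] (mapGL ℝ g) =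
      E2 ∣[(2 : ℤ)] alphaN N - kap • D2 g := by
    rw [← SlashAction.slash_mul, hconj, SlashAction.slash_mul]
    have h : E2 ∣[(2 : ℤ)] (mapGL ℝ g') = E2 - kap • D2 g' := E2_slash_action g'
    rw [h, sub_eq_add_neg, SlashAction.add_slash, SlashAction.neg_slash, ModularForm.smul_slash,
      D2_slash_alphaN N g g' h10 h11, hσ, sub_eq_add_neg]
  have h2 : E2 ∣[(2 : ℤ)] (mapGL ℝ g) = E2 - kap • D2 g := E2_slash_action g
  rw [eisFun, sub_eq_add_neg, SlashAction.add_slash, SlashAction.neg_slash, h1, h2]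
  abel

/-! ### Holomorphy and boundedness -/

lemma eisFun_mdifferentiable : MDifferentiable 𝓘(ℂ) 𝓘(ℂ) (eisFun N) := by
  rw [eisFun]
  exact (E2_mdifferentiable.slash 2 (alphaN N)).sub E2_mdifferentiable

lemma isBoundedAtImInfty_D2 (g : SL(2, ℤ)) : IsBoundedAtImInfty (D2 g) := by
  rw [isBoundedAtImInfty_iff]
  refine ⟨2 * π, 1, fun z hz => ?_⟩
  simp only [D2, ModularGroup.denom_apply]
  by_cases hc : (g 1 0 : ℤ) = 0
  · simp [hc]; positivity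
  have hc' : (0 : ℝ) < |((g 1 0 : ℤ) : ℝ)| := by
    rw [abs_pos]; exact_mod_cast hc
  have hcge : (1 : ℝ) ≤ |((g 1 0 : ℤ) : ℝ)| := by
    have : (1 : ℤ) ≤ |(g 1 0 : ℤ)| := Int.one_le_abs hc
    exact_mod_cast this
  have hden : |((g 1 0 : ℤ) : ℝ)| * z.im ≤ ‖((g 1 0 : ℤ) : ℂ) * z + ((g 1 1 : ℤ) : ℂ)‖ := by
    have h1 : (((g 1 0 : ℤ) : ℂ) * z + ((g 1 1 : ℤ) : ℂ)).im = ((g 1 0 : ℤ) : ℝ) * z.im := by
      simp
    calc |((g 1 0 : ℤ) : ℝ)| * z.im = |((g 1 0 : ℤ) : ℝ) * z.im| := by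
            rw [abs_mul, abs_of_pos z.im_pos]
      _ = |(((g 1 0 : ℤ) : ℂ) * z + ((g 1 1 : ℤ) : ℂ)).im| := by rw [h1]
      _ ≤ _ := Complex.abs_im_le_norm _
  have hpos : 0 < ‖((g 1 0 : ℤ) : ℂ) * z + ((g 1 1 : ℤ) : ℂ)‖ :=
    lt_of_lt_of_le (mul_pos hc' z.im_pos) hden
  rw [norm_div, div_le_iff₀ hpos]
  have hn : ‖2 * (π : ℂ) * Complex.I * ((g 1 0 : ℤ) : ℂ)‖ = 2 * π * |((g 1 0 : ℤ) : ℝ)| := by
    simp [abs_of_pos Real.pi_pos]
  rw [hn]
  calc 2 * π * |((g 1 0 : ℤ) : ℝ)| ≤ 2 * π * (|((g 1 0 : ℤ) : ℝ)| * z.im) := by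
        have : |((g 1 0 : ℤ) : ℝ)| ≤ |((g 1 0 : ℤ) : ℝ)| * z.im := by
          nlinarith
        have h2 : (0 : ℝ) ≤ 2 * π := by positivity
        exact mul_le_mul_of_nonneg_left this h2
    _ ≤ _ := by
        have h2 : (0 : ℝ) ≤ 2 * π := by positivity
        exact mul_le_mul_of_nonneg_left hden h2

lemma isBoundedAtImInfty_E2_slash (g : SL(2, ℤ)) :
    IsBoundedAtImInfty (E2 ∣[(2 : ℤ)] (mapGL ℝ g)) := by
  have h : E2 ∣[(2 : ℤ)] (mapGL ℝ g) = E2 - kap • D2 g := E2_slash_action g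
  rw [h]
  exact isBoundedAtImInfty_E2.sub ((isBoundedAtImInfty_D2 g).const_smul_left kap)

/-- Hermite normal form of `diag(N,1) * γ` inside `GL(2, ℝ)`. -/
lemma exists_hermite_GL (g : SL(2, ℤ)) :
    ∃ (g' : SL(2, ℤ)) (a b e : ℝ) (ha : 0 < a) (he : 0 < e),
      alphaN N * (mapGL ℝ g) = (mapGL ℝ g') * triGL a b e ha he := by
  have hN : (0 : ℤ) < (N : ℤ) := by exact_mod_cast Nat.pos_of_ne_zero (NeZero.ne N)
  obtain ⟨g', a, b, e, hae, ha, hb, hbe, hM⟩ :=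
    Fermat.Agent.S24.Hermite.exists_hermite_diag (N : ℤ) hN g
  have he : 0 < e := lt_of_le_of_lt hb hbe
  refine ⟨g', (a : ℝ), (b : ℝ), (e : ℝ), by exact_mod_cast ha, by exact_mod_cast he, ?_⟩
  have h00 := congrFun (congrFun hM 0) 0
  have h01 := congrFun (congrFun hM 0) 1
  have h10 := congrFun (congrFun hM 1) 0
  have h11 := congrFun (congrFun hM 1) 1
  simp [Matrix.mul_apply, Fin.sum_univ_two] at h00 h01 h10 h11
  have c00 : ((N : ℤ) : ℝ) * ((g 0 0 : ℤ) : ℝ) = ((g' 0 0 : ℤ) : ℝ) * (a : ℝ) := by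
    exact_mod_cast congrArg (Int.cast : ℤ → ℝ) h00
  have c01 : ((N : ℤ) : ℝ) * ((g 0 1 : ℤ) : ℝ) =
      ((g' 0 0 : ℤ) : ℝ) * (b : ℝ) + ((g' 0 1 : ℤ) : ℝ) * (e : ℝ) := by
    exact_mod_cast congrArg (Int.cast : ℤ → ℝ) h01
  have c10 : ((g 1 0 : ℤ) : ℝ) = ((g' 1 0 : ℤ) : ℝ) * (a : ℝ) := by
    exact_mod_cast congrArg (Int.cast : ℤ → ℝ) h10
  have c11 : ((g 1 1 : ℤ) : ℝ) =
      ((g' 1 0 : ℤ) : ℝ) * (b : ℝ) + ((g' 1 1 : ℤ) : ℝ) * (e : ℝ) := by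
    exact_mod_cast congrArg (Int.cast : ℤ → ℝ) h11
  ext i j
  fin_cases i <;> fin_cases j <;>
    simp [alphaN, triGL, Matrix.GeneralLinearGroup.mkOfDetNeZero, Matrix.mul_apply,
      Fin.sum_univ_two, mapGL_apply']
  · simpa using c00
  · simpa using c01
  · simpa using c10
  · simpa using c11

lemma triGL_apply_one_zero (a b e : ℝ) (ha : 0 < a) (he : 0 < e) :
    (triGL a b e ha he) 1 0 = 0 := by
  simp [triGL, Matrix.GeneralLinearGroup.mkOfDetNeZero]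

lemma isBoundedAtImInfty_eisFun_slash (g : SL(2, ℤ)) :
    IsBoundedAtImInfty (eisFun N ∣[(2 : ℤ)] (mapGL ℝ g)) := by
  obtain ⟨g', a, b, e, ha, he, hdec⟩ := exists_hermite_GL N g
  have h1 : (E2 ∣[(2 : ℤ)] alphaN N) ∣[(2 : ℤ)] (mapGL ℝ g) =
      (E2 ∣[(2 : ℤ)] (mapGL ℝ g')) ∣[(2 : ℤ)] triGL a b e ha he := by
    rw [← SlashAction.slash_mul, hdec, SlashAction.slash_mul]
  rw [eisFun, sub_eq_add_neg, SlashAction.add_slash, SlashAction.neg_slash, h1, ← sub_eq_add_neg]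
  exact ((isBoundedAtImInfty_E2_slash g').slash 2 (triGL_apply_one_zero a b e ha he)).sub
    (isBoundedAtImInfty_E2_slash g)

/-- **The Eisenstein series `N E₂(Nz) - E₂(z)` as a modular form of weight 2 on `Γ₀(N)`.** -/
def eis2N : ModularForm (CongruenceSubgroup.Gamma0 N) 2 where
  toFun := eisFun N
  slash_action_eq' := by
    intro γ hγ
    obtain ⟨g, hg, rfl⟩ := Subgroup.mem_map.mp hγ
    exact eisFun_slash N g hg
  holo' := eisFun_mdifferentiable N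
  bdd_at_cusps' {c} hc := by
    rw [Subgroup.IsArithmetic.isCusp_iff_isCusp_SL2Z] at hc
    rw [OnePoint.isBoundedAt_iff_forall_SL2Z hc]
    exact fun γ _ ↦ isBoundedAtImInfty_eisFun_slash N γ

lemma eis2N_apply (z : ℍ) : eis2N N z = (N : ℂ) * E2 (alphaN N • z) - E2 z :=
  eisFun_apply N z

end Fermat.Agent.S16.Eis2N6
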