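import Mathlib
import Fermat.Prelude.Def_ModularForm_HeckeOperator
import Fermat.Prelude.Thm_UpperHalfPlane_qCoeff_heckeT
import Fermat.Prelude.Thm_CongruenceSubgroup_one_mem_strictPeriods_Gamma0
import Fermat.Agent.S23.DeltaN

/-!
# S16, package (U)-EIS: the weight-2 Eisenstein series of level `Γ₀(p)`

`eisFun p = (p E₂(p z) - E₂(z)) / 24`, built from Mathlib's quasi-modular `E2`.
-/

set_option autoImplicit false

namespace Fermat.Agent.S16.Eis62

open UpperHalfPlane ModularForm Matrix MatrixGroups Matrix.SpecialLinearGroup Filter Topology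
  EisensteinSeries
open scoped ModularForm Real Manifold

noncomputable section

/-! ### The correction term `D2` -/

theorem D2_apply (γ : SL(2, ℤ)) (z : ℍ) :
    D2 γ z = (2 * π * Complex.I * γ 1 0) / denom γ z := rfl

theorem denom_SL (γ : SL(2, ℤ)) (z : ℍ) :
    denom γ z = (γ 1 0 : ℂ) * z + (γ 1 1 : ℂ) := by
  simp [denom]

/-- `D2 γ` is bounded at `i∞`. -/
theorem isBoundedAtImInfty_D2 (γ : SL(2, ℤ)) : IsBoundedAtImInfty (D2 γ) := by
  rw [UpperHalfPlane.isBoundedAtImInfty_iff]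
  refine ⟨2 * π, 1, fun z hz => ?_⟩
  rw [D2_apply]
  rcases eq_or_ne (γ 1 0) 0 with h0 | h0
  · simp [h0]; positivity
  · have hc : (0 : ℝ) < |((γ 1 0 : ℤ) : ℝ)| := abs_pos.mpr (by exact_mod_cast h0)
    have hden : |((γ 1 0 : ℤ) : ℝ)| * z.im ≤ ‖denom γ z‖ := by
      have h1 : (denom γ z).im = ((γ 1 0 : ℤ) : ℝ) * z.im := by
        rw [denom_SL]; simp
      calc |((γ 1 0 : ℤ) : ℝ)| * z.im = |(denom γ z).im| := by
            rw [h1, abs_mul, abs_of_pos z.im_pos]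
        _ ≤ ‖denom γ z‖ := Complex.abs_im_le_norm _
    have hpos : 0 < |((γ 1 0 : ℤ) : ℝ)| * z.im := mul_pos hc z.im_pos
    rw [norm_div]
    have hnum : ‖(2 * π * Complex.I * (γ 1 0 : ℂ))‖ = 2 * π * |((γ 1 0 : ℤ) : ℝ)| := by
      simp [abs_of_pos Real.pi_pos]
    rw [hnum, div_le_iff₀ (lt_of_lt_of_le hpos hden)]
    calc 2 * π * |((γ 1 0 : ℤ) : ℝ)| = 2 * π * (|((γ 1 0 : ℤ) : ℝ)| * 1) := by ring
      _ ≤ 2 * π * (|((γ 1 0 : ℤ) : ℝ)| * z.im) := by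
          gcongr
      _ ≤ 2 * π * ‖denom γ z‖ := by gcongr

/-! ### Conjugating `Γ₀(N)` by `diag(N, 1)` -/

/-- For `h ∈ Γ₀(N)`, `diag(N,1) * h = h'' * diag(N,1)` with `h'' = [[a, N b], [c / N, d]]`. -/
theorem exists_conj_Gamma0 {N : ℕ} (hN : N ≠ 0) {h : SL(2, ℤ)}
    (hh : h ∈ CongruenceSubgroup.Gamma0 N) :
    ∃ h'' : SL(2, ℤ), h'' 1 0 * (N : ℤ) = h 1 0 ∧ h'' 1 1 = h 1 1 ∧
      heckeDiagMatrix N * (h : GL (Fin 2) ℝ) = (h'' : GL (Fin 2) ℝ) * heckeDiagMatrix N := by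
  rw [CongruenceSubgroup.Gamma0_mem, ZMod.intCast_zmod_eq_zero_iff_dvd] at hh
  obtain ⟨c', hc'⟩ := hh
  have hdet : h 0 0 * h 1 1 - h 0 1 * h 1 0 = 1 := by
    have := h.det_coe
    rw [Matrix.det_fin_two] at this
    exact this
  obtain ⟨h'', e00, e01, e10, e11⟩ : ∃ h'' : SL(2, ℤ), h'' 0 0 = h 0 0 ∧
      h'' 0 1 = (N : ℤ) * h 0 1 ∧ h'' 1 0 = c' ∧ h'' 1 1 = h 1 1 := by
    refine ⟨⟨!![h 0 0, (N : ℤ) * h 0 1; c', h 1 1], ?_⟩, rfl, rfl, rfl, rfl⟩
    rw [Matrix.det_fin_two_of]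
    rw [hc'] at hdet
    linear_combination hdet
  refine ⟨h'', by rw [e10, hc']; ring, e11, ?_⟩
  apply Units.ext
  rw [Units.val_mul, Units.val_mul, val_heckeDiagMatrix hN]
  ext i j
  fin_cases i <;> fin_cases j
  · simp [Matrix.mul_apply, Fin.sum_univ_two, e00]
    ring
  · simp [Matrix.mul_apply, Fin.sum_univ_two, e01]
  · simp [Matrix.mul_apply, Fin.sum_univ_two, e10]
    have : ((h 1 0 : ℤ) : ℝ) = (N : ℝ) * (c' : ℝ) := by exact_mod_cast hc'
    rw [this]; ring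
  · simp [Matrix.mul_apply, Fin.sum_univ_two, e11]

/-- The `D2` cancellation: `(D2 h'') ∣[2] diag(N,1) = D2 h` when `h'' = [[a, N b], [c / N, d]]`. -/
theorem D2_slash_heckeDiag {N : ℕ} (hN : N ≠ 0) {h h'' : SL(2, ℤ)}
    (e10 : h'' 1 0 * (N : ℤ) = h 1 0) (e11 : h'' 1 1 = h 1 1) :
    (D2 h'') ∣[(2 : ℤ)] heckeDiagMatrix N = D2 h := by
  ext z
  rw [slash_heckeDiagMatrix_apply 2 hN, D2_apply, D2_apply, denom_SL, denom_SL,
    coe_heckeDiagMatrix_smul hN, e11, ← e10]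
  push_cast
  norm_num
  ring

/-! ### The function `N E₂(N z) - E₂(z)` -/

/-- `eis2Fun N z = N E₂(N z) - E₂(z)`. -/
def eis2Fun (N : ℕ) : ℍ → ℂ := E2 ∣[(2 : ℤ)] heckeDiagMatrix N - E2

theorem eis2Fun_apply {N : ℕ} (hN : N ≠ 0) (z : ℍ) :
    eis2Fun N z = (N : ℂ) * E2 (heckeDiagMatrix N • z) - E2 z := by
  rw [eis2Fun, Pi.sub_apply, slash_heckeDiagMatrix_apply 2 hN]
  norm_num

/-- the constant `1 / (2 ζ(2))` in the transformation law of `E2`. -/
local notation "cE" => (1 / (2 * riemannZeta 2) : ℂ)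

theorem E2_slash_heckeDiag_slash_Gamma0 {N : ℕ} (hN : N ≠ 0) {h : SL(2, ℤ)}
    (hh : h ∈ CongruenceSubgroup.Gamma0 N) :
    (E2 ∣[(2 : ℤ)] heckeDiagMatrix N) ∣[(2 : ℤ)] h =
      E2 ∣[(2 : ℤ)] heckeDiagMatrix N - cE • D2 h := by
  obtain ⟨h'', e10, e11, hmat⟩ := exists_conj_Gamma0 hN hh
  rw [ModularForm.SL_slash, ← SlashAction.slash_mul, hmat, SlashAction.slash_mul,
    ← ModularForm.SL_slash, E2_slash_action h'', sub_eq_add_neg, SlashAction.add_slash,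
    SlashAction.neg_slash, ModularForm.smul_slash, σ_heckeDiagMatrix,
    D2_slash_heckeDiag hN e10 e11, ← sub_eq_add_neg]
  rfl

theorem eis2Fun_slash_Gamma0 {N : ℕ} (hN : N ≠ 0) {h : SL(2, ℤ)}
    (hh : h ∈ CongruenceSubgroup.Gamma0 N) :
    eis2Fun N ∣[(2 : ℤ)] h = eis2Fun N := by
  rw [eis2Fun, sub_eq_add_neg, SlashAction.add_slash, SlashAction.neg_slash,
    E2_slash_heckeDiag_slash_Gamma0 hN hh, E2_slash_action h]
  abel

theorem eis2Fun_mdifferentiable (N : ℕ) : MDiff (eis2Fun N) :=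
  (E2_mdifferentiable.slash 2 _).sub E2_mdifferentiable

/-! ### Boundedness at all cusps -/

theorem isBoundedAtImInfty_E2_slash_SL (γ : SL(2, ℤ)) :
    IsBoundedAtImInfty (E2 ∣[(2 : ℤ)] γ) := by
  rw [E2_slash_action γ]
  exact isBoundedAtImInfty_E2.sub ((isBoundedAtImInfty_D2 γ).const_smul_left _)

theorem isBoundedAtImInfty_E2_heckeDiag_slash_SL {N : ℕ} (hN : N ≠ 0) (γ : SL(2, ℤ)) :
    IsBoundedAtImInfty ((E2 ∣[(2 : ℤ)] heckeDiagMatrix N) ∣[(2 : ℤ)] γ) := by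
  obtain ⟨h', A, D, B, hA, hD, -, -, hmat⟩ := Fermat.Agent.S23.hermite_decomp N hN γ
  rw [ModularForm.SL_slash, ← SlashAction.slash_mul, hmat, SlashAction.slash_mul,
    ← ModularForm.SL_slash]
  exact (isBoundedAtImInfty_E2_slash_SL h').slash 2 (Fermat.Agent.S23.utGL_one_zero A D B hA hD)

theorem isBoundedAtImInfty_eis2Fun_slash_SL {N : ℕ} (hN : N ≠ 0) (γ : SL(2, ℤ)) :
    IsBoundedAtImInfty (eis2Fun N ∣[(2 : ℤ)] γ) := by
  rw [eis2Fun, sub_eq_add_neg, SlashAction.add_slash, SlashAction.neg_slash, ← sub_eq_add_neg]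
  exact (isBoundedAtImInfty_E2_heckeDiag_slash_SL hN γ).sub (isBoundedAtImInfty_E2_slash_SL γ)

/-! ### The modular form -/

/-- The weight-2 Eisenstein series `N E₂(N z) - E₂(z)` of level `Γ₀(N)`. -/
def eis2 (N : ℕ) [NeZero N] : ModularForm (CongruenceSubgroup.Gamma0 N) 2 where
  toFun := eis2Fun N
  slash_action_eq' γ hγ := by
    obtain ⟨h, hh, rfl⟩ := Subgroup.mem_map.mp hγ
    exact eis2Fun_slash_Gamma0 (NeZero.ne N) hh
  holo' := eis2Fun_mdifferentiable N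
  bdd_at_cusps' {c} hc := by
    rw [Subgroup.IsArithmetic.isCusp_iff_isCusp_SL2Z] at hc
    rw [OnePoint.isBoundedAt_iff_forall_SL2Z hc]
    exact fun γ _ ↦ isBoundedAtImInfty_eis2Fun_slash_SL (NeZero.ne N) γ

@[simp] theorem coe_eis2 (N : ℕ) [NeZero N] : ⇑(eis2 N) = eis2Fun N := rfl

theorem eis2_apply (N : ℕ) [NeZero N] (z : ℍ) :
    eis2 N z = (N : ℂ) * E2 (heckeDiagMatrix N • z) - E2 z :=
  eis2Fun_apply (NeZero.ne N) z

/-! ### `q`-expansion -/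

open scoped ArithmeticFunction.sigma

/-- `q`-coefficients of `E2`: `1, -24 σ₁(1), -24 σ₁(2), …`. -/
def coeffE2 (m : ℕ) : ℂ := if m = 0 then 1 else -24 * (σ 1 m : ℂ)

theorem hasSum_E2 (z : ℍ) :
    HasSum (fun m : ℕ => coeffE2 m • Function.Periodic.qParam 1 z ^ m) (E2 z) := by
  simpa only [Function.Periodic.qParam, Complex.ofReal_one, div_one, coeffE2] using
    hasSum_qExpansion_E2 (z := z)

/-- `q`-coefficients of `N E₂(N z) - E₂(z)`. -/
def coeffEis2 (N m : ℕ) : ℂ := (if N ∣ m then (N : ℂ) * coeffE2 (m / N) else 0) - coeffE2 m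

theorem hasSum_eis2 (N : ℕ) [NeZero N] (z : ℍ) :
    HasSum (fun m : ℕ => coeffEis2 N m • Function.Periodic.qParam 1 z ^ m) (eis2 N z) := by
  rw [eis2_apply]
  have hN := NeZero.ne N
  have hD := (hasSum_E2 (heckeDiagMatrix N • z)).mul_left (N : ℂ)
  rw [P2MW.S_UpperHalfPlane_qCoeff_heckeT.M4cP1W2.qParam_heckeDiagMatrix_smul hN z] at hD
  have hinj : Function.Injective (fun l : ℕ ↦ l * N) := mul_left_injective₀ hN
  have h1 : HasSum (fun n : ℕ => if N ∣ n then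
      (N : ℂ) * coeffE2 (n / N) * Function.Periodic.qParam 1 z ^ n else 0)
      ((N : ℂ) * E2 (heckeDiagMatrix N • z)) := by
    refine (hinj.hasSum_iff (fun m hm => ?_)).mp ?_
    · have : ¬ N ∣ m := fun ⟨l, hl⟩ => hm ⟨l, by simp [hl, mul_comm]⟩
      simp [this]
    · have hfun : ((fun n : ℕ => if N ∣ n then
          (N : ℂ) * coeffE2 (n / N) * Function.Periodic.qParam 1 z ^ n else 0) ∘
          fun l : ℕ ↦ l * N) =
          fun i : ℕ => (N : ℂ) * coeffE2 i • (Function.Periodic.qParam 1 z ^ N) ^ i := by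
        funext l
        simp only [Function.comp_apply, if_pos (dvd_mul_left N l),
          Nat.mul_div_cancel _ (Nat.pos_of_ne_zero hN), smul_eq_mul]
        rw [← pow_mul, mul_comm l N, mul_assoc]
      rw [hfun]
      exact hD
  have hfun : (fun m : ℕ => coeffEis2 N m • Function.Periodic.qParam 1 z ^ m) =
      fun m : ℕ => (if N ∣ m then
        (N : ℂ) * coeffE2 (m / N) * Function.Periodic.qParam 1 z ^ m else 0) -
        coeffE2 m • Function.Periodic.qParam 1 z ^ m := by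
    funext m
    simp only [coeffEis2, smul_eq_mul]
    split_ifs <;> ring
  rw [hfun]
  exact h1.sub (hasSum_E2 z)

/-- The `q`-expansion coefficients of `eis2 N`. -/
theorem qExpansion_eis2_coeff (N : ℕ) [NeZero N] (n : ℕ) :
    (UpperHalfPlane.qExpansion 1 (eis2 N)).coeff n = coeffEis2 N n :=
  (ModularFormClass.qExpansion_coeff_unique (f := eis2 N) (c := coeffEis2 N) one_pos
    (CongruenceSubgroup.one_mem_strictPeriods_Gamma0 N) (fun τ => hasSum_eis2 N τ) n).symm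

/-! ### The divisor-sum identity -/

/-- `σ'_N(k) = ∑_{d ∣ k, N ∤ d} d` (same shape as `Dual3.sigmaP` and `UIface39.sigmaP`). -/
def sigmaP (N k : ℕ) : ℤ := ∑ d ∈ k.divisors with ¬ N ∣ d, (d : ℤ)

theorem sum_divisors_filter_dvd (N m : ℕ) (hN : N ≠ 0) (hm : m ≠ 0) :
    ∑ d ∈ (N * m).divisors with N ∣ d, (d : ℤ) = (N : ℤ) * ∑ e ∈ m.divisors, (e : ℤ) := by
  rw [Finset.mul_sum]
  symm
  apply Finset.sum_bij (fun e _ => N * e)
  · intro e he
    simp only [Finset.mem_filter, Nat.mem_divisors] at he ⊢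
    exact ⟨⟨Nat.mul_dvd_mul_left N he.1, mul_ne_zero hN hm⟩, dvd_mul_right N e⟩
  · intro a _ b _ h
    exact Nat.eq_of_mul_eq_mul_left (Nat.pos_of_ne_zero hN) h
  · intro d hd
    simp only [Finset.mem_filter, Nat.mem_divisors] at hd
    obtain ⟨⟨hd1, _⟩, e, rfl⟩ := hd
    refine ⟨e, ?_, rfl⟩
    simp only [Nat.mem_divisors]
    exact ⟨(Nat.mul_dvd_mul_iff_left (Nat.pos_of_ne_zero hN)).mp hd1, hm⟩
  · intro e _
    push_cast
    ring

theorem sigma_one_eq_sigmaP_add (N k : ℕ) (hN : N ≠ 0) (hk : k ≠ 0) :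
    ((σ 1 k : ℕ) : ℤ) = sigmaP N k + (if N ∣ k then (N : ℤ) * ((σ 1 (k / N) : ℕ) : ℤ) else 0) := by
  rw [ArithmeticFunction.sigma_one_apply, sigmaP]
  push_cast
  rw [← Finset.sum_filter_add_sum_filter_not k.divisors (fun d => ¬ N ∣ d)]
  congr 1
  simp only [not_not]
  split_ifs with h
  · obtain ⟨m, rfl⟩ := h
    have hm : m ≠ 0 := fun h0 => hk (by simp [h0])
    rw [Nat.mul_div_cancel_left _ (Nat.pos_of_ne_zero hN), ArithmeticFunction.sigma_one_apply,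
      sum_divisors_filter_dvd N m hN hm]
    push_cast
    rfl
  · apply Finset.sum_eq_zero
    intro d hd
    simp only [Finset.mem_filter, Nat.mem_divisors] at hd
    exact absurd (hd.2.trans hd.1.1) h

theorem coeffEis2_zero (N : ℕ) : coeffEis2 N 0 = (N : ℂ) - 1 := by
  simp [coeffEis2, coeffE2]

theorem coeffEis2_of_ne_zero (N k : ℕ) (hN : N ≠ 0) (hk : k ≠ 0) :
    coeffEis2 N k = 24 * ((sigmaP N k : ℤ) : ℂ) := by
  have h := sigma_one_eq_sigmaP_add N k hN hk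
  have h' : ((sigmaP N k : ℤ) : ℂ) = ((σ 1 k : ℕ) : ℂ) -
      (if N ∣ k then (N : ℂ) * ((σ 1 (k / N) : ℕ) : ℂ) else 0) := by
    have : sigmaP N k = ((σ 1 k : ℕ) : ℤ) -
        (if N ∣ k then (N : ℤ) * ((σ 1 (k / N) : ℕ) : ℤ) else 0) := by rw [h]; ring
    rw [this]
    split_ifs <;> push_cast <;> ring
  have hk' : coeffE2 k = -24 * ((σ 1 k : ℕ) : ℂ) := by rw [coeffE2, if_neg hk]
  rw [h', coeffEis2, hk']
  split_ifs with h1
  · have : k / N ≠ 0 := by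
      obtain ⟨m, rfl⟩ := h1
      rw [Nat.mul_div_cancel_left _ (Nat.pos_of_ne_zero hN)]
      exact fun h0 => hk (by simp [h0])
    rw [coeffE2, if_neg this]
    ring
  · ring

/-- **`q`-expansion of `eis2 N`**, constant term. -/
theorem qExpansion_eis2_coeff_zero (N : ℕ) [NeZero N] :
    (UpperHalfPlane.qExpansion 1 (eis2 N)).coeff 0 = (N : ℂ) - 1 := by
  rw [qExpansion_eis2_coeff, coeffEis2_zero]

/-- **`q`-expansion of `eis2 N`**, higher terms: `24 σ'_N(k)`. -/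
theorem qExpansion_eis2_coeff_of_ne_zero (N : ℕ) [NeZero N] (k : ℕ) (hk : k ≠ 0) :
    (UpperHalfPlane.qExpansion 1 (eis2 N)).coeff k = 24 * ((sigmaP N k : ℤ) : ℂ) := by
  rw [qExpansion_eis2_coeff, coeffEis2_of_ne_zero N k (NeZero.ne N) hk]

end

end Fermat.Agent.S16.Eis62
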