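import Mathlib
import Fermat.Agent.S24.JBridge80

/-!
# S16 infrastructure: level-one modular forms with coefficients in a subring

For a subring `O ⊆ ℂ` and a level-one modular form `f` of weight `k` all of whose
`q`-expansion coefficients lie in `O`, the function `f` is (pointwise on `ℍ`) an `O`-linear
combination of the monomials `E₄ ^ a * E₆ ^ b * Δ ^ c` with `4a + 6b + 12c = k`.
Consequently the values of `f` at `ρ = e^{2πi/3}` and at `i` are `O`-multiples of `Ω ^ k`
for a fixed period `Ω`.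
-/

set_option autoImplicit false

namespace Fermat.Agent.S16.L1Int35

open UpperHalfPlane ModularForm EisensteinSeries MatrixGroups CongruenceSubgroup PowerSeries
open scoped ModularForm

noncomputable section

local notation "Δ" => ModularForm.discriminant

/-! ### Power series with coefficients in a subring -/

/-- All coefficients of the power series `P` lie in the subring `O`. -/
def CoeffsIn (O : Subring ℂ) (P : PowerSeries ℂ) : Prop := ∀ n, coeff n P ∈ O

namespace CoeffsIn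

variable {O : Subring ℂ} {P Q : PowerSeries ℂ}

theorem zero : CoeffsIn O 0 := fun n => by simp

theorem one : CoeffsIn O 1 := fun n => by
  rw [coeff_one]; split_ifs
  · exact O.one_mem
  · exact O.zero_mem

theorem add (hP : CoeffsIn O P) (hQ : CoeffsIn O Q) : CoeffsIn O (P + Q) := fun n => by
  rw [map_add]; exact O.add_mem (hP n) (hQ n)

theorem sub (hP : CoeffsIn O P) (hQ : CoeffsIn O Q) : CoeffsIn O (P - Q) := fun n => by
  rw [map_sub]; exact O.sub_mem (hP n) (hQ n)

theorem mul (hP : CoeffsIn O P) (hQ : CoeffsIn O Q) : CoeffsIn O (P * Q) := fun n => by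
  rw [coeff_mul]
  exact O.sum_mem fun x _ => O.mul_mem (hP _) (hQ _)

theorem pow (hP : CoeffsIn O P) (n : ℕ) : CoeffsIn O (P ^ n) := by
  induction n with
  | zero => simpa using one
  | succ n ih => rw [pow_succ]; exact ih.mul hP

theorem smul {x : ℂ} (hx : x ∈ O) (hP : CoeffsIn O P) : CoeffsIn O (x • P) := fun n => by
  rw [coeff_smul]; exact O.mul_mem hx (hP n)

theorem map_int (P : PowerSeries ℤ) : CoeffsIn O (P.map (Int.castRingHom ℂ)) := fun n => by
  rw [coeff_map, eq_intCast]; exact intCast_mem O _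

theorem X : CoeffsIn O (PowerSeries.X : PowerSeries ℂ) := fun n => by
  rw [coeff_X]; split_ifs
  · exact O.one_mem
  · exact O.zero_mem

/-- Division by `X * U` with `U` a power series with constant coefficient `1`. -/
theorem of_X_mul_mul {U H G : PowerSeries ℂ} (hU : CoeffsIn O U) (hU0 : coeff 0 U = 1)
    (hG : CoeffsIn O G) (h : PowerSeries.X * U * H = G) : CoeffsIn O H := by
  intro n
  induction n using Nat.strong_induction_on with
  | _ n ih =>
    have h1 : coeff (n + 1) G = coeff n (U * H) := by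
      rw [← h, mul_assoc, coeff_succ_X_mul]
    rw [coeff_mul, Finset.Nat.sum_antidiagonal_eq_sum_range_succ_mk, Finset.sum_range_succ'] at h1
    simp only [hU0, Nat.sub_zero, one_mul] at h1
    have h2 : coeff n H = coeff (n + 1) G -
        ∑ i ∈ Finset.range n, coeff (i + 1) U * coeff (n - (i + 1)) H := by
      rw [h1]; ring
    rw [h2]
    refine O.sub_mem (hG _) (O.sum_mem fun i hi => O.mul_mem (hU _) (ih _ ?_))
    have := Finset.mem_range.mp hi
    omega

end CoeffsIn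


/-! ### Integrality of the `q`-expansions of `E₄`, `E₆`, `Δ` -/

variable (O : Subring ℂ)

theorem coeffsIn_E4 : CoeffsIn O (qExpansion 1 E₄) := fun m => by
  rw [E_qExpansion_coeff _ ⟨2, rfl⟩ m, show bernoulli 4 = -1 / 30 by decide +kernel]
  split_ifs
  · exact O.one_mem
  · have : (-(2 * ((4 : ℕ) : ℂ) / ((-1 / 30 : ℚ) : ℂ)) * ((ArithmeticFunction.sigma (4 - 1) m : ℕ) : ℂ))
        = ((240 * ArithmeticFunction.sigma 3 m : ℕ) : ℂ) := by
      push_cast; norm_num
    rw [this]; exact natCast_mem O _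

theorem coeffsIn_E6 : CoeffsIn O (qExpansion 1 E₆) := fun m => by
  rw [E_qExpansion_coeff _ ⟨3, rfl⟩ m, show bernoulli 6 = 1 / 42 by decide +kernel]
  split_ifs
  · exact O.one_mem
  · have : (-(2 * ((6 : ℕ) : ℂ) / ((1 / 42 : ℚ) : ℂ)) * ((ArithmeticFunction.sigma (6 - 1) m : ℕ) : ℂ))
        = ((-(504 * ArithmeticFunction.sigma 5 m : ℕ) : ℤ) : ℂ) := by
      push_cast; norm_num
    rw [this]; exact intCast_mem O _

theorem coeff_zero_E4 : coeff 0 (qExpansion 1 E₄) = 1 := E_qExpansion_coeff_zero _ ⟨2, rfl⟩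

theorem coeff_zero_E6 : coeff 0 (qExpansion 1 E₆) = 1 := E_qExpansion_coeff_zero _ ⟨3, rfl⟩

theorem qExpansion_discriminant :
    qExpansion 1 Δ = PowerSeries.X * ModularCurve.dedekindEtaUnit.map (Int.castRingHom ℂ) :=
  Fermat.Agent.S24.JBridge80.qExpansion_discriminant_eq


/-! ### The monomials `E₄ ^ a * E₆ ^ b` as modular forms -/

/-- The modular form `E₄ ^ a * E₆ ^ b`. -/
def monoForm (a b : ℕ) : ModularForm 𝒮ℒ ((a : ℤ) * ((4 : ℕ) : ℤ) + (b : ℤ) * ((6 : ℕ) : ℤ)) :=
  (E₄.pow a).mul (E₆.pow b)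

theorem monoForm_apply (a b : ℕ) (z : ℍ) : monoForm a b z = E₄ z ^ a * E₆ z ^ b := by
  simp [monoForm, ModularForm.coe_mul, ModularForm.coe_pow]

theorem qExpansion_monoForm (a b : ℕ) :
    qExpansion 1 (monoForm a b) = qExpansion 1 E₄ ^ a * qExpansion 1 E₆ ^ b := by
  rw [monoForm, ModularForm.qExpansion_mul one_pos one_mem_strictPeriods_SL,
    ModularForm.qExpansion_pow one_pos one_mem_strictPeriods_SL,
    ModularForm.qExpansion_pow one_pos one_mem_strictPeriods_SL]

theorem coeffsIn_monoForm (a b : ℕ) : CoeffsIn O (qExpansion 1 (monoForm a b)) := by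
  rw [qExpansion_monoForm]
  exact ((coeffsIn_E4 O).pow a).mul ((coeffsIn_E6 O).pow b)

theorem coeff_zero_monoForm (a b : ℕ) : coeff 0 (qExpansion 1 (monoForm a b)) = 1 := by
  rw [qExpansion_monoForm, coeff_zero_eq_constantCoeff, map_mul, map_pow, map_pow,
    ← coeff_zero_eq_constantCoeff, coeff_zero_E4, coeff_zero_E6]
  simp

/-! ### The span of the monomials -/

/-- The monomial function `x * E₄ ^ a * E₆ ^ b * Δ ^ c`. -/
def mono (x : ℂ) (a b c : ℕ) : ℍ → ℂ := fun z => x * E₄ z ^ a * E₆ z ^ b * Δ z ^ c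

/-- The additive group generated by the monomials `x * E₄ ^ a * E₆ ^ b * Δ ^ c` of weight `k`
with `x ∈ O`. -/
def MonoSpan (k : ℤ) : AddSubgroup (ℍ → ℂ) :=
  AddSubgroup.closure {F | ∃ (a b c : ℕ) (x : ℂ), x ∈ O ∧
    (4 * (a : ℤ) + 6 * (b : ℤ) + 12 * (c : ℤ)) = k ∧ F = mono x a b c}

variable {O}

theorem mono_mem {k : ℤ} {x : ℂ} (hx : x ∈ O) {a b c : ℕ}
    (h : (4 * (a : ℤ) + 6 * (b : ℤ) + 12 * (c : ℤ)) = k) : mono x a b c ∈ MonoSpan O k :=
  AddSubgroup.subset_closure ⟨a, b, c, x, hx, h, rfl⟩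

theorem discriminant_mul_mem {k : ℤ} {F : ℍ → ℂ} (hF : F ∈ MonoSpan O (k - 12)) :
    (fun z => Δ z * F z) ∈ MonoSpan O k := by
  induction hF using AddSubgroup.closure_induction with
  | mem F hF =>
    obtain ⟨a, b, c, x, hx, h, rfl⟩ := hF
    have : (fun z => Δ z * mono x a b c z) = mono x a b (c + 1) := by
      funext z; simp only [mono]; ring
    rw [this]
    exact mono_mem hx (by push_cast; omega)
  | zero =>
    have : (fun z => Δ z * (0 : ℍ → ℂ) z) = 0 := by funext z; simp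
    rw [this]; exact (MonoSpan O k).zero_mem
  | add F G _ _ hF hG =>
    have : (fun z => Δ z * (F + G) z) = (fun z => Δ z * F z) + (fun z => Δ z * G z) := by
      funext z; simp [mul_add]
    rw [this]; exact (MonoSpan O k).add_mem hF hG
  | neg F _ hF =>
    have : (fun z => Δ z * (-F) z) = -(fun z => Δ z * F z) := by
      funext z; simp
    rw [this]; exact (MonoSpan O k).neg_mem hF


/-! ### The structure theorem -/

theorem exists_weight_rep {k : ℤ} (hk0 : 0 ≤ k) (hk2 : k ≠ 2) (hke : Even k) :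
    ∃ a b : ℕ, (a : ℤ) * ((4 : ℕ) : ℤ) + (b : ℤ) * ((6 : ℕ) : ℤ) = k := by
  obtain ⟨m, hm⟩ := hke
  rcases Int.emod_two_eq_zero_or_one m with h | h
  · refine ⟨(m / 2).toNat, 0, ?_⟩
    have : ((m / 2).toNat : ℤ) = m / 2 := Int.toNat_of_nonneg (by omega)
    rw [this]; push_cast; omega
  · refine ⟨((m - 3) / 2).toNat, 1, ?_⟩
    have : (((m - 3) / 2).toNat : ℤ) = (m - 3) / 2 := Int.toNat_of_nonneg (by omega)
    rw [this]; push_cast; omega

theorem mem_monoSpan_aux (n : ℕ) : ∀ (k : ℤ), k < n → ∀ f : ModularForm 𝒮ℒ k,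
    CoeffsIn O (qExpansion 1 f) → (f : ℍ → ℂ) ∈ MonoSpan O k := by
  induction n with
  | zero =>
    intro k hk f _
    have : (f : ℍ → ℂ) = 0 :=
      ModularFormClass.levelOne_neg_weight_eq_zero (by exact_mod_cast hk) f
    rw [this]; exact zero_mem _
  | succ n ih =>
    intro k hk f hf
    by_cases hkn : k < n
    · exact ih k hkn f hf
    have hk0 : 0 ≤ k := by push_cast at hk; omega
    by_cases hodd : Odd k
    · have : f = 0 := ModularForm.levelOne_odd_weight_eq_zero hodd f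
      subst this
      rw [FunLike.coe_zero]; exact zero_mem _
    have hke : Even k := Int.not_odd_iff_even.mp hodd
    by_cases hk2 : k = 2
    · subst hk2
      have : f = 0 := rank_zero_iff_forall_zero.mp ModularForm.levelOne_weight_two_rank_zero f
      subst this
      rw [FunLike.coe_zero]; exact zero_mem _
    obtain ⟨a, b, hab⟩ := exists_weight_rep hk0 hk2 hke
    set a0 := coeff 0 (qExpansion 1 f) with ha0
    have ha0O : a0 ∈ O := hf 0
    set M : ModularForm 𝒮ℒ k := ModularForm.mcast hab (monoForm a b) with hM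
    have hMq : qExpansion 1 M = qExpansion 1 (monoForm a b) := rfl
    set g : ModularForm 𝒮ℒ k := f - a0 • M with hg
    have hgq : qExpansion 1 g = qExpansion 1 f - a0 • qExpansion 1 (monoForm a b) := by
      rw [hg, FunLike.coe_sub, ModularForm.qExpansion_sub one_pos one_mem_strictPeriods_SL,
        FunLike.coe_smul, ModularForm.qExpansion_smul one_pos one_mem_strictPeriods_SL, hMq]
    have hg0 : coeff 0 (qExpansion 1 g) = 0 := by
      rw [hgq, map_sub, coeff_smul, coeff_zero_monoForm, smul_eq_mul, mul_one, sub_self]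
    have hgO : CoeffsIn O (qExpansion 1 g) := by
      rw [hgq]; exact hf.sub (CoeffsIn.smul ha0O (coeffsIn_monoForm O a b))
    set h := CuspForm.discriminantEquiv (ModularForm.toCuspForm g hg0) with hh
    have hfac := ModularForm.qExpansion_eq_qExpansion_discriminant_mul g hg0
    have hhO : CoeffsIn O (qExpansion 1 h) := by
      refine CoeffsIn.of_X_mul_mul (U := ModularCurve.dedekindEtaUnit.map (Int.castRingHom ℂ))
        (G := qExpansion 1 g) (CoeffsIn.map_int _) ?_ hgO ?_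
      · rw [coeff_map, coeff_zero_eq_constantCoeff, ModularCurve.constantCoeff_dedekindEtaUnit]
        simp
      · rw [hfac, qExpansion_discriminant]
    have hmem := ih (k - 12) (by push_cast at hk; omega) h hhO
    have hfz : (f : ℍ → ℂ) = mono a0 a b 0 + fun z => Δ z * h z := by
      funext z
      have h1 : Δ z * h z = g z := ModularForm.discriminant_mul_discriminantEquiv_apply _ z
      have h2 : g z = f z - a0 * (E₄ z ^ a * E₆ z ^ b) := by
        rw [hg]
        simp only [sub_apply, smul_apply, smul_eq_mul, hM,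
          ModularForm.mcast_apply, monoForm_apply]
      simp only [Pi.add_apply, mono, h1, h2]
      ring
    rw [hfz]
    exact add_mem (mono_mem ha0O (by push_cast at hab ⊢; omega)) (discriminant_mul_mem hmem)

/-- **Structure theorem.** A level-one modular form whose `q`-expansion has all its
coefficients in a subring `O` of `ℂ` is an `O`-linear combination of the monomials
`E₄ ^ a * E₆ ^ b * Δ ^ c` of the same weight. -/
theorem mem_monoSpan {k : ℤ} (f : ModularForm 𝒮ℒ k) (hf : ∀ n, coeff n (qExpansion 1 f) ∈ O) :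
    (f : ℍ → ℂ) ∈ MonoSpan O k := by
  rcases lt_or_ge k 0 with hk | hk
  · exact mem_monoSpan_aux 0 k (by simpa using hk) f hf
  · exact mem_monoSpan_aux (k.toNat + 1) k (by push_cast; omega) f hf


/-! ### Evaluation at a point where `E₄`, `E₆`, `Δ` are `O`-multiples of powers of a period -/

theorem eval_mem {k : ℤ} {F : ℍ → ℂ} (hF : F ∈ MonoSpan O k) {z₀ : ℍ} {Ω e4 e6 d : ℂ}
    (he4 : e4 ∈ O) (he6 : e6 ∈ O) (hd : d ∈ O)
    (h4 : E₄ z₀ = e4 * Ω ^ 4) (h6 : E₆ z₀ = e6 * Ω ^ 6) (hΔ : Δ z₀ = d * Ω ^ 12) :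
    ∃ y ∈ O, F z₀ = y * Ω ^ k := by
  induction hF using AddSubgroup.closure_induction with
  | mem F hF =>
    obtain ⟨a, b, c, x, hx, h, rfl⟩ := hF
    refine ⟨x * e4 ^ a * e6 ^ b * d ^ c,
      O.mul_mem (O.mul_mem (O.mul_mem hx (O.pow_mem he4 a)) (O.pow_mem he6 b)) (O.pow_mem hd c), ?_⟩
    have hk : k = ((4 * a + 6 * b + 12 * c : ℕ) : ℤ) := by rw [← h]; push_cast; ring
    rw [hk, zpow_natCast]
    simp only [mono, h4, h6, hΔ]
    ring
  | zero => exact ⟨0, O.zero_mem, by simp⟩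
  | add F G _ _ hF hG =>
    obtain ⟨y₁, hy₁, h₁⟩ := hF
    obtain ⟨y₂, hy₂, h₂⟩ := hG
    exact ⟨y₁ + y₂, O.add_mem hy₁ hy₂, by rw [Pi.add_apply, h₁, h₂]; ring⟩
  | neg F _ hF =>
    obtain ⟨y, hy, h⟩ := hF
    exact ⟨-y, O.neg_mem hy, by rw [Pi.neg_apply, h]; ring⟩

/-! ### The elliptic points `ρ` and `i` -/

theorem ST_smul_rho : (ModularGroup.S * ModularGroup.T) • ρ = ρ := by
  rw [mul_smul, ← ModularGroup.SL_neg_smul ModularGroup.S, ← ModularGroup.S_inv, inv_smul_eq_iff,
    eq_comm, UpperHalfPlane.ext_iff, modular_S_smul, modular_T_smul, UpperHalfPlane.coe_mk,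
    coe_vadd, ← mul_one (_ : ℂ)⁻¹, inv_mul_eq_iff_eq_mul₀ (neg_ne_zero.mpr ρ.ne_zero)]
  grind [ρ_sq, Complex.ofReal_one]

theorem S_smul_I : ModularGroup.S • UpperHalfPlane.I = UpperHalfPlane.I := by
  rw [UpperHalfPlane.ext_iff, modular_S_smul, UpperHalfPlane.coe_mk]
  simp [UpperHalfPlane.I]


/-- Functional equation of a level-one form under an element of `SL(2, ℤ)`. -/
theorem apply_smul {k : ℤ} (f : ModularForm 𝒮ℒ k) (γ : SL(2, ℤ)) (z : ℍ) :
    f (γ • z) = (((γ 1 0 : ℤ) : ℂ) * z + ((γ 1 1 : ℤ) : ℂ)) ^ k * f z := by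
  have hγ : ((γ : SL(2, ℤ)) : GL (Fin 2) ℝ) ∈ 𝒮ℒ := ⟨γ, rfl⟩
  have := SlashInvariantForm.slash_action_eqn' f hγ z
  have e : γ • z = (Matrix.SpecialLinearGroup.toGL
      (Matrix.SpecialLinearGroup.map (Int.castRingHom ℝ) γ)) • z := rfl
  rw [e, this]
  simp

theorem rho_add_one_pow_four : ((ρ : ℂ) + 1) ^ 4 = -(ρ : ℂ) - 1 := by
  have h := ρ_sq
  have h2 : ((ρ : ℂ) + 1) = -(ρ : ℂ) ^ 2 := by rw [h]; ring
  have h3 : (ρ : ℂ) ^ 3 = 1 := by
    calc (ρ : ℂ) ^ 3 = (ρ : ℂ) ^ 2 * ρ := by ring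
      _ = -((ρ : ℂ) ^ 2) - ρ := by rw [h]; ring_nf; rw [h]; ring
      _ = 1 := by rw [h]; ring
  calc ((ρ : ℂ) + 1) ^ 4 = ((ρ : ℂ) ^ 3) ^ 2 * (ρ : ℂ) ^ 2 := by rw [h2]; ring
    _ = -(ρ : ℂ) - 1 := by rw [h3, h]; ring

theorem rho_add_two_ne_zero : (ρ : ℂ) + 2 ≠ 0 := by
  intro h0
  have := congrArg Complex.im h0
  simp [ρ] at this

theorem E4_rho : E₄ ρ = 0 := by
  have h := apply_smul E₄ (ModularGroup.S * ModularGroup.T) ρ
  rw [ST_smul_rho] at h
  have hc : ((ModularGroup.S * ModularGroup.T) 1 0 : ℤ) = 1 := by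
    simp [ModularGroup.coe_S, ModularGroup.coe_T, Matrix.SpecialLinearGroup.coe_mul]
  have hd : ((ModularGroup.S * ModularGroup.T) 1 1 : ℤ) = 1 := by
    simp [ModularGroup.coe_S, ModularGroup.coe_T, Matrix.SpecialLinearGroup.coe_mul]
  rw [hc, hd] at h
  have h1 : ((((1 : ℤ) : ℂ) * (ρ : ℂ) + ((1 : ℤ) : ℂ)) ^ (4 : ℤ)) = -(ρ : ℂ) - 1 := by
    rw [← rho_add_one_pow_four]
    norm_cast
    ring
  rw [h1] at h
  have h4 : ((ρ : ℂ) + 2) * E₄ ρ = 0 := by linear_combination h
  exact (mul_eq_zero.mp h4).resolve_left rho_add_two_ne_zero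

theorem E6_I : E₆ UpperHalfPlane.I = 0 := by
  have h := apply_smul E₆ ModularGroup.S UpperHalfPlane.I
  rw [S_smul_I] at h
  have hc : (ModularGroup.S 1 0 : ℤ) = 1 := by simp [ModularGroup.coe_S]
  have hd : (ModularGroup.S 1 1 : ℤ) = 0 := by simp [ModularGroup.coe_S]
  rw [hc, hd] at h
  have h1 : ((((1 : ℤ) : ℂ) * (UpperHalfPlane.I : ℂ) + ((0 : ℤ) : ℂ)) ^ (6 : ℤ)) = -1 := by
    have : ((UpperHalfPlane.I : ℍ) : ℂ) = Complex.I := rfl
    rw [this, Int.cast_one, Int.cast_zero, one_mul, add_zero]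
    have h6 : Complex.I ^ (6 : ℤ) = Complex.I ^ (6 : ℕ) := zpow_ofNat _ _
    rw [h6]
    calc Complex.I ^ 6 = (Complex.I ^ 2) ^ 3 := by ring
      _ = -1 := by rw [Complex.I_sq]; ring
  rw [h1] at h
  have h4 : (2 : ℂ) * E₆ UpperHalfPlane.I = 0 := by linear_combination h
  exact (mul_eq_zero.mp h4).resolve_left two_ne_zero


/-! ### Periods -/

theorem exists_period_rho : ∃ Ω : ℂ, Ω ≠ 0 ∧ E₆ ρ = -216 * Ω ^ 6 ∧ Δ ρ = -27 * Ω ^ 12 := by
  have hΔ := discriminant_eq_E₄_cube_sub_E₆_sq ρ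
  rw [E4_rho] at hΔ
  have hne : Δ ρ ≠ 0 := discriminant_ne_zero ρ
  have h6 : E₆ ρ ≠ 0 := by
    intro h; apply hne; rw [hΔ, h]; simp
  obtain ⟨Ω, hΩ⟩ := IsAlgClosed.exists_pow_nat_eq (-(E₆ ρ) / 216) (n := 6) (by norm_num)
  have h6' : E₆ ρ = -216 * Ω ^ 6 := by rw [hΩ]; ring
  refine ⟨Ω, ?_, h6', ?_⟩
  · rintro rfl
    apply h6
    rw [h6']; simp
  · rw [hΔ, h6']; ring

/-- The period at `ρ`: a fixed `Ω` with `E₆ ρ = -216 Ω⁶`, `Δ ρ = -27 Ω¹²`
(the curve `y² + y = x³`). -/
def periodRho : ℂ := Classical.choose exists_period_rho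

theorem periodRho_ne_zero : periodRho ≠ 0 := (Classical.choose_spec exists_period_rho).1

theorem E6_rho : E₆ ρ = -216 * periodRho ^ 6 := (Classical.choose_spec exists_period_rho).2.1

theorem discriminant_rho : Δ ρ = -27 * periodRho ^ 12 :=
  (Classical.choose_spec exists_period_rho).2.2

theorem exists_period_I : ∃ Ω : ℂ, Ω ≠ 0 ∧ E₄ UpperHalfPlane.I = 12 * Ω ^ 4 ∧
    Δ UpperHalfPlane.I = Ω ^ 12 := by
  have hΔ := discriminant_eq_E₄_cube_sub_E₆_sq UpperHalfPlane.I
  rw [E6_I] at hΔ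
  have hne : Δ UpperHalfPlane.I ≠ 0 := discriminant_ne_zero _
  have h4 : E₄ UpperHalfPlane.I ≠ 0 := by
    intro h; apply hne; rw [hΔ, h]; simp
  obtain ⟨Ω, hΩ⟩ := IsAlgClosed.exists_pow_nat_eq (E₄ UpperHalfPlane.I / 12) (n := 4) (by norm_num)
  have h4' : E₄ UpperHalfPlane.I = 12 * Ω ^ 4 := by rw [hΩ]; ring
  refine ⟨Ω, ?_, h4', ?_⟩
  · rintro rfl
    apply h4
    rw [h4']; simp
  · rw [hΔ, h4']; ring

/-- The period at `i`: a fixed `Ω` with `E₄ i = 12 Ω⁴`, `Δ i = Ω¹²` (the curve `y² = x³ - x`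
up to scaling). -/
def periodI : ℂ := Classical.choose exists_period_I

theorem periodI_ne_zero : periodI ≠ 0 := (Classical.choose_spec exists_period_I).1

theorem E4_I : E₄ UpperHalfPlane.I = 12 * periodI ^ 4 := (Classical.choose_spec exists_period_I).2.1

theorem discriminant_I : Δ UpperHalfPlane.I = periodI ^ 12 :=
  (Classical.choose_spec exists_period_I).2.2

/-! ### Main evaluation theorems -/

/-- **Integrality at `ρ`.** If a level-one modular form of weight `k` has all its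
`q`-expansion coefficients in the subring `O`, then `f ρ = y * Ω ^ k` with `y ∈ O`. -/
theorem eval_rho {k : ℤ} (f : ModularForm 𝒮ℒ k) (hf : ∀ n, coeff n (qExpansion 1 f) ∈ O) :
    ∃ y ∈ O, f ρ = y * periodRho ^ k :=
  eval_mem (mem_monoSpan f hf) (e4 := 0) (e6 := -216) (d := -27) O.zero_mem
    (by exact_mod_cast intCast_mem O (-216)) (by exact_mod_cast intCast_mem O (-27))
    (by rw [E4_rho]; ring) E6_rho discriminant_rho

/-- **Integrality at `i`.** If a level-one modular form of weight `k` has all its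
`q`-expansion coefficients in the subring `O`, then `f i = y * Ω ^ k` with `y ∈ O`. -/
theorem eval_I {k : ℤ} (f : ModularForm 𝒮ℒ k) (hf : ∀ n, coeff n (qExpansion 1 f) ∈ O) :
    ∃ y ∈ O, f UpperHalfPlane.I = y * periodI ^ k :=
  eval_mem (mem_monoSpan f hf) (e4 := 12) (e6 := 0) (d := 1)
    (by exact_mod_cast natCast_mem O 12) O.zero_mem O.one_mem
    E4_I (by rw [E6_I]; ring) (by rw [discriminant_I]; ring)


/-! ### From symmetric functions to integrality of values -/

open Polynomial in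
/-- If the elementary symmetric functions of the multiset `s` are `O`-multiples of the
powers of `c`, then every `x ∈ s` has `x / c` integral over `O`. -/
theorem isIntegral_of_esymm (s : Multiset ℂ) {c : ℂ} (hc : c ≠ 0)
    (h : ∀ i, ∃ y ∈ O, s.esymm i = y * c ^ i) {x : ℂ} (hx : x ∈ s) : IsIntegral O (x / c) := by
  classical
  set t := s.map (c⁻¹ • ·) with ht
  have htO : ∀ i, t.esymm i ∈ O := by
    intro i
    obtain ⟨y, hy, e⟩ := h i
    rw [ht, ← Multiset.pow_smul_esymm, e, smul_eq_mul]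
    have : c⁻¹ ^ i * (y * c ^ i) = y := by
      rw [inv_pow]; field_simp
    rw [this]; exact hy
  set P : ℂ[X] := (t.map fun a => Polynomial.X - Polynomial.C a).prod with hP
  have hmonic : P.Monic := by
    rw [hP]
    exact monic_multiset_prod_of_monic _ _ fun a _ => monic_X_sub_C a
  have hdeg : P.natDegree = Multiset.card t := by
    rw [hP]; exact natDegree_multiset_prod_X_sub_C_eq_card t
  have hcoef : ∀ n, P.coeff n ∈ Set.range (algebraMap O ℂ) := by
    intro n
    by_cases hn : n ≤ Multiset.card t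
    · rw [hP, Multiset.prod_X_sub_C_coeff t hn]
      refine ⟨⟨_, O.mul_mem (O.pow_mem (O.neg_mem O.one_mem) _) (htO _)⟩, rfl⟩
    · rw [coeff_eq_zero_of_natDegree_lt (by omega)]
      exact ⟨0, by simp⟩
  have hroot : P.eval (x / c) = 0 := by
    rw [hP, eval_multiset_prod, Multiset.prod_eq_zero_iff]
    simp only [Multiset.map_map, Multiset.mem_map, Function.comp_apply]
    refine ⟨c⁻¹ • x, ?_, ?_⟩
    · rw [ht]; exact Multiset.mem_map_of_mem _ hx
    · simp [div_eq_inv_mul]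
  obtain ⟨q, hq, -, hqm⟩ := lifts_and_natDegree_eq_and_monic
    ((lifts_iff_coeff_lifts P).mpr hcoef) hmonic
  refine ⟨q, hqm, ?_⟩
  rw [← eval_map, hq, hroot]

/-- **(INT), level-one half, at `ρ`.** Let `s` be a multiset of complex numbers (the values at
`ρ` of the conjugates of a form of weight `k`) whose `i`-th elementary symmetric function is the
value at `ρ` of a level-one form of weight `k * i` with `q`-expansion coefficients in `O`.
Then `x / Ω ^ k` is integral over `O` for every `x ∈ s`. -/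
theorem isIntegral_rho_of_esymm {k : ℤ} (s : Multiset ℂ) (w : ℕ → ℤ) (hw : ∀ i, w i = k * i)
    (e : ∀ i : ℕ, ModularForm 𝒮ℒ (w i)) (hO : ∀ i n, coeff n (qExpansion 1 (e i)) ∈ O)
    (hs : ∀ i, s.esymm i = e i ρ) {x : ℂ} (hx : x ∈ s) :
    IsIntegral O (x / periodRho ^ k) := by
  refine isIntegral_of_esymm s (zpow_ne_zero _ periodRho_ne_zero) (fun i => ?_) hx
  obtain ⟨y, hy, h⟩ := eval_rho (e i) (hO i)
  exact ⟨y, hy, by rw [hs, h, hw, zpow_mul, zpow_natCast]⟩

/-- **(INT), level-one half, at `i`.** -/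
theorem isIntegral_I_of_esymm {k : ℤ} (s : Multiset ℂ) (w : ℕ → ℤ) (hw : ∀ i, w i = k * i)
    (e : ∀ i : ℕ, ModularForm 𝒮ℒ (w i)) (hO : ∀ i n, coeff n (qExpansion 1 (e i)) ∈ O)
    (hs : ∀ i, s.esymm i = e i UpperHalfPlane.I) {x : ℂ} (hx : x ∈ s) :
    IsIntegral O (x / periodI ^ k) := by
  refine isIntegral_of_esymm s (zpow_ne_zero _ periodI_ne_zero) (fun i => ?_) hx
  obtain ⟨y, hy, h⟩ := eval_I (e i) (hO i)
  exact ⟨y, hy, by rw [hs, h, hw, zpow_mul, zpow_natCast]⟩

end

end Fermat.Agent.S16.L1Int35
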