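/-
S16, upper bound (U), infrastructure: the INTEGRAL Sturm bound at level one ("Miller basis").

For every additive subgroup `A ≤ ℂ` and every level-one modular form `F` of weight `k`:
if the first `⌊k/12⌋ + 1` coefficients of the `q`-expansion of `F` lie in `A`, then ALL
coefficients of the `q`-expansion of `F` lie in `A`.

* `A = ℓ • O` (`O` a subring of `ℂ`): "the first `k/12 + 1` coefficients are `≡ 0 mod ℓ O`
  implies all of them are" — the shape consumed by the NORM–STURM arguments.
* `A = O`: integrality of all coefficients from the first ones.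

Proof: strong induction on `k`; subtract `a₀ • E₄^a E₆^b` (integral `q`-expansion, constant
term `1`), divide the resulting cusp form by `Δ = q · (unit of ℤ⟦q⟧)`.

Author: helper46.  Mathlib + `S24/JBridge80` (integral `q`-expansions of `E₄` and `Δ`).
-/
import Mathlib
import Fermat.Agent.S24.JBridge80

set_option autoImplicit false

namespace Fermat.Agent.S16.MillerSturm46

open UpperHalfPlane ModularForm ModularFormClass EisensteinSeries MatrixGroups
  CongruenceSubgroup ModularCurve
open scoped ArithmeticFunction.sigma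

/-! ### Power series with coefficients in an additive subgroup -/

/-- All coefficients of `f` lie in `A`. -/
def AllIn (A : AddSubgroup ℂ) (f : PowerSeries ℂ) : Prop :=
  ∀ n, PowerSeries.coeff n f ∈ A

/-- The coefficients of `f` of index `≤ m` lie in `A`. -/
def InUpTo (A : AddSubgroup ℂ) (m : ℕ) (f : PowerSeries ℂ) : Prop :=
  ∀ n, n ≤ m → PowerSeries.coeff n f ∈ A

theorem AllIn.inUpTo {A : AddSubgroup ℂ} {f : PowerSeries ℂ} (h : AllIn A f) (m : ℕ) :
    InUpTo A m f := fun n _ => h n

theorem allIn_iff_forall_inUpTo {A : AddSubgroup ℂ} {f : PowerSeries ℂ} :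
    AllIn A f ↔ ∀ m, InUpTo A m f :=
  ⟨fun h m => h.inUpTo m, fun h n => h n n le_rfl⟩

theorem intCast_mul_mem {A : AddSubgroup ℂ} (m : ℤ) {x : ℂ} (hx : x ∈ A) :
    (m : ℂ) * x ∈ A := by
  have := A.zsmul_mem hx m
  rwa [zsmul_eq_mul] at this

/-- Multiplication by an integral power series preserves `InUpTo`. -/
theorem InUpTo.int_mul {A : AddSubgroup ℂ} {m : ℕ} {f : PowerSeries ℂ} (hf : InUpTo A m f)
    (g : PowerSeries ℤ) : InUpTo A m (g.map (Int.castRingHom ℂ) * f) := by
  intro n hn
  rw [PowerSeries.coeff_mul]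
  refine A.sum_mem fun ij hij => ?_
  rw [PowerSeries.coeff_map]
  have hsum : ij.1 + ij.2 = n := Finset.HasAntidiagonal.mem_antidiagonal.mp hij
  have hj : ij.2 ≤ m := by omega
  exact intCast_mul_mem _ (hf _ hj)

/-- Multiplication by an integral power series preserves `AllIn`. -/
theorem AllIn.int_mul {A : AddSubgroup ℂ} {f : PowerSeries ℂ} (hf : AllIn A f)
    (g : PowerSeries ℤ) : AllIn A (g.map (Int.castRingHom ℂ) * f) :=
  allIn_iff_forall_inUpTo.2 fun m => (hf.inUpTo m).int_mul g

theorem InUpTo.sub {A : AddSubgroup ℂ} {m : ℕ} {f g : PowerSeries ℂ} (hf : InUpTo A m f)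
    (hg : InUpTo A m g) : InUpTo A m (f - g) := fun n hn => by
  rw [map_sub]; exact A.sub_mem (hf n hn) (hg n hn)

theorem AllIn.add {A : AddSubgroup ℂ} {f g : PowerSeries ℂ} (hf : AllIn A f)
    (hg : AllIn A g) : AllIn A (f + g) := fun n => by
  rw [map_add]; exact A.add_mem (hf n) (hg n)

/-- `a • g` for `a ∈ A` and `g` integral has all coefficients in `A`. -/
theorem allIn_smul_int {A : AddSubgroup ℂ} {a : ℂ} (ha : a ∈ A) (g : PowerSeries ℤ) :
    AllIn A (a • g.map (Int.castRingHom ℂ)) := fun n => by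
  rw [PowerSeries.coeff_smul, PowerSeries.coeff_map, smul_eq_mul, mul_comm]
  exact intCast_mul_mem _ ha

/-! ### Integral `q`-expansions of `E₄`, `E₆`, `Δ` -/

/-- The integral `q`-expansion `1 - 504 ∑ σ₅(n) qⁿ` of `E₆`. -/
def eisenstein6 : PowerSeries ℤ :=
  PowerSeries.mk fun n => if n = 0 then 1 else -504 * ∑ d ∈ n.divisors, (d : ℤ) ^ 5

@[simp]
theorem constantCoeff_eisenstein6 : PowerSeries.constantCoeff eisenstein6 = 1 := by
  rw [← PowerSeries.coeff_zero_eq_constantCoeff]
  simp [eisenstein6]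

theorem qExpansion_E6_eq :
    qExpansion 1 E₆ = eisenstein6.map (Int.castRingHom ℂ) := by
  ext m
  rw [E_qExpansion_coeff _ ⟨3, rfl⟩ m, show bernoulli 6 = 1 / 42 by decide +kernel]
  simp only [PowerSeries.coeff_map, eisenstein6, PowerSeries.coeff_mk]
  split_ifs with h
  · simp
  · simp [ArithmeticFunction.sigma_apply]
    norm_num

theorem qExpansion_E4_eq :
    qExpansion 1 E₄ = eisenstein4.map (Int.castRingHom ℂ) :=
  Fermat.Agent.S24.JBridge80.qExpansion_E4_eq

theorem qExpansion_discriminant_eq :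
    qExpansion 1 ModularForm.discriminant
      = (PowerSeries.X * dedekindEtaUnit).map (Int.castRingHom ℂ) := by
  rw [Fermat.Agent.S24.JBridge80.qExpansion_discriminant_eq, map_mul, PowerSeries.map_X]

/-! ### Integral monomials `E₄^a E₆^b` of every even weight `≠ 2` -/

/-- For every even `k ≠ 2` there is a level-one form of weight `k` with integral `q`-expansion
and constant term `1` (a monomial `E₄^a E₆^b`). -/
theorem exists_intForm (k : ℕ) (hk : Even k) (hk2 : k ≠ 2) :
    ∃ (G : ModularForm 𝒮ℒ (k : ℤ)) (g : PowerSeries ℤ),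
      qExpansion 1 G = g.map (Int.castRingHom ℂ) ∧ PowerSeries.constantCoeff g = 1 := by
  obtain ⟨a, b, hab⟩ : ∃ a b : ℕ, 4 * a + 6 * b = k := by
    obtain ⟨r, hr⟩ := hk
    rcases Nat.even_or_odd' r with ⟨s, hs | hs⟩
    · exact ⟨s, 0, by omega⟩
    · refine ⟨s - 1, 1, ?_⟩
      have : 1 ≤ s := by
        by_contra hcon
        have : s = 0 := by omega
        omega
      omega
  have hw : (a : ℤ) * 4 + (b : ℤ) * 6 = (k : ℤ) := by
    rw [← hab]; push_cast; ring
  refine ⟨ModularForm.mcast hw ((E₄.pow a).mul (E₆.pow b)), eisenstein4 ^ a * eisenstein6 ^ b,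
    ?_, ?_⟩
  · rw [ModularForm.qExpansion_mcast,
      ModularForm.qExpansion_mul one_pos one_mem_strictPeriods_SL,
      ModularForm.qExpansion_pow one_pos one_mem_strictPeriods_SL,
      ModularForm.qExpansion_pow one_pos one_mem_strictPeriods_SL,
      qExpansion_E4_eq, qExpansion_E6_eq, map_mul, map_pow, map_pow]
  · rw [map_mul, map_pow, map_pow, constantCoeff_eisenstein4, constantCoeff_eisenstein6,
      one_pow, one_pow, one_mul]

/-! ### The main theorem -/

/-- **Integral Sturm bound at level one**, natural weight. -/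
theorem coeff_mem_nat (A : AddSubgroup ℂ) :
    ∀ (k : ℕ) (F : ModularForm 𝒮ℒ (k : ℤ)),
      (∀ n, n ≤ k / 12 → (qExpansion 1 F).coeff n ∈ A) →
      ∀ n, (qExpansion 1 F).coeff n ∈ A := by
  intro k
  induction k using Nat.strong_induction_on with
  | _ k ih =>
  intro F hF
  -- odd weight or weight 2: `F = 0`
  have hzero : F = 0 → ∀ n, (qExpansion 1 F).coeff n ∈ A := by
    intro h n
    rw [h, FunLike.coe_zero, qExpansion_zero, map_zero]
    exact A.zero_mem
  rcases Nat.even_or_odd k with hk | hk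
  swap
  · exact hzero (ModularForm.levelOne_odd_weight_eq_zero (by exact_mod_cast hk) F)
  by_cases hk2 : k = 2
  · subst hk2
    exact hzero (rank_zero_iff_forall_zero.mp levelOne_weight_two_rank_zero F)
  obtain ⟨G, g, hG, hg1⟩ := exists_intForm k hk hk2
  set a₀ : ℂ := (qExpansion 1 F).coeff 0 with ha₀
  have ha₀A : a₀ ∈ A := hF 0 (Nat.zero_le _)
  set F₁ : ModularForm 𝒮ℒ (k : ℤ) := F - a₀ • G with hF₁
  have hqF₁ : qExpansion 1 F₁ = qExpansion 1 F - a₀ • g.map (Int.castRingHom ℂ) := by
    rw [hF₁, FunLike.coe_sub, ModularForm.qExpansion_sub one_pos one_mem_strictPeriods_SL,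
      FunLike.coe_smul, ModularForm.qExpansion_smul one_pos one_mem_strictPeriods_SL, hG]
  have hg0 : PowerSeries.coeff 0 g = 1 := by
    rw [PowerSeries.coeff_zero_eq_constantCoeff_apply]; exact hg1
  have h0 : (qExpansion 1 F₁).coeff 0 = 0 := by
    rw [hqF₁, map_sub, PowerSeries.coeff_smul, PowerSeries.coeff_map, hg0]
    simp [ha₀]
  -- it suffices to treat `F₁`
  suffices hmain : AllIn A (qExpansion 1 F₁) by
    intro n
    have hFq : qExpansion 1 F = qExpansion 1 F₁ + a₀ • g.map (Int.castRingHom ℂ) := by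
      rw [hqF₁]; ring
    rw [hFq]
    exact (hmain.add (allIn_smul_int ha₀A g)) n
  have hfac := ModularForm.qExpansion_eq_qExpansion_discriminant_mul F₁ h0
  set H : ModularForm 𝒮ℒ ((k : ℤ) - 12) := CuspForm.discriminantEquiv (toCuspForm F₁ h0) with hH
  rcases lt_or_ge k 12 with hk12 | hk12
  · -- negative weight: `H = 0`
    have hH0 : H = 0 :=
      rank_zero_iff_forall_zero.mp (levelOne_neg_weight_rank_zero (by omega)) H
    rw [hfac, hH0, FunLike.coe_zero, qExpansion_zero, mul_zero]
    intro n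
    rw [map_zero]
    exact A.zero_mem
  · -- `k ≥ 12`: induction hypothesis for `H` of weight `k - 12`
    have hcast : (k : ℤ) - 12 = ((k - 12 : ℕ) : ℤ) := by omega
    set H' : ModularForm 𝒮ℒ ((k - 12 : ℕ) : ℤ) := ModularForm.mcast hcast H with hH'
    have hqH' : qExpansion 1 H' = qExpansion 1 H := ModularForm.qExpansion_mcast hcast rfl H
    -- first coefficients of `F₁` in `A`
    have hF₁up : InUpTo A (k / 12) (qExpansion 1 F₁) := by
      rw [hqF₁]
      exact InUpTo.sub (fun n hn => hF n hn) ((allIn_smul_int ha₀A g).inUpTo _)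
    -- `X * qExp H = Uinv * qExp F₁`
    have hXH : (PowerSeries.X : PowerSeries ℂ) * qExpansion 1 H
        = dedekindEtaUnitInv.map (Int.castRingHom ℂ) * qExpansion 1 F₁ := by
      rw [hfac, qExpansion_discriminant_eq, map_mul, PowerSeries.map_X]
      have hU : dedekindEtaUnitInv.map (Int.castRingHom ℂ)
          * dedekindEtaUnit.map (Int.castRingHom ℂ) = 1 := by
        rw [← map_mul, mul_comm, dedekindEtaUnit_mul_inv, map_one]
      calc (PowerSeries.X : PowerSeries ℂ) * qExpansion 1 H
          = (dedekindEtaUnitInv.map (Int.castRingHom ℂ)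
              * dedekindEtaUnit.map (Int.castRingHom ℂ)) * (PowerSeries.X * qExpansion 1 H) := by
            rw [hU, one_mul]
        _ = _ := by ring
    have hHup : ∀ n, n ≤ (k - 12) / 12 → (qExpansion 1 H').coeff n ∈ A := by
      intro n hn
      have h1 : n + 1 ≤ k / 12 := by omega
      have h2 := (hF₁up.int_mul dedekindEtaUnitInv) (n + 1) h1
      rw [← hXH, PowerSeries.coeff_succ_X_mul] at h2
      rwa [hqH']
    have hHall : AllIn A (qExpansion 1 H) := by
      intro n
      have := ih (k - 12) (by omega) H' hHup n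
      rwa [hqH'] at this
    rw [hfac, qExpansion_discriminant_eq]
    exact hHall.int_mul _

/-- **Integral Sturm bound at level one**: if the `q`-expansion coefficients `a₀, …, a_{⌊k/12⌋}`
of a level-one modular form of weight `k` lie in an additive subgroup `A` of `ℂ`, then all
`q`-expansion coefficients lie in `A`. -/
theorem coeff_mem (A : AddSubgroup ℂ) {k : ℤ} (F : ModularForm 𝒮ℒ k)
    (hF : ∀ n, n ≤ k.toNat / 12 → (qExpansion 1 F).coeff n ∈ A) :
    ∀ n, (qExpansion 1 F).coeff n ∈ A := by
  rcases lt_or_ge k 0 with hk | hk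
  · intro n
    have : F = 0 := rank_zero_iff_forall_zero.mp (levelOne_neg_weight_rank_zero hk) F
    rw [this, FunLike.coe_zero, qExpansion_zero, map_zero]
    exact A.zero_mem
  · lift k to ℕ using hk
    exact coeff_mem_nat A k F (by simpa using hF)

/-- Version with a subring `O ≤ ℂ` and an integer modulus `ℓ`: if all of `a₀, …, a_{⌊k/12⌋}`
are in `ℓ • O` then every coefficient is in `ℓ • O`. -/
theorem coeff_mem_smul (O : Subring ℂ) (ℓ : ℤ) {k : ℤ} (F : ModularForm 𝒮ℒ k)
    (hF : ∀ n, n ≤ k.toNat / 12 → ∃ x ∈ O, (qExpansion 1 F).coeff n = (ℓ : ℂ) * x) :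
    ∀ n, ∃ x ∈ O, (qExpansion 1 F).coeff n = (ℓ : ℂ) * x := by
  let A : AddSubgroup ℂ :=
    { carrier := {y | ∃ x ∈ O, y = (ℓ : ℂ) * x}
      zero_mem' := ⟨0, O.zero_mem, by simp⟩
      add_mem' := by
        rintro _ _ ⟨x, hx, rfl⟩ ⟨y, hy, rfl⟩
        exact ⟨x + y, O.add_mem hx hy, by ring⟩
      neg_mem' := by
        rintro _ ⟨x, hx, rfl⟩
        exact ⟨-x, O.neg_mem hx, by ring⟩ }
  exact coeff_mem A F hF

/-- Version with a subring: integrality of all coefficients from the first `⌊k/12⌋ + 1`. -/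
theorem coeff_mem_subring (O : Subring ℂ) {k : ℤ} (F : ModularForm 𝒮ℒ k)
    (hF : ∀ n, n ≤ k.toNat / 12 → (qExpansion 1 F).coeff n ∈ O) :
    ∀ n, (qExpansion 1 F).coeff n ∈ O :=
  coeff_mem O.toAddSubgroup F hF

end Fermat.Agent.S16.MillerSturm46
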