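/-
S16, upper bound, case `l = p`: the level-one "mod `p`" bridge (helper21).

* `rep_of_coeffsIn` : structure theorem over a subring `O ⊆ ℂ` with `1/1728 ∈ O`, in
  `q`-expansion form: a level-one form of weight `m` all of whose `q`-coefficients lie in `O`
  has `q`-expansion `P(E₄, E₆)` for an isobaric `P ∈ O[Q, R]` of weight `m`.
* `false_of_two_weights` : `p ≥ 5` prime, `I ≠ ⊤` an ideal of `O` containing `p`; there are no
  two level-one forms of weights `k + 2` and `k`, with `q`-coefficients in `O`, which are both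
  `≡ 1 mod I`.  (Consumer: `l = p` case of (U): `F₁ = Tr(G h)` of weight `p + 1` and
  `F₂ = E_{p-1}`.)
* `false_of_two_weights_smul` : the same with `I = p O`.

Uses helper35's peeling pattern (`L1Int35`), helper12's fixed-weight `q`-expansion principle
(`SwD12.eq_of_ev_eq`) and helper55's two-weights lemma (`TwoWeights55.false_of_pow_eq`).
-/
import Mathlib
import Fermat.Agent.S16.L1Int35
import Fermat.Agent.S16.MillerSturm46
import Fermat.Agent.S16.SwD12.Iso
import Fermat.Agent.S16.TwoWeights55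
import Fermat.Agent.S23.LevelOneGalois

set_option autoImplicit false

namespace Fermat.Agent.S16.ModPBridge21

open UpperHalfPlane ModularForm EisensteinSeries MatrixGroups CongruenceSubgroup PowerSeries
open scoped ModularForm
open Fermat.Agent.S16.SwD12 (QR ev Iso)

noncomputable section

local notation "Δ" => ModularForm.discriminant

/-! ### The integral `q`-expansions of `E₄`, `E₆` over an arbitrary commutative ring -/

section Series

variable (A : Type*) [CommRing A]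

/-- `E₄` as a power series over `A`. -/
def e4 : PowerSeries A := ModularCurve.eisenstein4.map (Int.castRingHom A)

/-- `E₆` as a power series over `A`. -/
def e6 : PowerSeries A :=
  Fermat.Agent.S16.MillerSturm46.eisenstein6.map (Int.castRingHom A)

/-- the unit part of `Δ` over `A`. -/
def etaU : PowerSeries A := ModularCurve.dedekindEtaUnit.map (Int.castRingHom A)

lemma constantCoeff_e4 : constantCoeff (e4 A) = 1 := by
  rw [e4, ← coeff_zero_eq_constantCoeff_apply, coeff_map, coeff_zero_eq_constantCoeff_apply,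
    ModularCurve.constantCoeff_eisenstein4]
  simp

lemma constantCoeff_e6 : constantCoeff (e6 A) = 1 := by
  rw [e6, ← coeff_zero_eq_constantCoeff_apply, coeff_map, coeff_zero_eq_constantCoeff_apply,
    Fermat.Agent.S16.MillerSturm46.constantCoeff_eisenstein6]
  simp

lemma constantCoeff_etaU : constantCoeff (etaU A) = 1 := by
  rw [etaU, ← coeff_zero_eq_constantCoeff_apply, coeff_map, coeff_zero_eq_constantCoeff_apply,
    ModularCurve.constantCoeff_dedekindEtaUnit]
  simp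

variable {A} in
lemma map_e4 {B : Type*} [CommRing B] (f : A →+* B) : (e4 A).map f = e4 B := by
  ext n
  simp only [e4, coeff_map]
  simp

variable {A} in
lemma map_e6 {B : Type*} [CommRing B] (f : A →+* B) : (e6 A).map f = e6 B := by
  ext n
  simp only [e6, coeff_map]
  simp

variable {A} in
lemma map_etaU {B : Type*} [CommRing B] (f : A →+* B) : (etaU A).map f = etaU B := by
  ext n
  simp only [etaU, coeff_map]
  simp

end Series

lemma e4_complex : e4 ℂ = qExpansion 1 E₄ :=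
  Fermat.Agent.S16.MillerSturm46.qExpansion_E4_eq.symm

lemma e6_complex : e6 ℂ = qExpansion 1 E₆ :=
  Fermat.Agent.S16.MillerSturm46.qExpansion_E6_eq.symm

lemma qExpansion_discriminant_eq_X_mul : qExpansion 1 Δ = PowerSeries.X * etaU ℂ :=
  Fermat.Agent.S24.JBridge80.qExpansion_discriminant_eq

/-- `E₄³ - E₆² = 1728 Δ` for complex `q`-expansions. -/
lemma complex_identity :
    e4 ℂ ^ 3 - e6 ℂ ^ 2 = PowerSeries.C (1728 : ℂ) * (PowerSeries.X * etaU ℂ) := by
  have h := Fermat.Agent.S23.discriminant_eq_smul_e4e6Form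
  have h2 : qExpansion 1 Δ =
      (((1 / 1728 : ℚ) : ℂ)) • (qExpansion 1 E₄ ^ 3 - qExpansion 1 E₆ ^ 2) := by
    rw [h, ModularForm.qExpansion_smul one_pos one_mem_strictPeriods_SL,
      Fermat.Agent.S23.qExpansion_e4e6Form]
  rw [qExpansion_discriminant_eq_X_mul, ← e4_complex, ← e6_complex] at h2
  rw [h2, PowerSeries.smul_eq_C_mul, ← mul_assoc, ← map_mul]
  have : (1728 : ℂ) * (((1 / 1728 : ℚ) : ℂ)) = 1 := by push_cast; norm_num
  rw [this, map_one, one_mul]

/-- `E₄³ - E₆² = 1728 Δ` over `ℤ`. -/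
lemma int_identity :
    ModularCurve.eisenstein4 ^ 3 - Fermat.Agent.S16.MillerSturm46.eisenstein6 ^ 2 =
      PowerSeries.C (1728 : ℤ) * (PowerSeries.X * ModularCurve.dedekindEtaUnit) := by
  have hinj : Function.Injective (PowerSeries.map (Int.castRingHom ℂ)) :=
    PowerSeries.map_injective _ Int.cast_injective
  apply hinj
  have := complex_identity
  simp only [e4, e6, etaU] at this
  rw [map_sub, map_pow, map_pow, map_mul, map_mul, PowerSeries.map_X, PowerSeries.map_C, this]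
  simp

/-- `E₄³ - E₆² = 1728 Δ` over any commutative ring. -/
lemma identity (A : Type*) [CommRing A] :
    e4 A ^ 3 - e6 A ^ 2 = PowerSeries.C (1728 : A) * (PowerSeries.X * etaU A) := by
  have := congrArg (PowerSeries.map (Int.castRingHom A)) int_identity
  rw [map_sub, map_pow, map_pow, map_mul, map_mul, PowerSeries.map_X, PowerSeries.map_C] at this
  simpa [e4, e6, etaU] using this

lemma coeff_one_identity (A : Type*) [CommRing A] :
    coeff 1 (e4 A ^ 3 - e6 A ^ 2) = (1728 : A) := by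
  rw [identity, coeff_C_mul, coeff_succ_X_mul, coeff_zero_eq_constantCoeff_apply,
    constantCoeff_etaU, mul_one]

/-! ### Evaluation of polynomials over a subring at `(E₄, E₆)` -/

variable (O : Subring ℂ)

/-- `P ↦ P(E₄, E₆)` as a complex power series, for `P ∈ O[Q, R]`. -/
def evC : QR O →+* PowerSeries ℂ :=
  (PowerSeries.map O.subtype).comp (ev (e4 O) (e6 O)).toRingHom

lemma evC_apply (P : QR O) : evC O P = (ev (e4 O) (e6 O) P).map O.subtype := rfl

@[simp] lemma evC_X0 : evC O (MvPolynomial.X 0) = qExpansion 1 E₄ := by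
  rw [evC_apply, SwD12.ev_X0, map_e4, e4_complex]

@[simp] lemma evC_X1 : evC O (MvPolynomial.X 1) = qExpansion 1 E₆ := by
  rw [evC_apply, SwD12.ev_X1, map_e6, e6_complex]

@[simp] lemma evC_C (x : O) : evC O (MvPolynomial.C x) = PowerSeries.C (x : ℂ) := by
  rw [evC_apply, SwD12.ev_C, PowerSeries.map_C]
  rfl

/-- `S` is `P(E₄, E₆)` for an isobaric `P ∈ O[Q, R]` of weight `m`. -/
def Rep (m : ℕ) (S : PowerSeries ℂ) : Prop :=
  ∃ P : QR O, Iso m P ∧ S = evC O P

variable {O}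

lemma rep_zero (m : ℕ) : Rep O m 0 :=
  ⟨0, MvPolynomial.isWeightedHomogeneous_zero _ _ _, by simp⟩

/-- the weight-`(4a+6b)` monomial. -/
lemma iso_monomial (x : O) (a b : ℕ) :
    Iso (4 * a + 6 * b) (MvPolynomial.C x * MvPolynomial.X 0 ^ a * MvPolynomial.X 1 ^ b : QR O) := by
  have h := ((SwD12.iso_C x).mul ((SwD12.iso_X0 (κ := O)).pow a)).mul
    ((SwD12.iso_X1 (κ := O)).pow b)
  exact SwD12.Iso.of_eq h (by ring)

lemma iso_delta_mul (c : O) {k : ℕ} {P : QR O} (hP : Iso k P) :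
    Iso (k + 12) (MvPolynomial.C c * (MvPolynomial.X 0 ^ 3 - MvPolynomial.X 1 ^ 2) * P : QR O) := by
  have h3 : Iso (κ := O) 12 (MvPolynomial.X 0 ^ 3) :=
    SwD12.Iso.of_eq ((SwD12.iso_X0 (κ := O)).pow 3) (by norm_num)
  have h2 : Iso (κ := O) 12 (MvPolynomial.X 1 ^ 2) :=
    SwD12.Iso.of_eq ((SwD12.iso_X1 (κ := O)).pow 2) (by norm_num)
  have h := ((SwD12.iso_C c).mul (h3.sub h2)).mul hP
  exact SwD12.Iso.of_eq h (by ring)

/-- **Structure theorem over `O`** (`1/1728 ∈ O`), `q`-expansion form. -/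
theorem rep_of_coeffsIn_aux (h1728 : (1728 : ℂ)⁻¹ ∈ O) (n : ℕ) :
    ∀ m : ℕ, m < n → ∀ f : ModularForm 𝒮ℒ (m : ℤ),
      (∀ j, coeff j (qExpansion 1 f) ∈ O) → Rep O m (qExpansion 1 f) := by
  induction n with
  | zero => intro m hm; omega
  | succ n ih =>
    intro m hm f hf
    by_cases hmn : m < n
    · exact ih m hmn f hf
    by_cases hodd : Odd (m : ℤ)
    · have : f = 0 := ModularForm.levelOne_odd_weight_eq_zero hodd f
      subst this
      rw [FunLike.coe_zero, qExpansion_zero]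
      exact rep_zero m
    have hke : Even (m : ℤ) := Int.not_odd_iff_even.mp hodd
    by_cases hk2 : (m : ℤ) = 2
    · have hf0 : ∀ g : ModularForm 𝒮ℒ (2 : ℤ), g = 0 := fun g =>
        rank_zero_iff_forall_zero.mp ModularForm.levelOne_weight_two_rank_zero g
      have : (f : ℍ → ℂ) = 0 := by
        have := hf0 (ModularForm.mcast hk2 f)
        have h2 : ((ModularForm.mcast hk2 f : ModularForm 𝒮ℒ (2 : ℤ)) : ℍ → ℂ) = 0 := by
          rw [this]; rfl
        simpa using h2
      rw [this, qExpansion_zero]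
      exact rep_zero m
    obtain ⟨a, b, hab⟩ := Fermat.Agent.S16.L1Int35.exists_weight_rep
      (Int.natCast_nonneg m) hk2 hke
    have habN : 4 * a + 6 * b = m := by
      have : ((4 * a + 6 * b : ℕ) : ℤ) = (m : ℤ) := by rw [← hab]; push_cast; ring
      exact_mod_cast this
    set a0 := coeff 0 (qExpansion 1 f) with ha0
    have ha0O : a0 ∈ O := hf 0
    set M : ModularForm 𝒮ℒ (m : ℤ) :=
      ModularForm.mcast hab (Fermat.Agent.S16.L1Int35.monoForm a b) with hM
    have hMq : qExpansion 1 M = qExpansion 1 (Fermat.Agent.S16.L1Int35.monoForm a b) := rfl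
    set g : ModularForm 𝒮ℒ (m : ℤ) := f - a0 • M with hg
    have hgq : qExpansion 1 g =
        qExpansion 1 f - a0 • qExpansion 1 (Fermat.Agent.S16.L1Int35.monoForm a b) := by
      rw [hg, FunLike.coe_sub, ModularForm.qExpansion_sub one_pos one_mem_strictPeriods_SL,
        FunLike.coe_smul, ModularForm.qExpansion_smul one_pos one_mem_strictPeriods_SL, hMq]
    have hg0 : coeff 0 (qExpansion 1 g) = 0 := by
      rw [hgq, map_sub, coeff_smul, Fermat.Agent.S16.L1Int35.coeff_zero_monoForm, smul_eq_mul,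
        mul_one, sub_self]
    have hgO : Fermat.Agent.S16.L1Int35.CoeffsIn O (qExpansion 1 g) := by
      rw [hgq]
      exact Fermat.Agent.S16.L1Int35.CoeffsIn.sub hf
        (Fermat.Agent.S16.L1Int35.CoeffsIn.smul ha0O
          (Fermat.Agent.S16.L1Int35.coeffsIn_monoForm O a b))
    set h := CuspForm.discriminantEquiv (ModularForm.toCuspForm g hg0) with hh
    have hfac := ModularForm.qExpansion_eq_qExpansion_discriminant_mul g hg0
    have hhO : Fermat.Agent.S16.L1Int35.CoeffsIn O (qExpansion 1 h) := by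
      refine Fermat.Agent.S16.L1Int35.CoeffsIn.of_X_mul_mul
        (U := ModularCurve.dedekindEtaUnit.map (Int.castRingHom ℂ))
        (G := qExpansion 1 g) (Fermat.Agent.S16.L1Int35.CoeffsIn.map_int _) ?_ hgO ?_
      · rw [coeff_map, coeff_zero_eq_constantCoeff, ModularCurve.constantCoeff_dedekindEtaUnit]
        simp
      · rw [hfac, Fermat.Agent.S16.L1Int35.qExpansion_discriminant]
    -- the representation of `qExpansion h`
    have hrep : ∃ Ph : QR O, Iso (m - 12) Ph ∧ (m < 12 → Ph = 0) ∧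
        qExpansion 1 h = evC O Ph := by
      by_cases hm12 : m < 12
      · have : (h : ℍ → ℂ) = 0 :=
          ModularFormClass.levelOne_neg_weight_eq_zero (by omega) h
        refine ⟨0, MvPolynomial.isWeightedHomogeneous_zero _ _ _, fun _ => rfl, ?_⟩
        rw [this, qExpansion_zero, map_zero]
      · have hw : (m : ℤ) - 12 = ((m - 12 : ℕ) : ℤ) := by omega
        obtain ⟨Ph, hPh, hPh'⟩ := ih (m - 12) (by omega) (ModularForm.mcast hw h)
          (fun j => by rw [ModularForm.qExpansion_mcast]; exact hhO j)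
        rw [ModularForm.qExpansion_mcast] at hPh'
        exact ⟨Ph, hPh, fun h' => absurd h' hm12, hPh'⟩
    obtain ⟨Ph, hPh, hPh0, hPh'⟩ := hrep
    let c : O := ⟨(1728 : ℂ)⁻¹, h1728⟩
    refine ⟨MvPolynomial.C ⟨a0, ha0O⟩ * MvPolynomial.X 0 ^ a * MvPolynomial.X 1 ^ b +
      MvPolynomial.C c * (MvPolynomial.X 0 ^ 3 - MvPolynomial.X 1 ^ 2) * Ph, ?_, ?_⟩
    · refine IsWeightedHomogeneous.add (SwD12.Iso.of_eq (iso_monomial _ a b) habN) ?_
      by_cases hm12 : m < 12
      · rw [hPh0 hm12, mul_zero]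
        exact MvPolynomial.isWeightedHomogeneous_zero _ _ _
      · exact SwD12.Iso.of_eq (iso_delta_mul c hPh) (by omega)
    · have hΔ : qExpansion 1 Δ =
          PowerSeries.C ((1728 : ℂ)⁻¹) * (qExpansion 1 E₄ ^ 3 - qExpansion 1 E₆ ^ 2) := by
        rw [qExpansion_discriminant_eq_X_mul, ← e4_complex, ← e6_complex, complex_identity,
          ← mul_assoc, ← map_mul, inv_mul_cancel₀ (by norm_num), map_one, one_mul]
      have hf' : qExpansion 1 f =
          a0 • qExpansion 1 (Fermat.Agent.S16.L1Int35.monoForm a b) + qExpansion 1 g := by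
        rw [hgq]; ring
      rw [hf', hfac, hPh', Fermat.Agent.S16.L1Int35.qExpansion_monoForm, hΔ,
        PowerSeries.smul_eq_C_mul]
      simp only [map_add, map_mul, map_pow, map_sub, evC_C, evC_X0, evC_X1]
      have hc : ((c : O) : ℂ) = (1728 : ℂ)⁻¹ := rfl
      rw [hc]
      ring
  where
    IsWeightedHomogeneous.add {k : ℕ} {P P' : QR O} (h : Iso k P) (h' : Iso k P') :
        Iso k (P + P') := MvPolynomial.IsWeightedHomogeneous.add h h'

/-- **Structure theorem over `O`** (`1/1728 ∈ O`), `q`-expansion form. -/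
theorem rep_of_coeffsIn (h1728 : (1728 : ℂ)⁻¹ ∈ O) {m : ℕ} (f : ModularForm 𝒮ℒ (m : ℤ))
    (hf : ∀ j, coeff j (qExpansion 1 f) ∈ O) : Rep O m (qExpansion 1 f) :=
  rep_of_coeffsIn_aux h1728 (m + 1) m (Nat.lt_succ_self m) f hf


/-! ### Reduction along a ring homomorphism -/

section Reduction

variable {A B : Type*} [CommRing A] [CommRing B]

lemma map_ev (φ : A →+* B) (P : QR A) :
    (ev (e4 A) (e6 A) P).map φ = ev (e4 B) (e6 B) (MvPolynomial.map φ P) := by
  induction P using MvPolynomial.induction_on with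
  | C a => simp
  | add p q hp hq => simp [hp, hq]
  | mul_X p i hp =>
    simp only [map_mul, MvPolynomial.map_X, hp]
    congr 1
    fin_cases i
    · simp [map_e4]
    · simp [map_e6]

lemma iso_map (φ : A →+* B) {k : ℕ} {P : QR A} (h : Iso k P) :
    Iso k (MvPolynomial.map φ P) := by
  intro d hd
  rw [MvPolynomial.coeff_map] at hd
  exact h (fun h0 => hd (by rw [h0, map_zero]))

lemma iso_odd_eq_zero {k : ℕ} {P : QR A} (h : Iso k P) (hk : Odd k) : P = 0 := by
  by_contra hP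
  obtain ⟨d, hd⟩ := (MvPolynomial.support_nonempty.mpr hP)
  have := h.weight_of_mem hd
  obtain ⟨r, hr⟩ := hk
  omega

end Reduction

/-! ### Forms `≡ 1` modulo a maximal ideal -/

/-- a level-one form with `q`-coefficients in `O` which is `≡ 1 mod M` gives an isobaric
polynomial over the residue field whose `q`-expansion is `1`. -/
lemma exists_poly_ev_eq_one (h1728 : (1728 : ℂ)⁻¹ ∈ O) (M : Ideal O) {m : ℕ}
    (F : ModularForm 𝒮ℒ (m : ℤ))
    (h0 : ∃ y ∈ M, coeff 0 (qExpansion 1 F) = 1 + ((y : O) : ℂ))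
    (hn : ∀ n, 1 ≤ n → ∃ y ∈ M, coeff n (qExpansion 1 F) = ((y : O) : ℂ)) :
    ∃ P : QR (O ⧸ M), Iso m P ∧ ev (e4 (O ⧸ M)) (e6 (O ⧸ M)) P = 1 := by
  have hf : ∀ j, coeff j (qExpansion 1 F) ∈ O := by
    intro j
    rcases Nat.eq_zero_or_pos j with rfl | hj
    · obtain ⟨y, -, hy⟩ := h0
      rw [hy]; exact O.add_mem O.one_mem y.2
    · obtain ⟨y, -, hy⟩ := hn j hj
      rw [hy]; exact y.2
  obtain ⟨P, hP, hPq⟩ := rep_of_coeffsIn h1728 F hf
  refine ⟨MvPolynomial.map (Ideal.Quotient.mk M) P, iso_map _ hP, ?_⟩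
  rw [← map_ev]
  ext j
  rw [coeff_map]
  have hc : ((coeff j (ev (e4 O) (e6 O) P) : O) : ℂ) = coeff j (qExpansion 1 F) := by
    rw [hPq, evC_apply, coeff_map]; rfl
  rcases Nat.eq_zero_or_pos j with rfl | hj
  · obtain ⟨y, hyM, hy⟩ := h0
    have : coeff 0 (ev (e4 O) (e6 O) P) = 1 + y := by
      apply Subtype.ext
      rw [hc, hy]; rfl
    rw [this, map_add, map_one, Ideal.Quotient.eq_zero_iff_mem.mpr hyM, add_zero, coeff_one]
    simp
  · obtain ⟨y, hyM, hy⟩ := hn j hj
    have : coeff j (ev (e4 O) (e6 O) P) = y := by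
      apply Subtype.ext
      rw [hc, hy]
    rw [this, Ideal.Quotient.eq_zero_iff_mem.mpr hyM, coeff_one, if_neg (by omega)]

lemma inv_1728_mem (h6 : (6 : ℂ)⁻¹ ∈ O) : (1728 : ℂ)⁻¹ ∈ O := by
  have h3 : (3 : ℂ) ∈ O := by exact_mod_cast natCast_mem O 3
  have : (1728 : ℂ)⁻¹ = ((6 : ℂ)⁻¹) ^ 3 * ((3 : ℂ) * (6 : ℂ)⁻¹) ^ 3 := by norm_num
  rw [this]
  exact O.mul_mem (O.pow_mem h6 3) (O.pow_mem (O.mul_mem h3 h6) 3)

lemma coprime_1728 {p : ℕ} (hp : p.Prime) (hp5 : 5 ≤ p) : Nat.Coprime 1728 p := by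
  rw [Nat.coprime_comm, hp.coprime_iff_not_dvd]
  intro hd
  have h1728 : (1728 : ℕ) = 2 ^ 6 * 3 ^ 3 := by norm_num
  rw [h1728] at hd
  rcases hp.dvd_mul.mp hd with h | h
  · have := Nat.le_of_dvd (by norm_num) (hp.dvd_of_dvd_pow h); omega
  · have := Nat.le_of_dvd (by norm_num) (hp.dvd_of_dvd_pow h); omega

/-- the core: over a field `κ` in which `1728 ≠ 0`, two isobaric polynomials of weights
`m + 2` and `m` cannot both have `q`-expansion `1`. -/
lemma false_of_ev_eq_one {κ : Type*} [Field κ] (h1728 : (1728 : κ) ≠ 0) {m : ℕ}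
    {P1 P2 : QR κ} (h1 : Iso (m + 2) P1) (h2 : Iso m P2)
    (e1 : ev (e4 κ) (e6 κ) P1 = 1) (e2 : ev (e4 κ) (e6 κ) P2 = 1) : False := by
  have hΔ : e4 κ ^ 3 - e6 κ ^ 2 ≠ 0 := by
    intro h0
    have := coeff_one_identity κ
    rw [h0, map_zero] at this
    exact h1728 this.symm
  have hP2 : P2 ≠ 0 := by
    rintro rfl
    rw [map_zero] at e2
    exact zero_ne_one e2
  have hP1 : P1 ≠ 0 := by
    rintro rfl
    rw [map_zero] at e1
    exact zero_ne_one e1
  rcases Nat.even_or_odd m with ⟨a, ha⟩ | hodd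
  · rcases Nat.eq_zero_or_pos a with rfl | hapos
    · -- m = 0 : P1 has weight 2
      have hm : m = 0 := by omega
      subst hm
      exact hP1 (SwD12.Iso.eq_zero_of_weight_two h1)
    · have hw1 : Iso (a * (m + 2)) (P1 ^ a) := by
        have := h1.pow a
        simpa [smul_eq_mul] using this
      have hw2 : Iso (a * (m + 2)) (P2 ^ (a + 1)) := by
        have := h2.pow (a + 1)
        refine SwD12.Iso.of_eq this ?_
        rw [smul_eq_mul, ha]; ring
      have heq : P1 ^ a = P2 ^ (a + 1) :=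
        SwD12.eq_of_ev_eq (constantCoeff_e4 κ) (constantCoeff_e6 κ) hΔ hw1 hw2
          (by rw [map_pow, map_pow, e1, e2, one_pow, one_pow])
      exact Fermat.Agent.S16.TwoWeights55.false_of_pow_eq P1 P2 m a hapos h1 h2 hP2 heq
  · exact hP2 (iso_odd_eq_zero h2 hodd)

/-- **Main theorem (general ideal).**  `p ≥ 5` prime, `O ⊆ ℂ` a subring containing `1/6`, `I` a
proper ideal of `O` containing `p`.  There are no level-one forms `F₁`, `F₂` of weights `k₂ + 2`
and `k₂`, with `q`-coefficients in `O`, which are both `≡ 1 mod I`. -/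
theorem false_of_two_weights {p : ℕ} (hp : p.Prime) (hp5 : 5 ≤ p) (O : Subring ℂ)
    (h6 : (6 : ℂ)⁻¹ ∈ O) (I : Ideal O) (hI : I ≠ ⊤) (hpI : (p : O) ∈ I)
    {k1 k2 : ℤ} (hk : k1 = k2 + 2) (F1 : ModularForm 𝒮ℒ k1) (F2 : ModularForm 𝒮ℒ k2)
    (h10 : ∃ y ∈ I, coeff 0 (qExpansion 1 F1) = 1 + ((y : O) : ℂ))
    (h1n : ∀ n, 1 ≤ n → ∃ y ∈ I, coeff n (qExpansion 1 F1) = ((y : O) : ℂ))
    (h20 : ∃ y ∈ I, coeff 0 (qExpansion 1 F2) = 1 + ((y : O) : ℂ))
    (h2n : ∀ n, 1 ≤ n → ∃ y ∈ I, coeff n (qExpansion 1 F2) = ((y : O) : ℂ)) : False := by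
  obtain ⟨M, hM, hIM⟩ := Ideal.exists_le_maximal I hI
  have h1728 := inv_1728_mem h6
  -- negative weight: `F2 = 0`
  rcases lt_or_ge k2 0 with hneg | hnn
  · have hF2 : (F2 : ℍ → ℂ) = 0 := ModularFormClass.levelOne_neg_weight_eq_zero hneg F2
    obtain ⟨y, hy, hy0⟩ := h20
    rw [hF2, qExpansion_zero, map_zero] at hy0
    have : (1 : O) = -y := by
      apply Subtype.ext
      have : ((y : O) : ℂ) = -1 := by linear_combination -hy0
      push_cast
      rw [this]; ring
    exact hI ((Ideal.eq_top_iff_one I).mpr (this ▸ I.neg_mem hy))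
  obtain ⟨m, rfl⟩ := Int.eq_ofNat_of_zero_le hnn
  have hk' : k1 = ((m + 2 : ℕ) : ℤ) := by rw [hk]; push_cast; ring
  subst hk'
  let _ : Field (O ⧸ M) := Ideal.Quotient.field M
  obtain ⟨P1, hP1, e1⟩ := exists_poly_ev_eq_one h1728 M F1
    (by obtain ⟨y, hy, h⟩ := h10; exact ⟨y, hIM hy, h⟩)
    (fun n hn => by obtain ⟨y, hy, h⟩ := h1n n hn; exact ⟨y, hIM hy, h⟩)
  obtain ⟨P2, hP2, e2⟩ := exists_poly_ev_eq_one h1728 M F2
    (by obtain ⟨y, hy, h⟩ := h20; exact ⟨y, hIM hy, h⟩)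
    (fun n hn => by obtain ⟨y, hy, h⟩ := h2n n hn; exact ⟨y, hIM hy, h⟩)
  refine false_of_ev_eq_one (κ := O ⧸ M) ?_ hP1 hP2 e1 e2
  intro h0
  have h1 : ((1728 : ℕ) : O) ∈ M := by
    rw [← Ideal.Quotient.eq_zero_iff_mem, map_natCast]
    exact_mod_cast h0
  have h2 : ((p : ℕ) : O) ∈ M := hIM hpI
  have hcop : IsCoprime ((1728 : ℕ) : ℤ) ((p : ℕ) : ℤ) :=
    Nat.isCoprime_iff_coprime.mpr (coprime_1728 hp hp5)
  obtain ⟨u, v, huv⟩ := hcop
  have h3 : (1 : O) ∈ M := by
    have e : (u : O) * ((1728 : ℕ) : O) + (v : O) * ((p : ℕ) : O) = 1 := by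
      have := congrArg (Int.cast : ℤ → O) huv
      push_cast at this ⊢
      exact this
    rw [← e]
    exact M.add_mem (M.mul_mem_left _ h1) (M.mul_mem_left _ h2)
  exact hM.ne_top ((Ideal.eq_top_iff_one M).mpr h3)

/-- **Main theorem, `I = pO`.**  `p ≥ 5` prime, `O ⊆ ℂ` a subring containing `1/6` but not
`1/p`.  There are no level-one forms `F₁`, `F₂` of weights `k₂ + 2` and `k₂` with
`q`-expansions in `1 + p·O⟦q⟧`. -/
theorem false_of_two_weights_smul {p : ℕ} (hp : p.Prime) (hp5 : 5 ≤ p) (O : Subring ℂ)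
    (h6 : (6 : ℂ)⁻¹ ∈ O) (hpO : ((p : ℂ))⁻¹ ∉ O)
    {k1 k2 : ℤ} (hk : k1 = k2 + 2) (F1 : ModularForm 𝒮ℒ k1) (F2 : ModularForm 𝒮ℒ k2)
    (h10 : ∃ y ∈ O, coeff 0 (qExpansion 1 F1) = 1 + (p : ℂ) * y)
    (h1n : ∀ n, 1 ≤ n → ∃ y ∈ O, coeff n (qExpansion 1 F1) = (p : ℂ) * y)
    (h20 : ∃ y ∈ O, coeff 0 (qExpansion 1 F2) = 1 + (p : ℂ) * y)
    (h2n : ∀ n, 1 ≤ n → ∃ y ∈ O, coeff n (qExpansion 1 F2) = (p : ℂ) * y) : False := by
  have hp0 : (p : ℂ) ≠ 0 := Nat.cast_ne_zero.mpr hp.ne_zero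
  have hI : Ideal.span {((p : ℕ) : O)} ≠ ⊤ := by
    intro htop
    rw [Ideal.span_singleton_eq_top] at htop
    obtain ⟨u, hu⟩ := htop.exists_right_inv
    apply hpO
    have : ((u : O) : ℂ) = (p : ℂ)⁻¹ := by
      have h := congrArg (fun x : O => (x : ℂ)) hu
      simp only [Subring.coe_mul, Subring.coe_natCast, Subring.coe_one] at h
      field_simp
      linear_combination h
    rw [← this]; exact u.2
  have conv : ∀ {x : ℂ}, (∃ y ∈ O, x = (p : ℂ) * y) →
      ∃ y ∈ Ideal.span {((p : ℕ) : O)}, x = ((y : O) : ℂ) := by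
    rintro x ⟨y, hy, rfl⟩
    refine ⟨((p : ℕ) : O) * ⟨y, hy⟩, Ideal.mul_mem_right _ _ (Ideal.mem_span_singleton_self _), ?_⟩
    simp
  have conv1 : ∀ {x : ℂ}, (∃ y ∈ O, x = 1 + (p : ℂ) * y) →
      ∃ y ∈ Ideal.span {((p : ℕ) : O)}, x = 1 + ((y : O) : ℂ) := by
    rintro x ⟨y, hy, rfl⟩
    refine ⟨((p : ℕ) : O) * ⟨y, hy⟩, Ideal.mul_mem_right _ _ (Ideal.mem_span_singleton_self _), ?_⟩
    simp
  exact false_of_two_weights hp hp5 O h6 _ hI (Ideal.mem_span_singleton_self _) hk F1 F2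
    (conv1 h10) (fun n hn => conv (h1n n hn)) (conv1 h20) (fun n hn => conv (h2n n hn))

end

end Fermat.Agent.S16.ModPBridge21
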