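import Mathlib
import Fermat.Prelude.Def_ModularCurve_PeriodMap
import Fermat.Prelude.Def_ModularForm_HeckeOperator

/-!
# S16 (L): the transfer relation (representative-free form of the group-theoretic Hecke operators)

For a subgroup `Γ ≤ SL(2, ℤ)` and a finite family `α : ι → GL (Fin 2) ℝ`, *transfer data* for
`γ : Γ` consist of a permutation `σ` of `ι` and elements `γ' i : Γ` with
`α i * γ = γ' i * α (σ i)` in `GL (Fin 2) ℝ`.  A hom `ψ : Γ → A` is a *transfer* of `φ : Γ → A`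
along `α` when `ψ γ = ∑ i, φ (γ' i)` for all transfer data.  This is the classical formula for the
action of the double coset `Γ α Γ = ⨆ Γ α i` on `H¹(Γ, A)`, stated without choosing anything.

`tFam ℓ` / `uFam ℓ` are the families of the Prelude operators `heckeT` / `heckeU`. (helper95)
-/

set_option autoImplicit false

open scoped MatrixGroups

namespace Fermat.Agent.S16.Transfer95

/-- The image of an element of a subgroup of `SL(2, ℤ)` in `GL (Fin 2) ℝ`. -/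
noncomputable def toGL {Γ : Subgroup SL(2, ℤ)} (γ : Γ) : GL (Fin 2) ℝ :=
  Matrix.SpecialLinearGroup.mapGL ℝ (γ : SL(2, ℤ))

theorem toGL_mul {Γ : Subgroup SL(2, ℤ)} (γ δ : Γ) : toGL (γ * δ) = toGL γ * toGL δ := by
  unfold toGL
  rw [Subgroup.coe_mul, map_mul]

theorem toGL_one {Γ : Subgroup SL(2, ℤ)} : toGL (1 : Γ) = 1 := by
  unfold toGL
  rw [Subgroup.coe_one, map_one]

theorem toGL_inv {Γ : Subgroup SL(2, ℤ)} (γ : Γ) : toGL γ⁻¹ = (toGL γ)⁻¹ := by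
  unfold toGL
  rw [Subgroup.coe_inv, map_inv]

/-- Transfer data for `γ` along the family `α`. -/
def IsTransferData {ι : Type*} (Γ : Subgroup SL(2, ℤ)) (α : ι → GL (Fin 2) ℝ) (γ : Γ)
    (σ : Equiv.Perm ι) (γ' : ι → Γ) : Prop :=
  ∀ i, α i * toGL γ = toGL (γ' i) * α (σ i)

/-- `ψ` is a transfer of `φ` along the family `α`. -/
def IsTransfer {ι : Type*} [Fintype ι] (Γ : Subgroup SL(2, ℤ)) (α : ι → GL (Fin 2) ℝ)
    {A : Type*} [AddCommGroup A] (φ ψ : Additive Γ →+ A) : Prop :=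
  ∀ (γ : Γ) (σ : Equiv.Perm ι) (γ' : ι → Γ), IsTransferData Γ α γ σ γ' →
    ψ (Additive.ofMul γ) = ∑ i, φ (Additive.ofMul (γ' i))

/-- The family of the Prelude operator `heckeT k ℓ`: `none ↦ diag(ℓ, 1)`,
`some j ↦ [[1, j], [0, ℓ]]`. -/
noncomputable def tFam (ℓ : ℕ) : Option (Fin ℓ) → GL (Fin 2) ℝ
  | none => ModularForm.heckeDiagMatrix ℓ
  | some j => ModularForm.heckeMatrix ℓ j

/-- The family of the Prelude operator `heckeU k ℓ`: `j ↦ [[1, j], [0, ℓ]]`. -/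
noncomputable def uFam (ℓ : ℕ) : Fin ℓ → GL (Fin 2) ℝ :=
  fun j => ModularForm.heckeMatrix ℓ j

@[simp] theorem tFam_none (ℓ : ℕ) : tFam ℓ none = ModularForm.heckeDiagMatrix ℓ := rfl

@[simp] theorem tFam_some (ℓ : ℕ) (j : Fin ℓ) : tFam ℓ (some j) = ModularForm.heckeMatrix ℓ j := rfl

@[simp] theorem uFam_apply (ℓ : ℕ) (j : Fin ℓ) : uFam ℓ j = ModularForm.heckeMatrix ℓ j := rfl

section Basic

variable {ι : Type*} [Fintype ι] {Γ : Subgroup SL(2, ℤ)} {α : ι → GL (Fin 2) ℝ}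
  {A : Type*} [AddCommGroup A]

theorem IsTransfer.add {φ₁ ψ₁ φ₂ ψ₂ : Additive Γ →+ A} (h₁ : IsTransfer Γ α φ₁ ψ₁)
    (h₂ : IsTransfer Γ α φ₂ ψ₂) : IsTransfer Γ α (φ₁ + φ₂) (ψ₁ + ψ₂) := by
  intro γ σ γ' hd
  simp only [AddMonoidHom.add_apply, Finset.sum_add_distrib, h₁ γ σ γ' hd, h₂ γ σ γ' hd]

theorem IsTransfer.neg {φ ψ : Additive Γ →+ A} (h : IsTransfer Γ α φ ψ) :
    IsTransfer Γ α (-φ) (-ψ) := by
  intro γ σ γ' hd
  simp only [AddMonoidHom.neg_apply, Finset.sum_neg_distrib, h γ σ γ' hd]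

theorem IsTransfer.sub {φ₁ ψ₁ φ₂ ψ₂ : Additive Γ →+ A} (h₁ : IsTransfer Γ α φ₁ ψ₁)
    (h₂ : IsTransfer Γ α φ₂ ψ₂) : IsTransfer Γ α (φ₁ - φ₂) (ψ₁ - ψ₂) := by
  rw [sub_eq_add_neg, sub_eq_add_neg]
  exact h₁.add h₂.neg

theorem IsTransfer.zero : IsTransfer Γ α (0 : Additive Γ →+ A) 0 := by
  intro γ σ γ' _
  simp

/-- Compatibility with a change of coefficients. -/
theorem IsTransfer.comp {B : Type*} [AddCommGroup B] {φ ψ : Additive Γ →+ A}
    (h : IsTransfer Γ α φ ψ) (r : A →+ B) : IsTransfer Γ α (r.comp φ) (r.comp ψ) := by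
  intro γ σ γ' hd
  simp only [AddMonoidHom.comp_apply, h γ σ γ' hd, map_sum]

/-- Two transfers of the same hom agree at every `γ` admitting transfer data. -/
theorem IsTransfer.apply_eq {φ ψ₁ ψ₂ : Additive Γ →+ A} (h₁ : IsTransfer Γ α φ ψ₁)
    (h₂ : IsTransfer Γ α φ ψ₂) {γ : Γ} {σ : Equiv.Perm ι} {γ' : ι → Γ}
    (hd : IsTransferData Γ α γ σ γ') :
    ψ₁ (Additive.ofMul γ) = ψ₂ (Additive.ofMul γ) := by
  rw [h₁ γ σ γ' hd, h₂ γ σ γ' hd]

/-- Two transfers of the same hom agree as soon as every `γ` admits transfer data. -/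
theorem IsTransfer.unique {φ ψ₁ ψ₂ : Additive Γ →+ A} (h₁ : IsTransfer Γ α φ ψ₁)
    (h₂ : IsTransfer Γ α φ ψ₂)
    (hex : ∀ γ : Γ, ∃ (σ : Equiv.Perm ι) (γ' : ι → Γ), IsTransferData Γ α γ σ γ') :
    ψ₁ = ψ₂ := by
  refine AddMonoidHom.ext fun a => ?_
  obtain ⟨γ, rfl⟩ := Additive.ofMul.surjective a
  obtain ⟨σ, γ', hd⟩ := hex γ
  exact h₁.apply_eq h₂ hd

end Basic

end Fermat.Agent.S16.Transfer95
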