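import Mathlib
import Fermat.Agent.S16.Transfer95
import Fermat.Agent.S21.PeriodPrim
import Fermat.Prelude.Def_ModularForm_HeckeOperatorForms

/-!
# S16 (L2): Hecke-equivariance of the period map, in transfer-relation form

For a finite family `α i` of real matrices of positive determinant mapping `i∞` to `i∞`, and
weight-two cusp forms `f, g` on `Γ₀(N)` with `g = ∑ i, f ∣[2] α i`, the period hom of `g` is a
transfer of the period hom of `f` along `α` (`isTransfer_periodMap_of_sum`).  Specialised to the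
Prelude operators `heckeTLin` and `heckeULin` (`isTransfer_periodMap_heckeT/U`), extended to
`charInvolution` and to `periodHomPair`. (helper95)
-/

set_option autoImplicit false

open Complex Filter Topology Function
open UpperHalfPlane hiding I
open scoped MatrixGroups Manifold ModularForm
open ModularCurve ModularCurve.Period CongruenceSubgroup
open Fermat.Agent.S22 Fermat.Agent.S21.PeriodPrim Fermat.Agent.S16.Transfer95

namespace Fermat.Agent.S16.PeriodEquiv95

variable {N : ℕ}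

/-- Chain rule for `F ∘ g`, `g ∈ GL₂⁺(ℝ)`, `F` a primitive of `f`: the derivative is `f ∣[2] g`. -/
theorem hasDerivAt_comp_GL_smul {F f : ℍ → ℂ}
    (hF : ∀ τ : ℍ, HasDerivAt (F ∘ ofComplex) (f τ) τ)
    {g : GL (Fin 2) ℝ} (hg : 0 < g.val.det) (τ : ℍ) :
    HasDerivAt ((fun z : ℍ => F (g • z)) ∘ ofComplex) ((f ∣[(2 : ℤ)] g) τ) τ := by
  have h1 := (hasStrictDerivAt_smul hg τ).hasDerivAt
  have h2 := hF (g • τ)
  have h3 : ((g • ofComplex (τ : ℂ) : ℍ) : ℂ) = ((g • τ : ℍ) : ℂ) := by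
    rw [ofComplex_apply]
  have h4 := HasDerivAt.comp_of_eq (τ : ℂ) h2 h1 h3.symm
  have hval : f (g • τ) * (((g.val.det : ℝ) : ℂ) / denom g τ ^ 2) = (f ∣[(2 : ℤ)] g) τ := by
    have hg' : 0 < ((Matrix.GeneralLinearGroup.det g : ℝˣ) : ℝ) := by
      rw [Matrix.GeneralLinearGroup.val_det_apply]; exact hg
    rw [ModularForm.slash_apply, UpperHalfPlane.σ, if_pos hg']
    simp only [ContinuousAlgEquiv.refl_apply]
    rw [abs_of_pos hg', Matrix.GeneralLinearGroup.val_det_apply,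
      show ((2 : ℤ) - 1) = 1 by norm_num, zpow_one,
      show (-(2 : ℤ)) = -((2 : ℕ) : ℤ) by norm_num, zpow_neg, zpow_natCast]
    rw [div_eq_mul_inv, mul_assoc]
  rw [hval] at h4
  refine h4.congr_of_eventuallyEq ?_
  filter_upwards with z
  simp only [comp_apply, ofComplex_apply]

/-- The action of `γ : Γ` on `ℍ` is the action of `toGL γ`. -/
theorem toGL_smul {Γ : Subgroup SL(2, ℤ)} (γ : Γ) (z : ℍ) :
    toGL γ • z = ((γ : SL(2, ℤ)) • z) := rfl

/-- **Generic equivariance.**  If `g = ∑ i, f ∣[2] α i` for matrices `α i` of positive determinant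
mapping `i∞` to `i∞`, then `periodMap N g` is a transfer of `periodMap N f` along `α`. -/
theorem isTransfer_periodMap_of_sum {ι : Type*} [Fintype ι] [NeZero N] (α : ι → GL (Fin 2) ℝ)
    (hdet : ∀ i, 0 < (α i).val.det)
    (hinf : ∀ i, Tendsto (fun z : ℍ => α i • z) atImInfty atImInfty)
    (f g : CuspForm (Gamma0 N) 2)
    (hg : (g : ℍ → ℂ) = ∑ i, (f : ℍ → ℂ) ∣[(2 : ℤ)] α i) :
    IsTransfer (Gamma0 N) α (periodMap N f) (periodMap N g) := by
  classical
  set G : ℍ → ℂ := fun z => ∑ i, primF f (α i • z) with hGdef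
  have hG1 : ∀ τ : ℍ, HasDerivAt (G ∘ ofComplex) (g τ) τ := by
    intro τ
    have hsum : HasDerivAt (fun w : ℂ => ∑ i, ((fun z : ℍ => primF f (α i • z)) ∘ ofComplex) w)
        (∑ i, ((f : ℍ → ℂ) ∣[(2 : ℤ)] α i) τ) τ :=
      HasDerivAt.fun_sum fun i _ => hasDerivAt_comp_GL_smul (hasDerivAt_primF f) (hdet i) τ
    have hval : g τ = ∑ i, ((f : ℍ → ℂ) ∣[(2 : ℤ)] α i) τ := by
      have := congrFun hg τ
      rw [this, Finset.sum_apply]
    rw [hval]
    exact hsum
  have hG2 : IsZeroAtImInfty G := by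
    have h : Tendsto G atImInfty (𝓝 (∑ _i : ι, (0 : ℂ))) :=
      tendsto_finsetSum _ fun i _ => (isZeroAtImInfty_primF f).comp (hinf i)
    rw [Finset.sum_const_zero] at h
    exact h
  have hG : G = primF g := eq_prim one_pos (isCuspidal_coe g) hG1 hG2
  intro γ σ γ' hd
  rw [periodMap_apply g γ UpperHalfPlane.I, ← hG]
  simp only [hGdef]
  rw [← Finset.sum_sub_distrib]
  have hterm : ∀ i, primF f (α i • ((γ : SL(2, ℤ)) • UpperHalfPlane.I)) - primF f (α i • UpperHalfPlane.I)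
      = periodMap N f (Additive.ofMul (γ' i))
        + (primF f (α (σ i) • UpperHalfPlane.I) - primF f (α i • UpperHalfPlane.I)) := by
    intro i
    have h1 : α i • ((γ : SL(2, ℤ)) • UpperHalfPlane.I)
        = ((γ' i : Gamma0 N) : SL(2, ℤ)) • (α (σ i) • UpperHalfPlane.I) := by
      rw [← toGL_smul γ, ← toGL_smul (γ' i), ← mul_smul, ← mul_smul, hd i]
    rw [h1, periodMap_apply f (γ' i) (α (σ i) • UpperHalfPlane.I)]
    ring
  rw [Finset.sum_congr rfl fun i _ => hterm i, Finset.sum_add_distrib, Finset.sum_sub_distrib,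
    Equiv.sum_comp σ (fun i => primF f (α i • UpperHalfPlane.I)), sub_self, add_zero]

section Families

open ModularForm

theorem tendsto_im_atImInfty : Tendsto (fun z : ℍ => z.im) atImInfty atTop :=
  tendsto_comap

theorem tendsto_heckeMatrix_smul {ℓ : ℕ} (hℓ : ℓ ≠ 0) (j : ℕ) :
    Tendsto (fun z : ℍ => heckeMatrix ℓ j • z) atImInfty atImInfty := by
  rw [atImInfty, tendsto_comap_iff]
  have him : ∀ z : ℍ, (heckeMatrix ℓ j • z).im = z.im / ℓ := by
    intro z
    have h := coe_heckeMatrix_smul hℓ j z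
    have h2 : (heckeMatrix ℓ j • z).im = (((z : ℂ) + j) / ℓ).im := by
      rw [← h]; rfl
    rw [h2, Complex.div_natCast_im, Complex.add_im, Complex.natCast_im, add_zero]
    rfl
  have hpos : (0 : ℝ) < ℓ := by exact_mod_cast Nat.pos_of_ne_zero hℓ
  have h3 : Tendsto (fun z : ℍ => z.im / ℓ) (Filter.comap UpperHalfPlane.im atTop) atTop :=
    tendsto_im_atImInfty.atTop_div_const hpos
  refine h3.congr fun z => ?_
  simp only [comp_apply, him]

theorem tendsto_heckeDiagMatrix_smul {ℓ : ℕ} (hℓ : ℓ ≠ 0) :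
    Tendsto (fun z : ℍ => heckeDiagMatrix ℓ • z) atImInfty atImInfty := by
  rw [atImInfty, tendsto_comap_iff]
  have him : ∀ z : ℍ, (heckeDiagMatrix ℓ • z).im = ℓ * z.im := by
    intro z
    have h := coe_heckeDiagMatrix_smul hℓ z
    have h2 : (heckeDiagMatrix ℓ • z).im = ((ℓ : ℂ) * (z : ℂ)).im := by
      rw [← h]; rfl
    rw [h2, Complex.mul_im, Complex.natCast_re, Complex.natCast_im, zero_mul, add_zero]
    rfl
  have hpos : (0 : ℝ) < ℓ := by exact_mod_cast Nat.pos_of_ne_zero hℓ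
  have h3 : Tendsto (fun z : ℍ => (ℓ : ℝ) * z.im) (Filter.comap UpperHalfPlane.im atTop) atTop :=
    tendsto_im_atImInfty.const_mul_atTop hpos
  refine h3.congr fun z => ?_
  simp only [comp_apply, him]

theorem det_tFam_pos (ℓ : ℕ) (i : Option (Fin ℓ)) : 0 < (tFam ℓ i).val.det := by
  cases i with
  | none =>
    have := det_heckeDiagMatrix_pos ℓ
    rwa [Matrix.GeneralLinearGroup.val_det_apply] at this
  | some j =>
    have := det_heckeMatrix_pos ℓ j
    rwa [Matrix.GeneralLinearGroup.val_det_apply] at this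

theorem det_uFam_pos (ℓ : ℕ) (j : Fin ℓ) : 0 < (uFam ℓ j).val.det := by
  have := det_heckeMatrix_pos ℓ j
  rwa [Matrix.GeneralLinearGroup.val_det_apply] at this

theorem tendsto_tFam_smul {ℓ : ℕ} (hℓ : ℓ ≠ 0) (i : Option (Fin ℓ)) :
    Tendsto (fun z : ℍ => tFam ℓ i • z) atImInfty atImInfty := by
  cases i with
  | none => exact tendsto_heckeDiagMatrix_smul hℓ
  | some j => exact tendsto_heckeMatrix_smul hℓ j

theorem tendsto_uFam_smul {ℓ : ℕ} (hℓ : ℓ ≠ 0) (j : Fin ℓ) :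
    Tendsto (fun z : ℍ => uFam ℓ j • z) atImInfty atImInfty :=
  tendsto_heckeMatrix_smul hℓ j

theorem heckeT_eq_sum_tFam (k : ℤ) (ℓ : ℕ) (f : ℍ → ℂ) :
    heckeT k ℓ f = ∑ i, f ∣[k] tFam ℓ i := by
  rw [Fintype.sum_option, heckeT_def, Finset.sum_range, add_comm]
  rfl

theorem heckeU_eq_sum_uFam (k : ℤ) (ℓ : ℕ) (f : ℍ → ℂ) :
    heckeU k ℓ f = ∑ i, f ∣[k] uFam ℓ i := by
  rw [heckeU_def, Finset.sum_range]
  rfl

/-- **(E1)** The period map intertwines `T_ℓ` on cusp forms with the transfer along `tFam ℓ`. -/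
theorem isTransfer_periodMap_heckeT [NeZero N] {ℓ : ℕ} (hℓ : ℓ.Prime) (hℓN : ¬ ℓ ∣ N)
    (f : CuspForm (Gamma0 N) 2) :
    IsTransfer (Gamma0 N) (tFam ℓ) (periodMap N f) (periodMap N (CuspForm.heckeTLin 2 hℓ hℓN f)) :=
  isTransfer_periodMap_of_sum (tFam ℓ) (det_tFam_pos ℓ) (tendsto_tFam_smul hℓ.ne_zero) f _
    (by rw [CuspForm.coe_heckeTLin_apply, heckeT_eq_sum_tFam])

/-- **(E2)** The period map intertwines `U_ℓ` on cusp forms with the transfer along `uFam ℓ`. -/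
theorem isTransfer_periodMap_heckeU [NeZero N] {ℓ : ℕ} (hℓ : ℓ ≠ 0) (hℓN : ℓ ∣ N)
    (f : CuspForm (Gamma0 N) 2) :
    IsTransfer (Gamma0 N) (uFam ℓ) (periodMap N f) (periodMap N (CuspForm.heckeULin 2 hℓN f)) :=
  isTransfer_periodMap_of_sum (uFam ℓ) (det_uFam_pos ℓ) (tendsto_uFam_smul hℓ) f _
    (by rw [CuspForm.coe_heckeULin_apply, heckeU_eq_sum_uFam])

end Families

section ChangeReps

variable {ι : Type*} [Fintype ι] {Γ : Subgroup SL(2, ℤ)} {A : Type*} [AddCommGroup A]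

/-- Independence of the representatives: if `β i = δ i * α (π i)` with `δ i ∈ Γ` and `π` a
permutation, then every transfer along `α` is a transfer along `β`. -/
theorem isTransfer_of_change_reps {α β : ι → GL (Fin 2) ℝ} (π : Equiv.Perm ι) (δ : ι → Γ)
    (hβ : ∀ i, β i = toGL (δ i) * α (π i)) {φ ψ : Additive Γ →+ A}
    (h : IsTransfer Γ α φ ψ) : IsTransfer Γ β φ ψ := by
  intro γ σ γ' hd
  have hdata : IsTransferData Γ α γ (π.symm.trans (σ.trans π))
      (fun k => (δ (π.symm k))⁻¹ * γ' (π.symm k) * δ (σ (π.symm k))) := by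
    intro k
    have h1 := hd (π.symm k)
    rw [hβ (π.symm k), hβ (σ (π.symm k)), Equiv.apply_symm_apply] at h1
    simp only [Equiv.trans_apply]
    rw [toGL_mul, toGL_mul, toGL_inv]
    have h2 : α k * toGL γ = (toGL (δ (π.symm k)))⁻¹ * (toGL (δ (π.symm k)) * α k * toGL γ) := by
      group
    rw [h2, h1]
    group
  rw [h γ _ _ hdata]
  have hterm : ∀ k, φ (Additive.ofMul ((δ (π.symm k))⁻¹ * γ' (π.symm k) * δ (σ (π.symm k))))
      = (fun i => -φ (Additive.ofMul (δ i)) + φ (Additive.ofMul (γ' i))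
          + φ (Additive.ofMul (δ (σ i)))) (π.symm k) := by
    intro k
    simp only [ofMul_mul, ofMul_inv, map_add, map_neg]
  rw [Finset.sum_congr rfl fun k _ => hterm k,
    Equiv.sum_comp π.symm (fun i => -φ (Additive.ofMul (δ i)) + φ (Additive.ofMul (γ' i))
          + φ (Additive.ofMul (δ (σ i)))),
    Finset.sum_add_distrib, Finset.sum_add_distrib, Finset.sum_neg_distrib,
    Equiv.sum_comp σ (fun i => φ (Additive.ofMul (δ i)))]
  abel

/-- Conjugation: if `C` normalises `Γ` (inducing `c`) and `C * α i = β i * C`, then transfers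
along `β` give transfers along `α` after composing with `c`. -/
theorem isTransfer_of_conj {α β : ι → GL (Fin 2) ℝ} (c : Γ →* Γ) (C : GL (Fin 2) ℝ)
    (hc : ∀ γ : Γ, C * toGL γ = toGL (c γ) * C) (hβ : ∀ i, C * α i = β i * C)
    {φ ψ : Additive Γ →+ A} (h : IsTransfer Γ β φ ψ) :
    IsTransfer Γ α (φ.comp (MonoidHom.toAdditive c)) (ψ.comp (MonoidHom.toAdditive c)) := by
  intro γ σ γ' hd
  have hdata : IsTransferData Γ β (c γ) σ (fun i => c (γ' i)) := by
    intro i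
    apply mul_right_cancel (b := C)
    calc β i * toGL (c γ) * C = β i * C * toGL γ := by rw [mul_assoc, ← hc, mul_assoc]
      _ = C * (α i * toGL γ) := by rw [← hβ, mul_assoc]
      _ = C * toGL (γ' i) * α (σ i) := by rw [hd i, mul_assoc]
      _ = toGL (c (γ' i)) * (C * α (σ i)) := by rw [hc, mul_assoc]
      _ = toGL (c (γ' i)) * β (σ i) * C := by rw [hβ, mul_assoc]
  have := h (c γ) σ _ hdata
  simpa using this

end ChangeReps

section CharInv

open ModularForm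

/-- The matrix `diag(1, -1)` in `GL (Fin 2) ℝ`. -/
noncomputable def jGL : GL (Fin 2) ℝ :=
  Matrix.GeneralLinearGroup.mkOfDetNeZero !![1, 0; 0, -1]
    (by rw [Matrix.det_fin_two_of]; norm_num)

@[simp] theorem val_jGL : ((jGL : GL (Fin 2) ℝ) : Matrix (Fin 2) (Fin 2) ℝ) = !![1, 0; 0, -1] := rfl

theorem val_toGL {Γ : Subgroup SL(2, ℤ)} (γ : Γ) :
    ((toGL γ : GL (Fin 2) ℝ) : Matrix (Fin 2) (Fin 2) ℝ)
      = !![(((γ : SL(2, ℤ)) 0 0 : ℤ) : ℝ), (((γ : SL(2, ℤ)) 0 1 : ℤ) : ℝ);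
          (((γ : SL(2, ℤ)) 1 0 : ℤ) : ℝ), (((γ : SL(2, ℤ)) 1 1 : ℤ) : ℝ)] := by
  unfold toGL
  rw [Matrix.SpecialLinearGroup.mapGL_coe_matrix]
  ext i j
  fin_cases i <;> fin_cases j <;> simp

/-- `diag(1,-1)` normalises `Γ₀(N)`, inducing `jConjGamma0`. -/
theorem jGL_mul_toGL (γ : Gamma0 N) : jGL * toGL γ = toGL (jConjGamma0 N γ) * jGL := by
  apply Units.ext
  rw [Units.val_mul, Units.val_mul, val_jGL, val_toGL, val_toGL]
  simp only [jConjGamma0_coe, jConjSL_coe]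
  ext i j
  fin_cases i <;> fin_cases j <;> simp [jConjMat]

/-- The translation `[[1, k], [0, 1]]` as an element of `Γ₀(N)`. -/
def upTSL (k : ℤ) : SL(2, ℤ) := ⟨!![1, k; 0, 1], by rw [Matrix.det_fin_two_of]; ring⟩

/-- The translation `[[1, k], [0, 1]]` as an element of `Γ₀(N)`. -/
def upT (N : ℕ) (k : ℤ) : Gamma0 N := ⟨upTSL k, by rw [Gamma0_mem]; simp [upTSL]⟩

theorem val_toGL_upT (k : ℤ) :
    ((toGL (upT N k) : GL (Fin 2) ℝ) : Matrix (Fin 2) (Fin 2) ℝ) = !![1, (k : ℝ); 0, 1] := by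
  rw [val_toGL]
  simp [upT, upTSL]

/-- The translation amount: `0` for `j = 0`, `-1` otherwise. -/
def shiftAmt {ℓ : ℕ} (j : Fin ℓ) : ℤ := if (j : ℕ) = 0 then 0 else -1

theorem neg_val_add {ℓ : ℕ} [NeZero ℓ] (j : Fin ℓ) :
    (((-j : Fin ℓ) : ℕ) : ℝ) + (shiftAmt j : ℝ) * ℓ = -((j : ℕ) : ℝ) := by
  unfold shiftAmt
  rw [Fin.val_neg']
  by_cases hj : (j : ℕ) = 0
  · simp [hj]
  · have hlt : (j : ℕ) < ℓ := j.2
    have h1 : (ℓ - (j : ℕ)) % ℓ = ℓ - (j : ℕ) := Nat.mod_eq_of_lt (by omega)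
    rw [h1, if_neg hj, Nat.cast_sub hlt.le]
    push_cast
    ring

/-- `diag(1,-1) * [[1, j], [0, ℓ]] = [[1, k], [0, 1]] * [[1, -j mod ℓ], [0, ℓ]] * diag(1,-1)`. -/
theorem jGL_mul_heckeMatrix {ℓ : ℕ} [NeZero ℓ] (j : Fin ℓ) :
    jGL * heckeMatrix ℓ j
      = toGL (upT N (shiftAmt j)) * heckeMatrix ℓ ((-j : Fin ℓ) : ℕ) * jGL := by
  have hℓ : ℓ ≠ 0 := NeZero.ne ℓ
  apply Units.ext
  rw [Units.val_mul, Units.val_mul, Units.val_mul, val_jGL, val_toGL_upT, val_heckeMatrix hℓ,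
    val_heckeMatrix hℓ]
  have key := neg_val_add j
  ext a b
  fin_cases a <;> fin_cases b <;> simp [Matrix.mul_apply, Fin.sum_univ_two]
  linarith

theorem jGL_mul_heckeDiagMatrix (ℓ : ℕ) :
    jGL * heckeDiagMatrix ℓ = toGL (1 : Gamma0 N) * heckeDiagMatrix ℓ * jGL := by
  rw [toGL_one, one_mul]
  rcases eq_or_ne ℓ 0 with rfl | hℓ
  · simp
  apply Units.ext
  rw [Units.val_mul, Units.val_mul, val_jGL, val_heckeDiagMatrix hℓ]
  ext a b
  fin_cases a <;> fin_cases b <;> simp [Matrix.mul_apply, Fin.sum_univ_two]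

variable {A : Type*} [AddCommGroup A]

/-- **(E3, `U`)** `charInvolution` preserves transfers along `uFam ℓ`. -/
theorem isTransfer_charInvolution_uFam {ℓ : ℕ} [NeZero ℓ] (R : Type*) [Semiring R] [Module R A]
    {φ ψ : Additive (Gamma0 N) →+ A} (h : IsTransfer (Gamma0 N) (uFam ℓ) φ ψ) :
    IsTransfer (Gamma0 N) (uFam ℓ) (charInvolution N R A φ) (charInvolution N R A ψ) := by
  have h1 : IsTransfer (Gamma0 N)
      (fun j : Fin ℓ => toGL (upT N (shiftAmt j)) * uFam ℓ ((Equiv.neg (Fin ℓ)) j)) φ ψ :=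
    isTransfer_of_change_reps (Equiv.neg (Fin ℓ)) (fun j => upT N (shiftAmt j)) (fun _ => rfl) h
  exact isTransfer_of_conj (jConjGamma0 N) jGL jGL_mul_toGL (fun j => jGL_mul_heckeMatrix j) h1

/-- **(E3, `T`)** `charInvolution` preserves transfers along `tFam ℓ`. -/
theorem isTransfer_charInvolution_tFam {ℓ : ℕ} [NeZero ℓ] (R : Type*) [Semiring R] [Module R A]
    {φ ψ : Additive (Gamma0 N) →+ A} (h : IsTransfer (Gamma0 N) (tFam ℓ) φ ψ) :
    IsTransfer (Gamma0 N) (tFam ℓ) (charInvolution N R A φ) (charInvolution N R A ψ) := by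
  have h1 : IsTransfer (Gamma0 N)
      (fun i : Option (Fin ℓ) =>
        toGL (Option.elim i (1 : Gamma0 N) (fun j => upT N (shiftAmt j)))
          * tFam ℓ ((Equiv.optionCongr (Equiv.neg (Fin ℓ))) i)) φ ψ :=
    isTransfer_of_change_reps (Equiv.optionCongr (Equiv.neg (Fin ℓ)))
      (fun i => Option.elim i (1 : Gamma0 N) (fun j => upT N (shiftAmt j))) (fun _ => rfl) h
  refine isTransfer_of_conj (jConjGamma0 N) jGL jGL_mul_toGL (fun i => ?_) h1
  cases i with
  | none => exact jGL_mul_heckeDiagMatrix ℓ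
  | some j => exact jGL_mul_heckeMatrix j

end CharInv

section Pair

/-- **(E4, `T`)** `periodHomPair` intertwines `T_ℓ × T_ℓ` with the transfer along `tFam ℓ`. -/
theorem isTransfer_periodHomPair_heckeT [NeZero N] {ℓ : ℕ} (hℓ : ℓ.Prime) (hℓN : ¬ ℓ ∣ N)
    (f g : CuspForm (Gamma0 N) 2) :
    IsTransfer (Gamma0 N) (tFam ℓ) (periodHomPair N (f, g))
      (periodHomPair N (CuspForm.heckeTLin 2 hℓ hℓN f, CuspForm.heckeTLin 2 hℓ hℓN g)) := by
  have : NeZero ℓ := ⟨hℓ.ne_zero⟩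
  rw [periodHomPair_apply, periodHomPair_apply]
  have hf := isTransfer_periodMap_heckeT hℓ hℓN f
  have hg := isTransfer_periodMap_heckeT hℓ hℓN g
  exact (hf.add (isTransfer_charInvolution_tFam ℂ hf)).add
    (hg.sub (isTransfer_charInvolution_tFam ℂ hg))

/-- **(E4, `U`)** `periodHomPair` intertwines `U_ℓ × U_ℓ` with the transfer along `uFam ℓ`. -/
theorem isTransfer_periodHomPair_heckeU [NeZero N] {ℓ : ℕ} (hℓ : ℓ ≠ 0) (hℓN : ℓ ∣ N)
    (f g : CuspForm (Gamma0 N) 2) :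
    IsTransfer (Gamma0 N) (uFam ℓ) (periodHomPair N (f, g))
      (periodHomPair N (CuspForm.heckeULin 2 hℓN f, CuspForm.heckeULin 2 hℓN g)) := by
  have : NeZero ℓ := ⟨hℓ⟩
  rw [periodHomPair_apply, periodHomPair_apply]
  have hf := isTransfer_periodMap_heckeU hℓ hℓN f
  have hg := isTransfer_periodMap_heckeU hℓ hℓN g
  exact (hf.add (isTransfer_charInvolution_uFam ℂ hf)).add
    (hg.sub (isTransfer_charInvolution_uFam ℂ hg))

end Pair

end Fermat.Agent.S16.PeriodEquiv95
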