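import Mathlib
import Fermat.Agent.S16.PeriodEquiv95
import Fermat.Agent.S16.HeckeHom24.Concrete

/-!
# S16 (L2): adapter between the transfer relation (`Transfer95`) and `HeckeHom24.HeckeSys`

For a Hecke system `D` on `Γ₀(N)` (helper24), `D.op φ` is the unique transfer of `φ` along `D.α`.
Consequently the period map intertwines `heckeTLin`/`heckeULin` with `heckeTHom`/`heckeUHom`,
these commute with `charInvolution`, and `periodHomPair` is equivariant. (helper95)
-/

set_option autoImplicit false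

open scoped MatrixGroups
open ModularCurve ModularCurve.Period CongruenceSubgroup
open Fermat.Agent.S16.Transfer95 Fermat.Agent.S16.PeriodEquiv95 Fermat.Agent.S16.HeckeHom24

namespace Fermat.Agent.S16.EquivAdapter95

variable {N : ℕ}

section General

variable {I : Type*} (D : HeckeSys (iota N) I)

/-- The defining relation of a Hecke system is transfer data. -/
theorem isTransferData_heckeSys (γ : Gamma0 N) :
    IsTransferData (Gamma0 N) D.α γ (D.permEquiv γ) (D.elt γ) :=
  fun i => D.rel γ i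

variable [Fintype I] {A : Type*} [AddCommGroup A]

/-- `D.op φ` is a transfer of `φ` along `D.α`. -/
theorem isTransfer_op (φ : Additive (Gamma0 N) →+ A) :
    IsTransfer (Gamma0 N) D.α φ (D.op φ) := by
  intro γ σ γ' hd
  rw [D.op_apply]
  refine Finset.sum_congr rfl fun i _ => ?_
  have h : D.α i * iota N γ = iota N (γ' i) * D.α (σ i) := hd i
  rw [D.elt_eq h]

/-- Any transfer of `φ` along `D.α` is `D.op φ`. -/
theorem eq_op_of_isTransfer {φ ψ : Additive (Gamma0 N) →+ A}
    (h : IsTransfer (Gamma0 N) D.α φ ψ) : ψ = D.op φ :=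
  h.unique (isTransfer_op D φ) fun γ => ⟨_, _, isTransferData_heckeSys D γ⟩

end General

theorem tRep_eq_tFam (ℓ : ℕ) : tRep ℓ = tFam ℓ := by
  funext i
  cases i <;> rfl

theorem uRep_eq_uFam (p : ℕ) : uRep p = uFam p := rfl

section T

variable {ℓ : ℕ} (hℓ : ℓ.Prime) (hℓN : ¬ ℓ ∣ N)

theorem tSys_α_eq : (tSys N hℓ hℓN).α = tFam ℓ := tRep_eq_tFam ℓ

variable {A : Type*} [AddCommGroup A]

/-- `heckeTHom φ` is a transfer of `φ` along `tFam ℓ`. -/
theorem isTransfer_heckeTHom (φ : Additive (Gamma0 N) →+ A) :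
    IsTransfer (Gamma0 N) (tFam ℓ) φ (heckeTHom N hℓ hℓN A φ) := by
  have h := isTransfer_op (tSys N hℓ hℓN) φ
  rwa [tSys_α_eq] at h

/-- Any transfer of `φ` along `tFam ℓ` is `heckeTHom φ`. -/
theorem eq_heckeTHom_of_isTransfer {φ ψ : Additive (Gamma0 N) →+ A}
    (h : IsTransfer (Gamma0 N) (tFam ℓ) φ ψ) : ψ = heckeTHom N hℓ hℓN A φ := by
  apply eq_op_of_isTransfer (tSys N hℓ hℓN)
  rwa [tSys_α_eq]

/-- `heckeTHom` commutes with `charInvolution`. -/
theorem charInvolution_heckeTHom (R : Type*) [Semiring R] [Module R A]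
    (φ : Additive (Gamma0 N) →+ A) :
    charInvolution N R A (heckeTHom N hℓ hℓN A φ)
      = heckeTHom N hℓ hℓN A (charInvolution N R A φ) := by
  have : NeZero ℓ := ⟨hℓ.ne_zero⟩
  exact eq_heckeTHom_of_isTransfer hℓ hℓN
    (isTransfer_charInvolution_tFam R (isTransfer_heckeTHom hℓ hℓN φ))

/-- **Period equivariance for `T_ℓ`.** -/
theorem periodMap_heckeTLin [NeZero N] (f : CuspForm (Gamma0 N) 2) :
    periodMap N (CuspForm.heckeTLin 2 hℓ hℓN f) = heckeTHom N hℓ hℓN ℂ (periodMap N f) :=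
  eq_heckeTHom_of_isTransfer hℓ hℓN (isTransfer_periodMap_heckeT hℓ hℓN f)

/-- **`periodHomPair` equivariance for `T_ℓ`.** -/
theorem periodHomPair_heckeTLin [NeZero N] (f g : CuspForm (Gamma0 N) 2) :
    periodHomPair N (CuspForm.heckeTLin 2 hℓ hℓN f, CuspForm.heckeTLin 2 hℓ hℓN g)
      = heckeTHom N hℓ hℓN ℂ (periodHomPair N (f, g)) :=
  eq_heckeTHom_of_isTransfer hℓ hℓN (isTransfer_periodHomPair_heckeT hℓ hℓN f g)

end T

section U

variable [NeZero N] {p : ℕ} (hpN : p ∣ N)

theorem uSys_α_eq : (uSys N hpN).α = uFam p := rfl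

variable {A : Type*} [AddCommGroup A]

/-- `heckeUHom φ` is a transfer of `φ` along `uFam p`. -/
theorem isTransfer_heckeUHom (φ : Additive (Gamma0 N) →+ A) :
    IsTransfer (Gamma0 N) (uFam p) φ (heckeUHom N hpN A φ) :=
  isTransfer_op (uSys N hpN) φ

/-- Any transfer of `φ` along `uFam p` is `heckeUHom φ`. -/
theorem eq_heckeUHom_of_isTransfer {φ ψ : Additive (Gamma0 N) →+ A}
    (h : IsTransfer (Gamma0 N) (uFam p) φ ψ) : ψ = heckeUHom N hpN A φ :=
  eq_op_of_isTransfer (uSys N hpN) h

/-- `heckeUHom` commutes with `charInvolution`. -/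
theorem charInvolution_heckeUHom (R : Type*) [Semiring R] [Module R A]
    (φ : Additive (Gamma0 N) →+ A) :
    charInvolution N R A (heckeUHom N hpN A φ)
      = heckeUHom N hpN A (charInvolution N R A φ) := by
  have : NeZero p := ⟨(pos_of_dvd_level N hpN).ne'⟩
  exact eq_heckeUHom_of_isTransfer hpN
    (isTransfer_charInvolution_uFam R (isTransfer_heckeUHom hpN φ))

/-- **Period equivariance for `U_p`.** -/
theorem periodMap_heckeULin (f : CuspForm (Gamma0 N) 2) :
    periodMap N (CuspForm.heckeULin 2 hpN f) = heckeUHom N hpN ℂ (periodMap N f) :=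
  eq_heckeUHom_of_isTransfer hpN
    (isTransfer_periodMap_heckeU (pos_of_dvd_level N hpN).ne' hpN f)

/-- **`periodHomPair` equivariance for `U_p`.** -/
theorem periodHomPair_heckeULin (f g : CuspForm (Gamma0 N) 2) :
    periodHomPair N (CuspForm.heckeULin 2 hpN f, CuspForm.heckeULin 2 hpN g)
      = heckeUHom N hpN ℂ (periodHomPair N (f, g)) :=
  eq_heckeUHom_of_isTransfer hpN
    (isTransfer_periodHomPair_heckeU (pos_of_dvd_level N hpN).ne' hpN f g)

end U

end Fermat.Agent.S16.EquivAdapter95
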