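import Mathlib
import Fermat.Agent.S16.SturmMod32

/-!
# The `ℓ = p` finish by Frobenius (helper44's trick)

* `PowerSeries` Frobenius: `f ^ p ≡ f(X^p) mod p` for `f ∈ ℤ⟦X⟧`.
* No level-one modular form of weight `2p` (`p ≥ 5` prime) with coefficients in a subring
  `O ⊆ ℂ` in which `p` is not a unit is congruent to a constant `c` (a unit mod `p`) modulo `p O`:
  `Φ = F² - c² E₄^p` (resp. `F³ - c³ E₆^p` when `p = 5`) has weight `4p` (resp. `6p`), its
  coefficients of index `< p` lie in `p O`, the coefficient of index `p` does not, and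
  `p > 4p/12` (resp. `6p/12`) contradicts the level-one Sturm bound modulo `p`.
-/

set_option autoImplicit false

open UpperHalfPlane ModularForm ModularFormClass MatrixGroups EisensteinSeries

namespace Fermat.Agent.S16.FrobFinish32

/-! ### Frobenius on power series -/

section Frobenius

open PowerSeries

variable (p : ℕ) [hp : Fact p.Prime]

/-- Over `ZMod p`, the `p`-th power of a power series is its expansion `f(X^p)`. -/
theorem zmod_pow_eq_expand (g : PowerSeries (ZMod p)) :
    g ^ p = PowerSeries.expand p hp.out.ne_zero g := by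
  ext n
  have h1 : coeff n (g ^ p) =
      coeff n ((((trunc (n + 1) g : Polynomial (ZMod p)) ^ p : Polynomial (ZMod p)) :
        PowerSeries (ZMod p))) := by
    rw [← coeff_coe_trunc_of_lt (Nat.lt_succ_self n) (f := g ^ p), ← trunc_trunc_pow,
      coeff_coe_trunc_of_lt (Nat.lt_succ_self n), Polynomial.coe_pow]
  rw [h1, Polynomial.coeff_coe, ← ZMod.expand_card, Polynomial.coeff_expand hp.out.pos,
    PowerSeries.coeff_expand]
  split_ifs with h
  · rw [coeff_trunc, if_pos]
    exact lt_of_le_of_lt (Nat.div_le_self n p) (Nat.lt_succ_self n)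
  · rfl

/-- **Frobenius for integral power series**: `f ^ p ≡ f(X^p) mod p`, coefficientwise. -/
theorem int_dvd_coeff_pow_sub_expand (f : PowerSeries ℤ) (n : ℕ) :
    (p : ℤ) ∣ coeff n (f ^ p) - coeff n (PowerSeries.expand p hp.out.ne_zero f) := by
  rw [← ZMod.intCast_zmod_eq_zero_iff_dvd]
  have h := congrArg (coeff n) (zmod_pow_eq_expand p (f.map (Int.castRingHom (ZMod p))))
  rw [← map_pow, ← PowerSeries.map_expand, coeff_map, coeff_map] at h
  push_cast
  rw [sub_eq_zero]
  exact h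

end Frobenius

/-! ### The generic contradiction -/

section Core

open Fermat.Agent.S16.SturmMod32

variable {p : ℕ} [hp : Fact p.Prime]

/-- An integer prime to `p` is a unit in any ring in which `p = 0`. -/
lemma isUnit_intCast_of_not_dvd {R : Type*} [CommRing R] (hpR : ((p : ℕ) : R) = 0) {c : ℤ}
    (hc : ¬ (p : ℤ) ∣ c) : IsUnit ((c : ℤ) : R) := by
  have hcop : IsCoprime c (p : ℤ) :=
    ((Nat.prime_iff_prime_int.mp hp.out).coprime_iff_not_dvd.mpr hc).symm
  obtain ⟨x, y, hxy⟩ := hcop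
  have h1 : ((x : ℤ) : R) * ((c : ℤ) : R) = 1 := by
    have := congrArg (Int.cast (R := R)) hxy
    push_cast at this
    rw [hpR, mul_zero, add_zero] at this
    exact this
  exact .of_mul_eq_one_right _ h1

/-- **Generic Frobenius finish.**  Let `E` be a level-one form of weight `w₀` with integral
`q`-expansion `e = 1 + u q + ⋯`, `p ∤ u`.  Let `F` be a level-one form of weight `k` with
`a k = p w₀` and `a k / 12 < p`.  If the coefficients of `F` lie in a subring `O ⊆ ℂ` and
`F ≡ c` modulo a proper ideal `m ∋ p` of `O`, with `c` an integer prime to `p`: contradiction. -/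
theorem false_of_frobenius {k w0 : ℤ} (E : ModularForm 𝒮ℒ w0) (e : PowerSeries ℤ)
    (hE : qExpansion 1 E = e.map (Int.castRingHom ℂ)) (he0 : PowerSeries.coeff 0 e = 1)
    (he1 : ¬ (p : ℤ) ∣ PowerSeries.coeff 1 e)
    (a : ℕ) (haw : (p : ℤ) * w0 = (a : ℤ) * k) (hst : ((a : ℤ) * k).toNat / 12 < p)
    (F : ModularForm 𝒮ℒ k) (O : Subring ℂ) (m : Ideal O) (hm : m ≠ ⊤)
    (hpm : ((p : ℕ) : O) ∈ m)
    (hO : ∀ n, (qExpansion 1 F).coeff n ∈ O)
    (hn : ∀ n, 1 ≤ n → (⟨_, hO n⟩ : O) ∈ m)
    (c : ℤ) (hc : ¬ (p : ℤ) ∣ c) (h0 : (⟨_, hO 0⟩ : O) - ((c : ℤ) : O) ∈ m) : False := by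
  classical
  -- the quotient ring
  set π : O →+* O ⧸ m := Ideal.Quotient.mk m with hπ
  have hpR : ((p : ℕ) : O ⧸ m) = 0 := by
    have : π ((p : ℕ) : O) = 0 := Ideal.Quotient.eq_zero_iff_mem.mpr hpm
    simpa using this
  have hR : Nontrivial (O ⧸ m) := Ideal.Quotient.nontrivial_iff.mpr hm
  -- integral models of the `q`-expansions
  set fO : PowerSeries O := PowerSeries.mk (fun n => (⟨_, hO n⟩ : O)) with hfO
  have hfC : qExpansion 1 F = fO.map O.subtype := by
    ext n; simp [hfO]
  set eO : PowerSeries O := e.map (Int.castRingHom O) with heO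
  have heC : qExpansion 1 E = eO.map O.subtype := by
    rw [hE, heO, ← RingHom.comp_apply, ← PowerSeries.map_comp]
    congr 1
  -- reductions
  have hfπ : fO.map π = PowerSeries.C (π ((c : ℤ) : O)) := by
    ext n
    rw [PowerSeries.coeff_map, hfO, PowerSeries.coeff_mk, PowerSeries.coeff_C]
    split_ifs with h
    · subst h
      exact (Ideal.Quotient.eq).mpr h0
    · exact Ideal.Quotient.eq_zero_iff_mem.mpr (hn n (Nat.one_le_iff_ne_zero.mpr h))
  have heπ : ∀ n, PowerSeries.coeff n ((eO.map π) ^ p) =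
      ((PowerSeries.coeff n (PowerSeries.expand p hp.out.ne_zero e) : ℤ) : O ⧸ m) := by
    intro n
    have h1 : (eO.map π) ^ p = (e ^ p).map (Int.castRingHom (O ⧸ m)) := by
      rw [heO, ← RingHom.comp_apply, ← PowerSeries.map_comp, ← map_pow]
      congr 1
    rw [h1, PowerSeries.coeff_map]
    obtain ⟨t, ht⟩ := int_dvd_coeff_pow_sub_expand p e n
    have h2 : PowerSeries.coeff n (e ^ p) =
        PowerSeries.coeff n (PowerSeries.expand p hp.out.ne_zero e) + (p : ℤ) * t := by
      rw [← ht]; ring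
    rw [h2]
    simp only [eq_intCast, Int.cast_add, Int.cast_mul, Int.cast_natCast, hpR, zero_mul, add_zero]
  -- the auxiliary form
  set Φ : ModularForm 𝒮ℒ ((a : ℤ) * k) :=
    F.pow a - ((c : ℂ) ^ a) • ModularForm.mcast haw (E.pow p) with hΦ
  set ΦO : PowerSeries O := fO ^ a - PowerSeries.C (((c : ℤ) : O) ^ a) * eO ^ p with hΦO
  have hΦC : qExpansion 1 Φ = ΦO.map O.subtype := by
    have h1 : qExpansion 1 Φ = qExpansion 1 F ^ a - ((c : ℂ) ^ a) • qExpansion 1 E ^ p := by
      rw [hΦ, FunLike.coe_sub, ModularForm.qExpansion_sub one_pos one_mem_strictPeriods_SL,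
        FunLike.coe_smul, ModularForm.qExpansion_smul one_pos one_mem_strictPeriods_SL,
        ModularForm.qExpansion_mcast,
        ModularForm.qExpansion_pow one_pos one_mem_strictPeriods_SL,
        ModularForm.qExpansion_pow one_pos one_mem_strictPeriods_SL]
    have h2 : ΦO.map O.subtype =
        (fO.map O.subtype) ^ a - PowerSeries.C ((c : ℂ) ^ a) * (eO.map O.subtype) ^ p := by
      rw [hΦO, map_sub, map_mul, PowerSeries.map_C, map_pow (PowerSeries.map O.subtype) fO,
        map_pow (PowerSeries.map O.subtype) eO]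
      simp
    rw [h1, h2, hfC, heC, PowerSeries.smul_eq_C_mul]
  have hΦπ : ∀ n, PowerSeries.coeff n (ΦO.map π) =
      (if n = 0 then (π ((c : ℤ) : O)) ^ a else 0) -
        (π ((c : ℤ) : O)) ^ a *
          ((PowerSeries.coeff n (PowerSeries.expand p hp.out.ne_zero e) : ℤ) : O ⧸ m) := by
    intro n
    have h3 : ΦO.map π = PowerSeries.C ((π ((c : ℤ) : O)) ^ a) -
        PowerSeries.C ((π ((c : ℤ) : O)) ^ a) * (eO.map π) ^ p := by
      rw [hΦO, map_sub, map_mul, PowerSeries.map_C, map_pow (PowerSeries.map π) fO,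
        map_pow (PowerSeries.map π) eO, hfπ, map_pow π, map_pow PowerSeries.C]
    rw [h3, map_sub, PowerSeries.coeff_C, PowerSeries.coeff_C_mul, heπ n]
  -- low coefficients vanish modulo `m`
  have hlow : ∀ n < p, PowerSeries.coeff n ΦO ∈ m := by
    intro n hnp
    rw [← Ideal.Quotient.eq_zero_iff_mem, ← hπ, ← PowerSeries.coeff_map, hΦπ n]
    rcases Nat.eq_zero_or_pos n with h | h
    · subst h
      rw [if_pos rfl, PowerSeries.coeff_zero_eq_constantCoeff_apply,
        PowerSeries.constantCoeff_expand, ← PowerSeries.coeff_zero_eq_constantCoeff_apply, he0]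
      simp
    · rw [if_neg h.ne', PowerSeries.coeff_expand_of_not_dvd p hp.out.ne_zero e
        (Nat.not_dvd_of_pos_of_lt h hnp)]
      simp
  -- Sturm modulo `m`
  have hsturm := coeff_mem_ideal O m Φ (fun n hn' => by
    refine ⟨PowerSeries.coeff n ΦO, hlow n (lt_of_le_of_lt hn' hst), ?_⟩
    rw [hΦC, PowerSeries.coeff_map]; rfl) p
  obtain ⟨y, hy, hyeq⟩ := hsturm
  have hpcoef : PowerSeries.coeff p ΦO ∈ m := by
    rw [hΦC, PowerSeries.coeff_map] at hyeq
    have : PowerSeries.coeff p ΦO = y := Subtype.ext hyeq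
    rw [this]; exact hy
  rw [← Ideal.Quotient.eq_zero_iff_mem, ← hπ, ← PowerSeries.coeff_map, hΦπ p,
    if_neg hp.out.ne_zero, zero_sub, neg_eq_zero] at hpcoef
  have hcoefp : PowerSeries.coeff p (PowerSeries.expand p hp.out.ne_zero e) =
      PowerSeries.coeff 1 e := by
    have := PowerSeries.coeff_expand_mul p hp.out.ne_zero e 1
    rwa [mul_one] at this
  rw [hcoefp] at hpcoef
  have hu1 : IsUnit (π ((c : ℤ) : O)) := by
    have := isUnit_intCast_of_not_dvd (p := p) (R := O ⧸ m) hpR hc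
    simpa using this
  have hu2 : IsUnit (((PowerSeries.coeff 1 e : ℤ)) : O ⧸ m) :=
    isUnit_intCast_of_not_dvd (p := p) hpR he1
  exact ((hu1.pow a).mul hu2).ne_zero hpcoef

end Core

/-! ### Instances: `E₄` (for `p ≥ 7`) and `E₆` (for `p = 5`) -/

section Instances

/-- The integral `q`-expansion `1 - 504 ∑ σ₅(n) qⁿ` of `E₆`. -/
def e6 : PowerSeries ℤ :=
  PowerSeries.mk fun n => if n = 0 then 1 else -504 * (ArithmeticFunction.sigma 5 n : ℤ)

theorem qExpansion_E6_eq : qExpansion 1 E₆ = e6.map (Int.castRingHom ℂ) := by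
  ext m
  rw [E_qExpansion_coeff (by norm_num) ⟨3, rfl⟩ m, show bernoulli 6 = 1 / 42 by decide +kernel]
  simp only [PowerSeries.coeff_map, e6, PowerSeries.coeff_mk]
  split_ifs with h
  · simp
  · simp only [eq_intCast]
    push_cast
    ring

lemma coeff_zero_e6 : PowerSeries.coeff 0 e6 = 1 := by simp [e6]

lemma coeff_one_e6 : PowerSeries.coeff 1 e6 = -504 := by
  simp [e6]

lemma coeff_zero_eisenstein4 : PowerSeries.coeff 0 ModularCurve.eisenstein4 = 1 := by
  simp [ModularCurve.eisenstein4]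

lemma coeff_one_eisenstein4 : PowerSeries.coeff 1 ModularCurve.eisenstein4 = 240 := by
  simp [ModularCurve.eisenstein4]

variable (p : ℕ) [hp : Fact p.Prime]

/-- **The `ℓ = p` finish.**  For a prime `p ≥ 5` there is no level-one modular form `F` of weight
`2p` whose `q`-expansion has coefficients in a subring `O ⊆ ℂ` and is congruent to an integer
constant `c` prime to `p` modulo a proper ideal `m ∋ p` of `O`. -/
theorem false_of_weight_two_mul_prime (hp5 : 5 ≤ p) {k : ℤ} (hk : k = 2 * (p : ℤ))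
    (F : ModularForm 𝒮ℒ k) (O : Subring ℂ) (m : Ideal O) (hm : m ≠ ⊤)
    (hpm : ((p : ℕ) : O) ∈ m)
    (hO : ∀ n, (qExpansion 1 F).coeff n ∈ O)
    (hn : ∀ n, 1 ≤ n → (⟨_, hO n⟩ : O) ∈ m)
    (c : ℤ) (hc : ¬ (p : ℤ) ∣ c) (h0 : (⟨_, hO 0⟩ : O) - ((c : ℤ) : O) ∈ m) : False := by
  by_cases h5 : p = 5
  · -- `p = 5`: use `E₆`, `Φ = F³ - c³ E₆⁵`, weight `30`, Sturm bound `2 < 5`
    refine false_of_frobenius (p := p) E₆ e6 qExpansion_E6_eq coeff_zero_e6 ?_ 3 ?_ ?_
      F O m hm hpm hO hn c hc h0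
    · rw [coeff_one_e6, h5]; decide
    · rw [hk]; push_cast; ring
    · subst h5; subst hk; decide
  · -- `p ≥ 7`: use `E₄`, `Φ = F² - c² E₄^p`, weight `4p`, Sturm bound `p/3 < p`
    have hp7 : 7 ≤ p := by
      have := hp.out
      rcases Nat.lt_or_ge p 7 with h | h
      · interval_cases p <;> simp_all (config := {decide := true})
      · exact h
    refine false_of_frobenius (p := p) E₄ ModularCurve.eisenstein4
      Fermat.Agent.S24.JBridge80.qExpansion_E4_eq coeff_zero_eisenstein4 ?_ 2 ?_ ?_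
      F O m hm hpm hO hn c hc h0
    · rw [coeff_one_eisenstein4]
      intro hdvd
      have h1 : p ∣ 240 := by exact_mod_cast hdvd
      have h2 : p ∣ 2 ^ 4 * 3 * 5 := by norm_num; exact h1
      rcases (Nat.Prime.dvd_mul hp.out).mp h2 with h3 | h3
      · rcases (Nat.Prime.dvd_mul hp.out).mp h3 with h4 | h4
        · have := (Nat.prime_dvd_prime_iff_eq hp.out Nat.prime_two).mp
            (hp.out.dvd_of_dvd_pow h4)
          omega
        · have := (Nat.prime_dvd_prime_iff_eq hp.out Nat.prime_three).mp h4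
          omega
      · have := (Nat.prime_dvd_prime_iff_eq hp.out Nat.prime_five).mp h3
        omega
    · rw [hk]; push_cast; ring
    · rw [hk]
      have : ((2 : ℕ) : ℤ) * (2 * (p : ℤ)) = ((4 * p : ℕ) : ℤ) := by push_cast; ring
      rw [this, Int.toNat_natCast]
      omega

/-- The same statement with `m = p O`, in elementwise form: `O` a subring of `ℂ` in which `p` is
not invertible, `a₀(F) ∈ c + p O`, `a_n(F) ∈ p O` for `n ≥ 1`. -/
theorem false_of_weight_two_mul_prime' (hp5 : 5 ≤ p) {k : ℤ} (hk : k = 2 * (p : ℤ))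
    (F : ModularForm 𝒮ℒ k) (O : Subring ℂ) (hpO : ¬ ∃ y ∈ O, (p : ℂ) * y = 1)
    (c : ℤ) (hc : ¬ (p : ℤ) ∣ c)
    (hF0 : ∃ y ∈ O, (qExpansion 1 F).coeff 0 = (c : ℂ) + (p : ℂ) * y)
    (hFn : ∀ n, 1 ≤ n → ∃ y ∈ O, (qExpansion 1 F).coeff n = (p : ℂ) * y) : False := by
  have hpmem : (p : ℂ) ∈ O := natCast_mem O p
  have hO : ∀ n, (qExpansion 1 F).coeff n ∈ O := by
    intro n
    rcases Nat.eq_zero_or_pos n with h | h
    · subst h
      obtain ⟨y, hy, hy'⟩ := hF0
      rw [hy']
      exact O.add_mem (intCast_mem O c) (O.mul_mem hpmem hy)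
    · obtain ⟨y, hy, hy'⟩ := hFn n h
      rw [hy']
      exact O.mul_mem hpmem hy
  set m : Ideal O := Ideal.span {((p : ℕ) : O)} with hm
  refine false_of_weight_two_mul_prime p hp5 hk F O m ?_ (Ideal.subset_span rfl) hO ?_ c hc ?_
  · intro htop
    have h1 : (1 : O) ∈ m := by rw [htop]; exact Submodule.mem_top
    obtain ⟨y, hy⟩ := Ideal.mem_span_singleton'.mp h1
    apply hpO
    refine ⟨(y : ℂ), y.2, ?_⟩
    have := congrArg (Subtype.val) hy
    simpa [mul_comm] using this
  · intro n hn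
    obtain ⟨y, hy, hy'⟩ := hFn n hn
    refine Ideal.mem_span_singleton'.mpr ⟨⟨y, hy⟩, Subtype.ext ?_⟩
    simp [hy', mul_comm]
  · obtain ⟨y, hy, hy'⟩ := hF0
    refine Ideal.mem_span_singleton'.mpr ⟨⟨y, hy⟩, Subtype.ext ?_⟩
    simp [hy', mul_comm]

end Instances

end Fermat.Agent.S16.FrobFinish32
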