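/-
S16 / (L1)-THETA-P (helper25, second seat): n-dimensional Gaussian Poisson summation
(theta inversion) for positive definite real symmetric matrices, by induction on the number of
variables from Mathlib's one-dimensional `Complex.tsum_exp_neg_quadratic`, through Schur
complements.  Mathlib only.
-/
import Mathlib

set_option autoImplicit false

namespace Fermat.Agent.S16.GaussPoisson25

open Complex Real Matrix Finset

noncomputable section

/-- Schur complement with respect to the `(0,0)` entry. -/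
def schur {n : ℕ} (A : Matrix (Fin (n + 1)) (Fin (n + 1)) ℝ) : Matrix (Fin n) (Fin n) ℝ :=
  fun i j => A i.succ j.succ - A i.succ 0 * A 0 j.succ / A 0 0

/-- All successive pivots are positive. -/
def Piv : (n : ℕ) → Matrix (Fin n) (Fin n) ℝ → Prop
  | 0, _ => True
  | (n + 1), A => 0 < A 0 0 ∧ Piv n (schur A)

/-- Product of the successive pivots (equal to the determinant). -/
def pivProd : (n : ℕ) → Matrix (Fin n) (Fin n) ℝ → ℝ
  | 0, _ => 1
  | (n + 1), A => A 0 0 * pivProd n (schur A)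

/-- The quadratic form of a real matrix, evaluated on complex vectors. -/
def qf {n : ℕ} (A : Matrix (Fin n) (Fin n) ℝ) (x : Fin n → ℂ) : ℂ :=
  ∑ i, ∑ j, (A i j : ℂ) * x i * x j

/-- The normalised first row `A 0 j.succ / A 0 0`. -/
def row0 {n : ℕ} (A : Matrix (Fin (n + 1)) (Fin (n + 1)) ℝ) (j : Fin n) : ℝ :=
  A 0 j.succ / A 0 0

/-- The dual quadratic form (equal to the form of the inverse matrix), defined recursively. -/
def qd : (n : ℕ) → Matrix (Fin n) (Fin n) ℝ → (Fin n → ℂ) → ℂ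
  | 0, _, _ => 0
  | (n + 1), A, η =>
      η 0 ^ 2 / (A 0 0 : ℂ) + qd n (schur A) (fun j => η j.succ - η 0 * (row0 A j : ℂ))

lemma schur_isSymm {n : ℕ} {A : Matrix (Fin (n + 1)) (Fin (n + 1)) ℝ} (hA : A.IsSymm) :
    (schur A).IsSymm := by
  ext i j
  simp only [schur, Matrix.transpose_apply]
  rw [hA.apply i.succ j.succ, hA.apply 0 j.succ, ← hA.apply i.succ 0]
  ring

/-- Decomposition of the quadratic form along the first variable. -/
lemma qf_succ {n : ℕ} (A : Matrix (Fin (n + 1)) (Fin (n + 1)) ℝ) (hA : A.IsSymm)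
    (h0 : A 0 0 ≠ 0) (x : Fin (n + 1) → ℂ) :
    qf A x = (A 0 0 : ℂ) * (x 0 + ∑ j, (row0 A j : ℂ) * x j.succ) ^ 2
      + qf (schur A) (fun j => x j.succ) := by
  have hα : (A 0 0 : ℂ) ≠ 0 := by exact_mod_cast h0
  set S : ℂ := ∑ j : Fin n, (A 0 j.succ : ℂ) * x j.succ with hS
  set T : ℂ := ∑ i : Fin n, ∑ j : Fin n, (A i.succ j.succ : ℂ) * x i.succ * x j.succ with hT
  have h1 : ∑ j : Fin n, (row0 A j : ℂ) * x j.succ = S / (A 0 0 : ℂ) := by
    rw [hS, Finset.sum_div]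
    refine Finset.sum_congr rfl fun j _ => ?_
    simp only [row0]; push_cast; ring
  have h2 : ∑ j : Fin n, (A 0 j.succ : ℂ) * x 0 * x j.succ = x 0 * S := by
    rw [hS, Finset.mul_sum]
    refine Finset.sum_congr rfl fun j _ => ?_
    ring
  have h3 : ∑ i : Fin n, (A i.succ 0 : ℂ) * x i.succ * x 0 = x 0 * S := by
    rw [hS, Finset.mul_sum]
    refine Finset.sum_congr rfl fun j _ => ?_
    rw [hA.apply 0 j.succ]
    ring
  have h4 : qf (schur A) (fun j => x j.succ) = T - S * S / (A 0 0 : ℂ) := by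
    rw [hS, hT, Finset.sum_mul_sum, Finset.sum_div, ← Finset.sum_sub_distrib]
    unfold qf
    refine Finset.sum_congr rfl fun i _ => ?_
    rw [Finset.sum_div, ← Finset.sum_sub_distrib]
    refine Finset.sum_congr rfl fun j _ => ?_
    simp only [schur]
    rw [hA.apply 0 i.succ]
    push_cast
    field_simp
  rw [h1, h4]
  unfold qf
  rw [Fin.sum_univ_succ]
  simp only [Fin.sum_univ_succ (fun j => (A _ j : ℂ) * _ * x j)]
  rw [Finset.sum_add_distrib, h2, h3, ← hT]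
  field_simp
  ring


lemma re_quad (A B C : ℂ) (u : ℝ) :
    (-A * (u : ℂ) ^ 2 + B * (u : ℂ) + C).re = -A.re * u ^ 2 + B.re * u + C.re := by
  have h2 : ((u : ℂ) ^ 2) = ((u ^ 2 : ℝ) : ℂ) := by push_cast; ring
  rw [h2]
  simp only [add_re, neg_mul, neg_re, re_mul_ofReal]

lemma unif_one_real (κ : ℝ) (hκ : 0 < κ) (ℓ : ℝ) :
    ∃ M : ℝ, ∀ w : ℝ,
      Summable (fun t : ℤ => rexp (-κ * ((t : ℝ) + w) ^ 2 + ℓ * ((t : ℝ) + w))) ∧
      ∑' t : ℤ, rexp (-κ * ((t : ℝ) + w) ^ 2 + ℓ * ((t : ℝ) + w)) ≤ M := by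
  set S : ℝ := (|ℓ| + 2 * κ) / (2 * π) with hS
  set T : ℝ := κ / π with hT
  have hTpos : 0 < T := div_pos hκ pi_pos
  set g : ℤ → ℝ := fun t => rexp |ℓ| * rexp (-π * (T * (t : ℝ) ^ 2 - 2 * S * |(t : ℝ)|)) with hg
  have hgs : Summable g := by
    have h := summable_pow_mul_jacobiTheta₂_term_bound S hTpos 0
    have h2 : Summable (fun n : ℤ => rexp (-π * (T * (n : ℝ) ^ 2 - 2 * S * |(n : ℝ)|))) := by
      refine h.congr fun n => ?_
      rw [pow_zero, one_mul, Int.cast_abs]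
    exact h2.mul_left _
  have hpt : ∀ r : ℝ, 0 ≤ r → r < 1 → ∀ t : ℤ,
      rexp (-κ * ((t : ℝ) + r) ^ 2 + ℓ * ((t : ℝ) + r)) ≤ g t := by
    intro r hr0 hr1 t
    rw [hg]
    simp only
    rw [← Real.exp_add, Real.exp_le_exp]
    have e1 : -π * (T * (t : ℝ) ^ 2 - 2 * S * |(t : ℝ)|)
        = -κ * (t : ℝ) ^ 2 + (|ℓ| + 2 * κ) * |(t : ℝ)| := by
      rw [hS, hT]; field_simp; ring
    rw [e1]
    have a1 : 0 ≤ |(t : ℝ)| := abs_nonneg _
    have a2 : (t : ℝ) ≤ |(t : ℝ)| := le_abs_self _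
    have a3 : -(t : ℝ) ≤ |(t : ℝ)| := neg_le_abs _
    have a4 : 0 ≤ |ℓ| := abs_nonneg _
    have a5 : ℓ ≤ |ℓ| := le_abs_self _
    have a6 : -ℓ ≤ |ℓ| := neg_le_abs _
    have b1 : ℓ * (t : ℝ) ≤ |ℓ| * |(t : ℝ)| := by
      calc ℓ * (t : ℝ) ≤ |ℓ * (t : ℝ)| := le_abs_self _
        _ = |ℓ| * |(t : ℝ)| := abs_mul _ _
    have b2 : ℓ * r ≤ |ℓ| := by
      calc ℓ * r ≤ |ℓ| * r := mul_le_mul_of_nonneg_right a5 hr0
        _ ≤ |ℓ| * 1 := mul_le_mul_of_nonneg_left hr1.le a4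
        _ = |ℓ| := mul_one _
    have b3 : -(2 * κ * (t : ℝ) * r) ≤ 2 * κ * |(t : ℝ)| := by
      have : -(t : ℝ) * r ≤ |(t : ℝ)| := by
        calc -(t : ℝ) * r ≤ |(t : ℝ)| * r := mul_le_mul_of_nonneg_right a3 hr0
          _ ≤ |(t : ℝ)| * 1 := mul_le_mul_of_nonneg_left hr1.le a1
          _ = |(t : ℝ)| := mul_one _
      nlinarith
    have b4 : 0 ≤ κ * r ^ 2 := by positivity
    nlinarith
  refine ⟨∑' t, g t, fun w => ?_⟩
  set m : ℤ := ⌊w⌋ with hm
  set r : ℝ := Int.fract w with hr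
  have hr0 : 0 ≤ r := Int.fract_nonneg w
  have hr1 : r < 1 := Int.fract_lt_one w
  set fr : ℤ → ℝ := fun t => rexp (-κ * ((t : ℝ) + r) ^ 2 + ℓ * ((t : ℝ) + r)) with hfr
  have hfrs : Summable fr := Summable.of_nonneg_of_le (fun t => (Real.exp_pos _).le)
    (hpt r hr0 hr1) hgs
  have hfrle : ∑' t, fr t ≤ ∑' t, g t := hfrs.tsum_le_tsum (hpt r hr0 hr1) hgs
  have hcomp : (fun t : ℤ => rexp (-κ * ((t : ℝ) + w) ^ 2 + ℓ * ((t : ℝ) + w)))
      = fun t => fr ((Equiv.addRight m) t) := by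
    funext t
    simp only [hfr, Equiv.coe_addRight]
    have : ((t + m : ℤ) : ℝ) + r = (t : ℝ) + w := by
      rw [hm, hr]; push_cast
      have := Int.floor_add_fract w
      linarith
    rw [this]
  rw [hcomp]
  refine ⟨(Equiv.addRight m).summable_iff.mpr hfrs, ?_⟩
  rw [(Equiv.addRight m).tsum_eq fr]
  exact hfrle

lemma unif_one (A B C : ℂ) (hA : 0 < A.re) :
    ∃ M : ℝ, ∀ w : ℝ,
      Summable (fun t : ℤ => ‖cexp (-A * ((t : ℂ) + w) ^ 2 + B * ((t : ℂ) + w) + C)‖) ∧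
      ∑' t : ℤ, ‖cexp (-A * ((t : ℂ) + w) ^ 2 + B * ((t : ℂ) + w) + C)‖ ≤ M := by
  obtain ⟨M, hM⟩ := unif_one_real A.re hA B.re
  refine ⟨rexp C.re * M, fun w => ?_⟩
  have key : ∀ t : ℤ, ‖cexp (-A * ((t : ℂ) + w) ^ 2 + B * ((t : ℂ) + w) + C)‖
      = rexp C.re * rexp (-A.re * ((t : ℝ) + w) ^ 2 + B.re * ((t : ℝ) + w)) := by
    intro t
    have : ((t : ℂ) + (w : ℂ)) = (((t : ℝ) + w : ℝ) : ℂ) := by push_cast; ring
    rw [Complex.norm_exp, this, re_quad, ← Real.exp_add]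
    congr 1; ring
  simp only [key]
  obtain ⟨h1, h2⟩ := hM w
  refine ⟨h1.mul_left _, ?_⟩
  rw [tsum_mul_left]
  exact mul_le_mul_of_nonneg_left h2 (Real.exp_pos _).le


lemma fib {X Y : Type*} (f1 : X → ℝ) (f2 : X → Y → ℝ) (h1 : ∀ x, 0 ≤ f1 x)
    (h2 : ∀ x y, 0 ≤ f2 x y) (M1 M2 : ℝ) (hs1 : Summable f1) (hM1 : ∑' x, f1 x ≤ M1)
    (hs2 : ∀ x, Summable (f2 x) ∧ ∑' y, f2 x y ≤ M2) (hM2 : 0 ≤ M2) :
    Summable (fun p : X × Y => f1 p.1 * f2 p.1 p.2) ∧
      ∑' p : X × Y, f1 p.1 * f2 p.1 p.2 ≤ M1 * M2 := by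
  have hF : (0 : X × Y → ℝ) ≤ fun p : X × Y => f1 p.1 * f2 p.1 p.2 :=
    fun p => mul_nonneg (h1 _) (h2 _ _)
  have hinner : ∀ x, ∑' y, f1 x * f2 x y ≤ f1 x * M2 := by
    intro x
    rw [tsum_mul_left]
    exact mul_le_mul_of_nonneg_left (hs2 x).2 (h1 x)
  have hsum : Summable (fun p : X × Y => f1 p.1 * f2 p.1 p.2) := by
    rw [summable_prod_of_nonneg hF]
    constructor
    · intro x
      show Summable fun y => f1 x * f2 x y
      exact (hs2 x).1.mul_left _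
    · have : Summable (fun x => f1 x * M2) := hs1.mul_right M2
      show Summable fun x => ∑' y, f1 x * f2 x y
      exact Summable.of_nonneg_of_le
        (fun x => tsum_nonneg fun y => mul_nonneg (h1 _) (h2 _ _)) hinner this
  refine ⟨hsum, ?_⟩
  rw [hsum.tsum_prod]
  have hprod : Summable fun x => ∑' y, f1 x * f2 x y := hsum.prod
  show ∑' x, ∑' y, f1 x * f2 x y ≤ M1 * M2
  calc ∑' x, ∑' y, f1 x * f2 x y ≤ ∑' x, f1 x * M2 :=
        hprod.tsum_le_tsum hinner (hs1.mul_right M2)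
    _ = (∑' x, f1 x) * M2 := tsum_mul_right
    _ ≤ M1 * M2 := mul_le_mul_of_nonneg_right hM1 hM2

lemma fib' {X Y : Type*} (f1 : Y → ℝ) (f2 : Y → X → ℝ) (h1 : ∀ y, 0 ≤ f1 y)
    (h2 : ∀ y x, 0 ≤ f2 y x) (M1 M2 : ℝ) (hs1 : Summable f1) (hM1 : ∑' y, f1 y ≤ M1)
    (hs2 : ∀ y, Summable (f2 y) ∧ ∑' x, f2 y x ≤ M2) (hM2 : 0 ≤ M2) :
    Summable (fun p : X × Y => f1 p.2 * f2 p.2 p.1) ∧
      ∑' p : X × Y, f1 p.2 * f2 p.2 p.1 ≤ M1 * M2 := by
  obtain ⟨hs, hle⟩ := fib f1 f2 h1 h2 M1 M2 hs1 hM1 hs2 hM2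
  have e : (fun p : X × Y => f1 p.2 * f2 p.2 p.1)
      = (fun q : Y × X => f1 q.1 * f2 q.1 q.2) ∘ (Equiv.prodComm X Y) := by
    funext p; rfl
  refine ⟨?_, ?_⟩
  · rw [e]; exact (Equiv.prodComm X Y).summable_iff.mpr hs
  · rw [e]
    have := (Equiv.prodComm X Y).tsum_eq (fun q : Y × X => f1 q.1 * f2 q.1 q.2)
    simp only [Function.comp_def]
    rw [this]
    exact hle

/-- The primal Gaussian term. -/
def pterm {n : ℕ} (A : Matrix (Fin n) (Fin n) ℝ) (a : ℂ) (b : Fin n → ℂ) (z : Fin n → ℂ) : ℂ :=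
  cexp (-π * a * qf A z + 2 * π * ∑ i, b i * z i)

lemma pterm_succ {n : ℕ} (A : Matrix (Fin (n + 1)) (Fin (n + 1)) ℝ) (hA : A.IsSymm)
    (h0 : A 0 0 ≠ 0) (a : ℂ) (b : Fin (n + 1) → ℂ) (z : Fin (n + 1) → ℂ) :
    pterm A a b z =
      cexp (-(π * a * (A 0 0 : ℂ)) * (z 0 + ∑ j, (row0 A j : ℂ) * z j.succ) ^ 2
        + (2 * π * b 0) * (z 0 + ∑ j, (row0 A j : ℂ) * z j.succ) + 0) *
      pterm (schur A) a (fun j => b j.succ - b 0 * (row0 A j : ℂ)) (fun j => z j.succ) := by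
  unfold pterm
  rw [← Complex.exp_add, qf_succ A hA h0 z, Fin.sum_univ_succ]
  congr 1
  have : ∑ j : Fin n, (b j.succ - b 0 * (row0 A j : ℂ)) * z j.succ
      = ∑ j : Fin n, b j.succ * z j.succ - b 0 * ∑ j : Fin n, (row0 A j : ℂ) * z j.succ := by
    rw [Finset.mul_sum, ← Finset.sum_sub_distrib]
    refine Finset.sum_congr rfl fun j _ => ?_
    ring
  rw [this]
  ring


/-- An integer vector shifted by a real vector, as a complex vector. -/
def shiftVec {n : ℕ} (x : Fin n → ℤ) (w : Fin n → ℝ) : Fin n → ℂ :=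
  fun i => (x i : ℂ) + (w i : ℂ)

lemma re_pi_mul_mul (a : ℂ) (α : ℝ) : ((π : ℂ) * a * (α : ℂ)).re = π * a.re * α := by
  rw [re_mul_ofReal, re_ofReal_mul]

theorem unif_primal : ∀ (n : ℕ) (A : Matrix (Fin n) (Fin n) ℝ), A.IsSymm → Piv n A →
    ∀ (a : ℂ), 0 < a.re → ∀ b : Fin n → ℂ, ∃ M : ℝ, ∀ w : Fin n → ℝ,
      Summable (fun x : Fin n → ℤ => ‖pterm A a b (shiftVec x w)‖) ∧
      ∑' x : Fin n → ℤ, ‖pterm A a b (shiftVec x w)‖ ≤ M := by
  intro n
  induction n with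
  | zero =>
    intro A _ _ a _ b
    refine ⟨1, fun w => ?_⟩
    have h : ∀ x : Fin 0 → ℤ, ‖pterm A a b (shiftVec x w)‖ = 1 := by
      intro x; simp [pterm, qf]
    simp only [h]
    refine ⟨(hasSum_fintype _).summable, ?_⟩
    rw [tsum_fintype]; simp
  | succ n ih =>
    intro A hA hP a ha b
    obtain ⟨hα, hP'⟩ := hP
    obtain ⟨M', hM'⟩ := ih (schur A) (schur_isSymm hA) hP' a ha
      (fun j => b j.succ - b 0 * (row0 A j : ℂ))
    have hre : 0 < ((π : ℂ) * a * (A 0 0 : ℂ)).re := by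
      rw [re_pi_mul_mul]; positivity
    obtain ⟨M1, hM1⟩ := unif_one ((π : ℂ) * a * (A 0 0 : ℂ)) (2 * π * b 0) 0 hre
    have hM1nn : 0 ≤ M1 := le_trans (tsum_nonneg fun _ => norm_nonneg _) (hM1 0).2
    refine ⟨M' * M1, fun w => ?_⟩
    set w' : Fin n → ℝ := fun j => w j.succ with hw'
    set σ : (Fin n → ℤ) → ℝ := fun y => w 0 + ∑ j, row0 A j * ((y j : ℝ) + w j.succ) with hσ
    set f1 : (Fin n → ℤ) → ℝ := fun y =>
      ‖pterm (schur A) a (fun j => b j.succ - b 0 * (row0 A j : ℂ)) (shiftVec y w')‖ with hf1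
    set f2 : (Fin n → ℤ) → ℤ → ℝ := fun y t =>
      ‖cexp (-((π : ℂ) * a * (A 0 0 : ℂ)) * ((t : ℂ) + ((σ y : ℝ) : ℂ)) ^ 2
        + (2 * π * b 0) * ((t : ℂ) + ((σ y : ℝ) : ℂ)) + 0)‖ with hf2
    have key : ∀ (t : ℤ) (y : Fin n → ℤ),
        ‖pterm A a b (shiftVec (Fin.cons t y) w)‖ = f1 y * f2 y t := by
      intro t y
      rw [pterm_succ A hA hα.ne', norm_mul, mul_comm]
      have hu : shiftVec (Fin.cons t y : Fin (n + 1) → ℤ) w 0
          + ∑ j, (row0 A j : ℂ) * shiftVec (Fin.cons t y : Fin (n + 1) → ℤ) w j.succ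
          = (t : ℂ) + ((σ y : ℝ) : ℂ) := by
        simp only [shiftVec, Fin.cons_zero, Fin.cons_succ, hσ]
        push_cast
        ring
      rw [hu]
      rfl
    obtain ⟨hs, hle⟩ := fib' (X := ℤ) f1 f2 (fun _ => norm_nonneg _) (fun _ _ => norm_nonneg _)
      M' M1 (hM' w').1 (hM' w').2 (fun y => hM1 (σ y)) hM1nn
    have e : (fun p : ℤ × (Fin n → ℤ) => f1 p.2 * f2 p.2 p.1)
        = (fun x : Fin (n + 1) → ℤ => ‖pterm A a b (shiftVec x w)‖)
          ∘ (Fin.consEquiv (fun _ => ℤ)) := by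
      funext p
      exact (key p.1 p.2).symm
    rw [e] at hs hle
    refine ⟨(Fin.consEquiv (fun _ => ℤ)).summable_iff.mp hs, ?_⟩
    have := (Fin.consEquiv (fun _ : Fin (n + 1) => ℤ)).tsum_eq
      (fun x : Fin (n + 1) → ℤ => ‖pterm A a b (shiftVec x w)‖)
    simp only [Function.comp_def] at hle
    rw [this] at hle
    exact hle


/-- An integer vector shifted by a real vector and `I` times a complex vector. -/
def dualVec {n : ℕ} (ξ : Fin n → ℤ) (w : Fin n → ℝ) (b : Fin n → ℂ) : Fin n → ℂ :=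
  fun i => (ξ i : ℂ) + (w i : ℂ) + I * b i

/-- The dual Gaussian term. -/
def dterm {n : ℕ} (A : Matrix (Fin n) (Fin n) ℝ) (a : ℂ) (ζ : Fin n → ℂ) : ℂ :=
  cexp (-π / a * qd n A ζ)

lemma dterm_succ {n : ℕ} (A : Matrix (Fin (n + 1)) (Fin (n + 1)) ℝ) (a : ℂ)
    (ζ : Fin (n + 1) → ℂ) :
    dterm A a ζ = cexp (-π / a * (ζ 0 ^ 2 / (A 0 0 : ℂ))) *
      dterm (schur A) a (fun j => ζ j.succ - ζ 0 * (row0 A j : ℂ)) := by
  unfold dterm
  rw [← Complex.exp_add, ← mul_add]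
  rfl

lemma re_pi_div_pos (z : ℂ) (hz : 0 < z.re) : 0 < ((π : ℂ) / z).re := by
  rw [div_eq_mul_inv, re_ofReal_mul, inv_re]
  refine mul_pos pi_pos (div_pos hz <| normSq_pos.mpr ?_)
  rintro rfl
  simp at hz

lemma re_mul_ofReal_pos (a : ℂ) (α : ℝ) (ha : 0 < a.re) (hα : 0 < α) :
    0 < (a * (α : ℂ)).re := by
  rw [re_mul_ofReal]; positivity

theorem unif_dual : ∀ (n : ℕ) (A : Matrix (Fin n) (Fin n) ℝ), Piv n A →
    ∀ (a : ℂ), 0 < a.re → ∀ b : Fin n → ℂ, ∃ M : ℝ, ∀ w : Fin n → ℝ,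
      Summable (fun ξ : Fin n → ℤ => ‖dterm A a (dualVec ξ w b)‖) ∧
      ∑' ξ : Fin n → ℤ, ‖dterm A a (dualVec ξ w b)‖ ≤ M := by
  intro n
  induction n with
  | zero =>
    intro A _ a _ b
    refine ⟨1, fun w => ?_⟩
    have h : ∀ ξ : Fin 0 → ℤ, ‖dterm A a (dualVec ξ w b)‖ = 1 := by
      intro ξ; simp [dterm, qd]
    simp only [h]
    refine ⟨(hasSum_fintype _).summable, ?_⟩
    rw [tsum_fintype]; simp
  | succ n ih =>
    intro A hP a ha b
    obtain ⟨hα, hP'⟩ := hP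
    have hαc : (A 0 0 : ℂ) ≠ 0 := by exact_mod_cast hα.ne'
    have ha0 : a ≠ 0 := by rintro rfl; simp at ha
    obtain ⟨M', hM'⟩ := ih (schur A) hP' a ha (fun j => b j.succ - b 0 * (row0 A j : ℂ))
    have hre : 0 < ((π : ℂ) / (a * (A 0 0 : ℂ))).re :=
      re_pi_div_pos _ (re_mul_ofReal_pos a _ ha hα)
    obtain ⟨M1, hM1⟩ := unif_one ((π : ℂ) / (a * (A 0 0 : ℂ)))
      (-(2 * π * I * b 0) / (a * (A 0 0 : ℂ))) (π * b 0 ^ 2 / (a * (A 0 0 : ℂ))) hre
    have hM'nn : 0 ≤ M' := le_trans (tsum_nonneg fun _ => norm_nonneg _) (hM' 0).2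
    refine ⟨M1 * M', fun w => ?_⟩
    set w'' : ℤ → Fin n → ℝ := fun s j => w j.succ - ((s : ℝ) + w 0) * row0 A j with hw''
    set f1 : ℤ → ℝ := fun s =>
      ‖cexp (-((π : ℂ) / (a * (A 0 0 : ℂ))) * ((s : ℂ) + ((w 0 : ℝ) : ℂ)) ^ 2
        + (-(2 * π * I * b 0) / (a * (A 0 0 : ℂ))) * ((s : ℂ) + ((w 0 : ℝ) : ℂ))
        + π * b 0 ^ 2 / (a * (A 0 0 : ℂ)))‖ with hf1
    set f2 : ℤ → (Fin n → ℤ) → ℝ := fun s η =>
      ‖dterm (schur A) a (dualVec η (w'' s) (fun j => b j.succ - b 0 * (row0 A j : ℂ)))‖ with hf2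
    have key : ∀ (s : ℤ) (η : Fin n → ℤ),
        ‖dterm A a (dualVec (Fin.cons s η) w b)‖ = f1 s * f2 s η := by
      intro s η
      rw [dterm_succ, norm_mul]
      congr 1
      · congr 1
        simp only [dualVec, Fin.cons_zero]
        congr 1
        field_simp
        ring_nf
        rw [I_sq]
        ring
      · congr 2
        funext j
        simp only [dualVec, Fin.cons_zero, Fin.cons_succ, hw'']
        push_cast
        ring
    obtain ⟨hs, hle⟩ := fib (Y := Fin n → ℤ) f1 f2 (fun _ => norm_nonneg _)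
      (fun _ _ => norm_nonneg _) M1 M' (hM1 (w 0)).1 (hM1 (w 0)).2 (fun s => hM' (w'' s)) hM'nn
    have e : (fun p : ℤ × (Fin n → ℤ) => f1 p.1 * f2 p.1 p.2)
        = (fun ξ : Fin (n + 1) → ℤ => ‖dterm A a (dualVec ξ w b)‖)
          ∘ (Fin.consEquiv (fun _ => ℤ)) := by
      funext p
      exact (key p.1 p.2).symm
    rw [e] at hs hle
    refine ⟨(Fin.consEquiv (fun _ => ℤ)).summable_iff.mp hs, ?_⟩
    have := (Fin.consEquiv (fun _ : Fin (n + 1) => ℤ)).tsum_eq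
      (fun ξ : Fin (n + 1) → ℤ => ‖dterm A a (dualVec ξ w b)‖)
    simp only [Function.comp_def] at hle
    rw [this] at hle
    exact hle


/-- An integer vector as a complex vector. -/
def castVec {n : ℕ} (x : Fin n → ℤ) : Fin n → ℂ := fun i => (x i : ℂ)

lemma shiftVec_zero {n : ℕ} (x : Fin n → ℤ) : shiftVec x 0 = castVec x := by
  funext i; simp [shiftVec, castVec]

lemma cpow_half_mul_ofReal (a : ℂ) (ha : a ≠ 0) (α : ℝ) (hα : 0 < α) :
    (a * (α : ℂ)) ^ (1 / 2 : ℂ) = a ^ (1 / 2 : ℂ) * ((Real.sqrt α : ℝ) : ℂ) := by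
  have hαc : (α : ℂ) ≠ 0 := by exact_mod_cast hα.ne'
  rw [cpow_def_of_ne_zero (mul_ne_zero ha hαc), log_mul_ofReal α hα a ha,
    cpow_def_of_ne_zero ha, Real.sqrt_eq_rpow, ofReal_cpow hα.le, cpow_def_of_ne_zero hαc,
    ← Complex.exp_add, ofReal_log hα.le]
  congr 1
  push_cast
  ring

lemma summable_primal {n : ℕ} (A : Matrix (Fin n) (Fin n) ℝ) (hA : A.IsSymm) (hP : Piv n A)
    (a : ℂ) (ha : 0 < a.re) (b : Fin n → ℂ) :
    Summable (fun x : Fin n → ℤ => ‖pterm A a b (castVec x)‖) := by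
  obtain ⟨M, hM⟩ := unif_primal n A hA hP a ha b
  have := (hM 0).1
  simpa only [shiftVec_zero] using this

lemma summable_dual {n : ℕ} (A : Matrix (Fin n) (Fin n) ℝ) (hP : Piv n A)
    (a : ℂ) (ha : 0 < a.re) (b : Fin n → ℂ) :
    Summable (fun ξ : Fin n → ℤ => ‖dterm A a (dualVec ξ 0 b)‖) := by
  obtain ⟨M, hM⟩ := unif_dual n A hP a ha b
  exact (hM 0).1

lemma pterm_add_I {n : ℕ} (A : Matrix (Fin n) (Fin n) ℝ) (a : ℂ) (b : Fin n → ℂ)
    (c : Fin n → ℝ) (s : ℤ) (y : Fin n → ℤ) :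
    pterm A a (fun j => b j + I * (s : ℂ) * (c j : ℂ)) (castVec y)
      = cexp (((2 * π * (s : ℝ) * ∑ j, c j * (y j : ℝ) : ℝ) : ℂ) * I) * pterm A a b (castVec y) := by
  unfold pterm
  rw [← Complex.exp_add]
  congr 1
  have : ∑ i, (b i + I * (s : ℂ) * (c i : ℂ)) * castVec y i
      = ∑ i, b i * castVec y i + I * (s : ℂ) * ∑ i, (c i : ℂ) * castVec y i := by
    rw [Finset.mul_sum, ← Finset.sum_add_distrib]
    refine Finset.sum_congr rfl fun i _ => ?_
    ring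
  rw [this]
  simp only [castVec]
  push_cast
  ring

theorem poisson_piv : ∀ (n : ℕ) (A : Matrix (Fin n) (Fin n) ℝ), A.IsSymm → Piv n A →
    ∀ (a : ℂ), 0 < a.re → ∀ b : Fin n → ℂ,
      ∑' x : Fin n → ℤ, pterm A a b (castVec x) =
        ((1 / a ^ (1 / 2 : ℂ)) ^ n * (1 / ((Real.sqrt (pivProd n A) : ℝ) : ℂ))) *
          ∑' ξ : Fin n → ℤ, dterm A a (dualVec ξ 0 b) := by
  intro n
  induction n with
  | zero =>
    intro A _ _ a _ b
    simp [pterm, dterm, qf, qd, pivProd, tsum_fintype]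
  | succ n ih =>
    intro A hA hP a ha b
    have hPfull : Piv (n + 1) A := hP
    obtain ⟨hα, hP'⟩ := hP
    have ha0 : a ≠ 0 := by rintro rfl; simp at ha
    have hαc : (A 0 0 : ℂ) ≠ 0 := by exact_mod_cast hα.ne'
    have hre' : 0 < (a * (A 0 0 : ℂ)).re := re_mul_ofReal_pos a _ ha hα
    set bt : Fin n → ℂ := fun j => b j.succ - b 0 * (row0 A j : ℂ) with hbt
    set σ : (Fin n → ℤ) → ℂ := fun y => ∑ j, (row0 A j : ℂ) * (y j : ℂ) with hσ
    set G : (Fin n → ℤ) → ℤ → ℂ := fun y s =>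
      cexp (-π / (a * (A 0 0 : ℂ)) * ((s : ℂ) + I * b 0) ^ 2) *
        pterm (schur A) a (fun j => bt j + I * (s : ℂ) * (row0 A j : ℂ)) (castVec y) with hG
    -- Step A: decomposition of the primal term
    have hA1 : ∀ (t : ℤ) (y : Fin n → ℤ), pterm A a b (castVec (Fin.cons t y)) =
        cexp (-π * (a * (A 0 0 : ℂ)) * (t : ℂ) ^ 2
          + 2 * π * (b 0 - a * (A 0 0 : ℂ) * σ y) * (t : ℂ)) *
        (cexp (-π * a * (A 0 0 : ℂ) * (σ y) ^ 2 + 2 * π * b 0 * σ y) *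
          pterm (schur A) a bt (castVec y)) := by
      intro t y
      rw [pterm_succ A hA hα.ne', ← mul_assoc, ← Complex.exp_add]
      congr 1
      congr 1
      simp only [castVec, Fin.cons_zero, Fin.cons_succ, hσ]
      ring
    -- Step B: the inner sum over `t` by one-dimensional Poisson summation
    have hB : ∀ y : Fin n → ℤ, ∑' t : ℤ, pterm A a b (castVec (Fin.cons t y)) =
        1 / (a * (A 0 0 : ℂ)) ^ (1 / 2 : ℂ) * ∑' s : ℤ, G y s := by
      intro y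
      simp only [hA1]
      rw [tsum_mul_right, Complex.tsum_exp_neg_quadratic hre', mul_assoc, ← tsum_mul_right]
      congr 1
      refine tsum_congr fun s => ?_
      rw [hG]
      simp only
      rw [pterm_add_I, ← mul_assoc, ← mul_assoc, ← Complex.exp_add, ← Complex.exp_add]
      congr 2
      simp only [hσ]
      push_cast
      field_simp
      ring_nf
      rw [I_sq]
      ring
    -- Step C: summability of the three families
    have hsumP : Summable (fun p : ℤ × (Fin n → ℤ) => pterm A a b (castVec (Fin.cons p.1 p.2))) := by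
      have h1 : Summable (fun x : Fin (n + 1) → ℤ => pterm A a b (castVec x)) :=
        (summable_primal A hA hPfull a ha b).of_norm
      exact (Fin.consEquiv (fun _ : Fin (n + 1) => ℤ)).summable_iff.mpr h1
    have hsumD : Summable (fun p : ℤ × (Fin n → ℤ) =>
        dterm A a (dualVec (Fin.cons p.1 p.2) 0 b)) := by
      have h1 : Summable (fun ξ : Fin (n + 1) → ℤ => dterm A a (dualVec ξ 0 b)) :=
        (summable_dual A hPfull a ha b).of_norm
      exact (Fin.consEquiv (fun _ : Fin (n + 1) => ℤ)).summable_iff.mpr h1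
    have hsumG : Summable (Function.uncurry G) := by
      have hre : 0 < ((π : ℂ) / (a * (A 0 0 : ℂ))).re := re_pi_div_pos _ hre'
      obtain ⟨M1, hM1⟩ := unif_one ((π : ℂ) / (a * (A 0 0 : ℂ)))
        (-(2 * π * I * b 0) / (a * (A 0 0 : ℂ))) (π * b 0 ^ 2 / (a * (A 0 0 : ℂ))) hre
      have hg : Summable (fun s : ℤ =>
          ‖cexp (-π / (a * (A 0 0 : ℂ)) * ((s : ℂ) + I * b 0) ^ 2)‖) := by
        refine (hM1 0).1.congr fun s => ?_
        congr 2
        push_cast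
        field_simp
        ring_nf
        rw [I_sq]
        ring
      have hh := summable_primal (schur A) (schur_isSymm hA) hP' a ha bt
      have hprod := hh.mul_of_nonneg hg (fun _ => norm_nonneg _) (fun _ => norm_nonneg _)
      refine Summable.of_norm (hprod.congr fun p => ?_)
      obtain ⟨y, s⟩ := p
      simp only [Function.uncurry, hG]
      rw [pterm_add_I, norm_mul, norm_mul, Complex.norm_exp_ofReal_mul_I, one_mul, mul_comm]
    -- Step D: assemble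
    have e1 : ∑' x : Fin (n + 1) → ℤ, pterm A a b (castVec x)
        = ∑' p : ℤ × (Fin n → ℤ), pterm A a b (castVec (Fin.cons p.1 p.2)) :=
      ((Fin.consEquiv (fun _ : Fin (n + 1) => ℤ)).tsum_eq
        (fun x : Fin (n + 1) → ℤ => pterm A a b (castVec x))).symm
    have e2 : ∑' p : ℤ × (Fin n → ℤ), pterm A a b (castVec (Fin.cons p.1 p.2))
        = ∑' y : Fin n → ℤ, ∑' t : ℤ, pterm A a b (castVec (Fin.cons t y)) := by
      rw [hsumP.tsum_prod]
      exact (Summable.tsum_comm (f := fun (t : ℤ) (y : Fin n → ℤ) =>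
        pterm A a b (castVec (Fin.cons t y))) hsumP).symm
    have e3 : ∑' y : Fin n → ℤ, ∑' s : ℤ, G y s = ∑' s : ℤ, ∑' y : Fin n → ℤ, G y s :=
      (Summable.tsum_comm hsumG).symm
    have e4 : ∀ s : ℤ, ∑' y : Fin n → ℤ, G y s =
        ((1 / a ^ (1 / 2 : ℂ)) ^ n * (1 / ((Real.sqrt (pivProd n (schur A)) : ℝ) : ℂ))) *
          ∑' η : Fin n → ℤ, dterm A a (dualVec (Fin.cons s η) 0 b) := by
      intro s
      simp only [hG]
      rw [tsum_mul_left, ih (schur A) (schur_isSymm hA) hP' a ha, ← mul_assoc,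
        mul_comm (cexp _), mul_assoc, ← tsum_mul_left]
      congr 1
      refine tsum_congr fun η => ?_
      rw [dterm_succ]
      congr 1
      · congr 1
        simp only [dualVec, Fin.cons_zero, Pi.zero_apply]
        push_cast
        field_simp
        ring
      · congr 1
        funext j
        simp only [dualVec, Fin.cons_zero, Fin.cons_succ, Pi.zero_apply, hbt]
        push_cast
        ring_nf
        rw [I_sq]
        ring
    have e5 : ∑' s : ℤ, ∑' η : Fin n → ℤ, dterm A a (dualVec (Fin.cons s η) 0 b)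
        = ∑' ξ : Fin (n + 1) → ℤ, dterm A a (dualVec ξ 0 b) := by
      rw [← hsumD.tsum_prod]
      exact (Fin.consEquiv (fun _ : Fin (n + 1) => ℤ)).tsum_eq
        (fun ξ : Fin (n + 1) → ℤ => dterm A a (dualVec ξ 0 b))
    rw [e1, e2]
    simp only [hB]
    rw [tsum_mul_left, e3]
    simp only [e4]
    rw [tsum_mul_left, e5, ← mul_assoc]
    congr 1
    -- constants
    rw [cpow_half_mul_ofReal a ha0 _ hα]
    show _ = (1 / a ^ (1 / 2 : ℂ)) ^ (n + 1)
      * (1 / ((Real.sqrt (A 0 0 * pivProd n (schur A)) : ℝ) : ℂ))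
    rw [Real.sqrt_mul hα.le, pow_succ]
    push_cast
    ring


/-- The real quadratic form of a real matrix. -/
def qfR {n : ℕ} (A : Matrix (Fin n) (Fin n) ℝ) (x : Fin n → ℝ) : ℝ :=
  ∑ i, ∑ j, A i j * x i * x j

lemma qf_ofReal {n : ℕ} (A : Matrix (Fin n) (Fin n) ℝ) (x : Fin n → ℝ) :
    qf A (fun i => (x i : ℂ)) = ((qfR A x : ℝ) : ℂ) := by
  simp only [qf, qfR]
  push_cast
  rfl

lemma qfR_eq_dotProduct {n : ℕ} (A : Matrix (Fin n) (Fin n) ℝ) (x : Fin n → ℝ) :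
    qfR A x = x ⬝ᵥ (A *ᵥ x) := by
  simp only [qfR, dotProduct, Matrix.mulVec, Finset.mul_sum]
  refine Finset.sum_congr rfl fun i _ => Finset.sum_congr rfl fun j _ => ?_
  ring

lemma qfR_succ {n : ℕ} (A : Matrix (Fin (n + 1)) (Fin (n + 1)) ℝ) (hA : A.IsSymm)
    (h0 : A 0 0 ≠ 0) (x : Fin (n + 1) → ℝ) :
    qfR A x = A 0 0 * (x 0 + ∑ j, row0 A j * x j.succ) ^ 2
      + qfR (schur A) (fun j => x j.succ) := by
  have h := qf_succ A hA h0 (fun i => (x i : ℂ))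
  rw [qf_ofReal, qf_ofReal (schur A) (fun j => x j.succ)] at h
  exact_mod_cast h

theorem piv_of_pos : ∀ (n : ℕ) (A : Matrix (Fin n) (Fin n) ℝ), A.IsSymm →
    (∀ x : Fin n → ℝ, x ≠ 0 → 0 < qfR A x) → Piv n A := by
  intro n
  induction n with
  | zero => intro A _ _; trivial
  | succ n ih =>
    intro A hA hpos
    have hα : 0 < A 0 0 := by
      have h := hpos (Pi.single 0 1) (by
        intro h
        have := congrFun h 0
        simp at this)
      have e : qfR A (Pi.single 0 1) = A 0 0 := by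
        simp [qfR, Pi.single_apply, Finset.sum_ite_eq']
      rwa [e] at h
    refine ⟨hα, ih (schur A) (schur_isSymm hA) fun y hy => ?_⟩
    set x : Fin (n + 1) → ℝ := Fin.cons (-∑ j, row0 A j * y j) y with hx
    have hx0 : x ≠ 0 := by
      intro h
      apply hy
      funext j
      have := congrFun h j.succ
      simpa [hx] using this
    have h := hpos x hx0
    rw [qfR_succ A hA hα.ne'] at h
    have e1 : x 0 + ∑ j, row0 A j * x j.succ = 0 := by
      simp [hx]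
    have e2 : (fun j => x j.succ) = y := by
      funext j; simp [hx]
    rw [e1, e2] at h
    simpa using h

theorem det_eq_mul_det_schur {n : ℕ} (A : Matrix (Fin (n + 1)) (Fin (n + 1)) ℝ)
    (h0 : A 0 0 ≠ 0) : A.det = A 0 0 * (schur A).det := by
  set c : Fin (n + 1) → ℝ := Fin.cons 0 (fun i => -(A i.succ 0 / A 0 0)) with hc
  set E : Matrix (Fin (n + 1)) (Fin (n + 1)) ℝ := fun i j => A i j + c i * A 0 j with hE
  have hdet : E.det = A.det :=
    Matrix.det_eq_of_forall_row_eq_smul_add_const c 0 (by simp [hc]) (fun i j => rfl)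
  rw [← hdet, Matrix.det_succ_column_zero, Fin.sum_univ_succ]
  have hz : ∀ i : Fin n, E i.succ 0 = 0 := by
    intro i
    simp only [hE, hc, Fin.cons_succ]
    field_simp
    ring
  have h00 : E 0 0 = A 0 0 := by simp [hE, hc]
  have hsub : E.submatrix (Fin.succAbove 0) Fin.succ = schur A := by
    rw [Fin.succAbove_zero]
    ext i j
    show A i.succ j.succ + c i.succ * A 0 j.succ
      = A i.succ j.succ - A i.succ 0 * A 0 j.succ / A 0 0
    rw [hc, Fin.cons_succ]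
    ring
  rw [Finset.sum_eq_zero (fun i _ => by rw [hz i]; ring), h00, hsub]
  simp

theorem pivProd_eq_det : ∀ (n : ℕ) (A : Matrix (Fin n) (Fin n) ℝ), Piv n A →
    pivProd n A = A.det := by
  intro n
  induction n with
  | zero => intro A _; simp [pivProd]
  | succ n ih =>
    intro A hP
    obtain ⟨hα, hP'⟩ := hP
    rw [det_eq_mul_det_schur A hα.ne', ← ih (schur A) hP']
    rfl


/-- A real matrix as a complex matrix. -/
def cmat {n : ℕ} (A : Matrix (Fin n) (Fin n) ℝ) : Matrix (Fin n) (Fin n) ℂ :=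
  A.map (fun r => (r : ℂ))

lemma cmat_apply {n : ℕ} (A : Matrix (Fin n) (Fin n) ℝ) (i j : Fin n) :
    cmat A i j = (A i j : ℂ) := rfl

lemma cmat_mulVec_apply {n : ℕ} (A : Matrix (Fin n) (Fin n) ℝ) (x : Fin n → ℂ) (i : Fin n) :
    (cmat A *ᵥ x) i = ∑ j, (A i j : ℂ) * x j := by
  simp only [Matrix.mulVec, dotProduct, cmat_apply]

lemma qf_eq_dot {n : ℕ} (A : Matrix (Fin n) (Fin n) ℝ) (x : Fin n → ℂ) :
    qf A x = x ⬝ᵥ (cmat A *ᵥ x) := by
  simp only [qf, dotProduct, cmat_mulVec_apply, Finset.mul_sum]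
  refine Finset.sum_congr rfl fun i _ => Finset.sum_congr rfl fun j _ => ?_
  ring

lemma cmat_mul {n : ℕ} (A B : Matrix (Fin n) (Fin n) ℝ) : cmat (A * B) = cmat A * cmat B := by
  ext i j
  simp only [cmat_apply, Matrix.mul_apply]
  push_cast
  rfl

lemma cmat_one {n : ℕ} : cmat (1 : Matrix (Fin n) (Fin n) ℝ) = 1 := by
  ext i j
  simp only [cmat_apply, Matrix.one_apply]
  split_ifs <;> simp

lemma cmat_isSymm {n : ℕ} {A : Matrix (Fin n) (Fin n) ℝ} (hA : A.IsSymm) : (cmat A).IsSymm := by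
  ext i j
  simp only [Matrix.transpose_apply, cmat_apply, hA.apply i j]

/-- `qd n A (A x) = qf A x`. -/
theorem qd_mulVec : ∀ (n : ℕ) (A : Matrix (Fin n) (Fin n) ℝ), A.IsSymm → Piv n A →
    ∀ x : Fin n → ℂ, qd n A (cmat A *ᵥ x) = qf A x := by
  intro n
  induction n with
  | zero => intro A _ _ x; simp [qd, qf]
  | succ n ih =>
    intro A hA hP x
    obtain ⟨hα, hP'⟩ := hP
    have hαc : (A 0 0 : ℂ) ≠ 0 := by exact_mod_cast hα.ne'
    rw [qf_succ A hA hα.ne' x, ← ih (schur A) (schur_isSymm hA) hP' (fun j => x j.succ)]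
    show (cmat A *ᵥ x) 0 ^ 2 / (A 0 0 : ℂ) + qd n (schur A)
      (fun j => (cmat A *ᵥ x) j.succ - (cmat A *ᵥ x) 0 * (row0 A j : ℂ)) = _
    have h0 : (cmat A *ᵥ x) 0
        = (A 0 0 : ℂ) * (x 0 + ∑ j, (row0 A j : ℂ) * x j.succ) := by
      rw [cmat_mulVec_apply, Fin.sum_univ_succ, mul_add, Finset.mul_sum]
      congr 1
      refine Finset.sum_congr rfl fun j _ => ?_
      simp only [row0]
      push_cast
      field_simp
    have hs : (fun j : Fin n => (cmat A *ᵥ x) j.succ - (cmat A *ᵥ x) 0 * (row0 A j : ℂ))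
        = cmat (schur A) *ᵥ (fun j => x j.succ) := by
      funext i
      rw [h0, cmat_mulVec_apply, cmat_mulVec_apply, Fin.sum_univ_succ]
      have : ∑ j : Fin n, ((schur A i j : ℝ) : ℂ) * x j.succ
          = ∑ j : Fin n, (A i.succ j.succ : ℂ) * x j.succ
            - (A i.succ 0 : ℂ) * ∑ j : Fin n, (row0 A j : ℂ) * x j.succ := by
        rw [Finset.mul_sum, ← Finset.sum_sub_distrib]
        refine Finset.sum_congr rfl fun j _ => ?_
        simp only [schur, row0]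
        push_cast
        ring
      rw [this]
      have hsym : (A 0 i.succ : ℂ) = (A i.succ 0 : ℂ) := by rw [hA.apply 0 i.succ]
      simp only [row0]
      push_cast
      rw [hsym]
      field_simp
      ring
    rw [hs, h0]
    congr 1
    field_simp

/-- The recursive dual form is the quadratic form of the inverse matrix. -/
theorem qd_eq_qf_inv {n : ℕ} (A A' : Matrix (Fin n) (Fin n) ℝ) (hA : A.IsSymm) (hP : Piv n A)
    (hinv : A * A' = 1) (η : Fin n → ℂ) : qd n A η = qf A' η := by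
  have h1 : cmat A * cmat A' = 1 := by rw [← cmat_mul, hinv, cmat_one]
  have h2 : cmat A *ᵥ (cmat A' *ᵥ η) = η := by
    rw [Matrix.mulVec_mulVec, h1, Matrix.one_mulVec]
  conv_lhs => rw [← h2]
  rw [qd_mulVec n A hA hP, qf_eq_dot, h2, qf_eq_dot, dotProduct_comm]


lemma dot_cmat_symm {n : ℕ} {A : Matrix (Fin n) (Fin n) ℝ} (hA : A.IsSymm) (x y : Fin n → ℂ) :
    y ⬝ᵥ (cmat A *ᵥ x) = (cmat A *ᵥ y) ⬝ᵥ x := by
  rw [Matrix.dotProduct_mulVec, ← Matrix.vecMul_transpose, (cmat_isSymm hA).eq]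

lemma qf_add {n : ℕ} {A : Matrix (Fin n) (Fin n) ℝ} (hA : A.IsSymm) (x y : Fin n → ℂ) :
    qf A (x + y) = qf A x + 2 * ((cmat A *ᵥ y) ⬝ᵥ x) + qf A y := by
  rw [qf_eq_dot, qf_eq_dot, qf_eq_dot, Matrix.mulVec_add, add_dotProduct, dotProduct_add,
    dotProduct_add, dot_cmat_symm hA x y, dotProduct_comm x (cmat A *ᵥ y)]
  ring

lemma qf_smul {n : ℕ} (A : Matrix (Fin n) (Fin n) ℝ) (c : ℂ) (x : Fin n → ℂ) :
    qf A (c • x) = c ^ 2 * qf A x := by
  rw [qf_eq_dot, qf_eq_dot, Matrix.mulVec_smul, smul_dotProduct, dotProduct_smul]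
  simp only [smul_eq_mul]
  ring

lemma isSymm_of_mul_eq_one {n : ℕ} {A A' : Matrix (Fin n) (Fin n) ℝ} (hA : A.IsSymm)
    (hinv : A * A' = 1) : A'.IsSymm := by
  have h1 : A'ᵀ * A = 1 := by
    have := congrArg Matrix.transpose hinv
    rwa [Matrix.transpose_mul, hA.eq, Matrix.transpose_one] at this
  show A'ᵀ = A'
  calc A'ᵀ = A'ᵀ * (A * A') := by rw [hinv, Matrix.mul_one]
    _ = (A'ᵀ * A) * A' := by rw [Matrix.mul_assoc]
    _ = A' := by rw [h1, Matrix.one_mul]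

/-- The theta term on the primal side. -/
def thetaL {n : ℕ} (A : Matrix (Fin n) (Fin n) ℝ) (τ : ℂ) (v : Fin n → ℝ) (x : Fin n → ℤ) : ℂ :=
  cexp (π * I * τ * qf A (shiftVec x v))

/-- The theta term on the dual side. -/
def thetaR {n : ℕ} (A' : Matrix (Fin n) (Fin n) ℝ) (τ : ℂ) (v : Fin n → ℝ) (ξ : Fin n → ℤ) : ℂ :=
  cexp (-π * I / τ * qf A' (castVec ξ) + 2 * π * I * ∑ i, (ξ i : ℂ) * (v i : ℂ))

section inversion

variable {n : ℕ} (A A' : Matrix (Fin n) (Fin n) ℝ) (hA : A.IsSymm)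
  (hpos : ∀ x : Fin n → ℝ, x ≠ 0 → 0 < qfR A x) (hinv : A * A' = 1)
  (τ : ℂ) (hτ : 0 < τ.im) (v : Fin n → ℝ)

include hA hinv hτ in
lemma theta_terms :
    (∀ x : Fin n → ℤ, thetaL A τ v x =
      cexp (-π * (-I * τ) * qf A (fun j => (v j : ℂ))) *
        pterm A (-I * τ) (fun i => -(-I * τ) * (cmat A *ᵥ (fun j => (v j : ℂ))) i) (castVec x)) ∧
    (∀ ξ : Fin n → ℤ, qd n A = qf A' →
      dterm A (-I * τ)
        (dualVec ξ 0 (fun i => -(-I * τ) * (cmat A *ᵥ (fun j => (v j : ℂ))) i)) =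
      cexp (π * (-I * τ) * qf A (fun j => (v j : ℂ))) * thetaR A' τ v ξ) := by
  have hτ0 : τ ≠ 0 := by rintro rfl; simp at hτ
  set a : ℂ := -I * τ with ha
  have ha0 : a ≠ 0 := mul_ne_zero (neg_ne_zero.mpr I_ne_zero) hτ0
  set vc : Fin n → ℂ := fun j => (v j : ℂ) with hvc
  set u : Fin n → ℂ := cmat A *ᵥ vc with hu
  have hA' : A'.IsSymm := isSymm_of_mul_eq_one hA hinv
  have hinv' : A' * A = 1 := mul_eq_one_comm.mp hinv
  have hA'u : cmat A' *ᵥ u = vc := by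
    rw [hu, Matrix.mulVec_mulVec, ← cmat_mul, hinv', cmat_one, Matrix.one_mulVec]
  constructor
  · intro x
    have e1 : shiftVec x v = castVec x + vc := by
      funext i; simp [shiftVec, castVec, hvc]
    have e2 : ∑ i, (-a * u i) * castVec x i = -a * (u ⬝ᵥ castVec x) := by
      simp only [dotProduct, Finset.mul_sum]
      refine Finset.sum_congr rfl fun i _ => ?_
      ring
    unfold thetaL pterm
    rw [← Complex.exp_add, e1, qf_add hA, e2]
    congr 1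
    rw [ha]
    ring
  · intro ξ hqd
    have e1 : dualVec ξ 0 (fun i => -a * u i) = castVec ξ + (-(I * a)) • u := by
      funext i
      simp [dualVec, castVec]
      ring
    have e2 : qf A' u = qf A vc := by
      rw [qf_eq_dot, hA'u, qf_eq_dot, dotProduct_comm]
    have e3 : (cmat A' *ᵥ ((-(I * a)) • u)) ⬝ᵥ castVec ξ
        = -(I * a) * ∑ i, (ξ i : ℂ) * (v i : ℂ) := by
      rw [Matrix.mulVec_smul, hA'u, smul_dotProduct, smul_eq_mul]
      congr 1
      simp only [dotProduct, castVec, hvc]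
      refine Finset.sum_congr rfl fun i _ => ?_
      ring
    unfold dterm thetaR
    rw [hqd, e1, qf_add hA', qf_smul, e2, e3, ← Complex.exp_add]
    congr 1
    rw [ha]
    field_simp
    ring_nf
    simp only [I_sq, I_pow_four]
    ring

lemma neg_I_mul_re (τ : ℂ) : (-I * τ).re = τ.im := by
  simp [mul_re]

include hA hpos hinv hτ in
/-- **Theta inversion** (n-dimensional Gaussian Poisson summation), `qf` form. -/
theorem theta_inversion_qf :
    ∑' x : Fin n → ℤ, thetaL A τ v x =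
      ((1 / (-I * τ) ^ (1 / 2 : ℂ)) ^ n * (1 / ((Real.sqrt A.det : ℝ) : ℂ))) *
        ∑' ξ : Fin n → ℤ, thetaR A' τ v ξ := by
  have hP : Piv n A := piv_of_pos n A hA hpos
  have ha : 0 < (-I * τ).re := by rw [neg_I_mul_re]; exact hτ
  have hqd : qd n A = qf A' := funext fun η => qd_eq_qf_inv A A' hA hP hinv η
  obtain ⟨hL, hR⟩ := theta_terms A A' hA hinv τ hτ v
  simp only [hL]
  rw [tsum_mul_left, poisson_piv n A hA hP _ ha, pivProd_eq_det n A hP]
  simp only [fun ξ => hR ξ hqd]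
  rw [tsum_mul_left, ← mul_assoc, ← mul_assoc, mul_comm (cexp _), mul_assoc _ (cexp _) (cexp _),
    ← Complex.exp_add]
  have : -π * (-I * τ) * qf A (fun j => (v j : ℂ)) + π * (-I * τ) * qf A (fun j => (v j : ℂ)) = 0 := by
    ring
  rw [this, Complex.exp_zero, mul_one]

include hA hpos hτ in
theorem summable_thetaL : Summable (fun x : Fin n → ℤ => ‖thetaL A τ v x‖) := by
  have hP : Piv n A := piv_of_pos n A hA hpos
  have ha : 0 < (-I * τ).re := by rw [neg_I_mul_re]; exact hτ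
  obtain ⟨M, hM⟩ := unif_primal n A hA hP (-I * τ) ha 0
  refine (hM v).1.congr fun x => ?_
  unfold thetaL pterm
  congr 2
  simp only [Pi.zero_apply, zero_mul, Finset.sum_const_zero, mul_zero, add_zero]
  ring

include hA hpos hinv hτ in
theorem summable_thetaR : Summable (fun ξ : Fin n → ℤ => ‖thetaR A' τ v ξ‖) := by
  have hP : Piv n A := piv_of_pos n A hA hpos
  have ha : 0 < (-I * τ).re := by rw [neg_I_mul_re]; exact hτ
  have hqd : qd n A = qf A' := funext fun η => qd_eq_qf_inv A A' hA hP hinv η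
  obtain ⟨hL, hR⟩ := theta_terms A A' hA hinv τ hτ v
  have h := summable_dual A hP (-I * τ) ha
    (fun i => -(-I * τ) * (cmat A *ᵥ (fun j => (v j : ℂ))) i)
  simp only [fun ξ => hR ξ hqd, norm_mul] at h
  have hne : ‖cexp (π * (-I * τ) * qf A (fun j => (v j : ℂ)))‖ ≠ 0 :=
    (norm_pos_iff.mpr (Complex.exp_ne_zero _)).ne'
  exact (summable_mul_left_iff hne).mp h

end inversion

lemma shiftVec_eq_ofReal {n : ℕ} (x : Fin n → ℤ) (v : Fin n → ℝ) :
    shiftVec x v = fun i => (((x i : ℝ) + v i : ℝ) : ℂ) := by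
  funext i
  simp only [shiftVec]
  push_cast
  rfl

lemma castVec_eq_ofReal {n : ℕ} (ξ : Fin n → ℤ) :
    castVec ξ = fun i => (((ξ i : ℝ) : ℝ) : ℂ) := by
  funext i
  simp only [castVec]
  push_cast
  rfl

/-- **Theta inversion**, consumer form with real dot products:
for `A` real symmetric positive definite with inverse `A'`, `Im τ > 0`, `v ∈ ℝⁿ`,
`∑_x e^{π i τ (x+v)ᵀ A (x+v)} = (-iτ)^{-n/2} (det A)^{-1/2} ∑_ξ e^{-π i ξᵀ A' ξ / τ + 2 π i ξ·v}`. -/
theorem theta_inversion {n : ℕ} (A A' : Matrix (Fin n) (Fin n) ℝ) (hA : A.IsSymm)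
    (hpos : ∀ x : Fin n → ℝ, x ≠ 0 → 0 < x ⬝ᵥ (A *ᵥ x)) (hinv : A * A' = 1)
    (τ : ℂ) (hτ : 0 < τ.im) (v : Fin n → ℝ) :
    ∑' x : Fin n → ℤ, cexp (π * I * τ *
        (((fun i => (x i : ℝ) + v i) ⬝ᵥ (A *ᵥ (fun i => (x i : ℝ) + v i)) : ℝ) : ℂ)) =
      ((1 / (-I * τ) ^ (1 / 2 : ℂ)) ^ n * (1 / ((Real.sqrt A.det : ℝ) : ℂ))) *
        ∑' ξ : Fin n → ℤ, cexp (-π * I / τ *
          (((fun i => (ξ i : ℝ)) ⬝ᵥ (A' *ᵥ (fun i => (ξ i : ℝ))) : ℝ) : ℂ)
            + 2 * π * I * ((∑ i, (ξ i : ℝ) * v i : ℝ) : ℂ)) := by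
  have hpos' : ∀ x : Fin n → ℝ, x ≠ 0 → 0 < qfR A x := by
    intro x hx; rw [qfR_eq_dotProduct]; exact hpos x hx
  have h := theta_inversion_qf A A' hA hpos' hinv τ hτ v
  have eL : ∀ x : Fin n → ℤ, thetaL A τ v x = cexp (π * I * τ *
        (((fun i => (x i : ℝ) + v i) ⬝ᵥ (A *ᵥ (fun i => (x i : ℝ) + v i)) : ℝ) : ℂ)) := by
    intro x
    unfold thetaL
    rw [shiftVec_eq_ofReal, qf_ofReal, qfR_eq_dotProduct]
  have eR : ∀ ξ : Fin n → ℤ, thetaR A' τ v ξ = cexp (-π * I / τ *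
          (((fun i => (ξ i : ℝ)) ⬝ᵥ (A' *ᵥ (fun i => (ξ i : ℝ))) : ℝ) : ℂ)
            + 2 * π * I * ((∑ i, (ξ i : ℝ) * v i : ℝ) : ℂ)) := by
    intro ξ
    unfold thetaR
    rw [castVec_eq_ofReal, qf_ofReal, qfR_eq_dotProduct]
    push_cast
    rfl
  simpa only [eL, eR] using h

lemma cpow_half_pow_four (z : ℂ) : (z ^ (1 / 2 : ℂ)) ^ 4 = z ^ 2 := by
  have h2 : (z ^ (1 / 2 : ℂ)) ^ 2 = z := by
    have := Complex.cpow_nat_inv_pow z (n := 2) (by norm_num)
    simpa [one_div] using this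
  calc (z ^ (1 / 2 : ℂ)) ^ 4 = ((z ^ (1 / 2 : ℂ)) ^ 2) ^ 2 := by ring
    _ = z ^ 2 := by rw [h2]

/-- The quaternary case: the prefactor is `-1 / (τ² √det A)`. -/
theorem theta_inversion_four (A A' : Matrix (Fin 4) (Fin 4) ℝ) (hA : A.IsSymm)
    (hpos : ∀ x : Fin 4 → ℝ, x ≠ 0 → 0 < x ⬝ᵥ (A *ᵥ x)) (hinv : A * A' = 1)
    (τ : ℂ) (hτ : 0 < τ.im) (v : Fin 4 → ℝ) :
    ∑' x : Fin 4 → ℤ, cexp (π * I * τ *
        (((fun i => (x i : ℝ) + v i) ⬝ᵥ (A *ᵥ (fun i => (x i : ℝ) + v i)) : ℝ) : ℂ)) =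
      (-1 / (τ ^ 2 * ((Real.sqrt A.det : ℝ) : ℂ))) *
        ∑' ξ : Fin 4 → ℤ, cexp (-π * I / τ *
          (((fun i => (ξ i : ℝ)) ⬝ᵥ (A' *ᵥ (fun i => (ξ i : ℝ))) : ℝ) : ℂ)
            + 2 * π * I * ((∑ i, (ξ i : ℝ) * v i : ℝ) : ℂ)) := by
  rw [theta_inversion A A' hA hpos hinv τ hτ v]
  congr 1
  rw [_root_.one_div_pow, cpow_half_pow_four]
  have hτ0 : τ ≠ 0 := by rintro rfl; simp at hτ
  have : (-I * τ) ^ 2 = -τ ^ 2 := by
    rw [mul_pow, neg_sq, I_sq]; ring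
  rw [this]
  field_simp

end

end Fermat.Agent.S16.GaussPoisson25
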