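import Mathlib
import Fermat.Prelude.Def_ModularCurve_PeriodMap
import Fermat.Prelude.Def_ModularForm_HeckeOperator

set_option autoImplicit false

namespace Fermat.Agent.S16.HeckeHom73

open Matrix CongruenceSubgroup
open scoped MatrixGroups

variable {N : ℕ}

/-- The integer matrix underlying an element of `Γ₀(N)`. -/
abbrev toMat (γ : Gamma0 N) : Matrix (Fin 2) (Fin 2) ℤ :=
  ((γ : SL(2, ℤ)) : Matrix (Fin 2) (Fin 2) ℤ)

theorem toMat_mul (γ δ : Gamma0 N) : toMat (γ * δ) = toMat γ * toMat δ := by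
  simp [toMat]

theorem toMat_one : toMat (1 : Gamma0 N) = 1 := by
  simp [toMat]

theorem toMat_det (γ : Gamma0 N) : (toMat γ).det = 1 := (γ : SL(2, ℤ)).2

theorem toMat_injective : Function.Injective (toMat (N := N)) := by
  intro γ δ h
  apply Subtype.ext
  apply Subtype.ext
  exact h

theorem toMat_inv_mul (γ : Gamma0 N) : toMat γ⁻¹ * toMat γ = 1 := by
  rw [← toMat_mul, inv_mul_cancel, toMat_one]

theorem toMat_mul_inv (γ : Gamma0 N) : toMat γ * toMat γ⁻¹ = 1 := by
  rw [← toMat_mul, mul_inv_cancel, toMat_one]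

/-- right cancellation of an integer matrix with non-zero determinant -/
theorem mul_right_cancel_of_det_ne_zero {A M M' : Matrix (Fin 2) (Fin 2) ℤ} (hA : A.det ≠ 0)
    (h : M * A = M' * A) : M = M' := by
  have h2 : M * A * A.adjugate = M' * A * A.adjugate := by rw [h]
  rw [Matrix.mul_assoc, Matrix.mul_assoc, Matrix.mul_adjugate] at h2
  rw [Matrix.mul_smul, Matrix.mul_smul, Matrix.mul_one, Matrix.mul_one] at h2
  ext i j
  have h3 := congrFun (congrFun h2 i) j
  simp only [Matrix.smul_apply, smul_eq_mul] at h3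
  exact mul_left_cancel₀ hA h3

/-- A system of right coset representatives `Γ α_i` (integer matrices of non-zero determinant)
whose union is stable under right multiplication by `Γ = Γ₀(N)`. -/
structure CosetSys (N : ℕ) (I : Type) where
  α : I → Matrix (Fin 2) (Fin 2) ℤ
  det_ne : ∀ i, (α i).det ≠ 0
  exists_rel : ∀ (γ : Gamma0 N) (i : I), ∃ (j : I) (γ' : Gamma0 N),
    α i * toMat γ = toMat γ' * α j
  inj : ∀ (i j : I) (γ' : Gamma0 N), α i = toMat γ' * α j → i = j

namespace CosetSys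

variable {I : Type} (S : CosetSys N I)

/-- the permutation of the index set induced by `γ` -/
noncomputable def σ (γ : Gamma0 N) (i : I) : I := (S.exists_rel γ i).choose

/-- the element `γ_i ∈ Γ` with `α_i γ = γ_i α_{σ i}` -/
noncomputable def g (γ : Gamma0 N) (i : I) : Gamma0 N := (S.exists_rel γ i).choose_spec.choose

theorem rel (γ : Gamma0 N) (i : I) :
    S.α i * toMat γ = toMat (S.g γ i) * S.α (S.σ γ i) :=
  (S.exists_rel γ i).choose_spec.choose_spec

theorem unique {γ γ' : Gamma0 N} {i j : I} (h : S.α i * toMat γ = toMat γ' * S.α j) :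
    j = S.σ γ i ∧ γ' = S.g γ i := by
  have h1 := S.rel γ i
  rw [h] at h1
  -- γ' α_j = g α_σ
  have h2 : S.α j = toMat (γ'⁻¹ * S.g γ i) * S.α (S.σ γ i) := by
    rw [toMat_mul, Matrix.mul_assoc, ← h1, ← Matrix.mul_assoc, toMat_inv_mul, Matrix.one_mul]
  have hj : j = S.σ γ i := S.inj _ _ _ h2
  refine ⟨hj, ?_⟩
  subst hj
  exact toMat_injective (mul_right_cancel_of_det_ne_zero (S.det_ne _) h1)

theorem σ_mul (γ δ : Gamma0 N) (i : I) : S.σ (γ * δ) i = S.σ δ (S.σ γ i) := by
  have h : S.α i * toMat (γ * δ) =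
      toMat (S.g γ i * S.g δ (S.σ γ i)) * S.α (S.σ δ (S.σ γ i)) := by
    rw [toMat_mul, ← Matrix.mul_assoc, S.rel γ i, Matrix.mul_assoc, S.rel δ, ← Matrix.mul_assoc,
      ← toMat_mul]
  exact (S.unique h).1.symm

theorem g_mul (γ δ : Gamma0 N) (i : I) : S.g (γ * δ) i = S.g γ i * S.g δ (S.σ γ i) := by
  have h : S.α i * toMat (γ * δ) =
      toMat (S.g γ i * S.g δ (S.σ γ i)) * S.α (S.σ δ (S.σ γ i)) := by
    rw [toMat_mul, ← Matrix.mul_assoc, S.rel γ i, Matrix.mul_assoc, S.rel δ, ← Matrix.mul_assoc,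
      ← toMat_mul]
  have h' := h
  rw [← S.σ_mul] at h'
  exact (S.unique h').2.symm

theorem σ_one (i : I) : S.σ 1 i = i := by
  have h : S.α i * toMat (1 : Gamma0 N) = toMat (1 : Gamma0 N) * S.α i := by
    rw [toMat_one, Matrix.mul_one, Matrix.one_mul]
  exact (S.unique h).1.symm

theorem g_one (i : I) : S.g 1 i = 1 := by
  have h : S.α i * toMat (1 : Gamma0 N) = toMat (1 : Gamma0 N) * S.α i := by
    rw [toMat_one, Matrix.mul_one, Matrix.one_mul]
  have h' := h
  have := S.σ_one i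
  rw [← this] at h'
  conv at h' => lhs; rw [this]
  exact (S.unique h').2.symm

/-- `σ γ` as a permutation -/
noncomputable def perm (γ : Gamma0 N) : Equiv.Perm I where
  toFun := S.σ γ
  invFun := S.σ γ⁻¹
  left_inv i := by rw [← S.σ_mul, mul_inv_cancel, S.σ_one]
  right_inv i := by rw [← S.σ_mul, inv_mul_cancel, S.σ_one]

@[simp] theorem perm_apply (γ : Gamma0 N) (i : I) : S.perm γ i = S.σ γ i := rfl

end CosetSys

end Fermat.Agent.S16.HeckeHom73
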