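import Mathlib
import Fermat.Prelude.Def_ModularCurve_PeriodMap
import Fermat.Prelude.Def_ModularForm_HeckeOperator
import Fermat.Agent.S16.HeckeHom73A

set_option autoImplicit false

namespace Fermat.Agent.S16.HeckeHom73

open Matrix CongruenceSubgroup
open scoped MatrixGroups

variable {N : ℕ} {I : Type} [Fintype I] (S : CosetSys N I)
variable {A : Type*} [AddCommGroup A]

namespace CosetSys

/-- The Hecke operator attached to a coset system, on `Hom(Γ₀(N), A)`. -/
noncomputable def heckeHom (φ : Additive (Gamma0 N) →+ A) : Additive (Gamma0 N) →+ A where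
  toFun x := ∑ i, φ (Additive.ofMul (S.g (Additive.toMul x) i))
  map_zero' := by
    show ∑ i, φ (Additive.ofMul (S.g 1 i)) = 0
    simp [S.g_one]
  map_add' x y := by
    show ∑ i, φ (Additive.ofMul (S.g (Additive.toMul x * Additive.toMul y) i)) = _
    simp only [S.g_mul, ofMul_mul, map_add, Finset.sum_add_distrib]
    congr 1
    exact Equiv.sum_comp (S.perm (Additive.toMul x))
      (fun j => φ (Additive.ofMul (S.g (Additive.toMul y) j)))

theorem heckeHom_apply (φ : Additive (Gamma0 N) →+ A) (γ : Gamma0 N) :
    S.heckeHom φ (Additive.ofMul γ) = ∑ i, φ (Additive.ofMul (S.g γ i)) := rfl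

/-- The Hecke operator as an additive endomorphism of `Hom(Γ₀(N), A)`. -/
noncomputable def hecke : (Additive (Gamma0 N) →+ A) →+ (Additive (Gamma0 N) →+ A) where
  toFun := S.heckeHom
  map_zero' := by
    ext x; simp [heckeHom]
  map_add' φ ψ := by
    ext x
    simp [heckeHom, Finset.sum_add_distrib]

@[simp] theorem hecke_apply (φ : Additive (Gamma0 N) →+ A) (γ : Gamma0 N) :
    S.hecke φ (Additive.ofMul γ) = ∑ i, φ (Additive.ofMul (S.g γ i)) := rfl

/-- naturality in the coefficient group -/
theorem hecke_comp {B : Type*} [AddCommGroup B] (f : A →+ B) (φ : Additive (Gamma0 N) →+ A) :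
    S.hecke (f.comp φ) = f.comp (S.hecke φ) := by
  ext x
  obtain ⟨γ, rfl⟩ := Additive.ofMul.surjective x
  simp [hecke_apply]

/-- `R`-linearity -/
theorem hecke_smul {R : Type*} [Semiring R] [Module R A] (c : R)
    (φ : Additive (Gamma0 N) →+ A) : S.hecke (c • φ) = c • S.hecke φ := by
  ext x
  obtain ⟨γ, rfl⟩ := Additive.ofMul.surjective x
  simp [hecke_apply, Finset.smul_sum]

/-- The Hecke operator as an `R`-linear endomorphism. -/
noncomputable def heckeLin (R : Type*) [Semiring R] [Module R A] :
    (Additive (Gamma0 N) →+ A) →ₗ[R] (Additive (Gamma0 N) →+ A) where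
  toFun := S.hecke
  map_add' := map_add _
  map_smul' c φ := S.hecke_smul c φ

@[simp] theorem heckeLin_apply (R : Type*) [Semiring R] [Module R A]
    (φ : Additive (Gamma0 N) →+ A) : S.heckeLin R φ = S.hecke φ := rfl

end CosetSys

end Fermat.Agent.S16.HeckeHom73
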