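import Mathlib
import Fermat.Agent.S16.HeckeHom73A

set_option autoImplicit false

namespace Fermat.Agent.S16.HeckeHom73

open Matrix CongruenceSubgroup
open scoped MatrixGroups

variable {N : ℕ}

/-- integer Hecke matrix `[[1, j], [0, ℓ]]` -/
def matU (ℓ : ℕ) (j : ℤ) : Matrix (Fin 2) (Fin 2) ℤ := !![1, j; 0, (ℓ : ℤ)]

/-- integer Hecke matrix `[[ℓ, 0], [0, 1]]` -/
def matD (ℓ : ℕ) : Matrix (Fin 2) (Fin 2) ℤ := !![(ℓ : ℤ), 0; 0, 1]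

@[simp] theorem det_matU (ℓ : ℕ) (j : ℤ) : (matU ℓ j).det = ℓ := by
  simp [matU, Matrix.det_fin_two_of]

@[simp] theorem det_matD (ℓ : ℕ) : (matD ℓ).det = ℓ := by
  simp [matD, Matrix.det_fin_two_of]

/-- build an element of `Γ₀(N)` from entries -/
def mkGamma0 (a b c d : ℤ) (hdet : a * d - b * c = 1) (hc : (N : ℤ) ∣ c) : Gamma0 N :=
  ⟨⟨!![a, b; c, d], by rw [Matrix.det_fin_two_of]; exact hdet⟩, by
    rw [Gamma0_mem]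
    show (((!![a, b; c, d] : Matrix (Fin 2) (Fin 2) ℤ) 1 0 : ℤ) : ZMod N) = 0
    simp only [Matrix.of_apply, Matrix.cons_val', Matrix.cons_val_zero, Matrix.cons_val_one,
      Matrix.cons_val_fin_one]
    exact (ZMod.intCast_zmod_eq_zero_iff_dvd c N).mpr hc⟩

theorem toMat_mkGamma0 (a b c d : ℤ) (hdet : a * d - b * c = 1) (hc : (N : ℤ) ∣ c) :
    toMat (mkGamma0 (N := N) a b c d hdet hc) = !![a, b; c, d] := rfl

theorem dvd_of_mem_Gamma0 (γ : Gamma0 N) : (N : ℤ) ∣ toMat γ 1 0 := by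
  have h := γ.2
  rw [Gamma0_mem] at h
  exact (ZMod.intCast_zmod_eq_zero_iff_dvd _ N).mp h

/-- Reduction lemma, case (b): first column not `≡ 0 mod ℓ`. -/
theorem exists_eq_mul_matU {ℓ : ℕ} [hℓ : Fact ℓ.Prime] (M : Matrix (Fin 2) (Fin 2) ℤ)
    (hdet : M.det = ℓ) (hN : (N : ℤ) ∣ M 1 0)
    (h0 : ¬ ((ℓ : ℤ) ∣ M 0 0 ∧ (ℓ : ℤ) ∣ M 1 0)) :
    ∃ (j : Fin ℓ) (γ' : Gamma0 N), M = toMat γ' * matU ℓ (j : ℕ) := by
  rw [Matrix.det_fin_two] at hdet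
  -- find t in ZMod ℓ with second column = t * first column
  have hdetℓ : ((M 0 0 : ℤ) : ZMod ℓ) * (M 1 1 : ℤ) - (M 0 1 : ℤ) * (M 1 0 : ℤ) = 0 := by
    have := congrArg (fun x : ℤ => (x : ZMod ℓ)) hdet
    simpa using this
  have hx : ((M 0 0 : ℤ) : ZMod ℓ) ≠ 0 ∨ ((M 1 0 : ℤ) : ZMod ℓ) ≠ 0 := by
    by_contra hcon
    push Not at hcon
    exact h0 ⟨(ZMod.intCast_zmod_eq_zero_iff_dvd _ ℓ).mp hcon.1,
      (ZMod.intCast_zmod_eq_zero_iff_dvd _ ℓ).mp hcon.2⟩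
  obtain ⟨t, ht0, ht1⟩ : ∃ t : ZMod ℓ, ((M 0 1 : ℤ) : ZMod ℓ) = t * (M 0 0 : ℤ) ∧
      ((M 1 1 : ℤ) : ZMod ℓ) = t * (M 1 0 : ℤ) := by
    rcases hx with hx | hx
    · refine ⟨(M 0 1 : ℤ) / (M 0 0 : ℤ), by field_simp, ?_⟩
      field_simp
      linear_combination hdetℓ
    · refine ⟨(M 1 1 : ℤ) / (M 1 0 : ℤ), ?_, by field_simp⟩
      field_simp
      linear_combination -hdetℓ
  have : NeZero ℓ := ⟨hℓ.out.ne_zero⟩
  -- j := t.val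
  obtain ⟨jz, hjz⟩ : ∃ jz : ℤ, jz = (t.val : ℤ) := ⟨_, rfl⟩
  have hj0 : (ℓ : ℤ) ∣ M 0 1 - (t.val : ℤ) * M 0 0 := by
    rw [← ZMod.intCast_zmod_eq_zero_iff_dvd]
    push_cast
    rw [ZMod.natCast_zmod_val, ht0]; ring
  have hj1 : (ℓ : ℤ) ∣ M 1 1 - (t.val : ℤ) * M 1 0 := by
    rw [← ZMod.intCast_zmod_eq_zero_iff_dvd]
    push_cast
    rw [ZMod.natCast_zmod_val, ht1]; ring
  rw [← hjz] at hj0 hj1
  obtain ⟨u, hu⟩ := hj0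
  obtain ⟨v, hv⟩ := hj1
  have hℓ0 : (ℓ : ℤ) ≠ 0 := by exact_mod_cast hℓ.out.ne_zero
  have hdet' : M 0 0 * v - u * M 1 0 = 1 := by
    have : (ℓ : ℤ) * (M 0 0 * v - u * M 1 0) = ℓ * 1 := by
      have e1 : M 0 1 = ℓ * u + jz * M 0 0 := by linarith
      have e2 : M 1 1 = ℓ * v + jz * M 1 0 := by linarith
      rw [e1, e2] at hdet
      linear_combination hdet
    exact mul_left_cancel₀ hℓ0 this
  refine ⟨⟨t.val, ZMod.val_lt t⟩, mkGamma0 (M 0 0) u (M 1 0) v hdet' hN, ?_⟩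
  rw [toMat_mkGamma0, matU]
  show M = !![M 0 0, u; M 1 0, v] * !![1, ((t.val : ℕ) : ℤ); 0, (ℓ : ℤ)]
  rw [← hjz]
  ext a b
  fin_cases a <;> fin_cases b <;> simp [Matrix.mul_apply, Fin.sum_univ_two] <;> linarith

/-- Reduction lemma, case (a): first column `≡ 0 mod ℓ`, with `ℓ` prime to the level. -/
theorem exists_eq_mul_matD {ℓ : ℕ} [hℓ : Fact ℓ.Prime] (hℓN : ¬ ℓ ∣ N)
    (M : Matrix (Fin 2) (Fin 2) ℤ)
    (hdet : M.det = ℓ) (hN : (N : ℤ) ∣ M 1 0)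
    (h0 : (ℓ : ℤ) ∣ M 0 0 ∧ (ℓ : ℤ) ∣ M 1 0) :
    ∃ (γ' : Gamma0 N), M = toMat γ' * matD ℓ := by
  rw [Matrix.det_fin_two] at hdet
  obtain ⟨⟨u, hu⟩, ⟨v, hv⟩⟩ := h0
  have hℓ0 : (ℓ : ℤ) ≠ 0 := by exact_mod_cast hℓ.out.ne_zero
  have hdet' : u * M 1 1 - M 0 1 * v = 1 := by
    have : (ℓ : ℤ) * (u * M 1 1 - M 0 1 * v) = ℓ * 1 := by
      rw [hu, hv] at hdet
      linear_combination hdet
    exact mul_left_cancel₀ hℓ0 this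
  have hNv : (N : ℤ) ∣ v := by
    have hcop : IsCoprime (N : ℤ) (ℓ : ℤ) := by
      rw [Int.isCoprime_iff_gcd_eq_one]
      have : Nat.Coprime ℓ N := (Nat.Prime.coprime_iff_not_dvd hℓ.out).mpr hℓN
      simpa [Int.gcd_natCast_natCast] using this.symm
    rw [hv] at hN
    exact hcop.dvd_of_dvd_mul_left hN
  refine ⟨mkGamma0 u (M 0 1) v (M 1 1) hdet' hNv, ?_⟩
  rw [toMat_mkGamma0, matD]
  ext a b
  fin_cases a <;> fin_cases b <;> simp [Matrix.mul_apply, Fin.sum_univ_two] <;> linarith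

end Fermat.Agent.S16.HeckeHom73
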