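import Mathlib
import Fermat.Agent.S16.HeckeHom73A
import Fermat.Agent.S16.HeckeHom73C

set_option autoImplicit false

namespace Fermat.Agent.S16.HeckeHom73

open Matrix CongruenceSubgroup
open scoped MatrixGroups

variable {N : ℕ}

theorem toMat_eta (γ : Gamma0 N) :
    toMat γ = !![toMat γ 0 0, toMat γ 0 1; toMat γ 1 0, toMat γ 1 1] :=
  Matrix.eta_fin_two _

theorem toMat_det' (γ : Gamma0 N) :
    toMat γ 0 0 * toMat γ 1 1 - toMat γ 0 1 * toMat γ 1 0 = 1 := by
  have := toMat_det γ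
  rwa [Matrix.det_fin_two] at this

theorem matU_mul_toMat (ℓ : ℕ) (j : ℤ) (γ : Gamma0 N) :
    matU ℓ j * toMat γ = !![toMat γ 0 0 + j * toMat γ 1 0, toMat γ 0 1 + j * toMat γ 1 1;
      (ℓ : ℤ) * toMat γ 1 0, (ℓ : ℤ) * toMat γ 1 1] := by
  conv_lhs => rw [toMat_eta γ, matU, Matrix.mul_fin_two]
  simp

theorem matD_mul_toMat (ℓ : ℕ) (γ : Gamma0 N) :
    matD ℓ * toMat γ = !![(ℓ : ℤ) * toMat γ 0 0, (ℓ : ℤ) * toMat γ 0 1;
      toMat γ 1 0, toMat γ 1 1] := by
  conv_lhs => rw [toMat_eta γ, matD, Matrix.mul_fin_two]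
  simp

theorem toMat_mul_matU (ℓ : ℕ) (j : ℤ) (γ : Gamma0 N) :
    toMat γ * matU ℓ j = !![toMat γ 0 0, toMat γ 0 0 * j + toMat γ 0 1 * ℓ;
      toMat γ 1 0, toMat γ 1 0 * j + toMat γ 1 1 * ℓ] := by
  conv_lhs => rw [toMat_eta γ, matU, Matrix.mul_fin_two]
  simp

theorem toMat_mul_matD (ℓ : ℕ) (γ : Gamma0 N) :
    toMat γ * matD ℓ = !![toMat γ 0 0 * ℓ, toMat γ 0 1;
      toMat γ 1 0 * ℓ, toMat γ 1 1] := by
  conv_lhs => rw [toMat_eta γ, matD, Matrix.mul_fin_two]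
  simp

theorem matU_inj {ℓ : ℕ} (hℓ : 0 < ℓ) (i j : Fin ℓ) (γ' : Gamma0 N)
    (h : matU ℓ (i : ℕ) = toMat γ' * matU ℓ (j : ℕ)) : i = j := by
  rw [toMat_mul_matU, matU] at h
  have h00 := congrFun (congrFun h 0) 0
  have h01 := congrFun (congrFun h 0) 1
  have h10 := congrFun (congrFun h 1) 0
  have h11 := congrFun (congrFun h 1) 1
  simp only [Matrix.of_apply, Matrix.cons_val', Matrix.cons_val_zero, Matrix.cons_val_one,
    Matrix.cons_val_fin_one] at h00 h01 h10 h11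
  rw [← h00] at h01
  -- i = j + b' ℓ
  have hi : (i : ℤ) < ℓ := by exact_mod_cast i.2
  have hj : (j : ℤ) < ℓ := by exact_mod_cast j.2
  have hi0 : (0 : ℤ) ≤ (i : ℕ) := by positivity
  have hj0 : (0 : ℤ) ≤ (j : ℕ) := by positivity
  have hb : toMat γ' 0 1 = 0 := by
    by_contra hb
    have hℓ' : (0 : ℤ) < ℓ := by exact_mod_cast hℓ
    rcases lt_or_gt_of_ne hb with hneg | hpos
    · have : toMat γ' 0 1 ≤ -1 := by omega
      nlinarith
    · have : 1 ≤ toMat γ' 0 1 := by omega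
      nlinarith
  rw [hb] at h01
  apply Fin.ext
  have : ((i : ℕ) : ℤ) = ((j : ℕ) : ℤ) := by linarith
  exact_mod_cast this

theorem matU_ne_mul_matD {ℓ : ℕ} (hℓ : 2 ≤ ℓ) (i : ℤ) (γ' : Gamma0 N) :
    matU ℓ i ≠ toMat γ' * matD ℓ := by
  intro h
  rw [toMat_mul_matD, matU] at h
  have h00 := congrFun (congrFun h 0) 0
  simp only [Matrix.of_apply, Matrix.cons_val', Matrix.cons_val_zero,
    Matrix.cons_val_fin_one] at h00
  have hℓ' : (2 : ℤ) ≤ ℓ := by exact_mod_cast hℓ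
  have : (ℓ : ℤ) ∣ 1 := ⟨toMat γ' 0 0, by linarith⟩
  have := Int.le_of_dvd one_pos this
  omega

theorem matD_ne_mul_matU {ℓ : ℕ} (hℓ : 2 ≤ ℓ) (j : ℤ) (γ' : Gamma0 N) :
    matD ℓ ≠ toMat γ' * matU ℓ j := by
  intro h
  rw [toMat_mul_matU, matD] at h
  have h00 := congrFun (congrFun h 0) 0
  have h10 := congrFun (congrFun h 1) 0
  simp only [Matrix.of_apply, Matrix.cons_val', Matrix.cons_val_zero, Matrix.cons_val_one,
    Matrix.cons_val_fin_one] at h00 h10
  have hdet := toMat_det' γ'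
  rw [← h00, ← h10] at hdet
  have hℓ' : (2 : ℤ) ≤ ℓ := by exact_mod_cast hℓ
  have : (ℓ : ℤ) ∣ 1 := ⟨toMat γ' 1 1, by linarith⟩
  have := Int.le_of_dvd one_pos this
  omega

/-- The coset system of `U_q`, `q ∣ N`. -/
noncomputable def sysU (q : ℕ) [hq : Fact q.Prime] (hqN : q ∣ N) : CosetSys N (Fin q) where
  α j := matU q (j : ℕ)
  det_ne j := by
    rw [det_matU]; exact_mod_cast hq.out.ne_zero
  exists_rel γ i := by
    have hdet : (matU q ((i : ℕ) : ℤ) * toMat γ).det = q := by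
      rw [Matrix.det_mul, det_matU, toMat_det, mul_one]
    have hc := dvd_of_mem_Gamma0 γ
    have hqc : (q : ℤ) ∣ toMat γ 1 0 := dvd_trans (by exact_mod_cast hqN) hc
    have hN : (N : ℤ) ∣ (matU q ((i : ℕ) : ℤ) * toMat γ) 1 0 := by
      rw [matU_mul_toMat]
      simp only [Matrix.of_apply, Matrix.cons_val', Matrix.cons_val_zero, Matrix.cons_val_one,
        Matrix.cons_val_fin_one]
      exact Dvd.dvd.mul_left hc _
    have h0 : ¬ ((q : ℤ) ∣ (matU q ((i : ℕ) : ℤ) * toMat γ) 0 0 ∧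
        (q : ℤ) ∣ (matU q ((i : ℕ) : ℤ) * toMat γ) 1 0) := by
      rintro ⟨h00, -⟩
      rw [matU_mul_toMat] at h00
      simp only [Matrix.of_apply, Matrix.cons_val', Matrix.cons_val_zero,
        Matrix.cons_val_fin_one] at h00
      have ha : (q : ℤ) ∣ toMat γ 0 0 := by
        have := (Int.dvd_add_left (Dvd.dvd.mul_left hqc ((i : ℕ) : ℤ))).mp h00
        exact this
      have h1 : (q : ℤ) ∣ 1 := by
        rw [← toMat_det' γ]
        exact dvd_sub (Dvd.dvd.mul_right ha _) (Dvd.dvd.mul_left hqc _)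
      have := Int.le_of_dvd one_pos h1
      have : (2 : ℤ) ≤ q := by exact_mod_cast hq.out.two_le
      omega
    obtain ⟨j, γ', h⟩ := exists_eq_mul_matU _ hdet hN h0
    exact ⟨j, γ', h⟩
  inj i j γ' h := matU_inj hq.out.pos i j γ' h

/-- The coset system of `T_ℓ`, `ℓ ∤ N`. -/
noncomputable def sysT (ℓ : ℕ) [hℓ : Fact ℓ.Prime] (hℓN : ¬ ℓ ∣ N) :
    CosetSys N (Option (Fin ℓ)) where
  α i := match i with
    | some j => matU ℓ (j : ℕ)
    | none => matD ℓ
  det_ne i := by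
    cases i with
    | some j => show (matU ℓ _).det ≠ 0; rw [det_matU]; exact_mod_cast hℓ.out.ne_zero
    | none => show (matD ℓ).det ≠ 0; rw [det_matD]; exact_mod_cast hℓ.out.ne_zero
  exists_rel γ i := by
    have hc := dvd_of_mem_Gamma0 γ
    -- generic step
    have key : ∀ M : Matrix (Fin 2) (Fin 2) ℤ, M.det = ℓ → (N : ℤ) ∣ M 1 0 →
        ∃ (j : Option (Fin ℓ)) (γ' : Gamma0 N), M = toMat γ' *
          (match j with
            | some j => matU ℓ (j : ℕ)
            | none => matD ℓ) := by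
      intro M hdet hN
      by_cases h0 : (ℓ : ℤ) ∣ M 0 0 ∧ (ℓ : ℤ) ∣ M 1 0
      · obtain ⟨γ', h⟩ := exists_eq_mul_matD hℓN M hdet hN h0
        exact ⟨none, γ', h⟩
      · obtain ⟨j, γ', h⟩ := exists_eq_mul_matU M hdet hN h0
        exact ⟨some j, γ', h⟩
    cases i with
    | some i =>
      refine key _ ?_ ?_
      · rw [Matrix.det_mul, det_matU, toMat_det, mul_one]
      · rw [matU_mul_toMat]
        simp only [Matrix.of_apply, Matrix.cons_val', Matrix.cons_val_zero, Matrix.cons_val_one,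
          Matrix.cons_val_fin_one]
        exact Dvd.dvd.mul_left hc _
    | none =>
      refine key _ ?_ ?_
      · rw [Matrix.det_mul, det_matD, toMat_det, mul_one]
      · rw [matD_mul_toMat]
        simp only [Matrix.of_apply, Matrix.cons_val', Matrix.cons_val_zero, Matrix.cons_val_one,
          Matrix.cons_val_fin_one]
        exact hc
  inj i j γ' h := by
    cases i with
    | some i =>
      cases j with
      | some j => exact congrArg some (matU_inj hℓ.out.pos i j γ' h)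
      | none => exact absurd h (matU_ne_mul_matD hℓ.out.two_le _ γ')
    | none =>
      cases j with
      | some j => exact absurd h (matD_ne_mul_matU hℓ.out.two_le _ γ')
      | none => rfl

@[simp] theorem sysU_α (q : ℕ) [Fact q.Prime] (hqN : q ∣ N) (j : Fin q) :
    (sysU q hqN).α j = matU q (j : ℕ) := rfl

@[simp] theorem sysT_α_some (ℓ : ℕ) [Fact ℓ.Prime] (hℓN : ¬ ℓ ∣ N) (j : Fin ℓ) :
    (sysT ℓ hℓN).α (some j) = matU ℓ (j : ℕ) := rfl

@[simp] theorem sysT_α_none (ℓ : ℕ) [Fact ℓ.Prime] (hℓN : ¬ ℓ ∣ N) :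
    (sysT ℓ hℓN).α none = matD ℓ := rfl

end Fermat.Agent.S16.HeckeHom73
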