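/-
S16 (L2), analysis half (helper43): Hecke-equivariance of the period map, stated abstractly in the
coset permutation.

For `f : CuspForm (Gamma0 N) 2`, a prime `ℓ ∤ N`, `γ ∈ Γ₀(N)`, ANY bijection `σ` of the index set
`Option (Fin ℓ)` and ANY `δ i ∈ Γ₀(N)` with `heckeRep ℓ i * γ = δ i * heckeRep ℓ (σ i)` in `GL(2,ℝ)`:

  `periodMap N (heckeTLin 2 hℓ hℓN f) γ = ∑ i, periodMap N f (δ i)`.

Same for `heckeULin` (`q ∣ N`, index set `Fin q`).
-/
import Mathlib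
import Fermat.Agent.S21.PeriodPrim
import Fermat.Prelude.Def_CuspForm_HeckeAlgebra

set_option autoImplicit false

open Complex Filter Topology Function
open UpperHalfPlane hiding I
open scoped MatrixGroups Manifold ModularForm
open ModularCurve ModularCurve.Period CongruenceSubgroup ModularForm
open Fermat.Agent.S22 Fermat.Agent.S21.PeriodPrim

namespace Fermat.Agent.S16.PeriodEquiv43

/-- The Hecke representatives in `GL(2,ℝ)`: `none ↦ [[ℓ,0],[0,1]]`, `some j ↦ [[1,j],[0,ℓ]]`. -/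
noncomputable def heckeRep (ℓ : ℕ) : Option (Fin ℓ) → GL (Fin 2) ℝ
  | none => heckeDiagMatrix ℓ
  | some j => heckeMatrix ℓ (j : ℕ)

@[simp] theorem heckeRep_none (ℓ : ℕ) : heckeRep ℓ none = heckeDiagMatrix ℓ := rfl

@[simp] theorem heckeRep_some (ℓ : ℕ) (j : Fin ℓ) : heckeRep ℓ (some j) = heckeMatrix ℓ (j : ℕ) := rfl

/-! ### Chain rule for the two kinds of Hecke matrices -/

section ChainRule

variable {F f : ℍ → ℂ}

theorem hasDerivAt_comp_GL_smul (hF : ∀ τ : ℍ, HasDerivAt (F ∘ ofComplex) (f τ) τ)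
    (g : GL (Fin 2) ℝ) (hg : 0 < g.val.det) (τ : ℍ) :
    HasDerivAt ((fun w : ℍ => F (g • w)) ∘ ofComplex)
      (f (g • τ) * ((g.val.det : ℂ) / denom g τ ^ 2)) τ := by
  have h1 := hF (g • τ)
  have h2 := (hasStrictDerivAt_smul hg τ).hasDerivAt
  have h3 : ((g • ofComplex (τ : ℂ) : ℍ) : ℂ) = ((g • τ : ℍ) : ℂ) := by
    rw [ofComplex_apply]
  have h4 := HasDerivAt.comp_of_eq (τ : ℂ) h1 h2 h3.symm
  refine h4.congr_of_eventuallyEq ?_
  filter_upwards with z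
  simp only [comp_apply, ofComplex_apply]

theorem hasDerivAt_comp_heckeMatrix (hF : ∀ τ : ℍ, HasDerivAt (F ∘ ofComplex) (f τ) τ)
    {p : ℕ} (hp : p ≠ 0) (j : ℕ) (τ : ℍ) :
    HasDerivAt ((fun w : ℍ => F (heckeMatrix p j • w)) ∘ ofComplex)
      ((f ∣[(2 : ℤ)] heckeMatrix p j) τ) τ := by
  have h := hasDerivAt_comp_GL_smul hF (heckeMatrix p j) (det_heckeMatrix_pos p j) τ
  have hp' : (p : ℂ) ≠ 0 := by exact_mod_cast hp
  have hval : f (heckeMatrix p j • τ) *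
      ((((heckeMatrix p j).val.det : ℝ) : ℂ) / denom (heckeMatrix p j) τ ^ 2)
      = (f ∣[(2 : ℤ)] heckeMatrix p j) τ := by
    rw [slash_heckeMatrix_apply 2 hp, denom_heckeMatrix hp]
    have hdet : ((heckeMatrix p j).val.det : ℝ) = p := by
      have := det_heckeMatrix hp j
      rwa [Matrix.GeneralLinearGroup.val_det_apply] at this
    rw [hdet]
    push_cast
    field_simp
  rwa [hval] at h

theorem hasDerivAt_comp_heckeDiagMatrix (hF : ∀ τ : ℍ, HasDerivAt (F ∘ ofComplex) (f τ) τ)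
    {p : ℕ} (hp : p ≠ 0) (τ : ℍ) :
    HasDerivAt ((fun w : ℍ => F (heckeDiagMatrix p • w)) ∘ ofComplex)
      ((f ∣[(2 : ℤ)] heckeDiagMatrix p) τ) τ := by
  have h := hasDerivAt_comp_GL_smul hF (heckeDiagMatrix p) (det_heckeDiagMatrix_pos p) τ
  have hval : f (heckeDiagMatrix p • τ) *
      ((((heckeDiagMatrix p).val.det : ℝ) : ℂ) / denom (heckeDiagMatrix p) τ ^ 2)
      = (f ∣[(2 : ℤ)] heckeDiagMatrix p) τ := by
    rw [slash_heckeDiagMatrix_apply 2 hp, denom_heckeDiagMatrix hp]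
    have hdet : ((heckeDiagMatrix p).val.det : ℝ) = p := by
      have := det_heckeDiagMatrix hp
      rwa [Matrix.GeneralLinearGroup.val_det_apply] at this
    rw [hdet]
    push_cast
    norm_num
    ring
  rwa [hval] at h

end ChainRule

/-! ### The Hecke matrices preserve the cusp `i∞` -/

theorem tendsto_heckeMatrix_smul {p : ℕ} (hp : p ≠ 0) (j : ℕ) :
    Tendsto (fun w : ℍ => heckeMatrix p j • w) atImInfty atImInfty := by
  rw [atImInfty, tendsto_comap_iff]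
  have hp' : (0 : ℝ) < p := by exact_mod_cast Nat.pos_of_ne_zero hp
  have him : (UpperHalfPlane.im ∘ fun w : ℍ => heckeMatrix p j • w) = fun w : ℍ => w.im / p := by
    funext w
    have h := coe_heckeMatrix_smul hp j w
    have h2 : (heckeMatrix p j • w : ℍ).im = (((heckeMatrix p j • w : ℍ) : ℂ)).im := rfl
    simp only [comp_apply]
    rw [h2, h]
    have : ((w : ℂ) + (j : ℂ)) / (p : ℂ) = (((w : ℂ) + (j : ℂ)) / ((p : ℝ) : ℂ)) := by
      push_cast; rfl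
    rw [this, Complex.div_ofReal_im]
    simp
  rw [him]
  exact (tendsto_id.atTop_div_const hp').comp tendsto_comap

theorem tendsto_heckeDiagMatrix_smul {p : ℕ} (hp : p ≠ 0) :
    Tendsto (fun w : ℍ => heckeDiagMatrix p • w) atImInfty atImInfty := by
  rw [atImInfty, tendsto_comap_iff]
  have hp' : (0 : ℝ) < p := by exact_mod_cast Nat.pos_of_ne_zero hp
  have him : (UpperHalfPlane.im ∘ fun w : ℍ => heckeDiagMatrix p • w) = fun w : ℍ => (p : ℝ) * w.im := by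
    funext w
    have h := coe_heckeDiagMatrix_smul hp w
    have h2 : (heckeDiagMatrix p • w : ℍ).im = (((heckeDiagMatrix p • w : ℍ) : ℂ)).im := rfl
    simp only [comp_apply]
    rw [h2, h]
    have : ((p : ℂ)) * (w : ℂ) = (((p : ℝ) : ℂ)) * (w : ℂ) := by push_cast; rfl
    rw [this, Complex.im_ofReal_mul]
    simp
  rw [him]
  exact (tendsto_id.const_mul_atTop hp').comp tendsto_comap


/-! ### The primitive of `T_ℓ f` and of `U_q f` -/

section Prim

variable {N : ℕ} [NeZero N]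

/-- `∑ᵢ primF f (αᵢ • τ)` over all `ℓ + 1` Hecke representatives. -/
noncomputable def primT (ℓ : ℕ) (f : CuspForm (Gamma0 N) 2) (τ : ℍ) : ℂ :=
  ∑ i : Option (Fin ℓ), primF f (heckeRep ℓ i • τ)

/-- `∑ⱼ primF f (αⱼ • τ)` over the `q` upper triangular Hecke representatives. -/
noncomputable def primU (q : ℕ) (f : CuspForm (Gamma0 N) 2) (τ : ℍ) : ℂ :=
  ∑ j : Fin q, primF f (heckeMatrix q (j : ℕ) • τ)

theorem hasDerivAt_primU {q : ℕ} (hq : q ≠ 0) (f : CuspForm (Gamma0 N) 2) (τ : ℍ) :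
    HasDerivAt (primU q f ∘ ofComplex) (heckeU 2 q (f : ℍ → ℂ) τ) τ := by
  have h : ∀ j ∈ (Finset.univ : Finset (Fin q)),
      HasDerivAt ((fun w : ℍ => primF f (heckeMatrix q (j : ℕ) • w)) ∘ ofComplex)
        (((f : ℍ → ℂ) ∣[(2 : ℤ)] heckeMatrix q (j : ℕ)) τ) τ :=
    fun j _ => hasDerivAt_comp_heckeMatrix (hasDerivAt_primF f) hq (j : ℕ) τ
  have h2 := HasDerivAt.fun_sum h
  have hval : (∑ j : Fin q, ((f : ℍ → ℂ) ∣[(2 : ℤ)] heckeMatrix q (j : ℕ)) τ)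
      = heckeU 2 q (f : ℍ → ℂ) τ := by
    rw [heckeU_def, Finset.sum_apply, Finset.sum_range]
  rw [hval] at h2
  refine h2.congr_of_eventuallyEq ?_
  filter_upwards with z
  simp only [comp_apply, primU]

theorem hasDerivAt_primT {ℓ : ℕ} (hℓ : ℓ ≠ 0) (f : CuspForm (Gamma0 N) 2) (τ : ℍ) :
    HasDerivAt (primT ℓ f ∘ ofComplex) (heckeT 2 ℓ (f : ℍ → ℂ) τ) τ := by
  have h1 := hasDerivAt_primU hℓ f τ
  have h2 := hasDerivAt_comp_heckeDiagMatrix (hasDerivAt_primF f) hℓ τ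
  have h3 := h1.add h2
  have hval : heckeU 2 ℓ (f : ℍ → ℂ) τ + ((f : ℍ → ℂ) ∣[(2 : ℤ)] heckeDiagMatrix ℓ) τ
      = heckeT 2 ℓ (f : ℍ → ℂ) τ := by
    rw [heckeT_eq_heckeU_add]; rfl
  rw [hval] at h3
  refine h3.congr_of_eventuallyEq ?_
  filter_upwards with z
  simp only [comp_apply, primT, primU, Pi.add_apply, Fintype.sum_option, heckeRep_none,
    heckeRep_some]
  ring

theorem isZeroAtImInfty_primU {q : ℕ} (hq : q ≠ 0) (f : CuspForm (Gamma0 N) 2) :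
    IsZeroAtImInfty (primU q f) := by
  have h0 : Tendsto (primF f) atImInfty (𝓝 0) := isZeroAtImInfty_primF f
  have h : ∀ j ∈ (Finset.univ : Finset (Fin q)),
      Tendsto (fun w : ℍ => primF f (heckeMatrix q (j : ℕ) • w)) atImInfty (𝓝 0) :=
    fun j _ => h0.comp (tendsto_heckeMatrix_smul hq (j : ℕ))
  have h2 := tendsto_finsetSum _ h
  simp only [Finset.sum_const_zero] at h2
  exact h2

theorem isZeroAtImInfty_primT {ℓ : ℕ} (hℓ : ℓ ≠ 0) (f : CuspForm (Gamma0 N) 2) :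
    IsZeroAtImInfty (primT ℓ f) := by
  have h0 : Tendsto (primF f) atImInfty (𝓝 0) := isZeroAtImInfty_primF f
  have h1 : Tendsto (primU ℓ f) atImInfty (𝓝 0) := isZeroAtImInfty_primU hℓ f
  have h2 : Tendsto (fun w : ℍ => primF f (heckeDiagMatrix ℓ • w)) atImInfty (𝓝 0) :=
    h0.comp (tendsto_heckeDiagMatrix_smul hℓ)
  have h3 := h1.add h2
  rw [add_zero] at h3
  refine h3.congr fun w => ?_
  simp only [primT, primU, Fintype.sum_option, heckeRep_none, heckeRep_some]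
  ring

/-- The primitive of `T_ℓ f` vanishing at `i∞` is `∑ᵢ primF f ∘ αᵢ`. -/
theorem primF_heckeTLin {ℓ : ℕ} (hℓ : ℓ.Prime) (hℓN : ¬ ℓ ∣ N) (f : CuspForm (Gamma0 N) 2) :
    primF (CuspForm.heckeTLin 2 hℓ hℓN f) = primT ℓ f := by
  symm
  refine eq_prim one_pos (isCuspidal_coe (CuspForm.heckeTLin 2 hℓ hℓN f)) ?_
    (isZeroAtImInfty_primT hℓ.ne_zero f)
  intro τ
  exact hasDerivAt_primT hℓ.ne_zero f τ

/-- The primitive of `U_q f` vanishing at `i∞` is `∑ⱼ primF f ∘ αⱼ`. -/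
theorem primF_heckeULin {q : ℕ} (hq : q ≠ 0) (hqN : q ∣ N) (f : CuspForm (Gamma0 N) 2) :
    primF (CuspForm.heckeULin 2 hqN f) = primU q f := by
  symm
  refine eq_prim one_pos (isCuspidal_coe (CuspForm.heckeULin 2 hqN f)) ?_
    (isZeroAtImInfty_primU hq f)
  intro τ
  exact hasDerivAt_primU hq f τ

end Prim

/-! ### The period formulas -/

section Period

variable {N : ℕ} [NeZero N]

theorem SL_smul_eq (s : SL(2, ℤ)) (z : ℍ) :
    s • z = (Matrix.SpecialLinearGroup.mapGL ℝ s : GL (Fin 2) ℝ) • z := rfl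

/-- **Hecke-equivariance of the period map, `T_ℓ`** (abstract in the coset permutation). -/
theorem periodMap_heckeTLin_of_perm {ℓ : ℕ} (hℓ : ℓ.Prime) (hℓN : ¬ ℓ ∣ N)
    (f : CuspForm (Gamma0 N) 2) (γ : Gamma0 N)
    (σ : Option (Fin ℓ) ≃ Option (Fin ℓ)) (δ : Option (Fin ℓ) → Gamma0 N)
    (h : ∀ i, heckeRep ℓ i * (Matrix.SpecialLinearGroup.mapGL ℝ (γ : SL(2, ℤ)) : GL (Fin 2) ℝ)
      = (Matrix.SpecialLinearGroup.mapGL ℝ ((δ i : Gamma0 N) : SL(2, ℤ)) : GL (Fin 2) ℝ)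
        * heckeRep ℓ (σ i)) :
    periodMap N (CuspForm.heckeTLin 2 hℓ hℓN f) (Additive.ofMul γ)
      = ∑ i, periodMap N f (Additive.ofMul (δ i)) := by
  rw [periodMap_apply _ γ UpperHalfPlane.I, primF_heckeTLin]
  simp only [primT]
  rw [← Finset.sum_sub_distrib]
  have hterm : ∀ i : Option (Fin ℓ),
      primF f (heckeRep ℓ i • ((γ : SL(2, ℤ)) • UpperHalfPlane.I))
        - primF f (heckeRep ℓ i • UpperHalfPlane.I)
      = periodMap N f (Additive.ofMul (δ i))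
        + (primF f (heckeRep ℓ (σ i) • UpperHalfPlane.I)
          - primF f (heckeRep ℓ i • UpperHalfPlane.I)) := by
    intro i
    rw [periodMap_apply f (δ i) (heckeRep ℓ (σ i) • UpperHalfPlane.I)]
    have : heckeRep ℓ i • ((γ : SL(2, ℤ)) • UpperHalfPlane.I)
        = ((δ i : Gamma0 N) : SL(2, ℤ)) • (heckeRep ℓ (σ i) • UpperHalfPlane.I) := by
      rw [SL_smul_eq, SL_smul_eq, ← mul_smul, ← mul_smul, h i]
    rw [this]
    ring
  rw [Finset.sum_congr rfl fun i _ => hterm i, Finset.sum_add_distrib, Finset.sum_sub_distrib,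
    Equiv.sum_comp σ (fun i => primF f (heckeRep ℓ i • UpperHalfPlane.I)), sub_self, add_zero]

/-- **Hecke-equivariance of the period map, `U_q`** (abstract in the coset permutation). -/
theorem periodMap_heckeULin_of_perm {q : ℕ} (hq : q ≠ 0) (hqN : q ∣ N)
    (f : CuspForm (Gamma0 N) 2) (γ : Gamma0 N)
    (σ : Fin q ≃ Fin q) (δ : Fin q → Gamma0 N)
    (h : ∀ i : Fin q, heckeMatrix q (i : ℕ)
        * (Matrix.SpecialLinearGroup.mapGL ℝ (γ : SL(2, ℤ)) : GL (Fin 2) ℝ)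
      = (Matrix.SpecialLinearGroup.mapGL ℝ ((δ i : Gamma0 N) : SL(2, ℤ)) : GL (Fin 2) ℝ)
        * heckeMatrix q ((σ i : Fin q) : ℕ)) :
    periodMap N (CuspForm.heckeULin 2 hqN f) (Additive.ofMul γ)
      = ∑ i, periodMap N f (Additive.ofMul (δ i)) := by
  rw [periodMap_apply _ γ UpperHalfPlane.I, primF_heckeULin hq]
  simp only [primU]
  rw [← Finset.sum_sub_distrib]
  have hterm : ∀ i : Fin q,
      primF f (heckeMatrix q (i : ℕ) • ((γ : SL(2, ℤ)) • UpperHalfPlane.I))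
        - primF f (heckeMatrix q (i : ℕ) • UpperHalfPlane.I)
      = periodMap N f (Additive.ofMul (δ i))
        + (primF f (heckeMatrix q ((σ i : Fin q) : ℕ) • UpperHalfPlane.I)
          - primF f (heckeMatrix q (i : ℕ) • UpperHalfPlane.I)) := by
    intro i
    rw [periodMap_apply f (δ i) (heckeMatrix q ((σ i : Fin q) : ℕ) • UpperHalfPlane.I)]
    have : heckeMatrix q (i : ℕ) • ((γ : SL(2, ℤ)) • UpperHalfPlane.I)
        = ((δ i : Gamma0 N) : SL(2, ℤ)) • (heckeMatrix q ((σ i : Fin q) : ℕ) • UpperHalfPlane.I) := by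
      rw [SL_smul_eq, SL_smul_eq, ← mul_smul, ← mul_smul, h i]
    rw [this]
    ring
  rw [Finset.sum_congr rfl fun i _ => hterm i, Finset.sum_add_distrib, Finset.sum_sub_distrib,
    Equiv.sum_comp σ (fun i : Fin q => primF f (heckeMatrix q (i : ℕ) • UpperHalfPlane.I)),
    sub_self, add_zero]

end Period

/-! ### Integer-matrix form of the hypothesis -/

section IntForm

/-- The Hecke representatives as integer matrices. -/
def heckeRepZ (ℓ : ℕ) : Option (Fin ℓ) → Matrix (Fin 2) (Fin 2) ℤ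
  | none => !![(ℓ : ℤ), 0; 0, 1]
  | some j => !![1, ((j : ℕ) : ℤ); 0, (ℓ : ℤ)]

theorem val_heckeRep {ℓ : ℕ} (hℓ : ℓ ≠ 0) (i : Option (Fin ℓ)) :
    ((heckeRep ℓ i : GL (Fin 2) ℝ) : Matrix (Fin 2) (Fin 2) ℝ)
      = (heckeRepZ ℓ i).map (Int.castRingHom ℝ) := by
  cases i with
  | none =>
    rw [heckeRep_none, val_heckeDiagMatrix hℓ]
    ext a b; fin_cases a <;> fin_cases b <;> simp [heckeRepZ]
  | some j =>
    rw [heckeRep_some, val_heckeMatrix hℓ]
    ext a b; fin_cases a <;> fin_cases b <;> simp [heckeRepZ]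

theorem val_mapGL (s : SL(2, ℤ)) :
    ((Matrix.SpecialLinearGroup.mapGL ℝ s : GL (Fin 2) ℝ) : Matrix (Fin 2) (Fin 2) ℝ)
      = (s : Matrix (Fin 2) (Fin 2) ℤ).map (Int.castRingHom ℝ) := by
  ext a b
  simp [Matrix.SpecialLinearGroup.mapGL]

/-- An integer matrix identity `αᵢ γ = δ αⱼ` gives the `GL(2,ℝ)` identity used above. -/
theorem heckeRep_mul_eq_of_int {ℓ : ℕ} (hℓ : ℓ ≠ 0) (i j : Option (Fin ℓ)) (γ δ : SL(2, ℤ))
    (h : heckeRepZ ℓ i * (γ : Matrix (Fin 2) (Fin 2) ℤ)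
      = (δ : Matrix (Fin 2) (Fin 2) ℤ) * heckeRepZ ℓ j) :
    heckeRep ℓ i * (Matrix.SpecialLinearGroup.mapGL ℝ γ : GL (Fin 2) ℝ)
      = (Matrix.SpecialLinearGroup.mapGL ℝ δ : GL (Fin 2) ℝ) * heckeRep ℓ j := by
  apply Units.ext
  rw [Units.val_mul, Units.val_mul]
  change ((heckeRep ℓ i : GL (Fin 2) ℝ) : Matrix (Fin 2) (Fin 2) ℝ)
      * ((Matrix.SpecialLinearGroup.mapGL ℝ γ : GL (Fin 2) ℝ) : Matrix (Fin 2) (Fin 2) ℝ)
    = ((Matrix.SpecialLinearGroup.mapGL ℝ δ : GL (Fin 2) ℝ) : Matrix (Fin 2) (Fin 2) ℝ)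
      * ((heckeRep ℓ j : GL (Fin 2) ℝ) : Matrix (Fin 2) (Fin 2) ℝ)
  rw [val_heckeRep hℓ, val_heckeRep hℓ, val_mapGL, val_mapGL, ← Matrix.map_mul, ← Matrix.map_mul, h]

end IntForm

/-! ### The period formulas with integer-matrix hypotheses -/

section PeriodInt

variable {N : ℕ} [NeZero N]

theorem periodMap_heckeTLin_of_perm_int {ℓ : ℕ} (hℓ : ℓ.Prime) (hℓN : ¬ ℓ ∣ N)
    (f : CuspForm (Gamma0 N) 2) (γ : Gamma0 N)
    (σ : Option (Fin ℓ) ≃ Option (Fin ℓ)) (δ : Option (Fin ℓ) → Gamma0 N)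
    (h : ∀ i, heckeRepZ ℓ i * (((γ : Gamma0 N) : SL(2, ℤ)) : Matrix (Fin 2) (Fin 2) ℤ)
      = ((((δ i : Gamma0 N) : SL(2, ℤ))) : Matrix (Fin 2) (Fin 2) ℤ) * heckeRepZ ℓ (σ i)) :
    periodMap N (CuspForm.heckeTLin 2 hℓ hℓN f) (Additive.ofMul γ)
      = ∑ i, periodMap N f (Additive.ofMul (δ i)) :=
  periodMap_heckeTLin_of_perm hℓ hℓN f γ σ δ fun i =>
    heckeRep_mul_eq_of_int hℓ.ne_zero i (σ i) _ _ (h i)

theorem periodMap_heckeULin_of_perm_int {q : ℕ} (hq : q ≠ 0) (hqN : q ∣ N)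
    (f : CuspForm (Gamma0 N) 2) (γ : Gamma0 N)
    (σ : Fin q ≃ Fin q) (δ : Fin q → Gamma0 N)
    (h : ∀ i : Fin q,
      heckeRepZ q (some i) * (((γ : Gamma0 N) : SL(2, ℤ)) : Matrix (Fin 2) (Fin 2) ℤ)
      = ((((δ i : Gamma0 N) : SL(2, ℤ))) : Matrix (Fin 2) (Fin 2) ℤ) * heckeRepZ q (some (σ i))) :
    periodMap N (CuspForm.heckeULin 2 hqN f) (Additive.ofMul γ)
      = ∑ i, periodMap N f (Additive.ofMul (δ i)) :=
  periodMap_heckeULin_of_perm hq hqN f γ σ δ fun i => by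
    have := heckeRep_mul_eq_of_int hq (some i) (some (σ i)) _ _ (h i)
    simpa only [heckeRep_some] using this

end PeriodInt

end Fermat.Agent.S16.PeriodEquiv43
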