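import Mathlib
import Fermat.Agent.S16.HeckeHom73A
import Fermat.Agent.S16.HeckeHom73B
import Fermat.Agent.S16.HeckeHom73C
import Fermat.Agent.S16.HeckeHom73D
import Fermat.Agent.S16.PeriodEquiv43

set_option autoImplicit false

namespace Fermat.Agent.S16.HeckeHom73

open Matrix CongruenceSubgroup ModularCurve ModularCurve.Period
open scoped MatrixGroups

variable {N : ℕ} [NeZero N]

omit [NeZero N] in
theorem sysT_α_eq (ℓ : ℕ) [Fact ℓ.Prime] (hℓN : ¬ ℓ ∣ N) (i : Option (Fin ℓ)) :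
    (sysT ℓ hℓN).α i = Fermat.Agent.S16.PeriodEquiv43.heckeRepZ ℓ i := by
  cases i with
  | none => rfl
  | some j => rfl

omit [NeZero N] in
theorem sysU_α_eq (q : ℕ) [Fact q.Prime] (hqN : q ∣ N) (i : Fin q) :
    (sysU q hqN).α i = Fermat.Agent.S16.PeriodEquiv43.heckeRepZ q (some i) := rfl

/-- **(L2) Hecke-equivariance of the period map, `T_ℓ` (`ℓ ∤ N`).** -/
theorem periodMap_heckeTLin {ℓ : ℕ} [hℓ : Fact ℓ.Prime] (hℓN : ¬ ℓ ∣ N)
    (f : CuspForm (Gamma0 N) 2) :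
    periodMap N (CuspForm.heckeTLin 2 hℓ.out hℓN f) = (sysT ℓ hℓN).hecke (periodMap N f) := by
  refine AddMonoidHom.ext fun x => ?_
  obtain ⟨γ, rfl⟩ := Additive.ofMul.surjective x
  rw [CosetSys.hecke_apply]
  refine Fermat.Agent.S16.PeriodEquiv43.periodMap_heckeTLin_of_perm_int hℓ.out hℓN f γ
    ((sysT ℓ hℓN).perm γ) (fun i => (sysT ℓ hℓN).g γ i) ?_
  intro i
  have h := (sysT ℓ hℓN).rel γ i
  rw [sysT_α_eq, sysT_α_eq] at h
  exact h

/-- **(L2) Hecke-equivariance of the period map, `U_q` (`q ∣ N`).** -/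
theorem periodMap_heckeULin {q : ℕ} [hq : Fact q.Prime] (hqN : q ∣ N)
    (f : CuspForm (Gamma0 N) 2) :
    periodMap N (CuspForm.heckeULin 2 hqN f) = (sysU q hqN).hecke (periodMap N f) := by
  refine AddMonoidHom.ext fun x => ?_
  obtain ⟨γ, rfl⟩ := Additive.ofMul.surjective x
  rw [CosetSys.hecke_apply]
  refine Fermat.Agent.S16.PeriodEquiv43.periodMap_heckeULin_of_perm_int hq.out.ne_zero hqN f γ
    ((sysU q hqN).perm γ) (fun i => (sysU q hqN).g γ i) ?_
  intro i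
  have h := (sysU q hqN).rel γ i
  rw [sysU_α_eq, sysU_α_eq] at h
  exact h

end Fermat.Agent.S16.HeckeHom73
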