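/-
S16 / (L)-LATTICE (helper47): for every odd prime `p` there is an even, positive definite,
integral quaternary lattice of determinant `p^2` and level `p`.

Explicit family (norm form of Ibukiyama's maximal orders of the quaternion algebra ramified at
`p, ∞`; here verified by pure polynomial identities, no quaternion algebras needed):
for integers `p q r s m` with `2 m = q + 1` and `q s = r^2 + p`,

  `A = gramI p m r s = [[2,1,0,0],[1,m,0,r],[0,0,p m,p],[0,r,p,2 s]]`

has `det A = p^2`, `A * B = p • 1` for the explicit integral matrix `B = cogramI p q m r s`, and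
`2 q m · xᵀ A x = q m (2x₀+x₁)² + m (q x₁ + 2 r x₃)² + 2 p q (m x₂ + x₃)² + 2 p x₃²`.
If `m` is even (i.e. `q ≡ 3 mod 4`) both `A` and `B` have even diagonal.

Parameters: `p ≡ 3 mod 4`: `(q,r,s) = (p,0,1)`;  `p ≡ 1 mod 4`: a prime `q ≡ 3 mod 4` which is a
non-residue mod `p` (Dirichlet), then `-p` is a square mod `q` (quadratic reciprocity).
-/
import Mathlib

set_option autoImplicit false

namespace Fermat.Agent.S16.Lattice47

open Matrix

/-- The Gram matrix. -/
def gramI (p m r s : ℤ) : Matrix (Fin 4) (Fin 4) ℤ :=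
  !![2, 1, 0, 0; 1, m, 0, r; 0, 0, p * m, p; 0, r, p, 2 * s]

/-- `p` times the inverse of the Gram matrix. -/
def cogramI (p q m r s : ℤ) : Matrix (Fin 4) (Fin 4) ℤ :=
  !![m * s, -(2 * m * s - p), -r, m * r;
     -(2 * m * s - p), 2 * (2 * m * s - p), 2 * r, -(2 * m * r);
     -r, 2 * r, 2, -q;
     m * r, -(2 * m * r), -q, m * q]

theorem gramI_isSymm (p m r s : ℤ) : (gramI p m r s).IsSymm := by
  ext i j
  fin_cases i <;> fin_cases j <;> simp [gramI]

theorem cogramI_isSymm (p q m r s : ℤ) : (cogramI p q m r s).IsSymm := by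
  ext i j
  fin_cases i <;> fin_cases j <;> simp [cogramI]

theorem gramI_mul_cogramI {p q m r s : ℤ} (hm : 2 * m = q + 1) (hqs : q * s = r ^ 2 + p) :
    gramI p m r s * cogramI p q m r s = p • (1 : Matrix (Fin 4) (Fin 4) ℤ) := by
  have hq : q = 2 * m - 1 := by linarith
  subst hq
  ext i j
  fin_cases i <;> fin_cases j <;>
    simp [gramI, cogramI, Matrix.mul_apply, Fin.sum_univ_four] <;>
    first
      | ring1
      | linear_combination (-m) * hqs
      | linear_combination (2 * m) * hqs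
      | linear_combination (-2 : ℤ) * hqs

theorem cogramI_mul_gramI {p q m r s : ℤ} (hm : 2 * m = q + 1) (hqs : q * s = r ^ 2 + p) :
    cogramI p q m r s * gramI p m r s = p • (1 : Matrix (Fin 4) (Fin 4) ℤ) := by
  have h := congrArg Matrix.transpose (gramI_mul_cogramI hm hqs)
  rw [Matrix.transpose_mul, (gramI_isSymm p m r s).eq, (cogramI_isSymm p q m r s).eq,
    Matrix.transpose_smul, Matrix.transpose_one] at h
  exact h

theorem det_gramI {p q m r s : ℤ} (hm : 2 * m = q + 1) (hqs : q * s = r ^ 2 + p) :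
    (gramI p m r s).det = p ^ 2 := by
  have hq : q = 2 * m - 1 := by linarith
  subst hq
  simp [gramI, Matrix.det_succ_row_zero, Fin.sum_univ_succ, Fin.succAbove]
  linear_combination (2 * p * m) * hqs

theorem even_diag_gramI {p m r s : ℤ} (hm : Even m) (i : Fin 4) : Even (gramI p m r s i i) := by
  fin_cases i <;> simp [gramI, hm, Even.mul_left]

theorem even_diag_cogramI {p q m r s : ℤ} (hm : Even m) (i : Fin 4) :
    Even (cogramI p q m r s i i) := by
  fin_cases i <;> simp [cogramI, hm, Even.mul_right]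

/-- The quadratic form of `gramI` over any commutative ring (entries cast from `ℤ`). -/
theorem quadForm_gramI {R : Type*} [CommRing R] (p m r s : ℤ) (x : Fin 4 → R) :
    x ⬝ᵥ ((gramI p m r s).map (Int.cast : ℤ → R) *ᵥ x) =
      2 * x 0 ^ 2 + 2 * x 0 * x 1 + (m : R) * x 1 ^ 2 + 2 * (r : R) * x 1 * x 3 +
        (p : R) * (m : R) * x 2 ^ 2 + 2 * (p : R) * x 2 * x 3 + 2 * (s : R) * x 3 ^ 2 := by
  simp [gramI, dotProduct, Matrix.mulVec, Fin.sum_univ_four]
  ring

/-- The sum-of-squares certificate. -/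
theorem quadForm_gramI_sos {R : Type*} [CommRing R] {p q m r s : ℤ} (hm : 2 * m = q + 1)
    (hqs : q * s = r ^ 2 + p) (x : Fin 4 → R) :
    2 * (q : R) * (m : R) * (x ⬝ᵥ ((gramI p m r s).map (Int.cast : ℤ → R) *ᵥ x)) =
      (q : R) * (m : R) * (2 * x 0 + x 1) ^ 2 + (m : R) * ((q : R) * x 1 + 2 * (r : R) * x 3) ^ 2 +
        2 * (p : R) * (q : R) * ((m : R) * x 2 + x 3) ^ 2 + 2 * (p : R) * x 3 ^ 2 := by
  have hm' : 2 * (m : R) = (q : R) + 1 := by exact_mod_cast congrArg (Int.cast : ℤ → R) hm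
  have hqs' : (q : R) * (s : R) = (r : R) ^ 2 + (p : R) := by
    exact_mod_cast congrArg (Int.cast : ℤ → R) hqs
  rw [quadForm_gramI]
  linear_combination (4 * (m : R) * x 3 ^ 2) * hqs' +
    ((q : R) * (m : R) * x 1 ^ 2 + 2 * (p : R) * x 3 ^ 2) * hm'

/-- Positivity of the quadratic form over an ordered ring. -/
theorem quadForm_gramI_pos {R : Type*} [CommRing R] [LinearOrder R] [IsStrictOrderedRing R]
    {p q m r s : ℤ} (hm : 2 * m = q + 1) (hqs : q * s = r ^ 2 + p) (hp : 0 < p) (hq : 0 < q)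
    (x : Fin 4 → R) (hx : x ≠ 0) :
    0 < x ⬝ᵥ ((gramI p m r s).map (Int.cast : ℤ → R) *ᵥ x) := by
  have hm0 : 0 < m := by linarith
  have hpR : (0 : R) < (p : R) := by exact_mod_cast hp
  have hqR : (0 : R) < (q : R) := by exact_mod_cast hq
  have hmR : (0 : R) < (m : R) := by exact_mod_cast hm0
  have hsos := quadForm_gramI_sos (R := R) hm hqs x
  set Q := x ⬝ᵥ ((gramI p m r s).map (Int.cast : ℤ → R) *ᵥ x) with hQ
  have h1 : 0 ≤ (q : R) * (m : R) * (2 * x 0 + x 1) ^ 2 := by positivity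
  have h2 : 0 ≤ (m : R) * ((q : R) * x 1 + 2 * (r : R) * x 3) ^ 2 := by positivity
  have h3 : 0 ≤ 2 * (p : R) * (q : R) * ((m : R) * x 2 + x 3) ^ 2 := by positivity
  have h4 : 0 ≤ 2 * (p : R) * x 3 ^ 2 := by positivity
  have hpos : 0 < 2 * (q : R) * (m : R) := by positivity
  by_contra hneg
  have hQle : Q ≤ 0 := not_lt.mp hneg
  have hle : 2 * (q : R) * (m : R) * Q ≤ 0 := mul_nonpos_of_nonneg_of_nonpos hpos.le hQle
  rw [hsos] at hle
  have e4 : 2 * (p : R) * x 3 ^ 2 = 0 := by linarith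
  have e3 : 2 * (p : R) * (q : R) * ((m : R) * x 2 + x 3) ^ 2 = 0 := by linarith
  have e2 : (m : R) * ((q : R) * x 1 + 2 * (r : R) * x 3) ^ 2 = 0 := by linarith
  have e1 : (q : R) * (m : R) * (2 * x 0 + x 1) ^ 2 = 0 := by linarith
  have x3 : x 3 = 0 := by
    have : x 3 ^ 2 = 0 := by
      rcases mul_eq_zero.mp e4 with h | h
      · exact absurd h (by positivity)
      · exact h
    exact pow_eq_zero_iff (two_ne_zero) |>.mp this
  have x2 : x 2 = 0 := by
    have : ((m : R) * x 2 + x 3) ^ 2 = 0 := by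
      rcases mul_eq_zero.mp e3 with h | h
      · exact absurd h (by positivity)
      · exact h
    have h' : (m : R) * x 2 + x 3 = 0 := pow_eq_zero_iff (two_ne_zero) |>.mp this
    rw [x3, add_zero] at h'
    rcases mul_eq_zero.mp h' with h | h
    · exact absurd h hmR.ne'
    · exact h
  have x1 : x 1 = 0 := by
    have : ((q : R) * x 1 + 2 * (r : R) * x 3) ^ 2 = 0 := by
      rcases mul_eq_zero.mp e2 with h | h
      · exact absurd h hmR.ne'
      · exact h
    have h' : (q : R) * x 1 + 2 * (r : R) * x 3 = 0 := pow_eq_zero_iff (two_ne_zero) |>.mp this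
    rw [x3, mul_zero, add_zero] at h'
    rcases mul_eq_zero.mp h' with h | h
    · exact absurd h hqR.ne'
    · exact h
  have x0 : x 0 = 0 := by
    have : (2 * x 0 + x 1) ^ 2 = 0 := by
      rcases mul_eq_zero.mp e1 with h | h
      · exact absurd h (by positivity)
      · exact h
    have h' : 2 * x 0 + x 1 = 0 := pow_eq_zero_iff (two_ne_zero) |>.mp this
    rw [x1, add_zero] at h'
    rcases mul_eq_zero.mp h' with h | h
    · exact absurd h two_ne_zero
    · exact h
  apply hx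
  funext i
  fin_cases i <;> simp [x0, x1, x2, x3]

/-- The real Gram matrix is positive definite. -/
theorem posDef_gramI {p q m r s : ℤ} (hm : 2 * m = q + 1) (hqs : q * s = r ^ 2 + p)
    (hp : 0 < p) (hq : 0 < q) : ((gramI p m r s).map (Int.cast : ℤ → ℝ)).PosDef := by
  rw [Matrix.posDef_iff_dotProduct_mulVec]
  refine ⟨?_, fun x hx => ?_⟩
  · have h := gramI_isSymm p m r s
    rw [Matrix.IsHermitian, Matrix.conjTranspose_eq_transpose_of_trivial, ← Matrix.transpose_map,
      h.eq]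
  · simpa using quadForm_gramI_pos (R := ℝ) hm hqs hp hq x hx

/-- Parameters for `p ≡ 3 mod 4`. -/
theorem exists_params_of_three {p : ℕ} (hp4 : p % 4 = 3) :
    ∃ q m r s : ℤ, 0 < q ∧ 2 * m = q + 1 ∧ Even m ∧ q * s = r ^ 2 + (p : ℤ) := by
  obtain ⟨k, hk⟩ : ∃ k : ℕ, p = 4 * k + 3 := ⟨p / 4, by omega⟩
  refine ⟨(p : ℤ), 2 * ((k : ℤ) + 1), 0, 1, ?_, ?_, ⟨(k : ℤ) + 1, by ring⟩, by ring⟩
  · have : 0 < p := by omega
    exact_mod_cast this
  · subst hk
    push_cast
    ring

/-- A prime `q ≡ 3 mod 4` with `-p` a square mod `q`, for a prime `p ≡ 1 mod 4`. -/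
theorem exists_aux_prime {p : ℕ} (hp : p.Prime) (hp4 : p % 4 = 1) :
    ∃ q : ℕ, q.Prime ∧ q % 4 = 3 ∧ IsSquare (-(p : ZMod q)) := by
  have : Fact p.Prime := ⟨hp⟩
  have hp2 : p ≠ 2 := by
    rintro rfl
    omega
  -- a nonsquare mod p
  obtain ⟨a, ha⟩ : ∃ a : ZMod p, ¬IsSquare a :=
    FiniteField.exists_nonsquare (by rw [ZMod.ringChar_zmod_n]; exact hp2)
  have ha0 : a ≠ 0 := by
    rintro rfl
    exact ha (IsSquare.zero)
  -- coprimality of 4 and p
  have hcop : Nat.Coprime p 4 := by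
    have : Nat.Coprime p 2 := (Nat.Prime.coprime_iff_not_dvd hp).mpr (by
      intro h
      exact hp2 ((Nat.prime_dvd_prime_iff_eq hp Nat.prime_two).mp h))
    have h4 : (4 : ℕ) = 2 ^ 2 := by norm_num
    rw [h4]
    exact Nat.Coprime.pow_right 2 this
  -- CRT
  obtain ⟨c, hc4, hcp⟩ := Nat.chineseRemainder hcop.symm 3 a.val
  have hc4' : Nat.Coprime c 4 := by
    have := hc4.gcd_eq
    rw [Nat.Coprime, this]
    norm_num
  have haval : Nat.Coprime a.val p := by
    rw [Nat.coprime_comm]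
    refine (Nat.Prime.coprime_iff_not_dvd hp).mpr ?_
    intro hdvd
    apply ha0
    have := (ZMod.natCast_eq_zero_iff a.val p).mpr hdvd
    rwa [ZMod.natCast_zmod_val] at this
  have hcp' : Nat.Coprime c p := by
    have := hcp.gcd_eq
    rw [Nat.Coprime, this]
    exact haval
  have hc : Nat.Coprime c (4 * p) := Nat.Coprime.mul_right hc4' hcp'
  obtain ⟨q, hqgt, hq, hqc⟩ :=
    Nat.forall_exists_prime_gt_and_modEq 2 (q := 4 * p) (a := c)
      (by have := hp.pos; omega) hc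
  have : Fact q.Prime := ⟨hq⟩
  have hq4 : q ≡ 3 [MOD 4] := ((hqc.of_mul_right p).trans hc4)
  have hqp : q ≡ a.val [MOD p] := ((hqc.of_mul_left 4).trans hcp)
  have hq43 : q % 4 = 3 := by
    have := hq4
    unfold Nat.ModEq at this
    omega
  have hq2 : q ≠ 2 := by omega
  refine ⟨q, hq, hq43, ?_⟩
  -- q is a nonsquare mod p
  have hqa : (q : ZMod p) = a := by
    have := (ZMod.natCast_eq_natCast_iff q a.val p).mpr hqp
    rwa [ZMod.natCast_zmod_val] at this
  have hq_nsq : ¬IsSquare (q : ZMod p) := by rwa [hqa]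
  -- so p is a nonsquare mod q
  have hp_nsq : ¬IsSquare (p : ZMod q) := by
    rwa [← ZMod.exists_sq_eq_prime_iff_of_mod_four_eq_one hp4 hq2]
  -- -1 is a nonsquare mod q
  have hneg_nsq : ¬IsSquare (-1 : ZMod q) := by
    rw [ZMod.exists_sq_eq_neg_one_iff]
    simp [hq43]
  -- so -p is a square mod q
  have hpq0 : (p : ZMod q) ≠ 0 := by
    intro h
    apply hp_nsq
    rw [h]
    exact IsSquare.zero
  have h1 := quadraticChar_neg_one_iff_not_isSquare.mpr hp_nsq
  have h2 := quadraticChar_neg_one_iff_not_isSquare.mpr hneg_nsq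
  have h3 : quadraticChar (ZMod q) (-(p : ZMod q)) = 1 := by
    have : -(p : ZMod q) = (-1) * (p : ZMod q) := by ring
    rw [this, map_mul, h1, h2]
    norm_num
  exact (quadraticChar_one_iff_isSquare (neg_ne_zero.mpr hpq0)).mp h3

/-- Parameters for `p ≡ 1 mod 4`. -/
theorem exists_params_of_one {p : ℕ} (hp : p.Prime) (hp4 : p % 4 = 1) :
    ∃ q m r s : ℤ, 0 < q ∧ 2 * m = q + 1 ∧ Even m ∧ q * s = r ^ 2 + (p : ℤ) := by
  obtain ⟨q, hq, hq4, y, hy⟩ := exists_aux_prime hp hp4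
  have : Fact q.Prime := ⟨hq⟩
  obtain ⟨k, hk⟩ : ∃ k : ℕ, q = 4 * k + 3 := ⟨q / 4, by omega⟩
  have hdvd : (q : ℤ) ∣ (y.val : ℤ) ^ 2 + (p : ℤ) := by
    rw [← ZMod.intCast_zmod_eq_zero_iff_dvd]
    push_cast
    rw [ZMod.natCast_zmod_val, pow_two, ← hy]
    ring
  obtain ⟨s, hs⟩ := hdvd
  refine ⟨(q : ℤ), 2 * ((k : ℤ) + 1), (y.val : ℤ), s, ?_, ?_, ⟨(k : ℤ) + 1, by ring⟩, hs.symm⟩
  · exact_mod_cast hq.pos
  · subst hk
    push_cast
    ring

theorem exists_params {p : ℕ} (hp : p.Prime) (hp2 : p ≠ 2) :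
    ∃ q m r s : ℤ, 0 < q ∧ 2 * m = q + 1 ∧ Even m ∧ q * s = r ^ 2 + (p : ℤ) := by
  have hodd : p % 2 = 1 := by
    rcases hp.eq_two_or_odd with h | h
    · exact absurd h hp2
    · exact h
  have : p % 4 = 1 ∨ p % 4 = 3 := by omega
  rcases this with h | h
  · exact exists_params_of_one hp h
  · exact exists_params_of_three h

/-- **Main export.** For every odd prime `p` there are symmetric integral `4 × 4` matrices `A`, `B`
with even diagonals, `A` positive definite (over `ℝ`), `det A = p^2` and `A * B = B * A = p • 1`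
(so `A` is the Gram matrix of an even quaternary lattice of determinant `p^2` and level `p`). -/
theorem exists_gram {p : ℕ} (hp : p.Prime) (hp2 : p ≠ 2) :
    ∃ A B : Matrix (Fin 4) (Fin 4) ℤ,
      A.IsSymm ∧ B.IsSymm ∧ (A.map (Int.cast : ℤ → ℝ)).PosDef ∧
        (∀ i, Even (A i i)) ∧ (∀ i, Even (B i i)) ∧ A.det = (p : ℤ) ^ 2 ∧
          A * B = (p : ℤ) • (1 : Matrix (Fin 4) (Fin 4) ℤ) ∧
            B * A = (p : ℤ) • (1 : Matrix (Fin 4) (Fin 4) ℤ) := by
  obtain ⟨q, m, r, s, hq, hm, hme, hqs⟩ := exists_params hp hp2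
  have hp0 : (0 : ℤ) < (p : ℤ) := by exact_mod_cast hp.pos
  exact ⟨gramI p m r s, cogramI p q m r s, gramI_isSymm _ _ _ _, cogramI_isSymm _ _ _ _ _,
    posDef_gramI hm hqs hp0 hq, even_diag_gramI hme, even_diag_cogramI hme, det_gramI hm hqs,
    gramI_mul_cogramI hm hqs, cogramI_mul_gramI hm hqs⟩

/-- Variant with the explicit shape, for consumers who want the actual entries. -/
theorem exists_gramI {p : ℕ} (hp : p.Prime) (hp2 : p ≠ 2) :
    ∃ q m r s : ℤ, 0 < q ∧ 2 * m = q + 1 ∧ Even m ∧ q * s = r ^ 2 + (p : ℤ) ∧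
      ((gramI p m r s).map (Int.cast : ℤ → ℝ)).PosDef ∧ (gramI p m r s).det = (p : ℤ) ^ 2 ∧
        gramI p m r s * cogramI p q m r s = (p : ℤ) • (1 : Matrix (Fin 4) (Fin 4) ℤ) := by
  obtain ⟨q, m, r, s, hq, hm, hme, hqs⟩ := exists_params hp hp2
  have hp0 : (0 : ℤ) < (p : ℤ) := by exact_mod_cast hp.pos
  exact ⟨q, m, r, s, hq, hm, hme, hqs, posDef_gramI hm hqs hp0 hq, det_gramI hm hqs,
    gramI_mul_cogramI hm hqs⟩

end Fermat.Agent.S16.Lattice47

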