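/-
S16 / (U)-A  LEMMA T, pure-algebra core (helper10).

Setting: `R` a commutative ring, `I` an ideal, `p` a prime with inverse `u` in `R`,
`a t : ℕ → R` the `q`-coefficients of `G` (weight 2, level `p`) and of `Δ`.
Hypotheses (coefficient identities, supplied by `Tr(G·Δ∣α) = 0`, `T_p Δ = τ(p) Δ`):
  (T) `t p * coeff n (G Δ) - coeff n (G · U_p Δ) - u * coeff (n p) ((U_p G) · Δ) = 0`  (n = 1, p)
  (H) `t (p·p) = t p · t p - p^11 · t 1`,  `t 1 = 1`.
Conclusion: if `a 0 ≡ 1` and `a n ≡ 0 (n ≥ 1)` mod `I` then `p + 1 ∈ I` and `t p ∈ I`.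
-/
import Mathlib

set_option autoImplicit false

namespace Fermat.Agent.S16.LemmaT10

open PowerSeries

variable {R : Type*} [CommRing R]

/-- `U_p` on coefficient sequences (`n ↦ a (n * p)`, the shape of the Prelude `coeffHeckeU`). -/
def uSeq (p : ℕ) (a : ℕ → R) : ℕ → R := fun n => a (n * p)

theorem map_mk {S : Type*} [CommRing S] (f : R →+* S) (a : ℕ → R) :
    PowerSeries.map f (PowerSeries.mk a) = PowerSeries.mk (fun n => f (a n)) := by
  ext n; simp

theorem map_coeff_mk_mul_mk {S : Type*} [CommRing S] (f : R →+* S) (a b : ℕ → R) (n : ℕ) :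
    f ((PowerSeries.mk a * PowerSeries.mk b).coeff n) =
      (PowerSeries.mk (fun m => f (a m)) * PowerSeries.mk (fun m => f (b m))).coeff n := by
  rw [← PowerSeries.coeff_map, RingHom.map_mul (PowerSeries.map f), map_mk, map_mk]

/-- If `a 0 = 1` and `a n = 0` for `n ≥ 1` then `mk a = 1`. -/
theorem mk_eq_one {a : ℕ → R} (h0 : a 0 = 1) (hn : ∀ n, 1 ≤ n → a n = 0) :
    PowerSeries.mk a = 1 := by
  ext n
  rcases Nat.eq_zero_or_pos n with rfl | hpos
  · simp [h0]
  · rw [PowerSeries.coeff_mk, hn n hpos, PowerSeries.coeff_one, if_neg (by omega)]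

/-- The trace relation, at index `n`. -/
def TraceRel (p : ℕ) (u : R) (a t : ℕ → R) (n : ℕ) : Prop :=
  t p * (PowerSeries.mk a * PowerSeries.mk t).coeff n
    - (PowerSeries.mk a * PowerSeries.mk (uSeq p t)).coeff n
    - u * (PowerSeries.mk (uSeq p a) * PowerSeries.mk t).coeff (n * p) = 0

/-- The core in the quotient: `G = 1`. -/
theorem core_of_eq_one {p : ℕ} (hp : p.Prime) (u : R) (hu : u * (p : R) = 1)
    (a t : ℕ → R) (t1 : t 1 = 1)
    (hH : t (p * p) = t p * t p - (p : R) ^ 11 * t 1)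
    (hT1 : TraceRel p u a t 1) (hTp : TraceRel p u a t p)
    (h0 : a 0 = 1) (hn : ∀ n, 1 ≤ n → a n = 0) :
    (p : R) + 1 = 0 ∧ t p = 0 := by
  have hp2 : 2 ≤ p := hp.two_le
  have hG : PowerSeries.mk a = 1 := mk_eq_one h0 hn
  have hUG : PowerSeries.mk (uSeq p a) = 1 := by
    apply mk_eq_one
    · simp [uSeq, h0]
    · intro n hn1
      exact hn _ (Nat.mul_pos hn1 (by omega))
  unfold TraceRel at hT1 hTp
  rw [hG, hUG] at hT1 hTp
  simp only [one_mul, PowerSeries.coeff_mk, uSeq] at hT1 hTp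
  rw [t1] at hT1
  have htp : t p = 0 := by
    have h : u * t p = 0 := by linear_combination (-1 : R) * hT1
    have := congrArg (fun x => (p : R) * x) h
    simp only [mul_zero] at this
    rw [← mul_assoc, mul_comm (p : R) u, hu, one_mul] at this
    exact this
  refine ⟨?_, htp⟩
  rw [hH, t1, htp] at hTp
  -- hTp : 0 * (0*0 - p^11*1) ... careful: first factor is t p = 0
  have h2 : (p : R) ^ 11 * (1 + u) = 0 := by linear_combination hTp
  have h3 : 1 + u = 0 := by
    have := congrArg (fun x => u ^ 11 * x) h2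
    simp only [mul_zero] at this
    have hpu11 : u ^ 11 * (p : R) ^ 11 = 1 := by
      rw [← mul_pow, hu, one_pow]
    rw [← mul_assoc, hpu11, one_mul] at this
    exact this
  have := congrArg (fun x => (p : R) * x) h3
  simp only [mul_zero, mul_add, mul_one] at this
  rw [mul_comm (p : R) u, hu] at this
  exact this

/-- **Lemma T, algebra core.** -/
theorem core {p : ℕ} (hp : p.Prime) (I : Ideal R) (u : R) (hu : u * (p : R) = 1)
    (a t : ℕ → R) (t1 : t 1 = 1)
    (hH : t (p * p) = t p * t p - (p : R) ^ 11 * t 1)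
    (hT1 : TraceRel p u a t 1) (hTp : TraceRel p u a t p)
    (h0 : a 0 - 1 ∈ I) (hn : ∀ n, 1 ≤ n → a n ∈ I) :
    (p : R) + 1 ∈ I ∧ t p ∈ I := by
  let f : R →+* R ⧸ I := Ideal.Quotient.mk I
  have tr : ∀ n, TraceRel p u a t n →
      TraceRel p (f u) (fun n => f (a n)) (fun n => f (t n)) n := by
    intro n h
    unfold TraceRel at h ⊢
    have := congrArg f h
    rw [map_zero, RingHom.map_sub f, RingHom.map_sub f, RingHom.map_mul f, RingHom.map_mul f,
      map_coeff_mk_mul_mk, map_coeff_mk_mul_mk, map_coeff_mk_mul_mk] at this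
    exact this
  have key := core_of_eq_one (R := R ⧸ I) hp (f u)
    (by rw [← map_natCast f, ← map_mul, hu, map_one])
    (fun n => f (a n)) (fun n => f (t n)) (by simp [t1])
    (by
      have := congrArg f hH
      simpa using this)
    (tr 1 hT1) (tr p hTp)
    (by
      have : f (a 0 - 1) = 0 := Ideal.Quotient.eq_zero_iff_mem.mpr h0
      rw [map_sub, map_one, sub_eq_zero] at this
      exact this)
    (fun n hn1 => Ideal.Quotient.eq_zero_iff_mem.mpr (hn n hn1))
  constructor
  · apply Ideal.Quotient.eq_zero_iff_mem.mp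
    rw [map_add, map_natCast, map_one]
    exact key.1
  · exact Ideal.Quotient.eq_zero_iff_mem.mp key.2

end Fermat.Agent.S16.LemmaT10
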