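/-
S16, package (U)-A = LEMMA T, the trace identity (helper10).

For `G ∈ M₂(Γ₀(p))` (`p` prime) we build the level-one form of weight 14
  `Ψ = ∑_a (G ∣ γ_a) · (Δ ∣ α_a)`   (`γ_a` the coset representatives of `Γ₀(p)` in `SL₂(ℤ)`,
  `α_a` the Hecke representatives of determinant `p`),
i.e. `Tr(G · Δ ∣ diag(p,1))`, show `Ψ = G · (τ(p) Δ − U_p Δ) − p⁻¹ U_p((U_p G) · Δ)` using the
weight-two relation `w1 : (G ∣ S)(w) = −p⁻¹ (U_p G)(w / p)` (proved from `Tr(fW G) = 0`, helper53's
Fricke transform) and `T_p Δ = τ(p) Δ`; since `S₁₄(SL₂ ℤ) = 0`, `Ψ = 0`, which gives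
`traceRel` (all coefficients), `traceIds : LemmaT72.TraceIds p (qCoeff G)` and finally
`u1 : UIface39.U1Stmt` via helper72's algebraic core.
-/
import Mathlib
import Fermat.Prelude.Def_ModularForm_HeckeOperator
import Fermat.Prelude.Def_FLTPrelim_Modularity
import Fermat.Prelude.Thm_UpperHalfPlane_qCoeff_heckeU
import Fermat.Prelude.Thm_UpperHalfPlane_qCoeff_heckeT
import Fermat.Prelude.Sol.S_ModularForm_heckeT_slash_eq_self_of_mem_Gamma0
import Fermat.Prelude.Thm_ModularForm_periodic_heckeU_comp_ofComplex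
import Fermat.Prelude.Thm_ModularForm_mdifferentiable_heckeU
import Fermat.Prelude.Thm_ModularForm_isBoundedAtImInfty_heckeU
import Fermat.Prelude.Thm_ModularForm_periodic_heckeT_comp_ofComplex
import Fermat.Prelude.Thm_ModularForm_mdifferentiable_heckeT
import Fermat.Prelude.Thm_ModularForm_isBoundedAtImInfty_heckeT
import Fermat.Prelude.Thm_ModularForm_heckeT_slash_eq_self_of_mem_Gamma0
import Fermat.Prelude.Thm_CongruenceSubgroup_one_mem_strictPeriods_Gamma0
import Fermat.Agent.S16.Conj53.Fricke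
import Fermat.Agent.S16.LemmaT10Core
import Fermat.Agent.S16.LemmaT72Core

set_option autoImplicit false

open UpperHalfPlane ModularForm CongruenceSubgroup ModularGroup Matrix.SpecialLinearGroup
open scoped MatrixGroups ModularForm Manifold

namespace Fermat.Agent.S16.LemmaT10

open P2MW.S_ModularForm_heckeT_slash_eq_self_of_mem_Gamma0.ModularForm.HeckeSlashInvariance
open Fermat.Agent.S16.Conj53

variable {p : ℕ} [hp : Fact p.Prime]

/-- The Hecke coset representatives, indexed as helper53's conjugates. -/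
noncomputable def hrep (p : ℕ) : Option (ZMod p) → GL (Fin 2) ℝ
  | none => heckeDiagMatrix p
  | some j => heckeMatrix p j.val

omit hp in
theorem coe_S_apply : ((S : SL(2, ℤ)) 0 0 = 0) ∧ ((S : SL(2, ℤ)) 0 1 = -1) ∧
    ((S : SL(2, ℤ)) 1 0 = 1) ∧ ((S : SL(2, ℤ)) 1 1 = 0) := by
  refine ⟨?_, ?_, ?_, ?_⟩ <;> simp [coe_S]

omit hp in
theorem coe_T_apply : ((T : SL(2, ℤ)) 0 0 = 1) ∧ ((T : SL(2, ℤ)) 0 1 = 1) ∧
    ((T : SL(2, ℤ)) 1 0 = 0) ∧ ((T : SL(2, ℤ)) 1 1 = 1) := by
  refine ⟨?_, ?_, ?_, ?_⟩ <;> simp [coe_T]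

/-- `α_a · S = γ · α_{σ_S a}` with `γ ∈ SL(2,ℤ)`, lower-left entry of `γ` divisible by `p`
unless `a ∈ {∞, 0}`. -/
theorem hrep_mul_S (a : Option (ZMod p)) :
    ∃ g' : SL(2, ℤ), hrep p a * mapGL ℝ S = mapGL ℝ g' * hrep p (sigmaS a) := by
  have hp0 : p ≠ 0 := hp.out.ne_zero
  obtain ⟨s00, s01, s10, s11⟩ := coe_S_apply
  cases a with
  | none =>
    obtain ⟨g', _, h⟩ := heckeDiagMatrix_mul_of_eq hp0 S 0 0 (by rw [s11, s10]; simp)
    refine ⟨g', ?_⟩
    simpa [hrep, sigmaS, sigmaSFun] using h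
  | some j =>
    by_cases hj : j = 0
    · subst hj
      obtain ⟨g', _, h⟩ := heckeMatrix_mul_of_eq' hp0 S 0 0 (by rw [s00, s10]; simp)
      refine ⟨g', ?_⟩
      simpa [hrep, sigmaS, sigmaSFun] using h
    · have hdvd : (p : ℤ) ∣ (j.val : ℤ) * ((-j⁻¹ : ZMod p).val : ℤ) + 1 := by
        rw [← ZMod.intCast_zmod_eq_zero_iff_dvd]
        push_cast
        rw [ZMod.natCast_zmod_val, ZMod.natCast_zmod_val, mul_neg, mul_inv_cancel₀ hj]
        ring
      obtain ⟨e, he⟩ := hdvd
      obtain ⟨g', _, h⟩ := heckeMatrix_mul_of_eq hp0 S j.val (-j⁻¹ : ZMod p).val (-e)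
        (by rw [s00, s01, s10, s11]; linear_combination (-1 : ℤ) * he)
      refine ⟨g', ?_⟩
      simpa [hrep, sigmaS, sigmaSFun, hj] using h

theorem hrep_mul_T (a : Option (ZMod p)) :
    ∃ g' : SL(2, ℤ), hrep p a * mapGL ℝ T = mapGL ℝ g' * hrep p (sigmaT a) := by
  have hp0 : p ≠ 0 := hp.out.ne_zero
  obtain ⟨t00, t01, t10, t11⟩ := coe_T_apply
  cases a with
  | none =>
    obtain ⟨g', _, h⟩ := heckeDiagMatrix_mul_of_eq' hp0 T 0 (by rw [t10]; simp)
    refine ⟨g', ?_⟩
    simpa [hrep, sigmaT] using h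
  | some j =>
    have hdvd : (p : ℤ) ∣ (j.val : ℤ) + 1 - ((j + 1 : ZMod p).val : ℤ) := by
      rw [← ZMod.intCast_zmod_eq_zero_iff_dvd]
      push_cast
      rw [ZMod.natCast_zmod_val, ZMod.natCast_zmod_val]
      ring
    obtain ⟨e, he⟩ := hdvd
    obtain ⟨g', _, h⟩ := heckeMatrix_mul_of_eq hp0 T j.val (j + 1 : ZMod p).val e
      (by rw [t00, t01, t10, t11]; linear_combination he)
    refine ⟨g', ?_⟩
    simpa [hrep, sigmaT] using h


/-! ### Families permuted by `S`, `T` -/

omit hp in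
theorem discriminant_slash_mapGL (γ : SL(2, ℤ)) :
    (discriminant : ℍ → ℂ) ∣[(12 : ℤ)] (mapGL ℝ γ) = discriminant := by
  have := SlashInvariantFormClass.slash_action_eq CuspForm.discriminant (mapGL ℝ γ) ⟨γ, rfl⟩
  simpa [CuspForm.coe_discriminant] using this

/-- `F ∣ α_a` for a level-one invariant function `F`. -/
noncomputable def fam (k : ℤ) (F : ℍ → ℂ) (a : Option (ZMod p)) : ℍ → ℂ := F ∣[k] hrep p a

theorem fam_slash_S (k : ℤ) (F : ℍ → ℂ) (hF : ∀ γ : SL(2, ℤ), F ∣[k] (mapGL ℝ γ) = F)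
    (a : Option (ZMod p)) : fam k F a ∣[k] S = fam k F (sigmaS a) := by
  obtain ⟨g', h⟩ := hrep_mul_S (p := p) a
  unfold fam
  rw [SL_slash]
  change (F ∣[k] hrep p a) ∣[k] (mapGL ℝ S) = _
  rw [← SlashAction.slash_mul, h, SlashAction.slash_mul, hF]

theorem fam_slash_T (k : ℤ) (F : ℍ → ℂ) (hF : ∀ γ : SL(2, ℤ), F ∣[k] (mapGL ℝ γ) = F)
    (a : Option (ZMod p)) : fam k F a ∣[k] T = fam k F (sigmaT a) := by
  obtain ⟨g', h⟩ := hrep_mul_T (p := p) a
  unfold fam
  rw [SL_slash]
  change (F ∣[k] hrep p a) ∣[k] (mapGL ℝ T) = _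
  rw [← SlashAction.slash_mul, h, SlashAction.slash_mul, hF]

/-- The product family `conj G a · (Δ ∣ α_a)`. -/
noncomputable def psiFam (G : ModularForm (Gamma0 p) 2) (a : Option (ZMod p)) : ℍ → ℂ :=
  conj G a * fam (12 : ℤ) discriminant a

theorem psiFam_slash_S (G : ModularForm (Gamma0 p) 2) (a : Option (ZMod p)) :
    psiFam G a ∣[(14 : ℤ)] S = psiFam G (sigmaS a) := by
  unfold psiFam
  rw [show (14 : ℤ) = 2 + 12 by norm_num, mul_slash_SL2, conj_slash_S,
    fam_slash_S 12 _ discriminant_slash_mapGL]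

theorem psiFam_slash_T (G : ModularForm (Gamma0 p) 2) (a : Option (ZMod p)) :
    psiFam G a ∣[(14 : ℤ)] T = psiFam G (sigmaT a) := by
  unfold psiFam
  rw [show (14 : ℤ) = 2 + 12 by norm_num, mul_slash_SL2, conj_slash_T,
    fam_slash_T 12 _ discriminant_slash_mapGL]

/-- `Ψ = ∑_a conj G a · (Δ ∣ α_a)`. -/
noncomputable def psiFun (G : ModularForm (Gamma0 p) 2) : ℍ → ℂ := ∑ a, psiFam G a

theorem psiFun_slash_S (G : ModularForm (Gamma0 p) 2) : psiFun G ∣[(14 : ℤ)] S = psiFun G := by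
  unfold psiFun
  rw [SL_slash, SlashAction.sum_slash]
  simp_rw [← SL_slash, psiFam_slash_S]
  exact Equiv.sum_comp sigmaS (psiFam G)

theorem psiFun_slash_T (G : ModularForm (Gamma0 p) 2) : psiFun G ∣[(14 : ℤ)] T = psiFun G := by
  unfold psiFun
  rw [SL_slash, SlashAction.sum_slash]
  simp_rw [← SL_slash, psiFam_slash_T]
  exact Equiv.sum_comp sigmaT (psiFam G)

theorem psiFun_slash (G : ModularForm (Gamma0 p) 2) (γ : SL(2, ℤ)) :
    psiFun G ∣[(14 : ℤ)] γ = psiFun G :=
  SlashInvariantForm.slash_action_generators_SL2Z (psiFun_slash_S G) (psiFun_slash_T G) γ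


/-! ### `Ψ` as a level-one modular form of weight 14 -/

omit hp in
theorem discriminant_mdiff : MDiff (discriminant : ℍ → ℂ) := by
  have := ModularFormClass.holo CuspForm.discriminant
  simpa [CuspForm.coe_discriminant] using this

omit hp in
theorem discriminant_bdd : IsBoundedAtImInfty (discriminant : ℍ → ℂ) :=
  discriminant_isZeroAtImInfty.isBoundedAtImInfty

theorem hrep_one_zero (a : Option (ZMod p)) :
    ((hrep p a : GL (Fin 2) ℝ) : Matrix (Fin 2) (Fin 2) ℝ) 1 0 = 0 := by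
  have hp0 : p ≠ 0 := hp.out.ne_zero
  cases a with
  | none => simp [hrep, val_heckeDiagMatrix hp0]
  | some j => simp [hrep, val_heckeMatrix hp0]

theorem psiFam_mdiff (G : ModularForm (Gamma0 p) 2) (a : Option (ZMod p)) : MDiff (psiFam G a) := by
  unfold psiFam fam
  exact (conj_mdiff G a).mul (discriminant_mdiff.slash 12 _)

theorem psiFam_bdd (G : ModularForm (Gamma0 p) 2) (a : Option (ZMod p)) :
    IsBoundedAtImInfty (psiFam G a) := by
  unfold psiFam fam
  exact (conj_bdd G a).mul (discriminant_bdd.slash 12 (hrep_one_zero a))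

theorem psiFun_mdiff (G : ModularForm (Gamma0 p) 2) : MDiff (psiFun G) := by
  unfold psiFun
  exact MDifferentiable.sum fun a _ => psiFam_mdiff G a

theorem psiFun_bdd (G : ModularForm (Gamma0 p) 2) : IsBoundedAtImInfty (psiFun G) := by
  unfold psiFun
  rw [IsBoundedAtImInfty, Filter.BoundedAtFilter, Finset.sum_fn]
  exact Asymptotics.IsBigO.fun_sum fun a _ => psiFam_bdd G a

/-- `Ψ` as a level-one modular form of weight 14. -/
noncomputable def psiForm (G : ModularForm (Gamma0 p) 2) : ModularForm 𝒮ℒ 14 where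
  toFun := psiFun G
  slash_action_eq' A hA := by
    obtain ⟨A, rfl⟩ := hA
    exact psiFun_slash G A
  holo' := psiFun_mdiff G
  bdd_at_cusps' hc := by
    rw [Subgroup.IsArithmetic.isCusp_iff_isCusp_SL2Z] at hc
    rw [OnePoint.isBoundedAt_iff_forall_SL2Z hc]
    intro γ _
    rw [psiFun_slash]
    exact psiFun_bdd G

@[simp] theorem psiForm_apply (G : ModularForm (Gamma0 p) 2) (z : ℍ) :
    psiForm G z = psiFun G z := rfl


/-! ### Nice functions: 1-periodic, holomorphic, bounded at `i∞` -/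

/-- 1-periodic, holomorphic and bounded at `i∞`. -/
structure Nice (f : ℍ → ℂ) : Prop where
  per : Function.Periodic (f ∘ ofComplex) 1
  holo : MDiff f
  bdd : IsBoundedAtImInfty f

omit hp in
theorem Nice.analytic {f : ℍ → ℂ} (hf : Nice f) : AnalyticAt ℂ (cuspFunction 1 f) 0 :=
  analyticAt_cuspFunction_zero one_pos hf.per hf.holo hf.bdd

omit hp in
theorem Nice.mul {f g : ℍ → ℂ} (hf : Nice f) (hg : Nice g) : Nice (f * g) where
  per := by
    have : (f * g) ∘ ofComplex = (f ∘ ofComplex) * (g ∘ ofComplex) := rfl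
    rw [this]
    exact hf.per.mul hg.per
  holo := hf.holo.mul hg.holo
  bdd := hf.bdd.mul hg.bdd

omit hp in
theorem Nice.heckeU {f : ℍ → ℂ} (hf : Nice f) (k : ℤ) (p : ℕ) : Nice (heckeU k p f) where
  per := ModularForm.periodic_heckeU_comp_ofComplex hf.per k p
  holo := ModularForm.mdifferentiable_heckeU hf.holo k p
  bdd := ModularForm.isBoundedAtImInfty_heckeU hf.bdd k p

omit hp in
theorem nice_discriminant : Nice (discriminant : ℍ → ℂ) where
  per := by
    have := SlashInvariantFormClass.periodic_comp_ofComplex CuspForm.discriminant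
      one_mem_strictPeriods_SL
    simpa [CuspForm.coe_discriminant] using this
  holo := discriminant_mdiff
  bdd := discriminant_bdd

theorem nice_of_form {k : ℤ} (G : ModularForm (Gamma0 p) k) : Nice (G : ℍ → ℂ) where
  per := SlashInvariantFormClass.periodic_comp_ofComplex G
    (CongruenceSubgroup.one_mem_strictPeriods_Gamma0 p)
  holo := ModularFormClass.holo G
  bdd := by
    have : NeZero p := ⟨hp.out.ne_zero⟩
    have := ModularFormClass.bdd_at_infty_slash G (1 : SL(2, ℤ))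
    simpa using this

omit hp in
theorem qCoeff_mul {f g : ℍ → ℂ} (hf : Nice f) (hg : Nice g) (n : ℕ) :
    ModularFormClass.qCoeff (f * g) n =
      (PowerSeries.mk (ModularFormClass.qCoeff f) * PowerSeries.mk (ModularFormClass.qCoeff g)).coeff n := by
  unfold ModularFormClass.qCoeff
  rw [qExpansion_mul hf.analytic hg.analytic]
  congr 2 <;> ext m <;> simp


/-! ### `T_p Δ = τ(p) Δ` -/

/-- `τ(n)`, the `q`-coefficients of `Δ`. -/
noncomputable def tau (n : ℕ) : ℂ := ModularFormClass.qCoeff (discriminant : ℍ → ℂ) n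

omit hp in
theorem tau_zero : tau 0 = 0 := by
  unfold tau ModularFormClass.qCoeff
  exact PowerSeries.coeff_of_lt_order 0 (by rw [discriminant_qExpansion_order]; exact zero_lt_one)

omit hp in
theorem tau_one : tau 1 = 1 := by
  unfold tau ModularFormClass.qCoeff
  exact discriminant_qExpansion_coeff_one

theorem heckeT_discriminant_slash (γ : SL(2, ℤ)) :
    heckeT 12 p (discriminant : ℍ → ℂ) ∣[(12 : ℤ)] γ = heckeT 12 p discriminant := by
  rw [SL_slash]
  refine ModularForm.heckeT_slash_eq_self_of_mem_Gamma0 (N := 1) 12 hp.out ?_ ?_ _ ?_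
  · intro h
    exact hp.out.one_lt.ne' (Nat.dvd_one.mp h)
  · rintro _ ⟨γ', _, rfl⟩
    exact discriminant_slash_mapGL γ'
  · exact ⟨γ, (Gamma0_mem.mpr (Subsingleton.elim _ _) : γ ∈ Gamma0 1), rfl⟩

/-- `T_p Δ` as a level-one modular form. -/
noncomputable def tpDelta (p : ℕ) [Fact p.Prime] : ModularForm 𝒮ℒ 12 where
  toFun := heckeT 12 p discriminant
  slash_action_eq' A hA := by
    obtain ⟨A, rfl⟩ := hA
    exact heckeT_discriminant_slash A
  holo' := ModularForm.mdifferentiable_heckeT discriminant_mdiff 12 p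
  bdd_at_cusps' hc := by
    rw [Subgroup.IsArithmetic.isCusp_iff_isCusp_SL2Z] at hc
    rw [OnePoint.isBoundedAt_iff_forall_SL2Z hc]
    intro γ _
    rw [heckeT_discriminant_slash]
    exact ModularForm.isBoundedAtImInfty_heckeT discriminant_bdd 12 p

theorem qCoeff_heckeT_discriminant (n : ℕ) :
    ModularFormClass.qCoeff (heckeT 12 p (discriminant : ℍ → ℂ)) n = coeffHeckeT 12 p tau n :=
  UpperHalfPlane.qCoeff_heckeT nice_discriminant.per nice_discriminant.holo nice_discriminant.bdd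
    12 hp.out.ne_zero n

theorem heckeT_discriminant :
    heckeT 12 p (discriminant : ℍ → ℂ) = tau p • (discriminant : ℍ → ℂ) := by
  have h0 : (qExpansion 1 (tpDelta p)).coeff 0 = 0 := by
    have := qCoeff_heckeT_discriminant (p := p) 0
    unfold ModularFormClass.qCoeff at this
    rw [show (tpDelta p : ℍ → ℂ) = heckeT 12 p discriminant from rfl, this, coeffHeckeT_apply]
    simp [tau_zero]
  obtain ⟨c, hc⟩ := CuspForm.exists_smul_discriminant_of_weight_eq_twelve (toCuspForm (tpDelta p) h0)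
  have hfun : heckeT 12 p (discriminant : ℍ → ℂ) = c • (discriminant : ℍ → ℂ) := by
    funext z
    have := congrArg (fun f : CuspForm 𝒮ℒ 12 => f z) hc
    simp only [toCuspForm_apply] at this
    rw [show (tpDelta p) z = heckeT 12 p discriminant z from rfl] at this
    rw [← this]
    simp [CuspForm.coe_discriminant]
  have h1 := qCoeff_heckeT_discriminant (p := p) 1
  rw [hfun] at h1
  unfold ModularFormClass.qCoeff at h1
  rw [qExpansion_smul nice_discriminant.analytic, coeffHeckeT_apply] at h1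
  have hnd : ¬ p ∣ 1 := fun h => hp.out.one_lt.ne' (Nat.dvd_one.mp h)
  rw [if_neg hnd, add_zero, one_mul, PowerSeries.coeff_smul] at h1
  have ht1 : (qExpansion 1 (discriminant : ℍ → ℂ)).coeff 1 = 1 := discriminant_qExpansion_coeff_one
  rw [ht1, smul_eq_mul, mul_one] at h1
  rw [hfun, h1]

/-- The Hecke relation for `τ`. -/
theorem tau_hecke (n : ℕ) :
    tau (n * p) + (if p ∣ n then (p : ℂ) ^ (11 : ℤ) * tau (n / p) else 0) = tau p * tau n := by
  have h := qCoeff_heckeT_discriminant (p := p) n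
  rw [heckeT_discriminant] at h
  unfold ModularFormClass.qCoeff at h
  rw [qExpansion_smul nice_discriminant.analytic, PowerSeries.coeff_smul, coeffHeckeT_apply] at h
  rw [smul_eq_mul] at h
  rw [show ((12 : ℤ) - 1) = 11 by norm_num] at h
  exact h.symm


/-! ### The explicit shape of `Ψ` -/

omit hp in
theorem denom_T_zpow (n : ℤ) (z : ℍ) : denom (T ^ n : SL(2, ℤ)) z = 1 := by
  have h10 : ((T ^ n : SL(2, ℤ)) 1 0 : ℤ) = 0 := by rw [coe_T_zpow]; simp
  have h11 : ((T ^ n : SL(2, ℤ)) 1 1 : ℤ) = 1 := by rw [coe_T_zpow]; simp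
  have : denom (T ^ n : SL(2, ℤ)) z = ((((T ^ n : SL(2, ℤ)) 1 0 : ℤ) : ℝ) : ℂ) * z
      + ((((T ^ n : SL(2, ℤ)) 1 1 : ℤ) : ℝ) : ℂ) := rfl
  rw [this, h10, h11]
  simp

omit hp in
theorem slash_T_zpow_apply (f : ℍ → ℂ) (k : ℤ) (n : ℤ) (z : ℍ) :
    (f ∣[k] (T ^ n)) z = f (T ^ n • z) := by
  rw [SL_slash_apply, denom_T_zpow, one_zpow, mul_one]

omit hp in
theorem heckeMatrix_zero_smul_T_pow (hp0 : p ≠ 0) (n : ℕ) (z : ℍ) :
    heckeMatrix p 0 • (T ^ (n : ℤ) • z) = heckeMatrix p n • z := by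
  apply UpperHalfPlane.ext
  rw [coe_heckeMatrix_smul hp0, coe_heckeMatrix_smul hp0, modular_T_zpow_smul, coe_vadd]
  push_cast
  ring

/-- The hypothesis (W1): `G ∣ S` in terms of `U_p G`. -/
def W1 (G : ModularForm (Gamma0 p) 2) : Prop :=
  ∀ w : ℍ, gS G w = -(p : ℂ)⁻¹ * heckeU 2 p G (heckeMatrix p 0 • w)

theorem conj_some_apply (G : ModularForm (Gamma0 p) 2) (hW : W1 G) (j : ZMod p) (z : ℍ) :
    conj G (some j) z = -(p : ℂ)⁻¹ * heckeU 2 p G (heckeMatrix p j.val • z) := by
  have hp0 : p ≠ 0 := hp.out.ne_zero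
  show tr G (j.val : ℤ) z = _
  unfold tr
  rw [slash_T_zpow_apply, hW, heckeMatrix_zero_smul_T_pow hp0]

theorem fam_some_apply (j : ZMod p) (z : ℍ) :
    fam (12 : ℤ) (discriminant : ℍ → ℂ) (some j) z
      = (p : ℂ)⁻¹ * discriminant (heckeMatrix p j.val • z) := by
  have hp0 : p ≠ 0 := hp.out.ne_zero
  show ((discriminant : ℍ → ℂ) ∣[(12 : ℤ)] heckeMatrix p j.val) z = _
  rw [slash_heckeMatrix_apply 12 hp0]

theorem fam_none : fam (12 : ℤ) (discriminant : ℍ → ℂ) (none : Option (ZMod p))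
    = tau p • (discriminant : ℍ → ℂ) - heckeU 12 p discriminant := by
  show (discriminant : ℍ → ℂ) ∣[(12 : ℤ)] heckeDiagMatrix p = _
  rw [← heckeT_discriminant, heckeT_eq_heckeU_add]
  abel

theorem psiFun_eq (G : ModularForm (Gamma0 p) 2) (hW : W1 G) :
    psiFun G = (G : ℍ → ℂ) * (tau p • (discriminant : ℍ → ℂ) - heckeU 12 p discriminant)
      - (p : ℂ)⁻¹ • heckeU 14 p (heckeU 2 p G * discriminant) := by
  have hp0 : p ≠ 0 := hp.out.ne_zero
  have : NeZero p := ⟨hp0⟩
  funext z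
  unfold psiFun
  rw [Finset.sum_apply, Fintype.sum_option]
  simp only [psiFam, Pi.mul_apply, Pi.sub_apply, Pi.smul_apply, smul_eq_mul]
  rw [fam_none]
  simp only [conj_some_apply G hW, fam_some_apply]
  rw [heckeU_apply 14 hp0, sum_range_eq_sum_zmod]
  simp only [Pi.mul_apply, Pi.sub_apply, Pi.smul_apply, smul_eq_mul, conj]
  rw [Finset.mul_sum, Finset.mul_sum]
  have key : ∀ (A B C : ℂ), B = -C → A + B = A - C := by
    intro A B C h; rw [h]; ring
  apply key
  rw [← Finset.sum_neg_distrib]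
  refine Finset.sum_congr rfl fun j _ => ?_
  ring


/-! ### `q`-coefficients -/

omit hp in
theorem Nice.smul {f : ℍ → ℂ} (hf : Nice f) (c : ℂ) : Nice (c • f) where
  per := fun x => by
    have h := hf.per x
    simp only [Function.comp_apply] at h
    show c • f (ofComplex (x + 1)) = c • f (ofComplex x)
    rw [h]
  holo := by
    have : c • f = (fun _ => c) * f := by funext z; simp
    rw [this]
    exact mdifferentiable_const.mul hf.holo
  bdd := Filter.BoundedAtFilter.smul c hf.bdd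

omit hp in
theorem Nice.sub {f g : ℍ → ℂ} (hf : Nice f) (hg : Nice g) : Nice (f - g) where
  per := by
    have : (f - g) ∘ ofComplex = (f ∘ ofComplex) - (g ∘ ofComplex) := rfl
    rw [this]
    exact hf.per.sub hg.per
  holo := hf.holo.sub hg.holo
  bdd := hf.bdd.sub hg.bdd

omit hp in
theorem qCoeff_heckeU_nice {f : ℍ → ℂ} (hf : Nice f) (k : ℤ) {p : ℕ} (hp0 : p ≠ 0) (n : ℕ) :
    ModularFormClass.qCoeff (heckeU k p f) n = ModularFormClass.qCoeff f (n * p) := by
  rw [UpperHalfPlane.qCoeff_heckeU hf.per hf.holo hf.bdd k hp0 n, coeffHeckeU_apply]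

omit hp in
theorem mk_qCoeff (f : ℍ → ℂ) : PowerSeries.mk (ModularFormClass.qCoeff f) = qExpansion 1 f := by
  ext n; simp [ModularFormClass.qCoeff]

theorem qCoeff_psiFun (G : ModularForm (Gamma0 p) 2) (hW : W1 G) (n : ℕ) :
    ModularFormClass.qCoeff (psiFun G) n =
      tau p * (PowerSeries.mk (ModularFormClass.qCoeff (G : ℍ → ℂ)) * PowerSeries.mk tau).coeff n
      - (PowerSeries.mk (ModularFormClass.qCoeff (G : ℍ → ℂ)) *
          PowerSeries.mk (uSeq p tau)).coeff n
      - (p : ℂ)⁻¹ * (PowerSeries.mk (uSeq p (ModularFormClass.qCoeff (G : ℍ → ℂ))) *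
          PowerSeries.mk tau).coeff (n * p) := by
  have hp0 : p ≠ 0 := hp.out.ne_zero
  have hG := nice_of_form G
  have hD := nice_discriminant
  have hUD : Nice (heckeU 12 p (discriminant : ℍ → ℂ)) := hD.heckeU 12 p
  have hUG : Nice (heckeU 2 p (G : ℍ → ℂ)) := hG.heckeU 2 p
  have hmkUD : PowerSeries.mk (uSeq p tau) = qExpansion 1 (heckeU 12 p (discriminant : ℍ → ℂ)) := by
    ext m
    rw [PowerSeries.coeff_mk]
    exact (qCoeff_heckeU_nice hD 12 hp0 m).symm
  have hmkUG : PowerSeries.mk (uSeq p (ModularFormClass.qCoeff (G : ℍ → ℂ)))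
      = qExpansion 1 (heckeU 2 p (G : ℍ → ℂ)) := by
    ext m
    rw [PowerSeries.coeff_mk]
    exact (qCoeff_heckeU_nice hG 2 hp0 m).symm
  have hmkD : PowerSeries.mk tau = qExpansion 1 (discriminant : ℍ → ℂ) := mk_qCoeff _
  rw [psiFun_eq G hW, hmkUD, hmkUG, hmkD, mk_qCoeff]
  unfold ModularFormClass.qCoeff
  rw [qExpansion_sub (hG.mul ((hD.smul _).sub hUD)).analytic
      (((hUG.mul hD).heckeU 14 p).smul _).analytic,
    qExpansion_mul hG.analytic ((hD.smul _).sub hUD).analytic,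
    qExpansion_sub (hD.smul _).analytic hUD.analytic,
    qExpansion_smul hD.analytic,
    qExpansion_smul ((hUG.mul hD).heckeU 14 p).analytic]
  have h14 := qCoeff_heckeU_nice (hUG.mul hD) 14 hp0 n
  unfold ModularFormClass.qCoeff at h14
  rw [map_sub, PowerSeries.coeff_smul, h14, qExpansion_mul hUG.analytic hD.analytic, mul_sub,
    map_sub, mul_smul_comm, PowerSeries.coeff_smul, smul_eq_mul, smul_eq_mul]


/-! ### Level one: vanishing in weights 2 and 14 -/

omit hp in
theorem levelOne_weight_two_apply {k : ℤ} (hk : k = 2) (F : ModularForm 𝒮ℒ k) (z : ℍ) :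
    F z = 0 := by
  subst hk
  rw [rank_zero_iff_forall_zero.mp levelOne_weight_two_rank_zero F]
  rfl

omit hp in
theorem levelOne_weight_fourteen_apply (F : ModularForm 𝒮ℒ 14)
    (h0 : (qExpansion 1 F).coeff 0 = 0) (z : ℍ) : F z = 0 := by
  have h := ModularForm.discriminant_mul_discriminantEquiv_apply (toCuspForm F h0) z
  rw [levelOne_weight_two_apply (by norm_num) _ z, mul_zero, toCuspForm_apply] at h
  exact h.symm

theorem psiFun_eq_zero (G : ModularForm (Gamma0 p) 2) (hW : W1 G) : psiFun G = 0 := by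
  funext z
  have h0 : (qExpansion 1 (psiForm G)).coeff 0 = 0 := by
    show ModularFormClass.qCoeff (psiFun G) 0 = 0
    rw [qCoeff_psiFun G hW 0]
    simp [PowerSeries.coeff_mul, tau_zero, uSeq]
  exact levelOne_weight_fourteen_apply (psiForm G) h0 z

/-- The trace relation for the coefficients of `G`. -/
theorem traceRel (G : ModularForm (Gamma0 p) 2) (hW : W1 G) (n : ℕ) :
    TraceRel p ((p : ℂ)⁻¹) (ModularFormClass.qCoeff (G : ℍ → ℂ)) tau n := by
  unfold TraceRel
  rw [← qCoeff_psiFun G hW n, psiFun_eq_zero G hW]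
  unfold ModularFormClass.qCoeff
  rw [qExpansion_zero]
  simp


/-! ### The weight-two relation (W1) -/

theorem w1 (G : ModularForm (Gamma0 p) 2) : W1 G := by
  intro w
  have hp0 : p ≠ 0 := hp.out.ne_zero
  have hpc : (p : ℂ) ≠ 0 := by exact_mod_cast hp0
  have : NeZero p := ⟨hp0⟩
  have h := levelOne_weight_two_apply (by norm_num) (esymmForm (fW G) 1) (heckeMatrix p 0 • w)
  rw [esymmForm_apply, esymmConj_one_apply] at h
  simp only [tr_apply, gS_fW_apply, fW_apply] at h
  have hback : heckeDiagMatrix p • (heckeMatrix p 0 • w) = w := by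
    apply UpperHalfPlane.ext
    rw [coe_heckeDiagMatrix_smul hp0, coe_heckeMatrix_smul hp0]
    simp only [Nat.cast_zero, add_zero]
    field_simp
  have hj : ∀ j : ℕ, heckeMatrix p 0 • ((((j : ℕ) : ℤ) : ℝ) +ᵥ (heckeMatrix p 0 • w))
      = heckeMatrix p j • (heckeMatrix p 0 • w) := by
    intro j
    apply UpperHalfPlane.ext
    rw [coe_heckeMatrix_smul hp0, coe_heckeMatrix_smul hp0, coe_vadd]
    push_cast
    ring
  rw [hback] at h
  simp only [hj] at h
  rw [heckeU_apply 2 hp0]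
  rw [← Finset.mul_sum] at h
  have hpow : (-(p : ℂ)) ^ (-(2 : ℤ)) = (p : ℂ)⁻¹ * (p : ℂ)⁻¹ := by
    rw [zpow_neg, zpow_ofNat, neg_sq, sq, mul_inv]
  rw [hpow] at h
  linear_combination h


/-! ### The trace identities in helper72's shape -/

theorem tau_eq (n : ℕ) : tau n = LemmaT72.tau n := rfl

theorem traceIds (G : ModularForm (Gamma0 p) 2) :
    LemmaT72.TraceIds p (ModularFormClass.qCoeff (G : ℍ → ℂ)) := by
  have hp0 : p ≠ 0 := hp.out.ne_zero
  have hpc : (p : ℂ) ≠ 0 := by exact_mod_cast hp0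
  have hp2 : 2 ≤ p := hp.out.two_le
  have hW := w1 G
  set a := ModularFormClass.qCoeff (G : ℍ → ℂ) with ha
  -- the sums in helper72's shape are coefficients of `U_p g * Δ`
  have hX : ∀ m : ℕ, ∑ x ∈ Finset.HasAntidiagonal.antidiagonal m, a (p * x.1) * LemmaT72.tau x.2
      = (PowerSeries.mk (uSeq p a) * PowerSeries.mk tau).coeff m := by
    intro m
    rw [PowerSeries.coeff_mul]
    refine Finset.sum_congr rfl fun x _ => ?_
    simp [uSeq, mul_comm, tau_eq]
  -- `τ(p) τ(j) - τ(j p)`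
  have hV : ∀ j : ℕ, tau p * tau j - tau (j * p)
      = if p ∣ j then (p : ℂ) ^ 11 * tau (j / p) else 0 := by
    intro j
    have := tau_hecke (p := p) j
    rw [show ((p : ℂ) ^ (11 : ℤ)) = (p : ℂ) ^ 11 by norm_cast] at this
    linear_combination (-1 : ℂ) * this
  have hL : ∀ n : ℕ, tau p * (PowerSeries.mk a * PowerSeries.mk tau).coeff n
      - (PowerSeries.mk a * PowerSeries.mk (uSeq p tau)).coeff n
      = ∑ x ∈ Finset.HasAntidiagonal.antidiagonal n,
          a x.1 * (if p ∣ x.2 then (p : ℂ) ^ 11 * tau (x.2 / p) else 0) := by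
    intro n
    rw [PowerSeries.coeff_mul, PowerSeries.coeff_mul, Finset.mul_sum, ← Finset.sum_sub_distrib]
    refine Finset.sum_congr rfl fun x _ => ?_
    rw [← hV]
    simp only [PowerSeries.coeff_mk, uSeq]
    ring
  constructor
  · -- `n = 1`
    have h1 : TraceRel p ((p : ℂ)⁻¹) a tau 1 := traceRel G hW 1
    unfold TraceRel at h1
    rw [hL 1, one_mul] at h1
    rw [hX p]
    have hz : ∑ x ∈ Finset.HasAntidiagonal.antidiagonal 1,
          a x.1 * (if p ∣ x.2 then (p : ℂ) ^ 11 * tau (x.2 / p) else 0) = 0 := by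
      apply Finset.sum_eq_zero
      intro x hx
      rw [Finset.HasAntidiagonal.mem_antidiagonal] at hx
      have hx2 : x.2 = 0 ∨ x.2 = 1 := by omega
      rcases hx2 with h | h
      · rw [h]; simp [tau_zero]
      · rw [h, if_neg (by intro hd; have := Nat.le_of_dvd one_pos hd; omega)]; simp
    rw [hz, zero_sub, neg_eq_zero] at h1
    exact (mul_eq_zero.mp h1).resolve_left (inv_ne_zero hpc)
  · -- `n = p`
    have h1 : TraceRel p ((p : ℂ)⁻¹) a tau p := traceRel G hW p
    unfold TraceRel at h1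
    rw [hL p] at h1
    rw [hX (p ^ 2), sq]
    have hz : ∑ x ∈ Finset.HasAntidiagonal.antidiagonal p,
          a x.1 * (if p ∣ x.2 then (p : ℂ) ^ 11 * tau (x.2 / p) else 0) = a 0 * (p : ℂ) ^ 11 := by
      rw [Finset.sum_eq_single (0, p)]
      · simp [Nat.div_self (Nat.pos_of_ne_zero hp0), tau_one]
      · intro x hx hne
        rw [Finset.HasAntidiagonal.mem_antidiagonal] at hx
        by_cases h0 : x.2 = 0
        · rw [h0]; simp [tau_zero]
        · have hlt : x.2 < p := by
            rcases Nat.lt_or_ge x.2 p with h | h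
            · exact h
            · exfalso
              apply hne
              ext <;> simp <;> omega
          rw [if_neg (by intro hd; have := Nat.le_of_dvd (Nat.pos_of_ne_zero h0) hd; omega)]
          simp
      · intro h
        exact absurd (Finset.HasAntidiagonal.mem_antidiagonal.mpr (by simp)) h
    rw [hz] at h1
    have : (PowerSeries.mk (uSeq p a) * PowerSeries.mk tau).coeff (p * p)
        = (p : ℂ) * (a 0 * (p : ℂ) ^ 11) := by
      have h2 : (p : ℂ)⁻¹ * (PowerSeries.mk (uSeq p a) * PowerSeries.mk tau).coeff (p * p)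
          = a 0 * (p : ℂ) ^ 11 := by linear_combination (-1 : ℂ) * h1
      rw [← h2, ← mul_assoc, mul_inv_cancel₀ hpc, one_mul]
    rw [this]
    ring

/-- **Lemma T**, in helper39's interface shape. -/
theorem u1 : UIface39.U1Stmt :=
  LemmaT72.u1Stmt_of_traceIds fun p hp G => by
    have : Fact p.Prime := ⟨hp⟩
    exact traceIds G

end Fermat.Agent.S16.LemmaT10
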