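import Mathlib
import Fermat.Prelude.Def_CuspForm_HeckeLocal
import Fermat.Prelude.Def_CuspForm_HeckeEvalForms
import Fermat.Prelude.Def_HeckeGalois_EichlerShimura
import Fermat.Prelude.Def_ModularCurve_ModularUnit
import Fermat.Prelude.Def_ModularCurve_PeriodHomPair
import Fermat.Agent.S16.Transfer95

/-!
# S16 (L6): assembly of the lower bound `eisensteinNumerator p ∣ #(𝕋 / I·𝕋)`

* `exists_eigenchar` : abstract eigen-character lemma (Mathlib only).
* `dvd_card_of_eigenchar` : the resulting divisibility of the index.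
* `heckeEvalForms_surjective` : `HeckeAlg → heckeAlgebra N k ∅` is onto.
* `lower_bound` : the assembly, consuming (as hypotheses, in the shapes of `Transfer95`)
  the Eichler–Shimura isomorphism (S21), the integral structure (S23), the Hecke-equivariance of
  the period map, existence of transfer data, the Shimura class `ψ₀` and its integral lift.
(helper90)
-/

set_option autoImplicit false

open scoped MatrixGroups

namespace Fermat.Agent.S16.LowerAsm90

section Abstract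

open MvPolynomial

variable {I T A V : Type*} [CommRing T] [Ring A] [AddCommGroup V] [Module A V]

/-- Key induction: every polynomial in the operators preserves `H` and acts on `ψ`, modulo `n • H`,
through the character `X i ↦ a i`. -/
theorem eigen_induction (φ : MvPolynomial I ℤ →+* A) (H : AddSubgroup V)
    (hH : ∀ i, ∀ v ∈ H, φ (X i) • v ∈ H) (n : ℕ) (a : I → ℤ) (ψ : V)
    (heig : ∀ i, ∃ h ∈ H, φ (X i) • ψ - a i • ψ = n • h) (P : MvPolynomial I ℤ) :
    (∀ v ∈ H, φ P • v ∈ H) ∧ ∃ h ∈ H, φ P • ψ - (aeval a P : ℤ) • ψ = n • h := by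
  induction P using MvPolynomial.induction_on with
  | C c =>
    have hc : φ (C c) = (c : A) := eq_intCast (φ.comp C) c
    refine ⟨fun v hv => ?_, 0, H.zero_mem, ?_⟩
    · rw [hc, Int.cast_smul_eq_zsmul]
      exact H.zsmul_mem hv c
    · rw [hc, Int.cast_smul_eq_zsmul, aeval_C]
      simp
  | add P Q hP hQ =>
    obtain ⟨hP1, h1, hh1, e1⟩ := hP
    obtain ⟨hQ1, h2, hh2, e2⟩ := hQ
    refine ⟨fun v hv => ?_, h1 + h2, H.add_mem hh1 hh2, ?_⟩
    · rw [map_add, add_smul]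
      exact H.add_mem (hP1 v hv) (hQ1 v hv)
    · rw [map_add, map_add, add_smul, add_smul, smul_add, ← e1, ← e2]
      abel
  | mul_X P i hP =>
    obtain ⟨hP1, h1, hh1, e1⟩ := hP
    obtain ⟨h2, hh2, e2⟩ := heig i
    refine ⟨fun v hv => ?_, a i • h1 + φ P • h2, H.add_mem (H.zsmul_mem hh1 _) (hP1 h2 hh2), ?_⟩
    · rw [map_mul, mul_smul]
      exact hP1 _ (hH i v hv)
    · have e2' : φ (X i) • ψ = a i • ψ + n • h2 := by rw [← e2]; abel
      have e1' : φ P • ψ = (aeval a P : ℤ) • ψ + n • h1 := by rw [← e1]; abel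
      rw [map_mul, mul_smul, e2', smul_add, map_mul, aeval_X]
      rw [smul_comm (φ P) (a i) ψ, smul_comm (φ P) n h2, e1']
      rw [smul_add, smul_add, mul_smul, smul_comm (a i) n h1, smul_comm (a i) (aeval a P : ℤ) ψ]
      abel

/-- **Abstract eigen-character lemma.**  If a quotient `T` of a polynomial ring acts (through `φ`)
on a group `V`, preserving a subgroup `H`, and `ψ ∈ H` is an eigenvector modulo `n • H` for all
the generators, of exact order `n` in `H / n • H`, then the eigen-character descends to a ring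
homomorphism `T →+* ZMod n`. -/
theorem exists_eigenchar (π : MvPolynomial I ℤ →+* T) (hπ : Function.Surjective π)
    (φ : MvPolynomial I ℤ →+* A) (H : AddSubgroup V)
    (hH : ∀ i, ∀ v ∈ H, φ (X i) • v ∈ H) (n : ℕ) (a : I → ℤ) (ψ : V)
    (hker : ∀ P, π P = 0 → φ P • ψ = 0)
    (heig : ∀ i, ∃ h ∈ H, φ (X i) • ψ - a i • ψ = n • h)
    (hord : ∀ k : ℤ, (∃ h ∈ H, k • ψ = n • h) → (n : ℤ) ∣ k) :
    ∃ χ : T →+* ZMod n, ∀ P, χ (π P) = ((aeval a P : ℤ) : ZMod n) := by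
  let ε : MvPolynomial I ℤ →+* ZMod n := (Int.castRingHom (ZMod n)).comp (aeval a).toRingHom
  have hε : RingHom.ker π ≤ RingHom.ker ε := by
    intro P hP
    rw [RingHom.mem_ker] at hP ⊢
    obtain ⟨-, h, hh, e⟩ := eigen_induction φ H hH n a ψ heig P
    rw [hker P hP, zero_sub] at e
    have hdvd : (n : ℤ) ∣ (aeval a P : ℤ) := by
      refine hord _ ⟨-h, H.neg_mem hh, ?_⟩
      rw [smul_neg, ← e, neg_neg]
    show ((aeval a P : ℤ) : ZMod n) = 0
    exact (ZMod.intCast_zmod_eq_zero_iff_dvd _ _).mpr hdvd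
  refine ⟨π.liftOfSurjective hπ ⟨ε, hε⟩, fun P => ?_⟩
  rw [RingHom.liftOfSurjective_comp_apply]
  rfl

/-- Consequence for the index of the image of the eigen-ideal. -/
theorem dvd_card_of_eigenchar (π : MvPolynomial I ℤ →+* T) (n : ℕ) (a : I → ℤ)
    (χ : T →+* ZMod n) (hχ : ∀ P, χ (π P) = ((aeval a P : ℤ) : ZMod n)) :
    n ∣ Nat.card (T ⧸ Ideal.map π (RingHom.ker (aeval (R := ℤ) a))) := by
  set J : Ideal T := Ideal.map π (RingHom.ker (aeval (R := ℤ) a)) with hJ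
  have hJχ : J ≤ RingHom.ker χ := by
    rw [hJ, Ideal.map_le_iff_le_comap]
    intro P hP
    rw [Ideal.mem_comap, RingHom.mem_ker, hχ P, RingHom.mem_ker.mp hP, Int.cast_zero]
  let χ' : T ⧸ J →+* ZMod n := Ideal.Quotient.lift J χ (fun x hx => RingHom.mem_ker.mp (hJχ hx))
  have hsurj : Function.Surjective χ' := ZMod.ringHom_surjective χ'
  have := AddSubgroup.card_dvd_of_surjective χ'.toAddMonoidHom hsurj
  rwa [Nat.card_zmod] at this

/-- Consequence: the eigen-character kills the image of the eigen-ideal. -/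
theorem map_ker_le_ker_of_eigenchar (π : MvPolynomial I ℤ →+* T) (n : ℕ) (a : I → ℤ)
    (χ : T →+* ZMod n) (hχ : ∀ P, χ (π P) = ((aeval a P : ℤ) : ZMod n)) :
    Ideal.map π (RingHom.ker (aeval (R := ℤ) a)) ≤ RingHom.ker χ := by
  rw [Ideal.map_le_iff_le_comap]
  intro P hP
  rw [Ideal.mem_comap, RingHom.mem_ker, hχ P, RingHom.mem_ker.mp hP, Int.cast_zero]

/-- Consequence: an integer lying in the image of the eigen-ideal is divisible by `n`. -/
theorem dvd_of_intCast_mem_of_eigenchar (π : MvPolynomial I ℤ →+* T) (n : ℕ) (a : I → ℤ)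
    (χ : T →+* ZMod n) (hχ : ∀ P, χ (π P) = ((aeval a P : ℤ) : ZMod n)) (z : ℤ)
    (hz : ((z : ℤ) : T) ∈ Ideal.map π (RingHom.ker (aeval (R := ℤ) a))) : (n : ℤ) ∣ z := by
  have h0 := RingHom.mem_ker.mp (map_ker_le_ker_of_eigenchar π n a χ hχ hz)
  rw [map_intCast] at h0
  exact (ZMod.intCast_zmod_eq_zero_iff_dvd _ _).mp h0

end Abstract

section Surj

open ModularCurve CuspForm

/-- The evaluation map from the abstract Hecke algebra onto the Hecke algebra of cusp forms is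
surjective. -/
theorem heckeEvalForms_surjective (N : ℕ) [NeZero N] (k : ℤ) :
    Function.Surjective (heckeEvalForms N k) := by
  have key : ∀ (t : Module.End ℂ (CuspForm (CongruenceSubgroup.Gamma0 N) k))
      (ht : t ∈ Algebra.adjoin ℤ (heckeGenerators N k ∅)),
      ∃ P, ((heckeEvalForms N k P : heckeAlgebra N k ∅) :
        Module.End ℂ (CuspForm (CongruenceSubgroup.Gamma0 N) k)) = t := by
    intro t ht
    induction ht using Algebra.adjoin_induction with
    | mem x hx =>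
      rcases hx with ⟨ℓ, hℓ, hℓN, -, rfl⟩ | ⟨q, hqN, hq, -, rfl⟩
      · refine ⟨heckeGen ⟨ℓ, hℓ⟩, ?_⟩
        rw [heckeEvalForms_heckeGen_of_not_dvd (ℓ := ⟨ℓ, hℓ⟩) hℓN]
        rfl
      · refine ⟨heckeGen ⟨q, hq⟩, ?_⟩
        rw [heckeEvalForms_heckeGen_of_dvd (q := ⟨q, hq⟩) hqN]
        rfl
    | algebraMap r =>
      refine ⟨MvPolynomial.C r, ?_⟩
      rw [heckeEvalForms_C]
      rfl
    | add x y _ _ ihx ihy =>
      obtain ⟨P, rfl⟩ := ihx
      obtain ⟨Q, rfl⟩ := ihy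
      exact ⟨P + Q, by rw [map_add]; rfl⟩
    | mul x y _ _ ihx ihy =>
      obtain ⟨P, rfl⟩ := ihx
      obtain ⟨Q, rfl⟩ := ihy
      exact ⟨P * Q, by rw [map_mul]; rfl⟩
  rintro ⟨t, ht⟩
  obtain ⟨P, hP⟩ := key t ht
  exact ⟨P, Subtype.ext hP⟩

end Surj

section Concrete

open ModularCurve CuspForm CongruenceSubgroup ModularCurve.Period Fermat.Agent.S16.Transfer95

variable (N : ℕ) [NeZero N]

/-- The action map `HeckeAlg →+* End_ℂ S₂(Γ₀(N))`. -/
noncomputable def actHom : HeckeAlg →+* Module.End ℂ (CuspForm (Gamma0 N) 2) :=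
  (heckeAlgebra N 2 ∅).val.toRingHom.comp (heckeEvalForms N 2)

/-- The projection `HeckeAlg →+* 𝕋` of the frozen statement. -/
noncomputable def projHom : HeckeAlg →+* ↥(heckeLatticeAlgebra N ∅) :=
  (latticeRestrictHom N ∅).toRingHom.comp (heckeEvalForms N 2)

theorem projHom_surjective : Function.Surjective (projHom N) :=
  (latticeRestrictHom_surjective N ∅).comp (heckeEvalForms_surjective N 2)

theorem actHom_eq_zero_of_projHom_eq_zero (hint : HasIntegralStructure N 2) (P : HeckeAlg)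
    (hP : projHom N P = 0) : actHom N P = 0 := by
  have h0 : heckeEvalForms N 2 P = 0 :=
    (latticeRestrictHom_bijective N ∅ hint).1 (hP.trans (map_zero _).symm)
  show ((heckeEvalForms N 2 P : heckeAlgebra N 2 ∅) :
    Module.End ℂ (CuspForm (Gamma0 N) 2)) = 0
  rw [h0]
  rfl

theorem actHom_X_of_not_dvd {ℓ : Nat.Primes} (h : ¬ (ℓ : ℕ) ∣ N) :
    actHom N (MvPolynomial.X ℓ) = heckeTLin 2 ℓ.2 h := by
  show ((heckeEvalForms N 2 (heckeGen ℓ) : heckeAlgebra N 2 ∅) :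
    Module.End ℂ (CuspForm (Gamma0 N) 2)) = _
  rw [heckeEvalForms_heckeGen_of_not_dvd h]
  rfl

theorem actHom_X_of_dvd {q : Nat.Primes} (h : (q : ℕ) ∣ N) :
    actHom N (MvPolynomial.X q) = heckeULin 2 h := by
  show ((heckeEvalForms N 2 (heckeGen q) : heckeAlgebra N 2 ∅) :
    Module.End ℂ (CuspForm (Gamma0 N) 2)) = _
  rw [heckeEvalForms_heckeGen_of_dvd h]
  rfl

/-- Pairs of cusp forms whose period homomorphism is integer valued. -/
def intPairs : AddSubgroup (CuspForm (Gamma0 N) 2 × CuspForm (Gamma0 N) 2) where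
  carrier := {w | ∀ γ : Gamma0 N, ∃ k : ℤ, periodHomPair N w (Additive.ofMul γ) = (k : ℂ)}
  zero_mem' := fun γ => ⟨0, by simp⟩
  add_mem' := by
    intro a b ha hb γ
    obtain ⟨k₁, h₁⟩ := ha γ
    obtain ⟨k₂, h₂⟩ := hb γ
    exact ⟨k₁ + k₂, by rw [map_add, AddMonoidHom.add_apply, h₁, h₂]; push_cast; rfl⟩
  neg_mem' := by
    intro a ha γ
    obtain ⟨k₁, h₁⟩ := ha γ
    exact ⟨-k₁, by rw [map_neg, AddMonoidHom.neg_apply, h₁]; push_cast; rfl⟩

omit [NeZero N] in
theorem mem_intPairs_iff (w : CuspForm (Gamma0 N) 2 × CuspForm (Gamma0 N) 2) :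
    w ∈ intPairs N ↔
      ∀ γ : Gamma0 N, ∃ k : ℤ, periodHomPair N w (Additive.ofMul γ) = (k : ℂ) := Iff.rfl

omit [NeZero N] in
/-- Stability of integrality under a transfer. -/
theorem mem_intPairs_of_isTransfer {ι : Type*} [Fintype ι] {α : ι → GL (Fin 2) ℝ}
    {w w' : CuspForm (Gamma0 N) 2 × CuspForm (Gamma0 N) 2}
    (htr : IsTransfer (Gamma0 N) α (periodHomPair N w) (periodHomPair N w'))
    (hex : ∀ γ : Gamma0 N, ∃ (σ : Equiv.Perm ι) (γ' : ι → Gamma0 N),
      IsTransferData (Gamma0 N) α γ σ γ')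
    (hw : w ∈ intPairs N) : w' ∈ intPairs N := by
  intro γ
  obtain ⟨σ, γ', hd⟩ := hex γ
  rw [htr γ σ γ' hd]
  choose k hk using fun i => hw (γ' i)
  exact ⟨∑ i, k i, by simp only [hk]; push_cast; rfl⟩

omit [NeZero N] in
/-- A pair whose period homomorphism takes values in `n ℤ` is `n` times an integral pair. -/
theorem exists_nsmul_of_period_dvd (n : ℕ) (hn : n ≠ 0)
    (d : CuspForm (Gamma0 N) 2 × CuspForm (Gamma0 N) 2)
    (hd : ∀ γ : Gamma0 N, ∃ k : ℤ, periodHomPair N d (Additive.ofMul γ) = ((n : ℂ) * (k : ℂ))) :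
    ∃ h ∈ intPairs N, d = n • h := by
  have hn' : (n : ℂ) ≠ 0 := Nat.cast_ne_zero.mpr hn
  refine ⟨(n : ℂ)⁻¹ • d, fun γ => ?_, ?_⟩
  · obtain ⟨k, hk⟩ := hd γ
    refine ⟨k, ?_⟩
    rw [map_smul, AddMonoidHom.smul_apply, hk, smul_eq_mul, inv_mul_cancel_left₀ hn']
  · rw [← Nat.cast_smul_eq_nsmul ℂ n, smul_inv_smul₀ hn']

omit [NeZero N] in
/-- The eigen-relation modulo `n` for a pair whose period homomorphism is an integral lift of a
class `ψ₀` which is an eigenvector (with eigenvalue `c`) for the transfer along `α`. -/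
theorem period_eig_dvd {ι : Type*} [Fintype ι] {α : ι → GL (Fin 2) ℝ} (n : ℕ)
    {w₀ w₁ : CuspForm (Gamma0 N) 2 × CuspForm (Gamma0 N) 2} (c : ℤ)
    (htr : IsTransfer (Gamma0 N) α (periodHomPair N w₀) (periodHomPair N w₁))
    (ψ₀ : Additive (Gamma0 N) →+ ZMod n) (γ : Gamma0 N)
    (hex : ∃ (σ : Equiv.Perm ι) (γ' : ι → Gamma0 N), IsTransferData (Gamma0 N) α γ σ γ' ∧
        ∑ i, ψ₀ (Additive.ofMul (γ' i)) = (c : ZMod n) * ψ₀ (Additive.ofMul γ))
    (ψ : Additive (Gamma0 N) →+ ℤ)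
    (hw₀ : ∀ γ : Gamma0 N,
      periodHomPair N w₀ (Additive.ofMul γ) = ((ψ (Additive.ofMul γ) : ℤ) : ℂ))
    (hlift : ∀ g, ((ψ g : ℤ) : ZMod n) = ψ₀ g) :
    ∃ k : ℤ, periodHomPair N (w₁ - c • w₀) (Additive.ofMul γ) = (n : ℂ) * (k : ℂ) := by
  obtain ⟨σ, γ', hd, hsum⟩ := hex
  have hz : (((∑ i, ψ (Additive.ofMul (γ' i)) - c * ψ (Additive.ofMul γ) : ℤ)) : ZMod n) = 0 := by
    push_cast
    simp only [hlift]
    rw [hsum, sub_self]
  obtain ⟨k, hk⟩ := (ZMod.intCast_zmod_eq_zero_iff_dvd _ _).mp hz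
  refine ⟨k, ?_⟩
  rw [map_sub, map_zsmul, AddMonoidHom.sub_apply, htr γ σ γ' hd]
  simp only [hw₀]
  have : ((n : ℂ) * (k : ℂ)) = (((n : ℤ) * k : ℤ) : ℂ) := by push_cast; rfl
  rw [this, ← hk]
  push_cast
  simp [hw₀]

/-- **Lower bound, core form.**  All inputs are hypotheses:
* `hint` : the integral structure (S23);
* `hES` : the Eichler–Shimura isomorphism in the shape of S21;
* `hT`, `hU` : Hecke-equivariance of `periodHomPair` in transfer form;
* `ψ₀` : a class `Γ₀(N) → ℤ/n` taking the value `1`;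
* `hexT`, `hexU` : existence, for every `γ`, of transfer data along which `ψ₀` satisfies the
  Eisenstein eigen-relation;
* `ψ` : an integral parabolic lift of `ψ₀`. -/
theorem lower_bound_core (n : ℕ) (hn : n ≠ 0)
    (hint : HasIntegralStructure N 2)
    (hES : Function.Injective (periodHomPair N) ∧
      LinearMap.range (periodHomPair N) = parabolicHoms ℂ (Gamma0 N) ℂ)
    (hT : ∀ (ℓ : ℕ) (hℓ : ℓ.Prime) (hℓN : ¬ ℓ ∣ N)
      (w : CuspForm (Gamma0 N) 2 × CuspForm (Gamma0 N) 2),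
      IsTransfer (Gamma0 N) (tFam ℓ) (periodHomPair N w)
        (periodHomPair N (heckeTLin 2 hℓ hℓN w.1, heckeTLin 2 hℓ hℓN w.2)))
    (hU : ∀ (q : ℕ) (_hq : q.Prime) (hqN : q ∣ N)
      (w : CuspForm (Gamma0 N) 2 × CuspForm (Gamma0 N) 2),
      IsTransfer (Gamma0 N) (uFam q) (periodHomPair N w)
        (periodHomPair N (heckeULin 2 hqN w.1, heckeULin 2 hqN w.2)))
    (ψ₀ : Additive (Gamma0 N) →+ ZMod n) (hψ₀ : ∃ g, ψ₀ g = 1)
    (hexT : ∀ (ℓ : ℕ), ℓ.Prime → ¬ ℓ ∣ N → ∀ γ : Gamma0 N,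
      ∃ (σ : Equiv.Perm (Option (Fin ℓ))) (γ' : Option (Fin ℓ) → Gamma0 N),
        IsTransferData (Gamma0 N) (tFam ℓ) γ σ γ' ∧
          ∑ i, ψ₀ (Additive.ofMul (γ' i)) = (1 + (ℓ : ZMod n)) * ψ₀ (Additive.ofMul γ))
    (hexU : ∀ (q : ℕ), q.Prime → q ∣ N → ∀ γ : Gamma0 N,
      ∃ (σ : Equiv.Perm (Fin q)) (γ' : Fin q → Gamma0 N),
        IsTransferData (Gamma0 N) (uFam q) γ σ γ' ∧
          ∑ i, ψ₀ (Additive.ofMul (γ' i)) = ψ₀ (Additive.ofMul γ))
    (ψ : Additive (Gamma0 N) →+ ℤ) (hpar : IsParabolicHom (Gamma0 N) ψ)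
    (hlift : ∀ g, ((ψ g : ℤ) : ZMod n) = ψ₀ g) :
    ∃ χ : ↥(heckeLatticeAlgebra N ∅) →+* ZMod n, ∀ P : HeckeAlg,
      χ (projHom N P) = ((MvPolynomial.aeval (eisensteinSystem N) P : ℤ) : ZMod n) := by
  -- the pair `w₀` whose period homomorphism is `ψ`
  have hψC : (Int.castAddHom ℂ).comp ψ ∈ parabolicHoms ℂ (Gamma0 N) ℂ := by
    intro γ hγ
    show ((ψ (Additive.ofMul γ) : ℤ) : ℂ) = 0
    rw [hpar γ hγ, Int.cast_zero]
  rw [← hES.2] at hψC
  obtain ⟨w₀, hw₀⟩ := hψC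
  have hw₀' : ∀ γ : Gamma0 N,
      periodHomPair N w₀ (Additive.ofMul γ) = ((ψ (Additive.ofMul γ) : ℤ) : ℂ) := by
    intro γ
    rw [hw₀]
    rfl
  have hw₀mem : w₀ ∈ intPairs N := fun γ => ⟨ψ (Additive.ofMul γ), hw₀' γ⟩
  refine exists_eigenchar (projHom N) (projHom_surjective N) (actHom N) (intPairs N) ?_ n
    (eisensteinSystem N) w₀ ?_ ?_ ?_
  · -- stability of the integral pairs
    intro ℓ v hv
    by_cases h : (ℓ : ℕ) ∣ N
    · rw [actHom_X_of_dvd N h]
      refine mem_intPairs_of_isTransfer N (hU ℓ ℓ.2 h v) (fun γ => ?_) hv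
      obtain ⟨σ, γ', hd, -⟩ := hexU ℓ ℓ.2 h γ
      exact ⟨σ, γ', hd⟩
    · rw [actHom_X_of_not_dvd N h]
      refine mem_intPairs_of_isTransfer N (hT ℓ ℓ.2 h v) (fun γ => ?_) hv
      obtain ⟨σ, γ', hd, -⟩ := hexT ℓ ℓ.2 h γ
      exact ⟨σ, γ', hd⟩
  · -- the kernel of the projection acts trivially
    intro P hP
    rw [actHom_eq_zero_of_projHom_eq_zero N hint P hP, zero_smul]
  · -- eigen-relation
    intro ℓ
    by_cases h : (ℓ : ℕ) ∣ N
    · rw [actHom_X_of_dvd N h, eisensteinSystem_of_dvd h]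
      refine exists_nsmul_of_period_dvd N n hn _ fun γ => ?_
      refine period_eig_dvd N n 1 (hU ℓ ℓ.2 h w₀) ψ₀ γ ?_ ψ hw₀' hlift
      obtain ⟨σ, γ', hd, hsum⟩ := hexU ℓ ℓ.2 h γ
      exact ⟨σ, γ', hd, by rw [hsum, Int.cast_one, one_mul]⟩
    · rw [actHom_X_of_not_dvd N h, eisensteinSystem_of_not_dvd h]
      refine exists_nsmul_of_period_dvd N n hn _ fun γ => ?_
      refine period_eig_dvd N n (1 + ((ℓ : ℕ) : ℤ)) (hT ℓ ℓ.2 h w₀) ψ₀ γ ?_ ψ hw₀' hlift
      obtain ⟨σ, γ', hd, hsum⟩ := hexT ℓ ℓ.2 h γ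
      refine ⟨σ, γ', hd, ?_⟩
      rw [hsum]
      push_cast
      rfl
  · -- exact order
    rintro k ⟨h, hh, e⟩
    obtain ⟨g, hg⟩ := hψ₀
    obtain ⟨γ, rfl⟩ := Additive.ofMul.surjective g
    obtain ⟨m, hm⟩ := hh γ
    have e' := congrArg (fun w => periodHomPair N w (Additive.ofMul γ)) e
    simp only [map_zsmul, map_nsmul, AddMonoidHom.zsmul_apply, AddMonoidHom.nsmul_apply,
      hw₀' γ, hm] at e'
    have e'' : k * ψ (Additive.ofMul γ) = (n : ℤ) * m := by
      have : ((k * ψ (Additive.ofMul γ) : ℤ) : ℂ) = (((n : ℤ) * m : ℤ) : ℂ) := by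
        push_cast
        simpa [zsmul_eq_mul, nsmul_eq_mul] using e'
      exact_mod_cast this
    have e3 := congrArg (Int.cast : ℤ → ZMod n) e''
    push_cast at e3
    rw [hlift, hg, mul_one, ZMod.natCast_self, zero_mul] at e3
    exact (ZMod.intCast_zmod_eq_zero_iff_dvd _ _).mp e3

/-- **Lower bound**: every integer in the Eisenstein ideal of the integral Hecke algebra is
divisible by `n` (the shape consumed by `Wire3.hL_of_forall_dvd`). -/
theorem lower_bound_forall_dvd (n : ℕ)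
    (χ : ↥(heckeLatticeAlgebra N ∅) →+* ZMod n)
    (hχ : ∀ P : HeckeAlg,
      χ (projHom N P) = ((MvPolynomial.aeval (eisensteinSystem N) P : ℤ) : ZMod n))
    (z : ℤ)
    (hz : ((z : ℤ) : ↥(heckeLatticeAlgebra N ∅)) ∈
      Ideal.map ((latticeRestrictHom N ∅).toRingHom.comp (heckeEvalForms N 2))
        (eisensteinIdeal N)) : (n : ℤ) ∣ z :=
  dvd_of_intCast_mem_of_eigenchar (projHom N) n (eisensteinSystem N) χ hχ z hz

/-- **Lower bound**: `n` divides the index of the Eisenstein ideal (frozen shape of S16). -/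
theorem lower_bound_dvd_card (n : ℕ)
    (χ : ↥(heckeLatticeAlgebra N ∅) →+* ZMod n)
    (hχ : ∀ P : HeckeAlg,
      χ (projHom N P) = ((MvPolynomial.aeval (eisensteinSystem N) P : ℤ) : ZMod n)) :
    n ∣ Nat.card (↥(heckeLatticeAlgebra N ∅) ⧸
      Ideal.map ((latticeRestrictHom N ∅).toRingHom.comp (heckeEvalForms N 2))
        (eisensteinIdeal N)) :=
  dvd_card_of_eigenchar (projHom N) n (eisensteinSystem N) χ hχ

end Concrete

end Fermat.Agent.S16.LowerAsm90
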