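/-
S16 (L), package (L6)-CORE (helper26): the abstract polynomial induction of the lower bound.

Input (all abstract, in helper95's `IsTransfer` form):
* `P : S₂ × S₂ →ₗ[ℂ] Hom(Γ₀(p), ℂ)` (later `periodHomPair p`), transfer-equivariant for `T_ℓ`, `U_q`;
* existence of transfer data for every `γ`;
* a class `ψ0 : Γ₀(p) → ZMod n`, onto, transfer-Eisenstein (`T_ℓ ψ0 = (1+ℓ) ψ0`, `U_q ψ0 = ψ0`);
* an integral lift `φ` of `ψ0` whose complexification is in the range of `P`.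
Output: if `Q ∈ HeckeAlg` has `eps p Q = 0` and acts on `S₂(Γ₀(p))` as the integer `z`, then `n ∣ z`;
and the bridge to the hypothesis `hK` of `Dual3.exists_isEis`, hence `EisCong p n`.
-/
import Mathlib
import Fermat.Agent.S16.Dual3
import Fermat.Agent.S16.Transfer95

set_option autoImplicit false
set_option linter.unusedSectionVars false
set_option linter.unusedVariables false

open ModularCurve CuspForm CongruenceSubgroup

namespace Fermat.Agent.S16.LowerCore26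

open Fermat.Agent.S16.Dual3 Fermat.Agent.S16.Transfer95

section Op

variable (p : ℕ) [NeZero p]

/-- the operator of `Q ∈ HeckeAlg` on `S₂(Γ₀(p))`. -/
noncomputable def opC (Q : HeckeAlg) : Module.End ℂ (CuspForm (Gamma0 p) 2) :=
  ((heckeEvalForms p 2 Q : heckeAlgebra p 2 ∅) : Module.End ℂ (CuspForm (Gamma0 p) 2))

lemma opC_add (Q Q' : HeckeAlg) : opC p (Q + Q') = opC p Q + opC p Q' := by
  unfold opC
  rw [map_add]
  rfl

lemma opC_mul (Q Q' : HeckeAlg) : opC p (Q * Q') = opC p Q * opC p Q' := by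
  unfold opC
  rw [map_mul]
  rfl

lemma opC_mul_comm (Q Q' : HeckeAlg) : opC p (Q * Q') = opC p Q' * opC p Q := by
  rw [mul_comm, opC_mul]

lemma opC_C (c : ℤ) (f : CuspForm (Gamma0 p) 2) : opC p (MvPolynomial.C c) f = c • f := by
  unfold opC
  rw [heckeEvalForms_C]
  simp

lemma opC_gen_of_not_dvd (ℓ : Nat.Primes) (h : ¬ (ℓ : ℕ) ∣ p) (f : CuspForm (Gamma0 p) 2) :
    opC p (heckeGen ℓ) f = CuspForm.heckeTLin 2 ℓ.2 h f := by
  unfold opC
  rw [heckeEvalForms_heckeGen_of_not_dvd h]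
  rfl

lemma opC_gen_of_dvd (ℓ : Nat.Primes) (h : (ℓ : ℕ) ∣ p) (f : CuspForm (Gamma0 p) 2) :
    opC p (heckeGen ℓ) f = CuspForm.heckeULin 2 h f := by
  unfold opC
  rw [heckeEvalForms_heckeGen_of_dvd h]
  rfl

/-- the diagonal operator on pairs. -/
noncomputable def opPair (Q : HeckeAlg)
    (v : CuspForm (Gamma0 p) 2 × CuspForm (Gamma0 p) 2) :
    CuspForm (Gamma0 p) 2 × CuspForm (Gamma0 p) 2 :=
  (opC p Q v.1, opC p Q v.2)

end Op


section Core

variable (p : ℕ) [Fact p.Prime]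

/-- a complex-valued hom with integer values comes from an integer-valued hom. -/
lemma exists_int_hom {G : Type*} [AddGroup G] (ψ : G →+ ℂ) (h : ∀ g, ∃ m : ℤ, ψ g = m) :
    ∃ φ : G →+ ℤ, ψ = (Int.castAddHom ℂ).comp φ := by
  choose m hm using h
  have hadd : ∀ a b, m (a + b) = m a + m b := by
    intro a b
    have : ((m (a + b) : ℤ) : ℂ) = ((m a + m b : ℤ) : ℂ) := by
      rw [← hm, map_add, hm a, hm b]; push_cast; rfl
    exact_mod_cast this
  refine ⟨AddMonoidHom.mk' m hadd, ?_⟩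
  ext g
  simp [hm g]

variable (P : (CuspForm (Gamma0 p) 2 × CuspForm (Gamma0 p) 2) →ₗ[ℂ] (Additive (Gamma0 p) →+ ℂ))
  (hT : ∀ (ℓ : ℕ) (hℓ : ℓ.Prime) (hℓp : ¬ ℓ ∣ p)
    (v : CuspForm (Gamma0 p) 2 × CuspForm (Gamma0 p) 2),
      IsTransfer (Gamma0 p) (tFam ℓ) (P v)
        (P (CuspForm.heckeTLin 2 hℓ hℓp v.1, CuspForm.heckeTLin 2 hℓ hℓp v.2)))
  (hU : ∀ (q : ℕ) (hq : q.Prime) (hqp : q ∣ p)
    (v : CuspForm (Gamma0 p) 2 × CuspForm (Gamma0 p) 2),
      IsTransfer (Gamma0 p) (uFam q) (P v)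
        (P (CuspForm.heckeULin 2 hqp v.1, CuspForm.heckeULin 2 hqp v.2)))
  (hexT : ∀ (ℓ : ℕ), ℓ.Prime → ¬ ℓ ∣ p → ∀ γ : Gamma0 p,
    ∃ (σ : Equiv.Perm (Option (Fin ℓ))) (γ' : Option (Fin ℓ) → Gamma0 p),
      IsTransferData (Gamma0 p) (tFam ℓ) γ σ γ')
  (hexU : ∀ (q : ℕ), q.Prime → q ∣ p → ∀ γ : Gamma0 p,
    ∃ (σ : Equiv.Perm (Fin q)) (γ' : Fin q → Gamma0 p),
      IsTransferData (Gamma0 p) (uFam q) γ σ γ')
  (n : ℕ) (ψ0 : Additive (Gamma0 p) →+ ZMod n)
  (hψT : ∀ (ℓ : ℕ), ℓ.Prime → ¬ ℓ ∣ p →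
    IsTransfer (Gamma0 p) (tFam ℓ) ψ0 (((1 + ℓ : ℕ) : ℤ) • ψ0))
  (hψU : ∀ (q : ℕ), q.Prime → q ∣ p → IsTransfer (Gamma0 p) (uFam q) ψ0 ψ0)

include hT hU hexT hexU hψT hψU in
/-- **The polynomial induction.** -/
theorem exists_int_of_poly (Q : HeckeAlg) :
    ∀ (v : CuspForm (Gamma0 p) 2 × CuspForm (Gamma0 p) 2) (φ : Additive (Gamma0 p) →+ ℤ) (c : ℤ),
      P v = (Int.castAddHom ℂ).comp φ → (∀ γ, ((φ γ : ℤ) : ZMod n) = c • ψ0 γ) →
      ∃ φ' : Additive (Gamma0 p) →+ ℤ, P (opPair p Q v) = (Int.castAddHom ℂ).comp φ' ∧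
        ∀ γ, ((φ' γ : ℤ) : ZMod n) = (eps p Q * c) • ψ0 γ := by
  induction Q using MvPolynomial.induction_on with
  | C a =>
    intro v φ c hv hφ
    refine ⟨a • φ, ?_, ?_⟩
    · have h1 : opPair p (MvPolynomial.C a) v = a • v := by
        unfold opPair
        rw [opC_C, opC_C]
        rfl
      rw [h1, map_zsmul, hv]
      ext γ
      simp
    · intro γ
      rw [eps_C]
      simp only [AddMonoidHom.smul_apply, smul_eq_mul, Int.cast_mul, hφ γ]
      rw [mul_smul]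
      simp [zsmul_eq_mul]
  | add Q Q' ihQ ihQ' =>
    intro v φ c hv hφ
    obtain ⟨φ₁, h₁, h₁'⟩ := ihQ v φ c hv hφ
    obtain ⟨φ₂, h₂, h₂'⟩ := ihQ' v φ c hv hφ
    refine ⟨φ₁ + φ₂, ?_, ?_⟩
    · have h1 : opPair p (Q + Q') v = opPair p Q v + opPair p Q' v := by
        unfold opPair
        rw [opC_add]
        rfl
      rw [h1, map_add, h₁, h₂]
      ext γ
      simp
    · intro γ
      simp only [AddMonoidHom.add_apply, Int.cast_add, h₁' γ, h₂' γ, map_add, add_mul, add_smul]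
  | mul_X Q ℓ ih =>
    intro v φ c hv hφ
    obtain ⟨φ₁, h₁, h₁'⟩ := ih v φ c hv hφ
    set w := opPair p Q v with hw
    have hcomm : opPair p (Q * MvPolynomial.X ℓ) v = opPair p (heckeGen ℓ) w := by
      unfold opPair
      rw [opC_mul_comm]
      rfl
    rw [hcomm]
    by_cases hℓp : (ℓ : ℕ) ∣ p
    · -- the `U` case
      have hop : opPair p (heckeGen ℓ) w =
          (CuspForm.heckeULin 2 hℓp w.1, CuspForm.heckeULin 2 hℓp w.2) := by
        unfold opPair
        rw [opC_gen_of_dvd p ℓ hℓp, opC_gen_of_dvd p ℓ hℓp]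
      have htr := hU ℓ ℓ.2 hℓp w
      rw [← hop, h₁] at htr
      have hint : ∀ g : Additive (Gamma0 p), ∃ m : ℤ, P (opPair p (heckeGen ℓ) w) g = m := by
        intro g
        obtain ⟨σ, γ', hd⟩ := hexU ℓ ℓ.2 hℓp (Additive.toMul g)
        refine ⟨∑ i, φ₁ (Additive.ofMul (γ' i)), ?_⟩
        have := htr (Additive.toMul g) σ γ' hd
        rw [show Additive.ofMul (Additive.toMul g) = g from rfl] at this
        rw [this]
        simp
      obtain ⟨φ', hφ'⟩ := exists_int_hom _ hint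
      refine ⟨φ', hφ', ?_⟩
      intro g
      obtain ⟨σ, γ', hd⟩ := hexU ℓ ℓ.2 hℓp (Additive.toMul g)
      have h2 := htr (Additive.toMul g) σ γ' hd
      rw [show Additive.ofMul (Additive.toMul g) = g from rfl, hφ'] at h2
      have h3 : φ' g = ∑ i, φ₁ (Additive.ofMul (γ' i)) := by
        have : ((φ' g : ℤ) : ℂ) = ((∑ i, φ₁ (Additive.ofMul (γ' i)) : ℤ) : ℂ) := by
          simpa using h2
        exact_mod_cast this
      have h4 := hψU ℓ ℓ.2 hℓp (Additive.toMul g) σ γ' hd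
      rw [show Additive.ofMul (Additive.toMul g) = g from rfl] at h4
      rw [h3, map_mul, show eps p (MvPolynomial.X ℓ) = 1 from eps_gen_of_dvd p ℓ hℓp, mul_one, h4]
      push_cast
      rw [Finset.smul_sum]
      exact Finset.sum_congr rfl fun i _ => h₁' _
    · -- the `T` case
      have hop : opPair p (heckeGen ℓ) w =
          (CuspForm.heckeTLin 2 ℓ.2 hℓp w.1, CuspForm.heckeTLin 2 ℓ.2 hℓp w.2) := by
        unfold opPair
        rw [opC_gen_of_not_dvd p ℓ hℓp, opC_gen_of_not_dvd p ℓ hℓp]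
      have htr := hT ℓ ℓ.2 hℓp w
      rw [← hop, h₁] at htr
      have hint : ∀ g : Additive (Gamma0 p), ∃ m : ℤ, P (opPair p (heckeGen ℓ) w) g = m := by
        intro g
        obtain ⟨σ, γ', hd⟩ := hexT ℓ ℓ.2 hℓp (Additive.toMul g)
        refine ⟨∑ i, φ₁ (Additive.ofMul (γ' i)), ?_⟩
        have := htr (Additive.toMul g) σ γ' hd
        rw [show Additive.ofMul (Additive.toMul g) = g from rfl] at this
        rw [this]
        simp
      obtain ⟨φ', hφ'⟩ := exists_int_hom _ hint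
      refine ⟨φ', hφ', ?_⟩
      intro g
      obtain ⟨σ, γ', hd⟩ := hexT ℓ ℓ.2 hℓp (Additive.toMul g)
      have h2 := htr (Additive.toMul g) σ γ' hd
      rw [show Additive.ofMul (Additive.toMul g) = g from rfl, hφ'] at h2
      have h3 : φ' g = ∑ i, φ₁ (Additive.ofMul (γ' i)) := by
        have : ((φ' g : ℤ) : ℂ) = ((∑ i, φ₁ (Additive.ofMul (γ' i)) : ℤ) : ℂ) := by
          simpa using h2
        exact_mod_cast this
      have h4 := hψT ℓ ℓ.2 hℓp (Additive.toMul g) σ γ' hd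
      rw [show Additive.ofMul (Additive.toMul g) = g from rfl] at h4
      have h5 : ∑ i, ψ0 (Additive.ofMul (γ' i)) = ((1 + (ℓ : ℕ) : ℕ) : ℤ) • ψ0 g := by
        rw [← h4]; rfl
      rw [h3, map_mul, show eps p (MvPolynomial.X ℓ) = 1 + ((ℓ : ℕ) : ℤ) from
        eps_gen_of_not_dvd p ℓ hℓp]
      push_cast
      rw [Finset.sum_congr rfl fun i _ => h₁' (Additive.ofMul (γ' i)), ← Finset.smul_sum, h5,
        smul_smul]
      congr 1
      push_cast
      ring

include hT hU hexT hexU hψT hψU in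
/-- **Core of (L6)**: an element `Q` of the Eisenstein ideal acting on `S₂(Γ₀(p))` as the integer
`z` has `n ∣ z`. -/
theorem dvd_of_scalar (hsurj : Function.Surjective ψ0)
    (φ : Additive (Gamma0 p) →+ ℤ) (hφ : ∀ γ, ((φ γ : ℤ) : ZMod n) = ψ0 γ)
    (v : CuspForm (Gamma0 p) 2 × CuspForm (Gamma0 p) 2)
    (hv : P v = (Int.castAddHom ℂ).comp φ)
    (Q : HeckeAlg) (hQ : eps p Q = 0) (z : ℤ)
    (hz : ∀ f : CuspForm (Gamma0 p) 2, opC p Q f = (z : ℂ) • f) : (n : ℤ) ∣ z := by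
  obtain ⟨φ', hφ', hφ'n⟩ := exists_int_of_poly p P hT hU hexT hexU n ψ0 hψT hψU Q v φ 1 hv
    (fun γ => by rw [hφ γ, one_smul])
  have h1 : opPair p Q v = (z : ℂ) • v := by
    unfold opPair
    rw [hz, hz]
    rfl
  rw [h1, map_smul, hv] at hφ'
  obtain ⟨g, hg⟩ := hsurj 1
  have h2 := DFunLike.congr_fun hφ' g
  have h3 : z * φ g = φ' g := by
    have : ((z * φ g : ℤ) : ℂ) = ((φ' g : ℤ) : ℂ) := by
      simpa using h2
    exact_mod_cast this
  have h4 := hφ'n g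
  rw [hQ, zero_mul, zero_smul, ← h3] at h4
  push_cast at h4
  rw [hφ g, hg, mul_one] at h4
  exact (ZMod.intCast_zmod_eq_zero_iff_dvd z n).mp h4

include hT hU hexT hexU hψT hψU in
/-- The hypothesis `hK` of `Dual3.exists_isEis`. -/
theorem hK_of_transfer (hint : CuspForm.HasIntegralStructure p 2)
    (hsurj : Function.Surjective ψ0)
    (φ : Additive (Gamma0 p) →+ ℤ) (hφ : ∀ γ, ((φ γ : ℤ) : ZMod n) = ψ0 γ)
    (v : CuspForm (Gamma0 p) 2 × CuspForm (Gamma0 p) 2)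
    (hv : P v = (Int.castAddHom ℂ).comp φ) :
    ∀ z : ℤ, ((z : ℤ) : Tl p) ∈ J p → (n : ℤ) ∣ z := by
  intro z hz
  obtain ⟨Q, hQ0, hQ⟩ := (mem_J_iff p _).mp hz
  refine dvd_of_scalar p P hT hU hexT hexU n ψ0 hψT hψU hsurj φ hφ v hv Q hQ0 z ?_
  -- `Q` acts as `z` on the lattice, hence on its `ℂ`-span
  have hlat : ∀ g : Lat p, opC p Q (g : CuspForm (Gamma0 p) 2) =
      (z : ℂ) • (g : CuspForm (Gamma0 p) 2) := by
    intro g
    have h2 : act p Q g = z • g := by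
      unfold act
      rw [hQ]
      exact intCast_apply p z g
    have h3 := congrArg (fun x : Lat p => (x : CuspForm (Gamma0 p) 2)) h2
    simp only [coe_act] at h3
    rw [show opC p Q (g : CuspForm (Gamma0 p) 2) = _ from h3]
    rw [Submodule.coe_smul, Int.cast_smul_eq_zsmul]
  intro f
  have hf : f ∈ Submodule.span ℂ
      ((CuspForm.intLattice p 2 : Submodule ℤ (CuspForm (Gamma0 p) 2)) :
        Set (CuspForm (Gamma0 p) 2)) := by
    rw [hint]; trivial
  have key : (opC p Q - (z : ℂ) • (LinearMap.id : Module.End ℂ (CuspForm (Gamma0 p) 2))) f = 0 := by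
    refine LinearMap.eqOn_span (f := opC p Q - (z : ℂ) • LinearMap.id) (g := 0) ?_ hf
    intro g hg
    have := hlat ⟨g, hg⟩
    simp only [LinearMap.sub_apply, LinearMap.smul_apply, LinearMap.id_coe, id_eq,
      LinearMap.zero_apply]
    rw [this, sub_self]
  simpa [sub_eq_zero] using key

include hT hU hexT hexU hψT hψU in
/-- **(L)** in the shape consumed by `Dual3.s16_of_UL`. -/
theorem eisCong_of_transfer (hint : CuspForm.HasIntegralStructure p 2)
    (hsurj : Function.Surjective ψ0)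
    (φ : Additive (Gamma0 p) →+ ℤ) (hφ : ∀ γ, ((φ γ : ℤ) : ZMod n) = ψ0 γ)
    (v : CuspForm (Gamma0 p) 2 × CuspForm (Gamma0 p) 2)
    (hv : P v = (Int.castAddHom ℂ).comp φ) : EisCong p n :=
  (eisCong_iff p n).mpr (exists_isEis p n
    (hK_of_transfer p P hT hU hexT hexU n ψ0 hψT hψU hint hsurj φ hφ v hv))

end Core

end Fermat.Agent.S16.LowerCore26
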