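/-
S16 (L) (helper18): the Shimura class is an Eisenstein eigenvector of the Hecke operators on
`Hom(Γ₀(p), ℤ/n)` of helper24's `HeckeHom24`:
`heckeTHom p hℓ hℓp _ (shimura p) = (ℓ+1) • shimura p`, `heckeUHom p _ _ (shimura p) = shimura p`.
Complete proofs.
-/
import Fermat.Agent.S16.Shimura18
import Fermat.Agent.S16.HeckeHom24.Concrete

set_option autoImplicit false

namespace Fermat.Agent.S16.ShimuraEigen18

open CongruenceSubgroup Matrix Fermat.Agent.S16.Shimura18 Fermat.Agent.S16.HeckeHom24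
open scoped MatrixGroups

variable (p : ℕ) [hp : Fact p.Prime]

/-- `T_ℓ ψ = (ℓ+1) ψ` for `ℓ ≠ p`. -/
theorem heckeTHom_shimura {ℓ : ℕ} (hℓ : ℓ.Prime) (hℓp : ¬ ℓ ∣ p) :
    heckeTHom p hℓ hℓp (ZMod (ModularCurve.eisensteinNumerator p)) (shimura p) =
      (ℓ + 1) • shimura p := by
  refine AddMonoidHom.ext fun γ' => ?_
  obtain ⟨γ, rfl⟩ : ∃ γ : Gamma0 p, Additive.ofMul γ = γ' := ⟨Additive.toMul γ', rfl⟩
  rw [heckeTHom_apply, AddMonoidHom.smul_apply]
  have hne : ℓ ≠ p := fun h => hℓp (h ▸ dvd_rfl)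
  have hunit : IsUnit ((ℓ : ℤ) : ZMod p) := by
    rw [isUnit_iff_ne_zero]
    intro h0
    have h1 : ((ℓ : ℕ) : ZMod p) = 0 := by exact_mod_cast h0
    rw [ZMod.natCast_eq_zero_iff] at h1
    exact hne ((Nat.prime_dvd_prime_iff_eq hp.out hℓ).mp h1).symm
  have := shimura_hecke p (tMat ℓ) (by rintro (_ | j) <;> simp [tMat])
    (by
      rintro (_ | j)
      · simp [tMat]
      · simpa [tMat] using hunit)
    ((tSys p hℓ hℓp).permEquiv γ) γ (fun i => (tSys p hℓ hℓp).elt γ i)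
    (fun i => tSys_rel_int p hℓ hℓp γ i)
  rw [this, Fintype.card_option, Fintype.card_fin]

/-- `U_p ψ = ψ`. -/
theorem heckeUHom_shimura :
    haveI : NeZero p := ⟨hp.out.ne_zero⟩
    heckeUHom p (dvd_refl p) (ZMod (ModularCurve.eisensteinNumerator p)) (shimura p) =
      shimura p := by
  haveI : NeZero p := ⟨hp.out.ne_zero⟩
  refine AddMonoidHom.ext fun γ' => ?_
  obtain ⟨γ, rfl⟩ : ∃ γ : Gamma0 p, Additive.ofMul γ = γ' := ⟨Additive.toMul γ', rfl⟩
  rw [heckeUHom_apply]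
  exact shimura_heckeU p (Fintype.card_fin p) (uMat p) (fun i => by simp [uMat])
    (fun i => by simp [uMat]) (fun i => by simp [uMat])
    ((uSys p (dvd_refl p)).perm γ) γ (fun i => (uSys p (dvd_refl p)).elt γ i)
    (fun i => uSys_rel_int p (dvd_refl p) γ i)

end Fermat.Agent.S16.ShimuraEigen18
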