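/-
S16 (L) final assembly (helper18): the Eisenstein congruence modulo `n = eisensteinNumerator p`,
`Dual3.EisCong p (eisensteinNumerator p)` = hypothesis `hL` of `Dual3.s16_of_UL`.

Inputs (all landed): helper26 `LowerCore26.eisCong_of_transfer`, helper95 `EquivAdapter95`
(period equivariance in transfer form), helper24 `HeckeHom24` (Hecke systems), helper59
`Lift59.exists_shimura_lift`, helper18 `Shimura18` / `ShimuraEigen18`, S23 integral structure.
Complete proof.
-/
import Fermat.Agent.S16.LowerCore26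
import Fermat.Agent.S16.EquivAdapter95
import Fermat.Agent.S16.ShimuraEigen18
import Fermat.Agent.S16.Lift59.ShimuraLift
import Fermat.Agent.S23.Final

set_option autoImplicit false

namespace Fermat.Agent.S16.LowerFinal18

open scoped MatrixGroups
open ModularCurve ModularCurve.Period CongruenceSubgroup
open Fermat.Agent.S16.Transfer95 Fermat.Agent.S16.HeckeHom24 Fermat.Agent.S16.EquivAdapter95
open Fermat.Agent.S16.Shimura18 Fermat.Agent.S16.ShimuraEigen18

variable (p : ℕ) [hp : Fact p.Prime]

/-- the Shimura class is a `T_ℓ`-eigenvector, transfer form. -/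
theorem isTransfer_shimura_T (ℓ : ℕ) (hℓ : ℓ.Prime) (hℓp : ¬ ℓ ∣ p) :
    IsTransfer (Gamma0 p) (tFam ℓ) (shimura p) (((1 + ℓ : ℕ) : ℤ) • shimura p) := by
  have h := isTransfer_heckeTHom hℓ hℓp (shimura p)
  rw [heckeTHom_shimura p hℓ hℓp] at h
  have e : ((1 + ℓ : ℕ) : ℤ) • shimura p = (ℓ + 1) • shimura p := by
    rw [Nat.add_comm, natCast_zsmul]
  rw [e]
  exact h

/-- the Shimura class is fixed by `U_p`, transfer form. -/
theorem isTransfer_shimura_U (q : ℕ) (hq : q.Prime) (hqp : q ∣ p) :
    IsTransfer (Gamma0 p) (uFam q) (shimura p) (shimura p) := by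
  haveI : NeZero p := ⟨hp.out.ne_zero⟩
  obtain rfl : q = p := (Nat.prime_dvd_prime_iff_eq hq hp.out).mp hqp
  have h := isTransfer_heckeUHom (N := q) hqp (shimura q)
  have h2 := heckeUHom_shimura q
  rw [h2] at h
  exact h

/-- **(L)**: the Eisenstein congruence modulo the Eisenstein numerator. -/
theorem eisCong : Dual3.EisCong p (eisensteinNumerator p) := by
  haveI : NeZero p := ⟨hp.out.ne_zero⟩
  obtain ⟨φ, v, -, hφ, hv⟩ := Lift59.exists_shimura_lift p
  refine LowerCore26.eisCong_of_transfer p (periodHomPair p) ?_ ?_ ?_ ?_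
    (eisensteinNumerator p) (shimura p) (isTransfer_shimura_T p) (isTransfer_shimura_U p)
    (Fermat.Agent.S23.Final.hasIntegralStructure p 2) (shimura_surjective p) φ hφ v hv
  · intro ℓ hℓ hℓp v
    rw [periodHomPair_heckeTLin hℓ hℓp v.1 v.2]
    exact isTransfer_heckeTHom hℓ hℓp _
  · intro q hq hqp v
    rw [periodHomPair_heckeULin hqp v.1 v.2]
    exact isTransfer_heckeUHom hqp _
  · intro ℓ hℓ hℓp γ
    have h := isTransferData_heckeSys (tSys p hℓ hℓp) γ
    rw [tSys_α_eq] at h
    exact ⟨_, _, h⟩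
  · intro q hq hqp γ
    exact ⟨_, _, isTransferData_heckeSys (uSys p hqp) γ⟩

end Fermat.Agent.S16.LowerFinal18
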