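import Mathlib
import Fermat.Agent.S16.LowerCore26
import Fermat.Agent.S16.EquivAdapter95
import Fermat.Agent.S16.ShimuraEigen18
import Fermat.Agent.S16.Lift59.ShimuraLift
import Fermat.Agent.S23.Final

/-!
# S16 (L): the lower bound `EisCong p (eisensteinNumerator p)`, final plug

Assembly of the cohomological route: helper26's polynomial induction (`LowerCore26`) fed with
* `P := periodHomPair p`, transfer-equivariant (helper95 `PeriodEquiv95`),
* transfer data from helper24's Hecke systems (`EquivAdapter95`),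
* helper18's Shimura class, an Eisenstein eigen-class onto `ZMod n` (`ShimuraEigen18`),
* the integral lift of the Shimura class (`Lift59.exists_shimura_lift`),
* the integral structure of S23.  (helper59)
-/

set_option autoImplicit false

open scoped MatrixGroups
open ModularCurve ModularCurve.Period CongruenceSubgroup
open Fermat.Agent.S16.Transfer95 Fermat.Agent.S16.HeckeHom24

namespace Fermat.Agent.S16.LowerFinal59

/-- **(L)**: the Eisenstein congruence modulo `n = eisensteinNumerator p` holds. -/
theorem eisCong_lower (p : ℕ) [hp : Fact p.Prime] :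
    Fermat.Agent.S16.Dual3.EisCong p (eisensteinNumerator p) := by
  haveI : NeZero p := ⟨hp.out.ne_zero⟩
  obtain ⟨φ, v, _, hφ, hv⟩ := Fermat.Agent.S16.Lift59.exists_shimura_lift p
  refine Fermat.Agent.S16.LowerCore26.eisCong_of_transfer p (periodHomPair p) ?_ ?_ ?_ ?_
    (eisensteinNumerator p) (Fermat.Agent.S16.Shimura18.shimura p) ?_ ?_
    (Fermat.Agent.S23.Final.hasIntegralStructure p 2)
    (Fermat.Agent.S16.Shimura18.shimura_surjective p) φ hφ v hv
  · intro ℓ hℓ hℓp w
    exact Fermat.Agent.S16.PeriodEquiv95.isTransfer_periodHomPair_heckeT hℓ hℓp w.1 w.2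
  · intro q hq hqp w
    exact Fermat.Agent.S16.PeriodEquiv95.isTransfer_periodHomPair_heckeU hq.ne_zero hqp w.1 w.2
  · intro ℓ hℓ hℓp γ
    have h := Fermat.Agent.S16.EquivAdapter95.isTransferData_heckeSys (tSys p hℓ hℓp) γ
    rw [Fermat.Agent.S16.EquivAdapter95.tSys_α_eq] at h
    exact ⟨_, _, h⟩
  · intro q hq hqp γ
    have h := Fermat.Agent.S16.EquivAdapter95.isTransferData_heckeSys (uSys p hqp) γ
    exact ⟨_, _, h⟩
  · intro ℓ hℓ hℓp
    have h := Fermat.Agent.S16.EquivAdapter95.isTransfer_heckeTHom hℓ hℓp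
      (Fermat.Agent.S16.Shimura18.shimura p)
    rw [Fermat.Agent.S16.ShimuraEigen18.heckeTHom_shimura p hℓ hℓp] at h
    have e : ((1 + ℓ : ℕ) : ℤ) • Fermat.Agent.S16.Shimura18.shimura p
        = (ℓ + 1) • Fermat.Agent.S16.Shimura18.shimura p := by
      rw [natCast_zsmul, add_comm]
    rw [e]
    exact h
  · intro q hq hqp
    obtain rfl : q = p := (Nat.prime_dvd_prime_iff_eq hq hp.out).mp hqp
    have h := Fermat.Agent.S16.EquivAdapter95.isTransfer_heckeUHom hqp
      (Fermat.Agent.S16.Shimura18.shimura q)
    have e := Fermat.Agent.S16.ShimuraEigen18.heckeUHom_shimura q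
    rw [e] at h
    exact h

end Fermat.Agent.S16.LowerFinal59
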