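import Fermat.Agent.S16.LowerAsm90
import Fermat.Agent.S16.ShimuraEigen18
import Fermat.Agent.S16.PeriodEquiv95
import Fermat.Agent.S16.Wire3
import Fermat.Agent.S21
import Fermat.Agent.S23.Final

/-!
# S16 (L6), final form of the lower bound

Everything except the integral lift of the Shimura class is discharged from landed packages:
S21 (Eichler–Shimura), S23 (integral structure), `PeriodEquiv95` (Hecke-equivariance of the period
map), `HeckeHom24` (transfer data), `Shimura18`/`ShimuraEigen18` (the Shimura class).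

* `exists_eigenchar_of_lift` : an integral parabolic lift of the Shimura class yields the Eisenstein
  character `𝕋 →+* ZMod n`.
* `eisCong_of_lift` : ... hence `Dual3.EisCong p (eisensteinNumerator p)` (hypothesis `hL` of
  `Wire3.s16_of`).
* `dvd_card_of_lift` : ... hence `n ∣ #(𝕋 / I 𝕋)` in the frozen shape.
(helper90)
-/

set_option autoImplicit false

open scoped MatrixGroups

namespace Fermat.Agent.S16.LowerFinal90

open ModularCurve CuspForm CongruenceSubgroup ModularCurve.Period
open Fermat.Agent.S16.Transfer95 Fermat.Agent.S16.LowerAsm90 Fermat.Agent.S16.Shimura18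
open Fermat.Agent.S16.HeckeHom24

variable (p : ℕ) [hp : Fact p.Prime]

theorem eisensteinNumerator_ne_zero : eisensteinNumerator p ≠ 0 := by
  have h1 : 0 < p - 1 := Nat.sub_pos_of_lt hp.out.one_lt
  unfold eisensteinNumerator
  exact (Nat.div_pos (Nat.le_of_dvd h1 (Nat.gcd_dvd_left _ _))
    (Nat.gcd_pos_of_pos_left _ h1)).ne'

theorem tRep_eq_tFam (ℓ : ℕ) : (tRep ℓ : Option (Fin ℓ) → GL (Fin 2) ℝ) = tFam ℓ := by
  funext i
  cases i <;> rfl

theorem uRep_eq_uFam (q : ℕ) : (uRep q : Fin q → GL (Fin 2) ℝ) = uFam q := rfl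

/-- Transfer data for `T_ℓ` along which the Shimura class has eigenvalue `1 + ℓ`. -/
theorem exists_transferData_T {ℓ : ℕ} (hℓ : ℓ.Prime) (hℓp : ¬ ℓ ∣ p) (γ : Gamma0 p) :
    ∃ (σ : Equiv.Perm (Option (Fin ℓ))) (γ' : Option (Fin ℓ) → Gamma0 p),
      IsTransferData (Gamma0 p) (tFam ℓ) γ σ γ' ∧
        ∑ i, shimura p (Additive.ofMul (γ' i)) =
          (1 + (ℓ : ZMod (eisensteinNumerator p))) * shimura p (Additive.ofMul γ) := by
  refine ⟨(tSys p hℓ hℓp).permEquiv γ, (tSys p hℓ hℓp).elt γ, ?_, ?_⟩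
  · intro i
    have := (tSys p hℓ hℓp).rel γ i
    rw [← tRep_eq_tFam]
    exact this
  · have h := DFunLike.congr_fun
      (Fermat.Agent.S16.ShimuraEigen18.heckeTHom_shimura p hℓ hℓp) (Additive.ofMul γ)
    rw [heckeTHom_apply, AddMonoidHom.nsmul_apply, nsmul_eq_mul] at h
    rw [h]
    push_cast
    ring

/-- Transfer data for `U_p` along which the Shimura class is fixed. -/
theorem exists_transferData_U (γ : Gamma0 p) :
    ∃ (σ : Equiv.Perm (Fin p)) (γ' : Fin p → Gamma0 p),
      IsTransferData (Gamma0 p) (uFam p) γ σ γ' ∧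
        ∑ i, shimura p (Additive.ofMul (γ' i)) = shimura p (Additive.ofMul γ) := by
  have : NeZero p := ⟨hp.out.ne_zero⟩
  refine ⟨(uSys p (dvd_refl p)).permEquiv γ, (uSys p (dvd_refl p)).elt γ, ?_, ?_⟩
  · intro i
    exact (uSys p (dvd_refl p)).rel γ i
  · have h := DFunLike.congr_fun
      (Fermat.Agent.S16.ShimuraEigen18.heckeUHom_shimura p) (Additive.ofMul γ)
    rw [heckeUHom_apply] at h
    exact h

/-- **The Eisenstein character from an integral lift of the Shimura class.** -/
theorem exists_eigenchar_of_lift (ψ : Additive (Gamma0 p) →+ ℤ)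
    (hpar : IsParabolicHom (Gamma0 p) ψ)
    (hlift : ∀ g, ((ψ g : ℤ) : ZMod (eisensteinNumerator p)) = shimura p g) :
    ∃ χ : ↥(heckeLatticeAlgebra p ∅) →+* ZMod (eisensteinNumerator p), ∀ P : HeckeAlg,
      χ (projHom p P) =
        ((MvPolynomial.aeval (eisensteinSystem p) P : ℤ) : ZMod (eisensteinNumerator p)) := by
  refine lower_bound_core p (eisensteinNumerator p) (eisensteinNumerator_ne_zero p)
    (Fermat.Agent.S23.Final.hasIntegralStructure p 2) (Fermat.Agent.S21.result p)
    (fun ℓ hℓ hℓN w => PeriodEquiv95.isTransfer_periodHomPair_heckeT hℓ hℓN w.1 w.2)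
    (fun q hq hqN w => PeriodEquiv95.isTransfer_periodHomPair_heckeU hq.ne_zero hqN w.1 w.2)
    (shimura p) (shimura_surjective p 1)
    (fun ℓ hℓ hℓN γ => exists_transferData_T p hℓ hℓN γ) ?_ ψ hpar hlift
  intro q hq hqp γ
  obtain rfl : q = p := (Nat.prime_dvd_prime_iff_eq hq hp.out).mp hqp
  exact exists_transferData_U q γ

/-- **(L)**: an integral parabolic lift of the Shimura class gives the Eisenstein congruence
modulo `eisensteinNumerator p` (hypothesis `hL` of `Wire3.s16_of`). -/
theorem eisCong_of_lift (ψ : Additive (Gamma0 p) →+ ℤ)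
    (hpar : IsParabolicHom (Gamma0 p) ψ)
    (hlift : ∀ g, ((ψ g : ℤ) : ZMod (eisensteinNumerator p)) = shimura p g) :
    Fermat.Agent.S16.Dual3.EisCong p (eisensteinNumerator p) := by
  obtain ⟨χ, hχ⟩ := exists_eigenchar_of_lift p ψ hpar hlift
  exact Fermat.Agent.S16.Wire3.hL_of_forall_dvd p (eisensteinNumerator p)
    (fun z hz => lower_bound_forall_dvd p (eisensteinNumerator p) χ hχ z hz)

/-- **(L)**, frozen shape: `n ∣ #(𝕋 / I 𝕋)`. -/
theorem dvd_card_of_lift (ψ : Additive (Gamma0 p) →+ ℤ)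
    (hpar : IsParabolicHom (Gamma0 p) ψ)
    (hlift : ∀ g, ((ψ g : ℤ) : ZMod (eisensteinNumerator p)) = shimura p g) :
    eisensteinNumerator p ∣ Nat.card (↥(heckeLatticeAlgebra p ∅) ⧸
      Ideal.map ((latticeRestrictHom p ∅).toRingHom.comp (heckeEvalForms p 2))
        (eisensteinIdeal p)) := by
  obtain ⟨χ, hχ⟩ := exists_eigenchar_of_lift p ψ hpar hlift
  exact lower_bound_dvd_card p (eisensteinNumerator p) χ hχ

end Fermat.Agent.S16.LowerFinal90
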