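/-
S16 (L), instantiation of `LowerCore26` (helper26): `P := periodHomPair p`, surjectivity onto the
parabolic classes from the landed S21, integral structure from the landed S23.  What remains as
hypotheses: transfer-equivariance of `periodHomPair` (L2), existence of transfer data (L1), the
Shimura class (L4) and its integral parabolic lift (L5).
-/
import Mathlib
import Fermat.Agent.S16.LowerCore26
import Fermat.Agent.S21
import Fermat.Agent.S23.Final

set_option autoImplicit false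
set_option linter.unusedSectionVars false
set_option linter.unusedVariables false

open ModularCurve CuspForm CongruenceSubgroup

namespace Fermat.Agent.S16.LowerWire26

open Fermat.Agent.S16.Dual3 Fermat.Agent.S16.Transfer95 Fermat.Agent.S16.LowerCore26
open ModularCurve.Period

variable (p : ℕ) [Fact p.Prime]

/-- the complexification of an integral parabolic class is a period class (S21). -/
theorem exists_periodHomPair_eq (φ : Additive (Gamma0 p) →+ ℤ)
    (hφ : φ ∈ parabolicHoms ℤ (Gamma0 p) ℤ) :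
    ∃ v : CuspForm (Gamma0 p) 2 × CuspForm (Gamma0 p) 2,
      periodHomPair p v = (Int.castAddHom ℂ).comp φ := by
  have hmem : (Int.castAddHom ℂ).comp φ ∈ parabolicHoms ℂ (Gamma0 p) ℂ := by
    rw [mem_parabolicHoms_iff] at hφ ⊢
    intro γ hγ
    show ((φ (Additive.ofMul γ) : ℤ) : ℂ) = 0
    rw [hφ γ hγ, Int.cast_zero]
  rw [← (Fermat.Agent.S21.result p).2] at hmem
  exact hmem

/-- **(L)** from (L1), (L2), (L4), (L5). -/
theorem eisCong_of_parts
    (hT : ∀ (ℓ : ℕ) (hℓ : ℓ.Prime) (hℓp : ¬ ℓ ∣ p)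
      (v : CuspForm (Gamma0 p) 2 × CuspForm (Gamma0 p) 2),
        IsTransfer (Gamma0 p) (tFam ℓ) (periodHomPair p v)
          (periodHomPair p (CuspForm.heckeTLin 2 hℓ hℓp v.1, CuspForm.heckeTLin 2 hℓ hℓp v.2)))
    (hU : ∀ (q : ℕ) (hq : q.Prime) (hqp : q ∣ p)
      (v : CuspForm (Gamma0 p) 2 × CuspForm (Gamma0 p) 2),
        IsTransfer (Gamma0 p) (uFam q) (periodHomPair p v)
          (periodHomPair p (CuspForm.heckeULin 2 hqp v.1, CuspForm.heckeULin 2 hqp v.2)))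
    (hexT : ∀ (ℓ : ℕ), ℓ.Prime → ¬ ℓ ∣ p → ∀ γ : Gamma0 p,
      ∃ (σ : Equiv.Perm (Option (Fin ℓ))) (γ' : Option (Fin ℓ) → Gamma0 p),
        IsTransferData (Gamma0 p) (tFam ℓ) γ σ γ')
    (hexU : ∀ (q : ℕ), q.Prime → q ∣ p → ∀ γ : Gamma0 p,
      ∃ (σ : Equiv.Perm (Fin q)) (γ' : Fin q → Gamma0 p),
        IsTransferData (Gamma0 p) (uFam q) γ σ γ')
    (n : ℕ) (ψ0 : Additive (Gamma0 p) →+ ZMod n)
    (hψT : ∀ (ℓ : ℕ), ℓ.Prime → ¬ ℓ ∣ p →
      IsTransfer (Gamma0 p) (tFam ℓ) ψ0 (((1 + ℓ : ℕ) : ℤ) • ψ0))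
    (hψU : ∀ (q : ℕ), q.Prime → q ∣ p → IsTransfer (Gamma0 p) (uFam q) ψ0 ψ0)
    (hsurj : Function.Surjective ψ0)
    (φ : Additive (Gamma0 p) →+ ℤ) (hφpar : φ ∈ parabolicHoms ℤ (Gamma0 p) ℤ)
    (hφ : ∀ γ, ((φ γ : ℤ) : ZMod n) = ψ0 γ) : EisCong p n := by
  obtain ⟨v, hv⟩ := exists_periodHomPair_eq p φ hφpar
  exact eisCong_of_transfer p (periodHomPair p) hT hU hexT hexU n ψ0 hψT hψU
    (Fermat.Agent.S23.Final.hasIntegralStructure p 2) hsurj φ hφ v hv

end Fermat.Agent.S16.LowerWire26
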