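/-
S16, upper bound (U), package NORM23 / NORM–STURM (helper8): core, independent of the
arithmetic instance.

* `ellInt l`     : the subring of `ℂ` of `l`-integral algebraic numbers (`O` of all (U) consumers).
* `prodForm`     : a finite family of functions on `ℍ` permuted by the weight-`k` slash action of
                   `S` and `T` has a product which is a level-one modular form.
* `resForm f g c`: the "resultant" `∏_{a,b} c • (conj f a - conj g b)` of the conjugates of two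
                   forms of prime levels `p`, `N`, as a level-one form.
* `normSturm_false` : the abstract order bookkeeping: if the `q^{1/h}`-expansions of the factors
                   have coefficients in `O`, `|s₁|` of them have reduction `unit * t^h + ...` mod `I`
                   and all the others have unit constant term mod `I`, then a level-one Sturm
                   bound `B < |s₁|` is contradictory.
-/
import Mathlib
import Fermat.Prelude.Thm_UpperHalfPlane_qExpansion_prod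
import Fermat.Prelude.Thm_UpperHalfPlane_qExpansion_coeff_nat_mul
import Fermat.Agent.S16.Conj53.Symm

set_option autoImplicit false

open UpperHalfPlane ModularForm CongruenceSubgroup ModularGroup
open scoped MatrixGroups ModularForm Manifold

namespace Fermat.Agent.S16.Norm23Core

/-! ### Power series bookkeeping over a commutative ring -/

section PS

open PowerSeries

variable {R : Type*} [CommRing R]

theorem exists_unit_of_coeff {h : ℕ} (P : PowerSeries R) (h0 : ∀ m < h, coeff m P = 0)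
    (hu : IsUnit (coeff h P)) : ∃ U : (PowerSeries R)ˣ, P = X ^ h * (U : PowerSeries R) := by
  obtain ⟨V, hV⟩ := (X_pow_dvd_iff).mpr h0
  have hc : constantCoeff V = coeff h P := by
    rw [hV, coeff_X_pow_mul', if_pos le_rfl, Nat.sub_self, coeff_zero_eq_constantCoeff]
  have hVu : IsUnit V := isUnit_iff_constantCoeff.mpr (hc ▸ hu)
  exact ⟨hVu.unit, by simpa using hV⟩

theorem prod_eq_X_pow_mul_unit {ι : Type*} [DecidableEq ι] (s s₁ : Finset ι) (hs : s₁ ⊆ s) (h : ℕ)
    (P : ι → PowerSeries R)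
    (h1 : ∀ i ∈ s₁, (∀ m < h, coeff m (P i) = 0) ∧ IsUnit (coeff h (P i)))
    (h0 : ∀ i ∈ s \ s₁, IsUnit (coeff 0 (P i))) :
    ∃ U : (PowerSeries R)ˣ, ∏ i ∈ s, P i = X ^ (h * s₁.card) * (U : PowerSeries R) := by
  have hA : ∃ U : (PowerSeries R)ˣ, ∏ i ∈ s₁, P i = X ^ (h * s₁.card) * (U : PowerSeries R) := by
    have : ∀ i ∈ s₁, ∃ U : (PowerSeries R)ˣ, P i = X ^ h * (U : PowerSeries R) :=
      fun i hi => exists_unit_of_coeff (P i) (h1 i hi).1 (h1 i hi).2
    choose! U hU using this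
    refine ⟨∏ i ∈ s₁, U i, ?_⟩
    rw [Finset.prod_congr rfl hU, Finset.prod_mul_distrib, Finset.prod_const, ← pow_mul,
      Units.coe_prod]
  have hB : ∃ U : (PowerSeries R)ˣ, ∏ i ∈ s \ s₁, P i = (U : PowerSeries R) := by
    have : ∀ i ∈ s \ s₁, ∃ U : (PowerSeries R)ˣ, P i = (U : PowerSeries R) := fun i hi =>
      ⟨(isUnit_iff_constantCoeff.mpr (by simpa using h0 i hi)).unit, by simp⟩
    choose! U hU using this
    exact ⟨∏ i ∈ s \ s₁, U i, by rw [Finset.prod_congr rfl hU, Units.coe_prod]⟩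
  obtain ⟨U, hU⟩ := hA
  obtain ⟨V, hV⟩ := hB
  refine ⟨U * V, ?_⟩
  rw [← Finset.prod_sdiff hs, hU, hV, Units.val_mul]
  ring

theorem coeff_X_pow_mul_unit_lt {n m : ℕ} (U : (PowerSeries R)ˣ) (hm : m < n) :
    coeff m (X ^ n * (U : PowerSeries R)) = 0 := by
  rw [coeff_X_pow_mul', if_neg (by omega)]

theorem isUnit_coeff_X_pow_mul_unit (n : ℕ) (U : (PowerSeries R)ˣ) :
    IsUnit (coeff n (X ^ n * (U : PowerSeries R))) := by
  rw [coeff_X_pow_mul', if_pos le_rfl, Nat.sub_self, coeff_zero_eq_constantCoeff]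
  exact isUnit_iff_constantCoeff.mp U.isUnit

end PS

/-! ### The abstract NORM–STURM contradiction -/

section Bookkeeping

open PowerSeries

/-- `q`-expansion coefficients of a level-one form `F` from its `q^{1/h}`-expansion. -/
theorem qExpansion_one_coeff_of_period {k : ℤ} (F : ModularForm 𝒮ℒ k) {h : ℕ} (hh : 0 < h)
    (n : ℕ) : (qExpansion 1 F).coeff n = (qExpansion (h : ℝ) F).coeff (h * n) := by
  have hper : Function.Periodic ((F : ℍ → ℂ) ∘ UpperHalfPlane.ofComplex) 1 :=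
    SlashInvariantFormClass.periodic_comp_ofComplex F one_mem_strictPeriods_SL
  have := UpperHalfPlane.qExpansion_coeff_nat_mul (h := 1) one_pos hper (ModularFormClass.holo F)
    (ModularFormClass.bdd_at_infty F) (M := h) hh (h * n)
  rw [mul_one] at this
  rw [this, if_pos (dvd_mul_right h n), Nat.mul_div_cancel_left n hh]

/-- **Abstract NORM–STURM.**  `O ⊆ ℂ` a subring, `I ≠ ⊤` an ideal.  A level-one form `F` is a
finite product of functions `D i` having `q^{1/h}`-expansions with coefficients in `O`.  For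
`i ∈ s₁` the expansion is `≡ unit * t^h + …` modulo `I`, for the other `i` the constant term is
a unit modulo `I`.  If the coefficients of `F` obey a Sturm bound `B < |s₁|` with respect to
every additive subgroup of `ℂ`, we get a contradiction. -/
theorem normSturm_false (O : Subring ℂ) (I : Ideal O) (hI : I ≠ ⊤) {h : ℕ} (hh : 0 < h)
    {ι : Type*} [DecidableEq ι] (s s₁ : Finset ι) (hs : s₁ ⊆ s) (D : ι → ℍ → ℂ)
    (hD : ∀ i ∈ s, AnalyticAt ℂ (cuspFunction (h : ℝ) (D i)) 0)
    (Q : ι → PowerSeries O)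
    (hQ : ∀ i ∈ s, qExpansion (h : ℝ) (D i) = (Q i).map O.subtype)
    (h1 : ∀ i ∈ s₁, (∀ m < h, coeff m (Q i) ∈ I) ∧
      IsUnit (Ideal.Quotient.mk I (coeff h (Q i))))
    (h0 : ∀ i ∈ s \ s₁, IsUnit (Ideal.Quotient.mk I (coeff 0 (Q i))))
    {k : ℤ} (F : ModularForm 𝒮ℒ k) (hF : (F : ℍ → ℂ) = ∏ i ∈ s, D i)
    (B : ℕ) (hB : B < s₁.card)
    (hSturm : ∀ S : AddSubgroup ℂ, (∀ n ≤ B, (qExpansion 1 F).coeff n ∈ S) →
      ∀ n, (qExpansion 1 F).coeff n ∈ S) : False := by
  have hI' : Nontrivial (O ⧸ I) := Ideal.Quotient.nontrivial_iff.mpr hI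
  set P : PowerSeries O := ∏ i ∈ s, Q i with hP
  -- the `q^{1/h}`-expansion of `F`
  have hprod : qExpansion (h : ℝ) F = P.map O.subtype := by
    rw [hF, UpperHalfPlane.qExpansion_prod s hD, Finset.prod_congr rfl hQ, hP, map_prod]
  have hcoef : ∀ n, (qExpansion 1 F).coeff n = ((coeff (h * n) P : O) : ℂ) := by
    intro n
    rw [qExpansion_one_coeff_of_period F hh n, hprod, coeff_map]
    rfl
  -- reduction modulo `I`
  let φ : PowerSeries O →+* PowerSeries (O ⧸ I) := PowerSeries.map (Ideal.Quotient.mk I)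
  obtain ⟨U, hU⟩ := prod_eq_X_pow_mul_unit s s₁ hs h (fun i => φ (Q i))
    (fun i hi => ⟨fun m hm => by
        rw [show φ (Q i) = PowerSeries.map (Ideal.Quotient.mk I) (Q i) from rfl, coeff_map]
        exact Ideal.Quotient.eq_zero_iff_mem.mpr ((h1 i hi).1 m hm), by
        rw [show φ (Q i) = PowerSeries.map (Ideal.Quotient.mk I) (Q i) from rfl, coeff_map]
        exact (h1 i hi).2⟩)
    (fun i hi => by
        rw [show φ (Q i) = PowerSeries.map (Ideal.Quotient.mk I) (Q i) from rfl, coeff_map]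
        exact h0 i hi)
  have hφP : φ P = X ^ (h * s₁.card) * (U : PowerSeries (O ⧸ I)) := by
    rw [hP, map_prod]; exact hU
  have hmk : ∀ m, Ideal.Quotient.mk I (coeff m P) = coeff m (φ P) := fun m => by
    rw [show φ P = PowerSeries.map (Ideal.Quotient.mk I) P from rfl, coeff_map]
  -- the additive subgroup of `ℂ` given by `I`
  let S : AddSubgroup ℂ := I.toAddSubgroup.map O.subtype.toAddMonoidHom
  have hS : ∀ n, (qExpansion 1 F).coeff n ∈ S ↔ coeff (h * n) P ∈ I := by
    intro n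
    rw [hcoef n]
    constructor
    · rintro ⟨x, hx, hxe⟩
      have : x = coeff (h * n) P := Subtype.ext hxe
      exact this ▸ hx
    · intro hx
      exact ⟨_, hx, rfl⟩
  have hlow : ∀ n ≤ B, (qExpansion 1 F).coeff n ∈ S := by
    intro n hn
    rw [hS n, ← Ideal.Quotient.eq_zero_iff_mem, hmk, hφP]
    exact coeff_X_pow_mul_unit_lt U (Nat.mul_lt_mul_of_pos_left (by omega) hh)
  have hall := hSturm S hlow s₁.card
  rw [hS, ← Ideal.Quotient.eq_zero_iff_mem, hmk, hφP] at hall
  have hu := isUnit_coeff_X_pow_mul_unit (h * s₁.card) U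
  rw [hall] at hu
  exact not_isUnit_zero hu

end Bookkeeping

/-! ### Products of families permuted by `S` and `T` are level-one forms -/

section ProdForm

variable {ι : Type} [Fintype ι] {k : ℤ}

theorem prod_slash_perm (F : ι → ℍ → ℂ) (γ : SL(2, ℤ)) (σ : Equiv.Perm ι)
    (h : ∀ a, F a ∣[k] γ = F (σ a)) :
    (∏ a, F a) ∣[k * (Fintype.card ι : ℤ)] γ = ∏ a, F a := by
  rw [← Finset.card_univ, Conj53.prod_slash_SL, Finset.prod_congr rfl (fun a _ => h a)]
  exact Equiv.prod_comp σ F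

theorem prod_slash_of_generators (F : ι → ℍ → ℂ) (σS σT : Equiv.Perm ι)
    (hS : ∀ a, F a ∣[k] S = F (σS a)) (hT : ∀ a, F a ∣[k] T = F (σT a)) (γ : SL(2, ℤ)) :
    (∏ a, F a) ∣[k * (Fintype.card ι : ℤ)] γ = ∏ a, F a :=
  SlashInvariantForm.slash_action_generators_SL2Z (prod_slash_perm F S σS hS)
    (prod_slash_perm F T σT hT) γ

theorem prod_bdd (F : ι → ℍ → ℂ) (hbd : ∀ a, IsBoundedAtImInfty (F a)) :
    IsBoundedAtImInfty (∏ a, F a) := by
  rw [IsBoundedAtImInfty, Filter.BoundedAtFilter]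
  rw [show (1 : ℍ → ℝ) = (fun x ↦ ∏ (_a : ι), (1 : ℝ)) by ext; simp, Finset.prod_fn]
  exact Asymptotics.IsBigO.finsetProd fun a _ => hbd a

theorem prod_mdiff (F : ι → ℍ → ℂ) (hmd : ∀ a, MDiff (F a)) : MDiff (∏ a, F a) :=
  MDifferentiable.prod fun a _ => hmd a

/-- The product of a finite family of holomorphic functions, bounded at `i∞`, which is permuted
by the weight `k` slash action of `S` and of `T`, as a level-one modular form. -/
noncomputable def prodForm (F : ι → ℍ → ℂ) (σS σT : Equiv.Perm ι)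
    (hS : ∀ a, F a ∣[k] S = F (σS a)) (hT : ∀ a, F a ∣[k] T = F (σT a))
    (hmd : ∀ a, MDiff (F a)) (hbd : ∀ a, IsBoundedAtImInfty (F a)) :
    ModularForm 𝒮ℒ (k * (Fintype.card ι : ℤ)) where
  toFun := ∏ a, F a
  slash_action_eq' A hA := by
    obtain ⟨A, rfl⟩ := hA
    exact prod_slash_of_generators F σS σT hS hT A
  holo' := prod_mdiff F hmd
  bdd_at_cusps' hc := by
    rw [Subgroup.IsArithmetic.isCusp_iff_isCusp_SL2Z] at hc
    rw [OnePoint.isBoundedAt_iff_forall_SL2Z hc]
    intro γ _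
    rw [prod_slash_of_generators F σS σT hS hT]
    exact prod_bdd F hbd

@[simp] theorem coe_prodForm (F : ι → ℍ → ℂ) (σS σT : Equiv.Perm ι)
    (hS : ∀ a, F a ∣[k] S = F (σS a)) (hT : ∀ a, F a ∣[k] T = F (σT a))
    (hmd : ∀ a, MDiff (F a)) (hbd : ∀ a, IsBoundedAtImInfty (F a)) :
    (prodForm F σS σT hS hT hmd hbd : ℍ → ℂ) = ∏ a, F a := rfl

end ProdForm

/-! ### The resultant of the conjugates of two forms of prime levels -/

section ResForm

variable {p N : ℕ} {k : ℤ}

/-- The factors `c • (f_a - g_b)` of the resultant. -/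
noncomputable def resFun (f : ModularForm (Gamma0 p) k) (g : ModularForm (Gamma0 N) k) (c : ℂ)
    (ab : Option (ZMod p) × Option (ZMod N)) : ℍ → ℂ :=
  c • (Conj53.conj f ab.1 - Conj53.conj g ab.2)

variable [hp : Fact p.Prime] [hN : Fact N.Prime]

theorem resFun_slash_S (f : ModularForm (Gamma0 p) k) (g : ModularForm (Gamma0 N) k) (c : ℂ)
    (ab : Option (ZMod p) × Option (ZMod N)) :
    resFun f g c ab ∣[k] S = resFun f g c (Equiv.prodCongr Conj53.sigmaS Conj53.sigmaS ab) := by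
  simp only [resFun, Equiv.prodCongr_apply, Prod.map_fst, Prod.map_snd]
  rw [ModularForm.SL_smul_slash, sub_eq_add_neg, SlashAction.add_slash, SlashAction.neg_slash,
    Conj53.conj_slash_S, Conj53.conj_slash_S, ← sub_eq_add_neg]

theorem resFun_slash_T (f : ModularForm (Gamma0 p) k) (g : ModularForm (Gamma0 N) k) (c : ℂ)
    (ab : Option (ZMod p) × Option (ZMod N)) :
    resFun f g c ab ∣[k] T = resFun f g c (Equiv.prodCongr Conj53.sigmaT Conj53.sigmaT ab) := by
  simp only [resFun, Equiv.prodCongr_apply, Prod.map_fst, Prod.map_snd]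
  rw [ModularForm.SL_smul_slash, sub_eq_add_neg, SlashAction.add_slash, SlashAction.neg_slash,
    Conj53.conj_slash_T, Conj53.conj_slash_T, ← sub_eq_add_neg]

omit hp hN in
theorem resFun_mdiff (f : ModularForm (Gamma0 p) k) (g : ModularForm (Gamma0 N) k) (c : ℂ)
    (ab : Option (ZMod p) × Option (ZMod N)) : MDiff (resFun f g c ab) := by
  unfold resFun
  exact ((Conj53.conj_mdiff f ab.1).sub (Conj53.conj_mdiff g ab.2)).const_smul c

theorem resFun_bdd (f : ModularForm (Gamma0 p) k) (g : ModularForm (Gamma0 N) k) (c : ℂ)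
    (ab : Option (ZMod p) × Option (ZMod N)) : IsBoundedAtImInfty (resFun f g c ab) := by
  unfold resFun
  exact ((Conj53.conj_bdd f ab.1).sub (Conj53.conj_bdd g ab.2)).const_smul_left c

/-- The resultant `∏_{a,b} c • (f_a - g_b)` of the conjugates of `f` (level `p`) and `g`
(level `N`), a level-one form of weight `k (p+1)(N+1)`. -/
noncomputable def resForm (f : ModularForm (Gamma0 p) k) (g : ModularForm (Gamma0 N) k) (c : ℂ) :
    ModularForm 𝒮ℒ (k * (Fintype.card (Option (ZMod p) × Option (ZMod N)) : ℤ)) :=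
  prodForm (resFun f g c) _ _ (resFun_slash_S f g c) (resFun_slash_T f g c)
    (resFun_mdiff f g c) (resFun_bdd f g c)

theorem coe_resForm (f : ModularForm (Gamma0 p) k) (g : ModularForm (Gamma0 N) k) (c : ℂ) :
    (resForm f g c : ℍ → ℂ) = ∏ ab, resFun f g c ab := rfl

theorem card_index : Fintype.card (Option (ZMod p) × Option (ZMod N)) = (p + 1) * (N + 1) := by
  have : NeZero p := ⟨hp.out.ne_zero⟩
  have : NeZero N := ⟨hN.out.ne_zero⟩
  simp [Fintype.card_prod, Fintype.card_option, ZMod.card]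

end ResForm

/-! ### The ring of `l`-integral algebraic numbers -/

section EllInt

variable (l : ℕ) [hl : Fact l.Prime]

/-- The subring of `ℂ` of `l`-integral algebraic numbers: `x` such that `m x` is an algebraic
integer for some integer `m` prime to `l`. -/
def ellInt : Subring ℂ where
  carrier := {x | ∃ m : ℕ, ¬ l ∣ m ∧ IsIntegral ℤ ((m : ℂ) * x)}
  mul_mem' := by
    rintro x y ⟨m, hm, hx⟩ ⟨n, hn, hy⟩
    refine ⟨m * n, fun h => (hl.out.dvd_mul.mp h).elim hm hn, ?_⟩
    have := hx.mul hy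
    have e : ((m * n : ℕ) : ℂ) * (x * y) = (m : ℂ) * x * ((n : ℂ) * y) := by
      push_cast
      ring
    rw [e]
    exact this
  one_mem' := ⟨1, fun h => hl.out.one_lt.ne' (Nat.dvd_one.mp h), by simpa using isIntegral_one⟩
  add_mem' := by
    rintro x y ⟨m, hm, hx⟩ ⟨n, hn, hy⟩
    refine ⟨m * n, fun h => (hl.out.dvd_mul.mp h).elim hm hn, ?_⟩
    have h1 : IsIntegral ℤ ((n : ℂ) * ((m : ℂ) * x)) := (isIntegral_algebraMap (x := (n : ℤ))).mul hx
    have h2 : IsIntegral ℤ ((m : ℂ) * ((n : ℂ) * y)) := (isIntegral_algebraMap (x := (m : ℤ))).mul hy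
    have := h1.add h2
    have e : ((m * n : ℕ) : ℂ) * (x + y) = (n : ℂ) * ((m : ℂ) * x) + (m : ℂ) * ((n : ℂ) * y) := by
      push_cast
      ring
    rw [e]
    exact this
  zero_mem' := ⟨1, fun h => hl.out.one_lt.ne' (Nat.dvd_one.mp h), by simpa using isIntegral_zero⟩
  neg_mem' := by
    rintro x ⟨m, hm, hx⟩
    exact ⟨m, hm, by simpa using hx.neg⟩

variable {l}

theorem mem_ellInt_iff {x : ℂ} :
    x ∈ ellInt l ↔ ∃ m : ℕ, ¬ l ∣ m ∧ IsIntegral ℤ ((m : ℂ) * x) := Iff.rfl

theorem mem_ellInt_of_isIntegral {x : ℂ} (hx : IsIntegral ℤ x) : x ∈ ellInt l :=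
  ⟨1, fun h => hl.out.one_lt.ne' (Nat.dvd_one.mp h), by simpa using hx⟩

/-- roots of unity are `l`-integral. -/
theorem mem_ellInt_of_pow_eq_one {x : ℂ} {n : ℕ} (hn : 0 < n) (hx : x ^ n = 1) : x ∈ ellInt l :=
  mem_ellInt_of_isIntegral (IsIntegral.of_pow hn (hx ▸ isIntegral_one))

theorem inv_natCast_mem_ellInt {d : ℕ} (hd : ¬ l ∣ d) : ((d : ℂ))⁻¹ ∈ ellInt l := by
  refine ⟨d, hd, ?_⟩
  have hd0 : (d : ℂ) ≠ 0 := by
    rintro h
    exact hd (by rw [Nat.cast_eq_zero.mp h]; exact dvd_zero l)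
  rw [mul_inv_cancel₀ hd0]
  exact isIntegral_one

/-- `m / d` with `l ∤ d` is `l`-integral. -/
theorem intCast_div_natCast_mem_ellInt (m : ℤ) {d : ℕ} (hd : ¬ l ∣ d) :
    (m : ℂ) / (d : ℂ) ∈ ellInt l := by
  rw [div_eq_mul_inv]
  exact (ellInt l).mul_mem (intCast_mem (ellInt l) m) (inv_natCast_mem_ellInt hd)

/-- `1 / l` is not `l`-integral. -/
theorem inv_ell_not_mem_ellInt : ((l : ℂ))⁻¹ ∉ ellInt l := by
  rintro ⟨m, hm, hx⟩
  have hl0 : (l : ℚ) ≠ 0 := Nat.cast_ne_zero.mpr hl.out.ne_zero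
  have h1 : (m : ℂ) * ((l : ℂ))⁻¹ = algebraMap ℚ ℂ ((m : ℚ) / (l : ℚ)) := by
    simp [div_eq_mul_inv]
  rw [h1, isIntegral_algebraMap_iff (algebraMap ℚ ℂ).injective] at hx
  obtain ⟨y, hy⟩ := IsIntegrallyClosed.isIntegral_iff.mp hx
  have h2 : (m : ℚ) = (l : ℚ) * (y : ℚ) := by
    have : (y : ℚ) = (m : ℚ) / (l : ℚ) := by simpa using hy
    rw [this]; field_simp
  have h3 : (m : ℤ) = (l : ℤ) * y := by exact_mod_cast h2
  exact hm (Int.natCast_dvd_natCast.mp ⟨y, h3⟩)

/-- The ideal `l O` of `O = ellInt l` is proper. -/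
theorem span_ell_ne_top : Ideal.span {((l : ℕ) : ellInt l)} ≠ ⊤ := by
  intro h
  rw [Ideal.span_singleton_eq_top] at h
  obtain ⟨u, hu⟩ := h
  have h1 : ((u⁻¹ : (ellInt l)ˣ) : ellInt l) * ((l : ℕ) : ellInt l) = 1 := by
    rw [← hu]; exact u.inv_mul
  have h2 : (((u⁻¹ : (ellInt l)ˣ) : ellInt l) : ℂ) * (l : ℂ) = 1 := by
    have := congrArg (Subtype.val) h1
    simpa using this
  have hl0 : (l : ℂ) ≠ 0 := Nat.cast_ne_zero.mpr hl.out.ne_zero
  have h3 : ((l : ℂ))⁻¹ = (((u⁻¹ : (ellInt l)ˣ) : ellInt l) : ℂ) := by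
    field_simp
    rw [mul_comm, h2]
  exact inv_ell_not_mem_ellInt (h3 ▸ ((u⁻¹ : (ellInt l)ˣ) : ellInt l).2)

theorem mem_span_ell_iff {x : ellInt l} :
    x ∈ Ideal.span {((l : ℕ) : ellInt l)} ↔ ∃ y ∈ ellInt l, (x : ℂ) = (l : ℂ) * y := by
  rw [Ideal.mem_span_singleton]
  constructor
  · rintro ⟨y, rfl⟩
    exact ⟨y, y.2, by simp⟩
  · rintro ⟨y, hy, hxy⟩
    exact ⟨⟨y, hy⟩, Subtype.ext (by simpa using hxy)⟩

end EllInt

end Fermat.Agent.S16.Norm23Core
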