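/-
S16, upper bound (U): pure algebra core of the LEVEL-`p` NORM STEP (helper44).

For `G ≡ 1 mod l^b` (a power series over any commutative ring) the isobaric polynomials
  `l ≥ 7`:  `G^2 - E₄`,   `l = 5`:  `G^3 - E₆`,   `l = 3`:  `(G^2 - E₄)/3`,
  `l = 2`:  `(E₄^2 + 10 E₄ G^2 - 8 E₆ G - 3 G^4)/256`
are integral and congruent mod `l` to a FIXED series `u q + O(q^2)`, `u` a unit mod `l`,
independent of `G`.  Everything here is a ring identity in an arbitrary commutative ring, plus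
the arithmetic of the integral series `s3 = ∑ σ₃(n) qⁿ`, `s5 = ∑ σ₅(n) qⁿ`,
`tser = ∑ (5σ₃(n)+7σ₅(n))/12 qⁿ`, plus a product-order lemma for power series.
Mathlib + the Prelude definition of `eisenstein4` only.
-/
import Mathlib
import Fermat.Prelude.Def_ModularCurve_X0

set_option autoImplicit false

namespace Fermat.Agent.S16.NormCore44

open PowerSeries

/-! ### Ring identities (valid in every commutative ring) -/

section RingIdentities

variable {A : Type*} [CommRing A]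

/-- The quotient by `256` in the `l = 2` row. -/
def psi2Quot (s3 s5 t g : A) : A :=
  27 * t + 225 * s3 ^ 2 - 2 * g ^ 2 + 150 * s3 * g + 600 * s3 * g ^ 2 + 126 * s5 * g
    - 24 * g ^ 3 - 48 * g ^ 4

/-- The remainder (to be multiplied by `2`) in the `l = 2` row. -/
def psi2Rem (s3 s5 t g : A) : A :=
  13 * t + 112 * s3 ^ 2 - g ^ 2 + 75 * s3 * g + 300 * s3 * g ^ 2 + 63 * s5 * g
    - 12 * g ^ 3 - 24 * g ^ 4

/-- `l = 2`: with `E₄ = 1 + 240 s3`, `E₆ = 1 - 504 s5`, `5 s3 + 7 s5 = 12 t` and `G = 1 + 8 g`: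
`E₄² + 10 E₄ G² - 8 E₆ G - 3 G⁴ = 256 · psi2Quot`. -/
theorem psi2_eq (s3 s5 t g : A) (h : 5 * s3 + 7 * s5 = 12 * t) :
    (1 + 240 * s3) ^ 2 + 10 * (1 + 240 * s3) * (1 + 8 * g) ^ 2
        - 8 * (1 - 504 * s5) * (1 + 8 * g) - 3 * (1 + 8 * g) ^ 4
      = 256 * psi2Quot s3 s5 t g := by
  unfold psi2Quot
  linear_combination (576 : A) * h

/-- `l = 2`: `psi2Quot ≡ t + s3² mod 2`, independently of `g`. -/
theorem psi2Quot_eq (s3 s5 t g : A) :
    psi2Quot s3 s5 t g = (t + s3 ^ 2) + 2 * psi2Rem s3 s5 t g := by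
  unfold psi2Quot psi2Rem
  ring

/-- `l = 3`: `G = 1 + 9 g`: `G² - E₄ = 3 · (6 g + 27 g² - 80 s3)`. -/
theorem psi3_eq (s3 g : A) :
    (1 + 9 * g) ^ 2 - (1 + 240 * s3) = 3 * (6 * g + 27 * g ^ 2 - 80 * s3) := by
  ring

/-- `l = 3`: the quotient is `≡ s3 mod 3`. -/
theorem psi3Quot_eq (s3 g : A) :
    6 * g + 27 * g ^ 2 - 80 * s3 = s3 + 3 * (2 * g + 9 * g ^ 2 - 27 * s3) := by
  ring

/-- `l ≥ 7` (any `l`): `G = 1 + l g`: `G² - E₄ = -240 s3 + l · (2 g + l g²)`. -/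
theorem psiE4_eq (l s3 g : A) :
    (1 + l * g) ^ 2 - (1 + 240 * s3) = -240 * s3 + l * (2 * g + l * g ^ 2) := by
  ring

/-- `l = 5` (any `l`): `G = 1 + l g`: `G³ - E₆ = 504 s5 + l · (3 g + 3 l g² + l² g³)`. -/
theorem psiE6_eq (l s5 g : A) :
    (1 + l * g) ^ 3 - (1 - 504 * s5) = 504 * s5 + l * (3 * g + 3 * l * g ^ 2 + l ^ 2 * g ^ 3) := by
  ring

/-- `l = p` finishing step: `F = c + p f`: `F² - c² E = c² (1 - E) + p · (2 c f + p f²)`. -/
theorem psiP_eq (p c f E : A) :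
    (c + p * f) ^ 2 - c ^ 2 * E = c ^ 2 * (1 - E) + p * (2 * c * f + p * f ^ 2) := by
  ring

end RingIdentities

/-! ### The integral series `s3`, `s5`, `tser` -/

/-- `∑_{n ≥ 1} σ_k(n) qⁿ` as an integral power series. -/
def sig (k : ℕ) : PowerSeries ℤ :=
  PowerSeries.mk fun n => if n = 0 then 0 else ∑ d ∈ n.divisors, (d : ℤ) ^ k

/-- `s3 = ∑ σ₃(n) qⁿ`. -/
def s3 : PowerSeries ℤ := sig 3

/-- `s5 = ∑ σ₅(n) qⁿ`. -/
def s5 : PowerSeries ℤ := sig 5

theorem coeff_sig (k n : ℕ) :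
    coeff n (sig k) = if n = 0 then 0 else ∑ d ∈ n.divisors, (d : ℤ) ^ k := by
  simp [sig]

@[simp] theorem coeff_zero_sig (k : ℕ) : coeff 0 (sig k) = 0 := by simp [coeff_sig]

@[simp] theorem coeff_one_sig (k : ℕ) : coeff 1 (sig k) = 1 := by simp [coeff_sig]

@[simp] theorem constantCoeff_sig (k : ℕ) : constantCoeff (sig k) = 0 := by
  rw [← coeff_zero_eq_constantCoeff_apply]; exact coeff_zero_sig k

theorem twelve_dvd (d : ℤ) : (12 : ℤ) ∣ 5 * d ^ 3 + 7 * d ^ 5 := by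
  have h : ∀ r : ZMod 12, 5 * r ^ 3 + 7 * r ^ 5 = 0 := by decide
  have h2 : ((5 * d ^ 3 + 7 * d ^ 5 : ℤ) : ZMod 12) = 0 := by
    push_cast
    exact h (d : ZMod 12)
  exact (ZMod.intCast_zmod_eq_zero_iff_dvd _ 12).mp h2

theorem twelve_dvd_sum (n : ℕ) :
    (12 : ℤ) ∣ ∑ d ∈ n.divisors, (5 * (d : ℤ) ^ 3 + 7 * (d : ℤ) ^ 5) :=
  Finset.dvd_sum fun d _ => twelve_dvd d

/-- `tser = ∑ (5 σ₃(n) + 7 σ₅(n))/12 qⁿ`. -/
def tser : PowerSeries ℤ :=
  PowerSeries.mk fun n =>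
    if n = 0 then 0 else (∑ d ∈ n.divisors, (5 * (d : ℤ) ^ 3 + 7 * (d : ℤ) ^ 5)) / 12

@[simp] theorem coeff_zero_tser : coeff 0 tser = 0 := by simp [tser]

@[simp] theorem coeff_one_tser : coeff 1 tser = 1 := by simp [tser]

@[simp] theorem constantCoeff_tser : constantCoeff tser = 0 := by
  rw [← coeff_zero_eq_constantCoeff_apply]; exact coeff_zero_tser

/-- `5 s3 + 7 s5 = 12 tser`. -/
theorem five_s3_add_seven_s5 : 5 * s3 + 7 * s5 = 12 * tser := by
  ext n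
  have h5 : (5 : PowerSeries ℤ) = C (5 : ℤ) := by simp
  have h7 : (7 : PowerSeries ℤ) = C (7 : ℤ) := by simp
  have h12 : (12 : PowerSeries ℤ) = C (12 : ℤ) := by simp
  rw [h5, h7, h12, map_add, coeff_C_mul, coeff_C_mul, coeff_C_mul]
  by_cases hn : n = 0
  · simp [s3, s5, tser, sig, hn]
  · simp only [s3, s5, tser, sig, coeff_mk, if_neg hn]
    rw [Int.mul_ediv_cancel' (twelve_dvd_sum n), Finset.sum_add_distrib, Finset.mul_sum,
      Finset.mul_sum]

/-- The Prelude series `eisenstein4` is `1 + 240 s3`. -/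
theorem eisenstein4_eq : ModularCurve.eisenstein4 = 1 + 240 * s3 := by
  ext n
  have h240 : (240 : PowerSeries ℤ) = C (240 : ℤ) := by simp
  rw [h240, map_add, coeff_C_mul]
  by_cases hn : n = 0
  · simp [ModularCurve.eisenstein4, s3, sig, hn]
  · simp [ModularCurve.eisenstein4, s3, sig, hn, coeff_one]

/-- The integral `q`-expansion `1 - 504 ∑ σ₅(n) qⁿ` of `E₆` (same shape as
`MillerSturm46.eisenstein6`) is `1 - 504 s5`. -/
theorem eisenstein6_eq :
    (PowerSeries.mk fun n => if n = 0 then (1 : ℤ) else -504 * ∑ d ∈ n.divisors, (d : ℤ) ^ 5)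
      = 1 - 504 * s5 := by
  ext n
  have h504 : (504 : PowerSeries ℤ) = C (504 : ℤ) := by simp
  rw [h504, map_sub, coeff_C_mul]
  by_cases hn : n = 0
  · simp [s5, sig, hn]
  · simp [s5, sig, hn, coeff_one]

/-- The fixed series of the `l = 2` row: `tser + s3²` has no constant term and coefficient `1`
at `q`. -/
theorem coeff_zero_tser_add : coeff 0 (tser + s3 ^ 2) = 0 := by
  simp [s3, pow_two, coeff_zero_eq_constantCoeff_apply]

theorem coeff_one_tser_add : coeff 1 (tser + s3 ^ 2) = 1 := by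
  obtain ⟨ρ, hρ⟩ := (X_dvd_iff (φ := s3)).mpr (constantCoeff_sig 3)
  rw [map_add, coeff_one_tser, hρ, mul_pow, coeff_X_pow_mul']
  simp

/-! ### Order of a product -/

section ProductOrder

variable {K : Type*} [CommRing K] {ι : Type*}

/-- If every factor `φ i` has vanishing coefficients below `m`, and coefficient `u i` at `m`,
then the product over `s` has vanishing coefficients below `m * #s` and coefficient `∏ u i`
at `m * #s`. -/
theorem coeff_prod_of_order (m : ℕ) (s : Finset ι) (φ : ι → PowerSeries K) (u : ι → K)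
    (h0 : ∀ i ∈ s, ∀ n < m, coeff n (φ i) = 0) (h1 : ∀ i ∈ s, coeff m (φ i) = u i) :
    (∀ n < m * s.card, coeff n (∏ i ∈ s, φ i) = 0) ∧
      coeff (m * s.card) (∏ i ∈ s, φ i) = ∏ i ∈ s, u i := by
  classical
  have hdiv : ∀ i ∈ s, ∃ ρ : PowerSeries K, φ i = X ^ m * ρ ∧ constantCoeff ρ = u i := by
    intro i hi
    obtain ⟨ρ, hρ⟩ := (X_pow_dvd_iff).mpr (h0 i hi)
    refine ⟨ρ, hρ, ?_⟩
    have := h1 i hi
    rw [hρ, coeff_X_pow_mul', if_pos le_rfl, Nat.sub_self,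
      coeff_zero_eq_constantCoeff_apply] at this
    exact this
  choose! ρ hρ using hdiv
  have hprod : ∏ i ∈ s, φ i = X ^ (m * s.card) * ∏ i ∈ s, ρ i := by
    rw [Finset.prod_congr rfl fun i hi => (hρ i hi).1, Finset.prod_mul_distrib,
      Finset.prod_const, ← pow_mul]
  refine ⟨fun n hn => ?_, ?_⟩
  · rw [hprod, coeff_X_pow_mul', if_neg (not_le.mpr hn)]
  · rw [hprod, coeff_X_pow_mul', if_pos le_rfl, Nat.sub_self,
      coeff_zero_eq_constantCoeff_apply, map_prod]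
    exact Finset.prod_congr rfl fun i hi => (hρ i hi).2

end ProductOrder

end Fermat.Agent.S16.NormCore44
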