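/-
S16 / (U): `U8Stmt` — no `G ∈ M₂(Γ₀(p))` is `≡ 1 mod 8` when `8 ∣ p + 1` (helper72, inside
helper51's `NormP51` norm-step framework, with helper44's `NormCore44` 2-adic identity).

`ψ(G) = (E₄² + 10 E₄ G² - 8 E₆ G - 3 G⁴)/256 ∈ M₈(Γ₀(p))`: for every series `G' = 1 + 8u`,
`ψ(G') = psi2Quot s₃ s₅ t u ≡ t + s₃² mod 2`, a fixed series of `q`-order `1` with leading
coefficient `1`.  Norm step in weight `8`.
-/
import Fermat.Agent.S16.NormP51.Core
import Fermat.Agent.S16.NormP51.ExpG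
import Fermat.Agent.S16.NormP51.LevelOne
import Fermat.Agent.S16.NormP51.Quot
import Fermat.Agent.S16.NormCore44
import Fermat.Agent.S16.Conj53.WeightTwo

set_option autoImplicit false

open UpperHalfPlane ModularForm CongruenceSubgroup ModularGroup Function
open scoped MatrixGroups ModularForm Manifold

namespace Fermat.Agent.S16.NormP51U8_72

open Fermat.Agent.S24.HasQExp Fermat.Agent.S16.Conj53 ModularFormClass ModularCurve
open Fermat.Agent.S16.UIface39 EisensteinSeries Fermat.Agent.S16.NormP51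
open Fermat.Agent.S16.NormCore44 (s3 s5 tser psi2Quot psi2Rem)

/-! ### The integral series, spread and mapped into an arbitrary ring -/

section Series

variable (R : Type*) [CommRing R] (p : ℕ)

/-- `s₃(X^p)` over `R`. -/
noncomputable def S3 : PowerSeries R := spread p (s3.map (Int.castRingHom R))
/-- `s₅(X^p)` over `R`. -/
noncomputable def S5 : PowerSeries R := spread p (s5.map (Int.castRingHom R))
/-- `t(X^p)` over `R`. -/
noncomputable def TT : PowerSeries R := spread p (tser.map (Int.castRingHom R))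

theorem five_S3_add_seven_S5 : 5 * S3 R p + 7 * S5 R p = 12 * TT R p := by
  have h5 : (5 : PowerSeries R) = PowerSeries.C (5 : R) := (map_ofNat (PowerSeries.C (R := R)) 5).symm
  have h7 : (7 : PowerSeries R) = PowerSeries.C (7 : R) := (map_ofNat (PowerSeries.C (R := R)) 7).symm
  have h12 : (12 : PowerSeries R) = PowerSeries.C (12 : R) :=
    (map_ofNat (PowerSeries.C (R := R)) 12).symm
  ext m
  rw [h5, h7, h12, map_add, PowerSeries.coeff_C_mul, PowerSeries.coeff_C_mul,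
    PowerSeries.coeff_C_mul, S3, S5, TT, coeff_spread, coeff_spread, coeff_spread]
  split_ifs with hd
  · have h := congrArg (fun f : PowerSeries ℤ => (Int.castRingHom R) (PowerSeries.coeff (m / p) f))
      Fermat.Agent.S16.NormCore44.five_s3_add_seven_s5
    have h5' : (5 : PowerSeries ℤ) = PowerSeries.C (5 : ℤ) :=
      (map_ofNat (PowerSeries.C (R := ℤ)) 5).symm
    have h7' : (7 : PowerSeries ℤ) = PowerSeries.C (7 : ℤ) :=
      (map_ofNat (PowerSeries.C (R := ℤ)) 7).symm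
    have h12' : (12 : PowerSeries ℤ) = PowerSeries.C (12 : ℤ) :=
      (map_ofNat (PowerSeries.C (R := ℤ)) 12).symm
    simp only [h5', h7', h12', map_add, PowerSeries.coeff_C_mul, map_mul] at h
    simpa [PowerSeries.coeff_map] using h
  · simp

theorem map_S3 {A B : Type*} [CommRing A] [CommRing B] (φ : A →+* B) :
    PowerSeries.map φ (S3 A p) = S3 B p := map_spread_int φ p s3
theorem map_S5 {A B : Type*} [CommRing A] [CommRing B] (φ : A →+* B) :
    PowerSeries.map φ (S5 A p) = S5 B p := map_spread_int φ p s5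
theorem map_TT {A B : Type*} [CommRing A] [CommRing B] (φ : A →+* B) :
    PowerSeries.map φ (TT A p) = TT B p := map_spread_int φ p tser

variable {p}

theorem X_pow_dvd_S3 (hp : 0 < p) : (PowerSeries.X : PowerSeries R) ^ p ∣ S3 R p := by
  rw [PowerSeries.X_pow_dvd_iff]
  intro m hm
  rcases Nat.eq_zero_or_pos m with rfl | hm0
  · rw [S3, coeff_spread_zero, PowerSeries.coeff_map, s3,
      Fermat.Agent.S16.NormCore44.coeff_zero_sig, map_zero]
  · exact coeff_spread_of_lt _ hm0 hm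

/-- The fixed series `t(X^p) + s₃(X^p)²`: coefficients below `p` vanish. -/
theorem coeff_QQ_low (hp : 0 < p) (m : ℕ) (hm : m < p) :
    PowerSeries.coeff m (TT R p + S3 R p ^ 2) = 0 := by
  have h2 : (PowerSeries.X : PowerSeries R) ^ p ∣ S3 R p ^ 2 :=
    dvd_pow (X_pow_dvd_S3 R hp) two_ne_zero
  rw [map_add, PowerSeries.X_pow_dvd_iff.mp h2 m hm, add_zero]
  rcases Nat.eq_zero_or_pos m with rfl | hm0
  · rw [TT, coeff_spread_zero, PowerSeries.coeff_map,
      Fermat.Agent.S16.NormCore44.coeff_zero_tser, map_zero]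
  · exact coeff_spread_of_lt _ hm0 hm

/-- The fixed series `t(X^p) + s₃(X^p)²`: the `p`-th coefficient is `1`. -/
theorem coeff_QQ_top (hp : 0 < p) :
    PowerSeries.coeff p (TT R p + S3 R p ^ 2) = 1 := by
  have h2 : (PowerSeries.X : PowerSeries R) ^ (p * 2) ∣ S3 R p ^ 2 := by
    rw [pow_mul]
    exact pow_dvd_pow_of_dvd (X_pow_dvd_S3 R hp) 2
  rw [map_add, PowerSeries.X_pow_dvd_iff.mp h2 p (by omega), add_zero, TT,
    coeff_spread_self hp, PowerSeries.coeff_map,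
    Fermat.Agent.S16.NormCore44.coeff_one_tser, map_one]

end Series

/-! ### The form `ψ(G)` and its conjugates -/

variable {p : ℕ} [hp : Fact p.Prime]

/-- `ψ(G) = (E₄² + 10 E₄ G² - 8 E₆ G - 3 G⁴)/256`. -/
noncomputable def psi2 (G : ModularForm (Gamma0 p) 2) : ModularForm (Gamma0 p) 8 :=
  (1 / 256 : ℂ) •
    (ModularForm.mcast (by norm_num : (4 : ℤ) + 4 = 8) ((resLevel p E₄).mul (resLevel p E₄))
      + (10 : ℂ) • ModularForm.mcast (by norm_num : (4 : ℤ) + (2 + 2) = 8)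
          ((resLevel p E₄).mul (G.mul G))
      - (8 : ℂ) • ModularForm.mcast (by norm_num : (6 : ℤ) + 2 = 8) ((resLevel p E₆).mul G)
      - (3 : ℂ) • ModularForm.mcast (by norm_num : ((2 : ℤ) + 2) + (2 + 2) = 8)
          ((G.mul G).mul (G.mul G)))

theorem coe_psi2 (G : ModularForm (Gamma0 p) 2) :
    (psi2 G : ℍ → ℂ) = (1 / 256 : ℂ) •
      ((E₄ : ℍ → ℂ) * (E₄ : ℍ → ℂ)
        + (10 : ℂ) • ((E₄ : ℍ → ℂ) * ((G : ℍ → ℂ) * (G : ℍ → ℂ)))
        - (8 : ℂ) • ((E₆ : ℍ → ℂ) * (G : ℍ → ℂ))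
        - (3 : ℂ) • (((G : ℍ → ℂ) * (G : ℍ → ℂ)) * ((G : ℍ → ℂ) * (G : ℍ → ℂ)))) := rfl

theorem conj_psi2 (G : ModularForm (Gamma0 p) 2) (a : Option (ZMod p)) (τ : ℍ) :
    conj (psi2 G) a τ = (256 : ℂ)⁻¹ *
      (E₄ τ * E₄ τ + 10 * (E₄ τ * (conj G a τ * conj G a τ))
        - 8 * (E₆ τ * conj G a τ)
        - 3 * ((conj G a τ * conj G a τ) * (conj G a τ * conj G a τ))) := by
  have h44 : cjFun (8 : ℤ) ((E₄ : ℍ → ℂ) * (E₄ : ℍ → ℂ)) a
      = cjFun 4 (E₄ : ℍ → ℂ) a * cjFun 4 (E₄ : ℍ → ℂ) a := by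
    have := cjFun_mul 4 4 (E₄ : ℍ → ℂ) (E₄ : ℍ → ℂ) a
    norm_num at this
    exact this
  have h22 : cjFun (4 : ℤ) ((G : ℍ → ℂ) * (G : ℍ → ℂ)) a
      = cjFun 2 (G : ℍ → ℂ) a * cjFun 2 (G : ℍ → ℂ) a := by
    have := cjFun_mul 2 2 (G : ℍ → ℂ) (G : ℍ → ℂ) a
    norm_num at this
    exact this
  have h422 : cjFun (8 : ℤ) ((E₄ : ℍ → ℂ) * ((G : ℍ → ℂ) * (G : ℍ → ℂ))) a
      = cjFun 4 (E₄ : ℍ → ℂ) a * cjFun 4 ((G : ℍ → ℂ) * (G : ℍ → ℂ)) a := by
    have := cjFun_mul 4 4 (E₄ : ℍ → ℂ) ((G : ℍ → ℂ) * (G : ℍ → ℂ)) a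
    norm_num at this
    exact this
  have h62 : cjFun (8 : ℤ) ((E₆ : ℍ → ℂ) * (G : ℍ → ℂ)) a
      = cjFun 6 (E₆ : ℍ → ℂ) a * cjFun 2 (G : ℍ → ℂ) a := by
    have := cjFun_mul 6 2 (E₆ : ℍ → ℂ) (G : ℍ → ℂ) a
    norm_num at this
    exact this
  have h2222 : cjFun (8 : ℤ) (((G : ℍ → ℂ) * (G : ℍ → ℂ)) * ((G : ℍ → ℂ) * (G : ℍ → ℂ))) a
      = cjFun 4 ((G : ℍ → ℂ) * (G : ℍ → ℂ)) a * cjFun 4 ((G : ℍ → ℂ) * (G : ℍ → ℂ)) a := by
    have := cjFun_mul 4 4 ((G : ℍ → ℂ) * (G : ℍ → ℂ)) ((G : ℍ → ℂ) * (G : ℍ → ℂ)) a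
    norm_num at this
    exact this
  rw [conj_eq_cjFun, coe_psi2, cjFun_smul, cjFun_sub, cjFun_sub, cjFun_add, cjFun_smul,
    cjFun_smul, cjFun_smul, h44, h422, h62, h2222, h22, cjFun_levelOne, cjFun_levelOne,
    conj_eq_cjFun]
  simp [Pi.smul_apply, smul_eq_mul]

/-! ### `U8Stmt` -/

theorem c4 : C4Stmt := by
  intro p _ G m
  rw [bS_weight_two, one_div]

theorem u8 : U8Stmt := by
  intro p hpp hp5 h8 G hG0 hGk
  have : Fact p.Prime := ⟨hpp⟩
  have : Fact (Nat.Prime 2) := ⟨Nat.prime_two⟩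
  have hC4 := c4
  have hℓp : 2 ≠ p := by omega
  have hdvd : 2 ^ 3 ∣ p + 1 := by norm_num; exact h8
  have hG0' : (qExpansion 1 G).coeff 0 = 1 := hG0
  have hGk' : ∀ k : ℕ, 1 ≤ k → InPow 2 3 ((qExpansion 1 G).coeff k) := hGk
  have hp0 : 0 < p := hpp.pos
  choose u hu using exists_EG'_eq G hC4 hℓp hdvd hG0' hGk'
  refine false_of_norm (w := 8) (by norm_num) (by norm_num) (psi2 G) (lInt 2) 2
    (fun a => psi2Quot (S3 (lInt 2) p) (S5 (lInt 2) p) (TT (lInt 2) p) (u a)) ?_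
    (TT _ p + S3 _ p ^ 2) ?_ ?_ ?_
  · -- expansions
    intro a τ
    rw [conj_psi2]
    have h1 := psum_EG' G hC4 hℓp hG0' hGk' a τ
    have h4 := psum_levelOne E₄ eisenstein4 MillerSturm46.qExpansion_E4_eq hp0 τ
    have h6 := psum_levelOne E₆ MillerSturm46.eisenstein6 MillerSturm46.qExpansion_E6_eq hp0 τ
    have hsum := (((h4.mul h4).add ((PSum.C 10 _).mul (h4.mul (h1.mul h1)))).sub
      ((PSum.C 8 _).mul (h6.mul h1))).sub ((PSum.C 3 _).mul ((h1.mul h1).mul (h1.mul h1)))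
    refine psum_of_eq_C_mul (c := 256) (by norm_num) ?_ hsum
    rw [hu a, NormP51.eisenstein4_eq, NormP51.eisenstein6_eq]
    have hs3 : S3 ℂ p = spread p ((sigSeries 3).map (Int.castRingHom ℂ)) := rfl
    have hs5 : S5 ℂ p = spread p ((sigSeries 5).map (Int.castRingHom ℂ)) := rfl
    have h5 : spread p ((1 + PowerSeries.C 240 * sigSeries 3).map (Int.castRingHom ℂ))
        = 1 + 240 * S3 ℂ p := by
      rw [map_add, map_mul, map_one, PowerSeries.map_C, spread_one_add_C_mul hp0, hs3]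
      have : PowerSeries.C ((Int.castRingHom ℂ) 240) = (240 : PowerSeries ℂ) := by
        rw [eq_intCast, Int.cast_ofNat, map_ofNat]
      rw [this]
    have h7 : spread p ((1 + PowerSeries.C (-504) * sigSeries 5).map (Int.castRingHom ℂ))
        = 1 - 504 * S5 ℂ p := by
      rw [map_add, map_mul, map_one, PowerSeries.map_C, spread_one_add_C_mul hp0, hs5]
      have : PowerSeries.C ((Int.castRingHom ℂ) (-504)) = (-504 : PowerSeries ℂ) := by
        rw [eq_intCast, Int.cast_neg, Int.cast_ofNat, map_neg, map_ofNat]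
      rw [this]
      ring
    have hq : PowerSeries.map (lInt 2).subtype
        (psi2Quot (S3 (lInt 2) p) (S5 (lInt 2) p) (TT (lInt 2) p) (u a))
        = psi2Quot (S3 ℂ p) (S5 ℂ p) (TT ℂ p) (PowerSeries.map (lInt 2).subtype (u a)) := by
      unfold psi2Quot
      simp only [map_add, map_sub, map_mul, map_pow, map_ofNat, map_S3, map_S5, map_TT]
    have hG : PowerSeries.map (lInt 2).subtype
        (1 + PowerSeries.C (((2 : ℕ) : lInt 2) ^ 3) * u a)
        = 1 + 8 * PowerSeries.map (lInt 2).subtype (u a) := by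
      rw [map_add, map_mul, map_one, PowerSeries.map_C]
      congr 2
      have : (lInt 2).subtype (((2 : ℕ) : lInt 2) ^ 3) = (8 : ℂ) := by
        rw [map_pow, map_natCast]; norm_num
      rw [this]
      exact map_ofNat _ 8
    have key := Fermat.Agent.S16.NormCore44.psi2_eq (S3 ℂ p) (S5 ℂ p) (TT ℂ p)
      (PowerSeries.map (lInt 2).subtype (u a)) (five_S3_add_seven_S5 ℂ p)
    have e10 : (PowerSeries.C (10 : ℂ)) = 10 := map_ofNat _ 10
    have e8 : (PowerSeries.C (8 : ℂ)) = 8 := map_ofNat _ 8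
    have e3 : (PowerSeries.C (3 : ℂ)) = 3 := map_ofNat _ 3
    have e256 : (PowerSeries.C (256 : ℂ)) = 256 := map_ofNat _ 256
    rw [hG, h5, h7, hq, e10, e8, e3, e256]
    linear_combination key
  · -- reduction modulo 2
    intro a
    have h2 : (2 : PowerSeries (lInt 2 ⧸ Ideal.span {((2 : ℕ) : lInt 2)})) = 0 := by
      have := natCast_powerSeries_eq_zero (quot_natCast_eq_zero (ℓ := 2))
      exact_mod_cast this
    rw [Fermat.Agent.S16.NormCore44.psi2Quot_eq]
    simp only [map_add, map_mul, map_pow, map_ofNat, map_S3, map_TT]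
    rw [h2, zero_mul, add_zero]
  · -- low coefficients
    intro m hm
    exact coeff_QQ_low _ hp0 m hm
  · -- the leading coefficient
    rw [coeff_QQ_top _ hp0, one_pow]
    exact one_ne_zero

end Fermat.Agent.S16.NormP51U8_72
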