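/-
S16 pre-wiring (helper39).

* `eisCong_lower` : the lower bound (L) is CLOSED: `Dual3.EisCong p (eisensteinNumerator p)`
  (helper59's `Lift59.exists_shimura_lift` fed into helper90's `LowerFinal90.eisCong_of_lift`).
* `dvd_card_lower` : the same in the frozen shape `n ∣ #(𝕋 / I 𝕋)`.
* `s16_of_five` : the frozen S16 statement from the five open upper-bound leaves of `UIface39`
  (`U1Stmt`, `USwDStmt`, `U9Stmt`, `U8Stmt`, `UpStmt`); `EisStmt` is helper17's `Eis17.eisStmt`.
  So `Fermat/Agent/S16.lean` is `Pre39.s16_of_five u1 uswd u9 u8 up p`.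
-/
import Fermat.Agent.S16.Wire3
import Fermat.Agent.S16.UFinal39
import Fermat.Agent.S16.Eis17.Iface39
import Fermat.Agent.S16.LowerFinal90
import Fermat.Agent.S16.Lift59.ShimuraLift

set_option autoImplicit false

open ModularCurve CuspForm CongruenceSubgroup

namespace Fermat.Agent.S16.Pre39

open Fermat.Agent.S16

/-- **(L) closed**: the Eisenstein congruence modulo `n = eisensteinNumerator p`. -/
theorem eisCong_lower (p : ℕ) [Fact p.Prime] : Dual3.EisCong p (eisensteinNumerator p) := by
  obtain ⟨φ, _, hpar, hlift, _⟩ := Lift59.exists_shimura_lift p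
  exact LowerFinal90.eisCong_of_lift p φ hpar hlift

/-- **(L) closed**, frozen shape. -/
theorem dvd_card_lower (p : ℕ) [Fact p.Prime] :
    eisensteinNumerator p ∣ Nat.card (↥(heckeLatticeAlgebra p ∅) ⧸
      Ideal.map ((latticeRestrictHom p ∅).toRingHom.comp (heckeEvalForms p 2))
        (eisensteinIdeal p)) := by
  obtain ⟨φ, _, hpar, hlift, _⟩ := Lift59.exists_shimura_lift p
  exact LowerFinal90.dvd_card_of_lift p φ hpar hlift

/-- The upper bound from the five open leaves. -/
theorem upperStmt_of_five (u1 : UIface39.U1Stmt) (uswd : UIface39.USwDStmt)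
    (u9 : UIface39.U9Stmt) (u8 : UIface39.U8Stmt) (up : UIface39.UpStmt) :
    UIface39.UpperStmt :=
  UFinal39.upperStmt_of u1 uswd u9 u8 up Eis17.eisStmt

/-- **S16 (frozen shape) from the five open upper-bound leaves.** -/
theorem s16_of_five (u1 : UIface39.U1Stmt) (uswd : UIface39.USwDStmt)
    (u9 : UIface39.U9Stmt) (u8 : UIface39.U8Stmt) (up : UIface39.UpStmt)
    (p : ℕ) [Fact p.Prime] :
    Nat.card (↥(heckeLatticeAlgebra p ∅) ⧸
        Ideal.map ((latticeRestrictHom p ∅).toRingHom.comp (heckeEvalForms p 2))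
          (eisensteinIdeal p)) =
      eisensteinNumerator p :=
  Wire3.s16_of (upperStmt_of_five u1 uswd u9 u8 up) p (eisCong_lower p)

end Fermat.Agent.S16.Pre39
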