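/-
S16 (Mazur's Eisenstein index), package (U)-RINGO (helper87): the coefficient ring
`O_l ⊆ ℂ` of `l`-integral algebraic numbers.

* `IsLInt l x`      : some multiple `d * x`, `l ∤ d`, is an algebraic integer;
* `ringO l`         : the subring of `ℂ` of `l`-integral algebraic numbers (contains `ℤ_(l)`, all
                      algebraic integers, all roots of unity, `1/p` for primes `p ≠ l`);
* `ratCast_mem_iff` : `ringO l ∩ ℚ = ℤ_(l)`;
* `lPow l b`        : the additive subgroup `l^b • O_l` of `ℂ`; `ratCast_mem_lPow_iff`,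
                      `intCast_mem_lPow_iff`, `natCast_mem_lPow_iff` (integer corollaries);
* `maxIdeal l`      : a maximal ideal of `ringO l` containing `l`; `kappa l` the residue field
                      (characteristic `l`); `maxC l` the same ideal as an additive subgroup of `ℂ`;
                      `ratCast_mem_maxC_iff` (an `l`-integral rational lies in it iff `l ∣` numerator);
* `red`             : reduction of a power series with coefficients in `ringO l` to `kappa l⟦X⟧`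
                      (ring-hom properties, `red_eq_zero_iff`).
No placeholder proofs in this file.
-/
import Mathlib

set_option autoImplicit false

namespace Fermat.Agent.S16.RingO87

variable (l : ℕ) [hl : Fact l.Prime]

/-- `x` is an `l`-integral algebraic number. -/
def IsLInt (x : ℂ) : Prop := ∃ d : ℕ, ¬ l ∣ d ∧ IsIntegral ℤ ((d : ℂ) * x)

variable {l}

theorem isLInt_of_isIntegral {x : ℂ} (h : IsIntegral ℤ x) : IsLInt l x :=
  ⟨1, Nat.Prime.not_dvd_one hl.out, by simpa using h⟩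

theorem IsLInt.add {x y : ℂ} (hx : IsLInt l x) (hy : IsLInt l y) : IsLInt l (x + y) := by
  obtain ⟨d, hd, hdx⟩ := hx
  obtain ⟨e, he, hey⟩ := hy
  refine ⟨d * e, fun h => ?_, ?_⟩
  · rcases (Nat.Prime.dvd_mul hl.out).mp h with h | h
    exacts [hd h, he h]
  · have : ((d * e : ℕ) : ℂ) * (x + y) = (e : ℂ) * ((d : ℂ) * x) + (d : ℂ) * ((e : ℂ) * y) := by
      push_cast; ring
    rw [this]
    exact ((isIntegral_natCast e).mul hdx).add ((isIntegral_natCast d).mul hey)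

theorem IsLInt.mul {x y : ℂ} (hx : IsLInt l x) (hy : IsLInt l y) : IsLInt l (x * y) := by
  obtain ⟨d, hd, hdx⟩ := hx
  obtain ⟨e, he, hey⟩ := hy
  refine ⟨d * e, fun h => ?_, ?_⟩
  · rcases (Nat.Prime.dvd_mul hl.out).mp h with h | h
    exacts [hd h, he h]
  · have : ((d * e : ℕ) : ℂ) * (x * y) = ((d : ℂ) * x) * ((e : ℂ) * y) := by
      push_cast; ring
    rw [this]
    exact hdx.mul hey

omit hl in
theorem IsLInt.neg {x : ℂ} (hx : IsLInt l x) : IsLInt l (-x) := by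
  obtain ⟨d, hd, hdx⟩ := hx
  refine ⟨d, hd, ?_⟩
  rw [mul_neg]
  exact hdx.neg

variable (l)

/-- The ring `O_l` of `l`-integral algebraic numbers in `ℂ`. -/
def ringO : Subring ℂ where
  carrier := {x | IsLInt l x}
  mul_mem' hx hy := hx.mul hy
  one_mem' := isLInt_of_isIntegral isIntegral_one
  add_mem' hx hy := hx.add hy
  zero_mem' := isLInt_of_isIntegral isIntegral_zero
  neg_mem' hx := hx.neg

variable {l}

theorem mem_ringO_iff {x : ℂ} : x ∈ ringO l ↔ IsLInt l x := Iff.rfl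

theorem isIntegral_mem {x : ℂ} (h : IsIntegral ℤ x) : x ∈ ringO l := isLInt_of_isIntegral h

/-- Roots of unity lie in `O_l`. -/
theorem mem_of_pow_eq_one {ζ : ℂ} {n : ℕ} (hn : 0 < n) (h : ζ ^ n = 1) : ζ ∈ ringO l :=
  isIntegral_mem (IsIntegral.of_pow hn (h ▸ isIntegral_one))

/-- `e^{2πi k / n} ∈ O_l`. -/
theorem exp_mem (n : ℕ) (hn : 0 < n) (k : ℤ) :
    Complex.exp (2 * Real.pi * Complex.I * k / n) ∈ ringO l := by
  apply mem_of_pow_eq_one hn
  rw [← Complex.exp_nat_mul]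
  have hn0 : (n : ℂ) ≠ 0 := Nat.cast_ne_zero.mpr hn.ne'
  have : (n : ℂ) * (2 * Real.pi * Complex.I * k / n) = k * (2 * Real.pi * Complex.I) := by
    field_simp
  rw [this]
  exact Complex.exp_int_mul_two_pi_mul_I k

/-- the inverse of a natural number prime to `l` lies in `O_l`. -/
theorem inv_natCast_mem {d : ℕ} (hd : ¬ l ∣ d) : ((d : ℂ))⁻¹ ∈ ringO l := by
  have hd0 : (d : ℂ) ≠ 0 := by
    rw [Nat.cast_ne_zero]
    rintro rfl
    exact hd (dvd_zero l)
  exact ⟨d, hd, by rw [mul_inv_cancel₀ hd0]; exact isIntegral_one⟩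

/-- `ℤ_(l) ⊆ O_l`. -/
theorem ratCast_mem {r : ℚ} (hr : ¬ l ∣ r.den) : (r : ℂ) ∈ ringO l := by
  have : (r : ℂ) = (r.num : ℂ) * ((r.den : ℂ))⁻¹ := by
    rw [← div_eq_mul_inv]
    exact_mod_cast (Rat.num_div_den r).symm
  rw [this]
  exact (ringO l).mul_mem (intCast_mem _ _) (inv_natCast_mem hr)

/-- A rational number which is an algebraic integer is an integer. -/
theorem exists_int_of_isIntegral_ratCast {r : ℚ} (h : IsIntegral ℤ (r : ℂ)) :
    ∃ m : ℤ, r = m := by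
  have h1 : IsIntegral ℤ r :=
    (isIntegral_algebraMap_iff (A := ℚ) (B := ℂ) (algebraMap ℚ ℂ).injective).mp h
  obtain ⟨m, hm⟩ := IsIntegrallyClosed.isIntegral_iff.mp h1
  exact ⟨m, by simpa using hm.symm⟩

/-- **`O_l ∩ ℚ = ℤ_(l)`.** -/
theorem ratCast_mem_iff {r : ℚ} : (r : ℂ) ∈ ringO l ↔ ¬ l ∣ r.den := by
  refine ⟨fun h => ?_, ratCast_mem⟩
  obtain ⟨d, hd, hint⟩ := h
  have h1 : ((d : ℂ) * (r : ℂ)) = (((d : ℚ) * r : ℚ) : ℂ) := by push_cast; ring
  rw [h1] at hint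
  obtain ⟨m, hm⟩ := exists_int_of_isIntegral_ratCast hint
  -- `r = m / d`, so `r.den ∣ d`
  intro hden
  apply hd
  have hd0 : (d : ℚ) ≠ 0 := by
    rw [Nat.cast_ne_zero]
    rintro rfl
    exact hd (dvd_zero l)
  have hr : r = (m : ℚ) / (d : ℚ) := by
    rw [eq_div_iff hd0, mul_comm]; exact hm
  have hdvd : (r.den : ℤ) ∣ (d : ℤ) := by
    have := Rat.den_dvd m (d : ℤ)
    rw [Rat.divInt_eq_div] at this
    rw [hr]
    exact_mod_cast this
  exact Int.natCast_dvd_natCast.mp (dvd_trans (Int.natCast_dvd_natCast.mpr hden) hdvd)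

/-- `l` is not invertible in `O_l`. -/
theorem inv_l_notMem : ((l : ℂ))⁻¹ ∉ ringO l := by
  intro h
  have h1 : ((l : ℂ))⁻¹ = (((l : ℚ)⁻¹ : ℚ) : ℂ) := by push_cast; rfl
  rw [h1, ratCast_mem_iff] at h
  apply h
  have : ((l : ℚ)⁻¹).den = l := by
    have := Rat.inv_natCast_den l
    rw [this, if_neg hl.out.ne_zero]
  rw [this]

/-! ### The subgroups `l^b • O_l` -/

variable (l)

/-- `l^b • O_l` as an additive subgroup of `ℂ`. -/
def lPow (b : ℕ) : AddSubgroup ℂ where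
  carrier := {x | ∃ y ∈ ringO l, x = (l : ℂ) ^ b * y}
  add_mem' := by
    rintro _ _ ⟨y, hy, rfl⟩ ⟨z, hz, rfl⟩
    exact ⟨y + z, (ringO l).add_mem hy hz, by ring⟩
  zero_mem' := ⟨0, (ringO l).zero_mem, by ring⟩
  neg_mem' := by
    rintro _ ⟨y, hy, rfl⟩
    exact ⟨-y, (ringO l).neg_mem hy, by ring⟩

variable {l}

theorem mem_lPow_iff {b : ℕ} {x : ℂ} : x ∈ lPow l b ↔ ∃ y ∈ ringO l, x = (l : ℂ) ^ b * y :=
  Iff.rfl

theorem mem_lPow_zero_iff {x : ℂ} : x ∈ lPow l 0 ↔ x ∈ ringO l := by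
  rw [mem_lPow_iff]
  constructor
  · rintro ⟨y, hy, rfl⟩; simpa using hy
  · intro h; exact ⟨x, h, by simp⟩

theorem lPow_le_ringO (b : ℕ) {x : ℂ} (hx : x ∈ lPow l b) : x ∈ ringO l := by
  obtain ⟨y, hy, rfl⟩ := hx
  exact (ringO l).mul_mem ((ringO l).pow_mem (natCast_mem _ l) b) hy

theorem mul_mem_lPow {b : ℕ} {x y : ℂ} (hx : x ∈ ringO l) (hy : y ∈ lPow l b) :
    x * y ∈ lPow l b := by
  obtain ⟨z, hz, rfl⟩ := hy
  exact ⟨x * z, (ringO l).mul_mem hx hz, by ring⟩

theorem lPow_mono {b c : ℕ} (h : b ≤ c) {x : ℂ} (hx : x ∈ lPow l c) : x ∈ lPow l b := by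
  obtain ⟨y, hy, rfl⟩ := hx
  refine ⟨(l : ℂ) ^ (c - b) * y,
    (ringO l).mul_mem ((ringO l).pow_mem (natCast_mem _ l) _) hy, ?_⟩
  rw [← mul_assoc, ← pow_add, Nat.add_sub_cancel' h]

/-- The shape `InPow` of `UIface39`: `x * d = l^b * m` with `l ∤ d`. -/
theorem mem_lPow_of_mul_eq {b : ℕ} {x : ℂ} {m : ℤ} {d : ℕ} (hd : ¬ l ∣ d)
    (h : x * (d : ℂ) = (l : ℂ) ^ b * (m : ℂ)) : x ∈ lPow l b := by
  have hd0 : (d : ℂ) ≠ 0 := by
    rw [Nat.cast_ne_zero]
    rintro rfl
    exact hd (dvd_zero l)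
  refine ⟨(m : ℂ) * ((d : ℂ))⁻¹, (ringO l).mul_mem (intCast_mem _ _) (inv_natCast_mem hd), ?_⟩
  rw [← mul_assoc, ← h, mul_assoc, mul_inv_cancel₀ hd0, mul_one]

/-- **Rational elements of `l^b • O_l`** have the shape `l^b * m / d`, `l ∤ d`. -/
theorem ratCast_mem_lPow_iff {b : ℕ} {r : ℚ} :
    (r : ℂ) ∈ lPow l b ↔ ∃ (m : ℤ) (d : ℕ), ¬ l ∣ d ∧ (r : ℂ) * (d : ℂ) = (l : ℂ) ^ b * (m : ℂ) := by
  constructor
  · rintro ⟨y, hy, hxy⟩
    have hl0 : (l : ℂ) ^ b ≠ 0 := pow_ne_zero _ (Nat.cast_ne_zero.mpr hl.out.ne_zero)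
    have hy' : y = ((r / (l : ℚ) ^ b : ℚ) : ℂ) := by
      push_cast
      rw [hxy, mul_div_cancel_left₀ _ hl0]
    rw [hy', ratCast_mem_iff] at hy
    set s : ℚ := r / (l : ℚ) ^ b with hs
    refine ⟨s.num, s.den, hy, ?_⟩
    have hl0' : (l : ℚ) ^ b ≠ 0 := pow_ne_zero _ (Nat.cast_ne_zero.mpr hl.out.ne_zero)
    have h1 : r = (l : ℚ) ^ b * s := by rw [hs, mul_div_cancel₀ _ hl0']
    have h2 : s * (s.den : ℚ) = (s.num : ℚ) := Rat.mul_den_eq_num s
    have h3 : r * (s.den : ℚ) = (l : ℚ) ^ b * (s.num : ℚ) := by rw [h1, mul_assoc, h2]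
    exact_mod_cast congrArg (fun t : ℚ => (t : ℂ)) h3
  · rintro ⟨m, d, hd, h⟩
    exact mem_lPow_of_mul_eq hd h

/-- **Integer corollary**: an integer in `l^b • O_l` is divisible by `l^b`. -/
theorem intCast_mem_lPow_iff {b : ℕ} {a : ℤ} : (a : ℂ) ∈ lPow l b ↔ ((l : ℤ) ^ b) ∣ a := by
  constructor
  · intro h
    have h' : ((a : ℚ) : ℂ) ∈ lPow l b := by simpa using h
    obtain ⟨m, d, hd, hmd⟩ := ratCast_mem_lPow_iff.mp h'
    have h1 : a * (d : ℤ) = (l : ℤ) ^ b * m := by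
      have : ((a * (d : ℤ) : ℤ) : ℂ) = (((l : ℤ) ^ b * m : ℤ) : ℂ) := by
        push_cast
        simpa using hmd
      exact_mod_cast this
    have hcop : IsCoprime ((l : ℤ) ^ b) (d : ℤ) := by
      apply IsCoprime.pow_left
      rw [Int.isCoprime_iff_gcd_eq_one, Int.gcd_natCast_natCast]
      exact (Nat.Prime.coprime_iff_not_dvd hl.out).mpr hd
    exact hcop.dvd_of_dvd_mul_right ⟨m, h1⟩
  · rintro ⟨c, rfl⟩
    exact ⟨(c : ℂ), intCast_mem _ c, by push_cast; ring⟩

theorem natCast_mem_lPow_iff {b a : ℕ} : (a : ℂ) ∈ lPow l b ↔ l ^ b ∣ a := by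
  have h := intCast_mem_lPow_iff (l := l) (b := b) (a := (a : ℤ))
  rw [Int.cast_natCast] at h
  rw [h]
  exact_mod_cast Int.natCast_dvd_natCast (m := l ^ b) (n := a)

/-! ### A maximal ideal above `l` and its residue field -/

variable (l)

/-- `l` as an element of `O_l`. -/
def lO : ringO l := ⟨(l : ℂ), natCast_mem _ l⟩

theorem span_lO_ne_top : Ideal.span {lO l} ≠ ⊤ := by
  intro h
  rw [Ideal.span_singleton_eq_top] at h
  obtain ⟨u, hu⟩ := h
  apply inv_l_notMem (l := l)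
  have h1 : ((u⁻¹ : (ringO l)ˣ) : ringO l) * lO l = 1 := by rw [← hu]; exact u.inv_mul
  have h2 : (((u⁻¹ : (ringO l)ˣ) : ringO l) : ℂ) * (l : ℂ) = 1 := by
    have := congrArg (fun x : ringO l => (x : ℂ)) h1
    simpa [lO] using this
  have hl0 : (l : ℂ) ≠ 0 := Nat.cast_ne_zero.mpr hl.out.ne_zero
  have h3 : ((l : ℂ))⁻¹ = (((u⁻¹ : (ringO l)ˣ) : ringO l) : ℂ) :=
    (eq_inv_of_mul_eq_one_left h2).symm
  rw [h3]
  exact Subtype.property _

/-- A maximal ideal of `O_l` containing `l`. -/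
noncomputable def maxIdeal : Ideal (ringO l) :=
  Classical.choose (Ideal.exists_le_maximal _ (span_lO_ne_top l))

instance maxIdeal_isMaximal : (maxIdeal l).IsMaximal :=
  (Classical.choose_spec (Ideal.exists_le_maximal _ (span_lO_ne_top l))).1

theorem lO_mem_maxIdeal : lO l ∈ maxIdeal l :=
  (Classical.choose_spec (Ideal.exists_le_maximal _ (span_lO_ne_top l))).2
    (Ideal.subset_span (Set.mem_singleton _))

/-- The residue field `κ = O_l / 𝔪`, of characteristic `l`. -/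
abbrev kappa : Type := ringO l ⧸ maxIdeal l

noncomputable instance : Field (kappa l) := Ideal.Quotient.field (maxIdeal l)

instance kappa_charP : CharP (kappa l) l := by
  have h0 : ((l : ℕ) : kappa l) = 0 := by
    have : ((l : ℕ) : kappa l) = Ideal.Quotient.mk (maxIdeal l) (lO l) := by
      rw [← map_natCast (Ideal.Quotient.mk (maxIdeal l))]
      rfl
    rw [this, Ideal.Quotient.eq_zero_iff_mem]
    exact lO_mem_maxIdeal l
  exact (CharP.charP_iff_prime_eq_zero hl.out).mpr h0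

/-- The maximal ideal as an additive subgroup of `ℂ`. -/
def maxC : AddSubgroup ℂ where
  carrier := {x | ∃ h : x ∈ ringO l, (⟨x, h⟩ : ringO l) ∈ maxIdeal l}
  add_mem' := by
    rintro x y ⟨hx, hx'⟩ ⟨hy, hy'⟩
    exact ⟨(ringO l).add_mem hx hy, (maxIdeal l).add_mem hx' hy'⟩
  zero_mem' := ⟨(ringO l).zero_mem, (maxIdeal l).zero_mem⟩
  neg_mem' := by
    rintro x ⟨hx, hx'⟩
    exact ⟨(ringO l).neg_mem hx, (maxIdeal l).neg_mem hx'⟩

variable {l}

theorem mem_maxC_iff {x : ℂ} : x ∈ maxC l ↔ ∃ h : x ∈ ringO l, (⟨x, h⟩ : ringO l) ∈ maxIdeal l :=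
  Iff.rfl

theorem coe_mem_maxC_iff {x : ringO l} : (x : ℂ) ∈ maxC l ↔ x ∈ maxIdeal l :=
  ⟨fun ⟨_, h⟩ => h, fun h => ⟨x.2, h⟩⟩

theorem maxC_le_ringO {x : ℂ} (h : x ∈ maxC l) : x ∈ ringO l := h.1

theorem mul_mem_maxC {x y : ℂ} (hx : x ∈ ringO l) (hy : y ∈ maxC l) : x * y ∈ maxC l := by
  obtain ⟨hy1, hy2⟩ := hy
  exact ⟨(ringO l).mul_mem hx hy1, (maxIdeal l).mul_mem_left ⟨x, hx⟩ hy2⟩

/-- `𝔪` is prime: a product lies in it iff a factor does. -/
theorem mul_mem_maxC_iff {x y : ℂ} (hx : x ∈ ringO l) (hy : y ∈ ringO l) :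
    x * y ∈ maxC l ↔ x ∈ maxC l ∨ y ∈ maxC l := by
  constructor
  · rintro ⟨_, h⟩
    have h' : (⟨x, hx⟩ : ringO l) * ⟨y, hy⟩ ∈ maxIdeal l := h
    rcases (Ideal.IsMaximal.isPrime inferInstance).mem_or_mem h' with h1 | h1
    · exact Or.inl ⟨hx, h1⟩
    · exact Or.inr ⟨hy, h1⟩
  · rintro (h | h)
    · rw [mul_comm]; exact mul_mem_maxC hy h
    · exact mul_mem_maxC hx h

theorem one_notMem_maxC : (1 : ℂ) ∉ maxC l := by
  rintro ⟨_, h⟩
  exact (Ideal.IsMaximal.ne_top (inferInstance : (maxIdeal l).IsMaximal))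
    ((Ideal.eq_top_iff_one _).mpr h)

theorem lPow_le_maxC {b : ℕ} (hb : 1 ≤ b) {x : ℂ} (hx : x ∈ lPow l b) : x ∈ maxC l := by
  obtain ⟨y, hy, rfl⟩ := lPow_mono hb hx
  rw [pow_one]
  have : (l : ℂ) * y = y * (l : ℂ) := mul_comm _ _
  rw [this]
  exact mul_mem_maxC hy ⟨natCast_mem _ l, lO_mem_maxIdeal l⟩

/-- a unit of `O_l` is not in `𝔪`. -/
theorem notMem_maxC_of_mul_eq_one {x y : ℂ} (hy : y ∈ ringO l) (h : x * y = 1) :
    x ∉ maxC l := by
  intro hx
  apply one_notMem_maxC (l := l)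
  rw [← h, mul_comm]
  exact mul_mem_maxC hy hx

/-- **Rational elements of `𝔪`**: an `l`-integral rational lies in `𝔪` iff `l` divides its
numerator. -/
theorem ratCast_mem_maxC_iff {r : ℚ} (hr : ¬ l ∣ r.den) :
    (r : ℂ) ∈ maxC l ↔ (l : ℤ) ∣ r.num := by
  have hden0 : (r.den : ℂ) ≠ 0 := Nat.cast_ne_zero.mpr r.den_nz
  have hr' : (r : ℂ) = (r.num : ℂ) * ((r.den : ℂ))⁻¹ := by
    rw [← div_eq_mul_inv]
    exact_mod_cast (Rat.num_div_den r).symm
  constructor
  · intro h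
    by_contra hnum
    -- `r` is a unit of `O_l`
    have hnum0 : (r.num : ℂ) ≠ 0 := by
      rw [Int.cast_ne_zero]
      rintro h0
      exact hnum (h0 ▸ dvd_zero _)
    have hnat : ¬ l ∣ r.num.natAbs := by
      rwa [← Int.natCast_dvd]
    have hinv : ((r.num.natAbs : ℂ))⁻¹ ∈ ringO l := inv_natCast_mem hnat
    have habs : ((r.num.natAbs : ℂ)) = (r.num : ℂ) ∨ ((r.num.natAbs : ℂ)) = -(r.num : ℂ) := by
      rcases Int.natAbs_eq r.num with h1 | h1
      · left
        have : ((r.num.natAbs : ℤ) : ℂ) = (r.num : ℂ) := by rw [← h1]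
        simpa using this
      · right
        have : (r.num : ℂ) = -((r.num.natAbs : ℤ) : ℂ) := by
          conv_lhs => rw [h1]
          push_cast; ring
        rw [this]; simp
    have hinv' : ((r.num : ℂ))⁻¹ ∈ ringO l := by
      rcases habs with h1 | h1
      · rwa [h1] at hinv
      · rw [h1, inv_neg] at hinv
        simpa using (ringO l).neg_mem hinv
    refine notMem_maxC_of_mul_eq_one (l := l) (x := (r : ℂ))
      (y := (r.den : ℂ) * ((r.num : ℂ))⁻¹) ((ringO l).mul_mem (natCast_mem _ _) hinv') ?_ h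
    rw [hr']
    field_simp
  · rintro ⟨c, hc⟩
    rw [hr', hc]
    have : (((l : ℤ) * c : ℤ) : ℂ) * ((r.den : ℂ))⁻¹ = ((c : ℂ) * ((r.den : ℂ))⁻¹) * (l : ℂ) := by
      push_cast; ring
    rw [this]
    exact mul_mem_maxC ((ringO l).mul_mem (intCast_mem _ _) (inv_natCast_mem hr))
      ⟨natCast_mem _ l, lO_mem_maxIdeal l⟩

theorem intCast_mem_maxC_iff {a : ℤ} : (a : ℂ) ∈ maxC l ↔ (l : ℤ) ∣ a := by
  have h := ratCast_mem_maxC_iff (l := l) (r := (a : ℚ))
    (by rw [Rat.den_intCast]; exact Nat.Prime.not_dvd_one hl.out)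
  rw [Rat.num_intCast] at h
  rw [← h]
  simp

theorem natCast_mem_maxC_iff {a : ℕ} : (a : ℂ) ∈ maxC l ↔ l ∣ a := by
  have h := intCast_mem_maxC_iff (l := l) (a := (a : ℤ))
  rw [Int.cast_natCast] at h
  rw [h]
  exact Int.natCast_dvd_natCast

/-! ### Reduction of power series modulo `𝔪` -/

open PowerSeries

variable (l)

/-- A power series over `ℂ` with coefficients in `O_l`, as a power series over `O_l`. -/
noncomputable def liftO (f : PowerSeries ℂ) (hf : ∀ n, PowerSeries.coeff n f ∈ ringO l) :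
    PowerSeries (ringO l) :=
  PowerSeries.mk fun n => ⟨PowerSeries.coeff n f, hf n⟩

/-- The reduction mod `𝔪` of a power series all of whose coefficients lie in `O_l`. -/
noncomputable def red (f : PowerSeries ℂ) (hf : ∀ n, PowerSeries.coeff n f ∈ ringO l) :
    PowerSeries (kappa l) :=
  PowerSeries.map (Ideal.Quotient.mk (maxIdeal l)) (liftO l f hf)

variable {l}

@[simp] theorem coeff_liftO (f : PowerSeries ℂ) (hf : ∀ n, PowerSeries.coeff n f ∈ ringO l)
    (n : ℕ) : PowerSeries.coeff n (liftO l f hf) = ⟨PowerSeries.coeff n f, hf n⟩ := by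
  simp [liftO]

theorem map_liftO (f : PowerSeries ℂ) (hf : ∀ n, PowerSeries.coeff n f ∈ ringO l) :
    PowerSeries.map (ringO l).subtype (liftO l f hf) = f := by
  ext n
  simp

theorem map_subtype_injective :
    Function.Injective (PowerSeries.map (ringO l).subtype) := by
  intro a b h
  ext n
  have := congrArg (PowerSeries.coeff n) h
  simpa using this

@[simp] theorem coeff_red (f : PowerSeries ℂ) (hf : ∀ n, PowerSeries.coeff n f ∈ ringO l) (n : ℕ) :
    PowerSeries.coeff n (red l f hf) =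
      Ideal.Quotient.mk (maxIdeal l) ⟨PowerSeries.coeff n f, hf n⟩ := by
  simp [red]

theorem coeff_red_eq_zero_iff (f : PowerSeries ℂ) (hf : ∀ n, PowerSeries.coeff n f ∈ ringO l)
    (n : ℕ) : PowerSeries.coeff n (red l f hf) = 0 ↔ PowerSeries.coeff n f ∈ maxC l := by
  rw [coeff_red, Ideal.Quotient.eq_zero_iff_mem]
  exact ⟨fun h => ⟨hf n, h⟩, fun ⟨_, h⟩ => h⟩

theorem red_eq_zero_iff (f : PowerSeries ℂ) (hf : ∀ n, PowerSeries.coeff n f ∈ ringO l) :
    red l f hf = 0 ↔ ∀ n, PowerSeries.coeff n f ∈ maxC l := by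
  rw [PowerSeries.ext_iff]
  simp only [map_zero]
  exact forall_congr' fun n => coeff_red_eq_zero_iff f hf n

/-- coefficients of a sum / product of `O_l`-series lie in `O_l`. -/
theorem coeff_add_mem {f g : PowerSeries ℂ} (hf : ∀ n, PowerSeries.coeff n f ∈ ringO l)
    (hg : ∀ n, PowerSeries.coeff n g ∈ ringO l) (n : ℕ) :
    PowerSeries.coeff n (f + g) ∈ ringO l := by
  rw [map_add]; exact (ringO l).add_mem (hf n) (hg n)

theorem coeff_sub_mem {f g : PowerSeries ℂ} (hf : ∀ n, PowerSeries.coeff n f ∈ ringO l)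
    (hg : ∀ n, PowerSeries.coeff n g ∈ ringO l) (n : ℕ) :
    PowerSeries.coeff n (f - g) ∈ ringO l := by
  rw [map_sub]; exact (ringO l).sub_mem (hf n) (hg n)

theorem coeff_mul_mem {f g : PowerSeries ℂ} (hf : ∀ n, PowerSeries.coeff n f ∈ ringO l)
    (hg : ∀ n, PowerSeries.coeff n g ∈ ringO l) (n : ℕ) :
    PowerSeries.coeff n (f * g) ∈ ringO l := by
  rw [PowerSeries.coeff_mul]
  exact (ringO l).sum_mem fun x _ => (ringO l).mul_mem (hf _) (hg _)

theorem coeff_one_mem (n : ℕ) : PowerSeries.coeff n (1 : PowerSeries ℂ) ∈ ringO l := by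
  rw [PowerSeries.coeff_one]
  split_ifs
  · exact (ringO l).one_mem
  · exact (ringO l).zero_mem

theorem coeff_prod_mem {ι : Type*} (s : Finset ι) (f : ι → PowerSeries ℂ)
    (hf : ∀ i ∈ s, ∀ n, PowerSeries.coeff n (f i) ∈ ringO l) (n : ℕ) :
    PowerSeries.coeff n (∏ i ∈ s, f i) ∈ ringO l := by
  classical
  induction s using Finset.induction_on generalizing n with
  | empty =>
    rw [Finset.prod_empty]
    exact coeff_one_mem n
  | insert a s ha ih =>
    rw [Finset.prod_insert ha]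
    exact coeff_mul_mem (hf a (Finset.mem_insert_self a s))
      (fun m => ih (fun i hi => hf i (Finset.mem_insert_of_mem hi)) m) n

theorem liftO_add {f g : PowerSeries ℂ} (hf : ∀ n, PowerSeries.coeff n f ∈ ringO l)
    (hg : ∀ n, PowerSeries.coeff n g ∈ ringO l) :
    liftO l (f + g) (coeff_add_mem hf hg) = liftO l f hf + liftO l g hg := by
  apply map_subtype_injective
  rw [map_add, map_liftO, map_liftO, map_liftO]

theorem liftO_mul {f g : PowerSeries ℂ} (hf : ∀ n, PowerSeries.coeff n f ∈ ringO l)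
    (hg : ∀ n, PowerSeries.coeff n g ∈ ringO l) :
    liftO l (f * g) (coeff_mul_mem hf hg) = liftO l f hf * liftO l g hg := by
  apply map_subtype_injective
  rw [map_mul, map_liftO, map_liftO, map_liftO]

theorem liftO_one : liftO l 1 coeff_one_mem = 1 := by
  apply map_subtype_injective
  rw [map_one, map_liftO]

theorem liftO_prod {ι : Type*} (s : Finset ι) (f : ι → PowerSeries ℂ)
    (hf : ∀ i, ∀ n, PowerSeries.coeff n (f i) ∈ ringO l) :
    liftO l (∏ i ∈ s, f i) (coeff_prod_mem s f fun i _ => hf i) =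
      ∏ i ∈ s, liftO l (f i) (hf i) := by
  apply map_subtype_injective
  rw [map_prod, map_liftO]
  exact Finset.prod_congr rfl fun i _ => (map_liftO _ _).symm

theorem red_add {f g : PowerSeries ℂ} (hf : ∀ n, PowerSeries.coeff n f ∈ ringO l)
    (hg : ∀ n, PowerSeries.coeff n g ∈ ringO l) :
    red l (f + g) (coeff_add_mem hf hg) = red l f hf + red l g hg := by
  rw [red, liftO_add hf hg, map_add]; rfl

theorem red_mul {f g : PowerSeries ℂ} (hf : ∀ n, PowerSeries.coeff n f ∈ ringO l)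
    (hg : ∀ n, PowerSeries.coeff n g ∈ ringO l) :
    red l (f * g) (coeff_mul_mem hf hg) = red l f hf * red l g hg := by
  rw [red, liftO_mul hf hg, map_mul]; rfl

theorem red_one : red l 1 coeff_one_mem = 1 := by
  rw [red, liftO_one, map_one]

theorem red_prod {ι : Type*} (s : Finset ι) (f : ι → PowerSeries ℂ)
    (hf : ∀ i, ∀ n, PowerSeries.coeff n (f i) ∈ ringO l) :
    red l (∏ i ∈ s, f i) (coeff_prod_mem s f fun i _ => hf i) =
      ∏ i ∈ s, red l (f i) (hf i) := by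
  rw [red, liftO_prod s f hf, map_prod]; rfl

/-- the proof of integrality is irrelevant. -/
theorem red_congr {f g : PowerSeries ℂ} (h : f = g) (hf : ∀ n, PowerSeries.coeff n f ∈ ringO l)
    (hg : ∀ n, PowerSeries.coeff n g ∈ ringO l) : red l f hf = red l g hg := by
  subst h; rfl

/-- **Order of the reduction**: if the coefficients below `N` lie in `𝔪` and the `N`-th one does
not, the reduction has order exactly `N`. -/
theorem order_red_eq {f : PowerSeries ℂ} (hf : ∀ n, PowerSeries.coeff n f ∈ ringO l) {N : ℕ}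
    (hlt : ∀ n < N, PowerSeries.coeff n f ∈ maxC l) (hN : PowerSeries.coeff N f ∉ maxC l) :
    (red l f hf).order = N := by
  apply PowerSeries.order_eq_nat.mpr
  refine ⟨fun h => hN ((coeff_red_eq_zero_iff f hf N).mp h), fun n hn => ?_⟩
  exact (coeff_red_eq_zero_iff f hf n).mpr (hlt n hn)

end Fermat.Agent.S16.RingO87
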