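/-
S16 (L) (helper18): the Shimura class is an Eisenstein eigenvector of the Hecke operators on
`Hom(Γ₀(p), ℤ/n)` of helper73's `HeckeHom73` (`CosetSys`):
`(sysT ℓ hℓp).hecke (shimura p) = (ℓ+1) • shimura p`, `(sysU p _).hecke (shimura p) = shimura p`.
Complete proofs.
-/
import Fermat.Agent.S16.Shimura18
import Fermat.Agent.S16.HeckeHom73B
import Fermat.Agent.S16.HeckeHom73D

set_option autoImplicit false

namespace Fermat.Agent.S16.ShimuraEigen73_18

open CongruenceSubgroup Matrix Fermat.Agent.S16.Shimura18 Fermat.Agent.S16.HeckeHom73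
open scoped MatrixGroups

variable (p : ℕ) [hp : Fact p.Prime]

/-- `T_ℓ ψ = (ℓ+1) ψ` for `ℓ ≠ p` (helper73's `sysT`). -/
theorem sysT_hecke_shimura {ℓ : ℕ} [hℓ : Fact ℓ.Prime] (hℓp : ¬ ℓ ∣ p) :
    (sysT (N := p) ℓ hℓp).hecke (shimura p) = (ℓ + 1) • shimura p := by
  refine AddMonoidHom.ext fun γ' => ?_
  obtain ⟨γ, rfl⟩ : ∃ γ : Gamma0 p, Additive.ofMul γ = γ' := ⟨Additive.toMul γ', rfl⟩
  rw [CosetSys.hecke_apply, AddMonoidHom.smul_apply]
  have hne : ℓ ≠ p := fun h => hℓp (h ▸ dvd_rfl)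
  have hunit : IsUnit ((ℓ : ℤ) : ZMod p) := by
    rw [isUnit_iff_ne_zero]
    intro h0
    have h1 : ((ℓ : ℕ) : ZMod p) = 0 := by exact_mod_cast h0
    rw [ZMod.natCast_eq_zero_iff] at h1
    exact hne ((Nat.prime_dvd_prime_iff_eq hp.out hℓ.out).mp h1).symm
  have := shimura_hecke p (sysT (N := p) ℓ hℓp).α
    (by rintro (_ | j) <;> simp [matU, matD])
    (by
      rintro (_ | j)
      · simp [matD]
      · simpa [matU] using hunit)
    ((sysT (N := p) ℓ hℓp).perm γ) γ (fun i => (sysT (N := p) ℓ hℓp).g γ i)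
    (fun i => (sysT (N := p) ℓ hℓp).rel γ i)
  rw [this, Fintype.card_option, Fintype.card_fin]

/-- `U_p ψ = ψ` (helper73's `sysU`). -/
theorem sysU_hecke_shimura :
    (sysU (N := p) p (dvd_refl p)).hecke (shimura p) = shimura p := by
  refine AddMonoidHom.ext fun γ' => ?_
  obtain ⟨γ, rfl⟩ : ∃ γ : Gamma0 p, Additive.ofMul γ = γ' := ⟨Additive.toMul γ', rfl⟩
  rw [CosetSys.hecke_apply]
  exact shimura_heckeU p (Fintype.card_fin p) (sysU (N := p) p (dvd_refl p)).α
    (fun i => by simp [matU]) (fun i => by simp [matU]) (fun i => by simp [matU])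
    ((sysU (N := p) p (dvd_refl p)).σ γ) γ (fun i => (sysU (N := p) p (dvd_refl p)).g γ i)
    (fun i => (sysU (N := p) p (dvd_refl p)).rel γ i)

end Fermat.Agent.S16.ShimuraEigen73_18
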