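/-
S16 / package (S) SMALL-P (helper63): the frozen S16 equation for primes `p` with
`S₂(Γ₀(p)) = 0`, in particular `p ∈ {2, 3, 5, 7, 13}` (genus `0`, via the landed S20).
-/
import Mathlib
import Fermat.Prelude.Def_CuspForm_HeckeLocal
import Fermat.Prelude.Def_CuspForm_HeckeEvalForms
import Fermat.Prelude.Def_HeckeGalois_EichlerShimura
import Fermat.Prelude.Def_ModularCurve_ModularUnit
import Fermat.Agent.S20
import Fermat.Agent.Lib.QExpFinDim

set_option autoImplicit false

open ModularCurve CuspForm

namespace Fermat.Agent.S16.SmallP63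

theorem natCard_quotient_eq_one {R : Type*} [CommRing R] [Subsingleton R] (I : Ideal R) :
    Nat.card (R ⧸ I) = 1 := by
  rw [Nat.card_eq_one_iff_unique]
  refine ⟨⟨fun a b => ?_⟩, ⟨0⟩⟩
  obtain ⟨a, rfl⟩ := Ideal.Quotient.mk_surjective a
  obtain ⟨b, rfl⟩ := Ideal.Quotient.mk_surjective b
  rw [Subsingleton.elim a b]

/-- If there are no cusp forms, the Hecke ring is the zero ring and the quotient has one element. -/
theorem natCard_quotient_of_subsingleton (p : ℕ) [Fact p.Prime]
    (h : Subsingleton (CuspForm (CongruenceSubgroup.Gamma0 p) 2)) :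
    Nat.card (↥(heckeLatticeAlgebra p ∅) ⧸
        Ideal.map ((latticeRestrictHom p ∅).toRingHom.comp (heckeEvalForms p 2))
          (eisensteinIdeal p)) = 1 := by
  have h1 : Subsingleton ↥(intLattice p 2) := ⟨fun a b => Subtype.ext (Subsingleton.elim _ _)⟩
  have h2 : Subsingleton (Module.End ℤ ↥(intLattice p 2)) :=
    ⟨fun a b => LinearMap.ext fun x => Subsingleton.elim _ _⟩
  have h3 : Subsingleton ↥(heckeLatticeAlgebra p ∅) :=
    ⟨fun a b => Subtype.ext (Subsingleton.elim _ _)⟩
  exact natCard_quotient_eq_one _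

theorem nuTwo_eq_fintypeCard (N : ℕ) [NeZero N] :
    nuTwo N = Fintype.card {x : ZMod N // x ^ 2 + 1 = 0} := by
  rw [nuTwo, Nat.card_eq_fintype_card]

theorem nuThree_eq_fintypeCard (N : ℕ) [NeZero N] :
    nuThree N = Fintype.card {x : ZMod N // x ^ 2 + x + 1 = 0} := by
  rw [nuThree, Nat.card_eq_fintype_card]

theorem dedekindPsi_prime {p : ℕ} (hp : p.Prime) : dedekindPsi p = p + 1 := by
  have h1 : p ≠ 1 := hp.ne_one
  rw [dedekindPsi, hp.divisors, Finset.filter_true_of_mem, Finset.sum_pair (Ne.symm h1)]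
  · rw [Nat.div_one, Nat.div_self hp.pos]
  · intro d hd
    simp only [Finset.mem_insert, Finset.mem_singleton] at hd
    rcases hd with rfl | rfl
    · exact squarefree_one
    · exact hp.squarefree

theorem cuspCount_prime {p : ℕ} (hp : p.Prime) : cuspCount p = 2 := by
  have h1 : p ≠ 1 := hp.ne_one
  rw [cuspCount, hp.divisors, Finset.sum_pair (Ne.symm h1)]
  simp [Nat.div_self hp.pos]

/-- The genus formula at a prime level. -/
theorem genusFormula_prime {p : ℕ} (hp : p.Prime) :
    ModularCurve.genusFormula p =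
      ((p : ℚ) + 1) / 12 - (nuTwo p : ℚ) / 4 - (nuThree p : ℚ) / 3 := by
  rw [ModularCurve.genusFormula, dedekindPsi_prime hp, cuspCount_prime hp]
  push_cast
  ring

theorem genusFormula_two : ModularCurve.genusFormula 2 = 0 := by
  rw [genusFormula_prime Nat.prime_two, nuTwo_eq_fintypeCard, nuThree_eq_fintypeCard,
    show Fintype.card {x : ZMod 2 // x ^ 2 + 1 = 0} = 1 by decide,
    show Fintype.card {x : ZMod 2 // x ^ 2 + x + 1 = 0} = 0 by decide]
  norm_num

theorem genusFormula_three : ModularCurve.genusFormula 3 = 0 := by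
  rw [genusFormula_prime Nat.prime_three, nuTwo_eq_fintypeCard, nuThree_eq_fintypeCard,
    show Fintype.card {x : ZMod 3 // x ^ 2 + 1 = 0} = 0 by decide,
    show Fintype.card {x : ZMod 3 // x ^ 2 + x + 1 = 0} = 1 by decide]
  norm_num

theorem genusFormula_five : ModularCurve.genusFormula 5 = 0 := by
  rw [genusFormula_prime Nat.prime_five, nuTwo_eq_fintypeCard, nuThree_eq_fintypeCard,
    show Fintype.card {x : ZMod 5 // x ^ 2 + 1 = 0} = 2 by decide,
    show Fintype.card {x : ZMod 5 // x ^ 2 + x + 1 = 0} = 0 by decide]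
  norm_num

theorem genusFormula_seven : ModularCurve.genusFormula 7 = 0 := by
  rw [genusFormula_prime (by norm_num : Nat.Prime 7), nuTwo_eq_fintypeCard,
    nuThree_eq_fintypeCard,
    show Fintype.card {x : ZMod 7 // x ^ 2 + 1 = 0} = 0 by decide,
    show Fintype.card {x : ZMod 7 // x ^ 2 + x + 1 = 0} = 2 by decide]
  norm_num

theorem genusFormula_thirteen : ModularCurve.genusFormula 13 = 0 := by
  rw [genusFormula_prime (by norm_num : Nat.Prime 13), nuTwo_eq_fintypeCard,
    nuThree_eq_fintypeCard,
    show Fintype.card {x : ZMod 13 // x ^ 2 + 1 = 0} = 2 by decide,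
    show Fintype.card {x : ZMod 13 // x ^ 2 + x + 1 = 0} = 2 by decide]
  norm_num

/-- No cusp forms when the dimension is `0`. -/
theorem subsingleton_of_genusFormula_eq_zero (p : ℕ) [NeZero p]
    (h : ModularCurve.genusFormula p = 0) :
    Subsingleton (CuspForm (CongruenceSubgroup.Gamma0 p) 2) := by
  have := Fermat.Agent.Lib.QExpFinDim.finiteDimensional_cuspForm p 2
  have h1 := Fermat.Agent.S20.result p
  rw [h] at h1
  have h2 : Module.finrank ℂ (CuspForm (CongruenceSubgroup.Gamma0 p) 2) = 0 := by exact_mod_cast h1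
  exact Module.finrank_zero_iff.mp h2

/-- The frozen S16 equation for a prime `p` with `genusFormula p = 0` and numerator `1`. -/
theorem result_of_genusFormula_eq_zero (p : ℕ) [Fact p.Prime]
    (h : ModularCurve.genusFormula p = 0) (hn : eisensteinNumerator p = 1) :
    Nat.card (↥(heckeLatticeAlgebra p ∅) ⧸
        Ideal.map ((latticeRestrictHom p ∅).toRingHom.comp (heckeEvalForms p 2))
          (eisensteinIdeal p)) = eisensteinNumerator p := by
  rw [hn]
  exact natCard_quotient_of_subsingleton p (subsingleton_of_genusFormula_eq_zero p h)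

/-- **S16 for the genus-zero primes.** -/
theorem result_small (p : ℕ) [Fact p.Prime] (hp : p = 2 ∨ p = 3 ∨ p = 5 ∨ p = 7 ∨ p = 13) :
    Nat.card (↥(heckeLatticeAlgebra p ∅) ⧸
        Ideal.map ((latticeRestrictHom p ∅).toRingHom.comp (heckeEvalForms p 2))
          (eisensteinIdeal p)) = eisensteinNumerator p := by
  rcases hp with rfl | rfl | rfl | rfl | rfl
  · exact result_of_genusFormula_eq_zero 2 genusFormula_two (by decide)
  · exact result_of_genusFormula_eq_zero 3 genusFormula_three (by decide)
  · exact result_of_genusFormula_eq_zero 5 genusFormula_five (by decide)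
  · exact result_of_genusFormula_eq_zero 7 genusFormula_seven (by decide)
  · exact result_of_genusFormula_eq_zero 13 genusFormula_thirteen (by decide)

/-- A prime outside `{2, 3, 5, 7, 13}` is `11` or at least `17`; in particular `p ≥ 11`, `p` is
odd and prime to `6`. -/
theorem eleven_le_of_not_small {p : ℕ} (hp : p.Prime)
    (h : ¬ (p = 2 ∨ p = 3 ∨ p = 5 ∨ p = 7 ∨ p = 13)) : 11 ≤ p := by
  by_contra hlt
  rw [not_le] at hlt
  interval_cases p <;> simp_all (config := {decide := true})

end Fermat.Agent.S16.SmallP63
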