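/-
S16, upper bound (U), the two tiny levels `p = 2, 3` (helper88).

`S₂(Γ₀(2)) = S₂(Γ₀(3)) = 0` (Sturm bound: index 3 resp. 4, weight 2, so a form whose constant
coefficient vanishes is zero).  Hence `UpperStmt` of `UIface39` holds for `p ≤ 3`: an integral cusp
form congruent to `∑ σ'(k) q^k` modulo `M` forces `1 ≡ 0 mod M`.
-/
import Fermat.Agent.S08
import Fermat.Agent.S24.CosetIndex
import Fermat.Agent.S16.UIface39

set_option autoImplicit false

namespace Fermat.Agent.S16.SmallPrimes88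

open CongruenceSubgroup ModularFormClass UpperHalfPlane

theorem dedekindPsi_two : ModularCurve.dedekindPsi 2 = 3 := by
  have h := Fermat.Agent.S24.CosetCount.dedekindPsi_prime_pow (p := 2) (k := 1) Nat.prime_two one_pos
  simpa using h

theorem dedekindPsi_three : ModularCurve.dedekindPsi 3 = 4 := by
  have h := Fermat.Agent.S24.CosetCount.dedekindPsi_prime_pow (p := 3) (k := 1) Nat.prime_three one_pos
  simpa using h

/-- `S₂(Γ₀(2)) = 0`. -/
theorem cuspForm_two_eq_zero (f : CuspForm (Gamma0 2) 2) : f = 0 := by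
  apply Fermat.Agent.S08.eq_zero_of_index_small
  rw [Fermat.Agent.S24.CosetCount.index_Gamma0, dedekindPsi_two]
  norm_num

/-- `S₂(Γ₀(3)) = 0`. -/
theorem cuspForm_three_eq_zero (f : CuspForm (Gamma0 3) 2) : f = 0 := by
  apply Fermat.Agent.S08.eq_zero_of_index_small
  rw [Fermat.Agent.S24.CosetCount.index_Gamma0, dedekindPsi_three]
  norm_num

/-- `S₂(Γ₀(p)) = 0` for a prime `p ≤ 3`. -/
theorem cuspForm_eq_zero_of_le_three {p : ℕ} (hp : p.Prime) (hp3 : p ≤ 3)
    (f : CuspForm (Gamma0 p) 2) : f = 0 := by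
  have h2 := hp.two_le
  obtain rfl | rfl : p = 2 ∨ p = 3 := by omega
  · exact cuspForm_two_eq_zero f
  · exact cuspForm_three_eq_zero f

/-- The `q`-coefficients of the zero cusp form vanish. -/
theorem qCoeff_zero_fun (n : ℕ) : qCoeff (fun _ : ℍ => (0 : ℂ)) n = 0 := by
  have h : (fun _ : ℍ => (0 : ℂ)) = (0 : ℍ → ℂ) := rfl
  rw [qCoeff, h, UpperHalfPlane.qExpansion_zero, map_zero]

/-- `UpperStmt` of `UIface39` for the primes `p ≤ 3` (the congruence hypothesis alone is used). -/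
theorem upper_of_le_three {p : ℕ} (hp : p.Prime) (hp3 : p ≤ 3) (M : ℕ)
    (f : CuspForm (Gamma0 p) 2)
    (hc : ∀ k : ℕ, 1 ≤ k → ∃ c : ℤ,
      qCoeff (f : ℍ → ℂ) k = ((UIface39.sigmaP p k + (M : ℤ) * c : ℤ) : ℂ)) :
    M ∣ ModularCurve.eisensteinNumerator p := by
  have hf : f = 0 := cuspForm_eq_zero_of_le_three hp hp3 f
  obtain ⟨c, hc1⟩ := hc 1 le_rfl
  have h0 : qCoeff (f : ℍ → ℂ) 1 = 0 := by
    rw [hf]
    exact qCoeff_zero_fun 1
  have hs : UIface39.sigmaP p 1 = 1 := by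
    have : ¬ p ∣ 1 := by
      rw [Nat.dvd_one]; exact hp.ne_one
    simp [UIface39.sigmaP, Finset.filter_singleton, this]
  rw [h0, hs] at hc1
  have h1 : (1 + (M : ℤ) * c : ℤ) = 0 := by exact_mod_cast hc1.symm
  have hM : (M : ℤ) ∣ 1 := ⟨-c, by linarith⟩
  have hM1 : M = 1 := by
    have := Int.natCast_dvd_natCast.mp (by simpa using hM : ((M : ℕ) : ℤ) ∣ ((1 : ℕ) : ℤ))
    exact Nat.dvd_one.mp this
  rw [hM1]
  exact one_dvd _

end Fermat.Agent.S16.SmallPrimes88
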