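/-
S16, upper bound (U), case (U2)/(B) of `UIface39` (helper27): `USwDStmt`.

`l ≥ 5` prime, `l ≠ p`, `l ∣ p + 1`: there is no `G ∈ M₂(Γ₀(p))` with `l`-integral rational
`q`-expansion and `G ≡ 1 mod l`.

Proof: all `p + 1` conjugates of `G` under `SL(2,ℤ)` are `≡ 1 mod l` (the conjugates at the cusp `0`
are `-(1/p) (U_p G)((z+j)/p)`, and `-1/p ≡ 1 mod l`), so their `i`-th elementary symmetric function
`e_i`, a level-one form of weight `2 i`, is `≡ C(p+1, i) mod l`.  For `l^k ∥ p + 1`, `i = l^k`,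
`C(p+1, l^k) ≡ (p+1)/l^k ≢ 0 mod l` (Lucas), contradicting the weak Swinnerton-Dyer theorem since
`(l - 1) ∤ 2 l^k`.

This file is GLUE: the two analytic inputs are hypotheses
* `ExpStmt` (CONJ / ESYMM: `e_i` is a level-one form whose `q`-expansion is the decimation of the
  elementary symmetric function of the explicit `q^{1/p}`-expansions of the conjugates),
* `SwDStmt` (weak Swinnerton-Dyer in level one).
-/
import Mathlib
import Fermat.Agent.S16.UIface39

set_option autoImplicit false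

open Finset

namespace Fermat.Agent.S16.USwD27

open CongruenceSubgroup ModularFormClass UpperHalfPlane
open scoped MatrixGroups

/-! ### Elementary core -/

/-- esymm congruence: if all `x v ≡ 1 mod I` then `e_i(x) ≡ C(n, i) mod I`. -/
theorem esymm_sub_choose_mem {R : Type*} [CommRing R] (I : Ideal R) {ι : Type*} [Fintype ι]
    [DecidableEq ι] (x : ι → R) (hx : ∀ v, x v - 1 ∈ I) (i : ℕ) :
    (∑ s ∈ powersetCard i (univ : Finset ι), ∏ v ∈ s, x v) -
      ((Fintype.card ι).choose i : R) ∈ I := by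
  rw [← Ideal.Quotient.eq_zero_iff_mem, map_sub, map_sum, map_natCast]
  have h1 : ∀ v, Ideal.Quotient.mk I (x v) = 1 := by
    intro v
    have := (Ideal.Quotient.eq_zero_iff_mem (I := I)).mpr (hx v)
    rwa [map_sub, map_one, sub_eq_zero] at this
  simp_rw [map_prod, h1, prod_const_one, sum_const, card_powersetCard, card_univ, nsmul_eq_mul,
    mul_one, sub_self]

/-- Lucas: `C(l^k t, l^k) ≡ t mod l`. -/
theorem choose_pow_mul_modEq {l : ℕ} (hl : l.Prime) (k t : ℕ) :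
    (l ^ k * t).choose (l ^ k) ≡ t [MOD l] := by
  have := Fact.mk hl
  induction k with
  | zero => simp [Nat.ModEq]
  | succ k ih =>
    have h := Choose.choose_modEq_choose_mod_mul_choose_div_nat (p := l) (n := l ^ (k + 1) * t)
      (k := l ^ (k + 1))
    have e1 : l ^ (k + 1) * t % l = 0 := by
      rw [pow_succ, mul_assoc, mul_comm (l ^ k), mul_assoc]; simp
    have e2 : l ^ (k + 1) % l = 0 := by rw [pow_succ]; simp
    have e3 : l ^ (k + 1) * t / l = l ^ k * t := by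
      rw [pow_succ, mul_comm (l ^ k) l, mul_assoc, Nat.mul_div_cancel_left _ hl.pos]
    have e4 : l ^ (k + 1) / l = l ^ k := by
      rw [pow_succ, Nat.mul_div_cancel _ hl.pos]
    rw [e1, e2, e3, e4, Nat.choose_self, one_mul] at h
    exact h.trans ih

/-- `(l - 1) ∤ 2 l^k` for `l ≥ 5`. -/
theorem not_pred_dvd_two_mul_pow {l : ℕ} (hl : 5 ≤ l) (k : ℕ) : ¬ (l - 1) ∣ 2 * l ^ k := by
  intro h
  have h1 : l ≡ 1 [MOD l - 1] := by
    have : l = (l - 1) + 1 := by omega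
    conv_lhs => rw [this]
    simp [Nat.ModEq]
  have h2 : 2 * l ^ k ≡ 2 * 1 ^ k [MOD l - 1] := (h1.pow k).mul_left 2
  rw [one_pow, mul_one] at h2
  have h3 : (l - 1) ∣ 2 := (Nat.modEq_zero_iff_dvd.mp
    ((h2.symm.trans (Nat.modEq_zero_iff_dvd.mpr h))))
  have := Nat.le_of_dvd (by norm_num) h3
  omega

/-! ### The ring `O_l` of `l`-integral algebraic numbers -/

/-- The complex numbers `x` such that `d x` is an algebraic integer for some `d` prime to `l`. -/
def Ol (l : ℕ) (hl : l.Prime) : Subring ℂ where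
  carrier := {x | ∃ d : ℕ, ¬ l ∣ d ∧ IsIntegral ℤ ((d : ℂ) * x)}
  mul_mem' := by
    rintro x y ⟨d1, h1, hx⟩ ⟨d2, h2, hy⟩
    refine ⟨d1 * d2, fun h => ?_, ?_⟩
    · rcases (Nat.Prime.dvd_mul hl).mp h with h | h
      · exact h1 h
      · exact h2 h
    · have : ((d1 * d2 : ℕ) : ℂ) * (x * y) = ((d1 : ℂ) * x) * ((d2 : ℂ) * y) := by
        push_cast; ring
      rw [this]; exact hx.mul hy
  one_mem' := ⟨1, by simpa using hl.one_lt.ne', by simpa using isIntegral_one⟩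
  add_mem' := by
    rintro x y ⟨d1, h1, hx⟩ ⟨d2, h2, hy⟩
    refine ⟨d1 * d2, fun h => ?_, ?_⟩
    · rcases (Nat.Prime.dvd_mul hl).mp h with h | h
      · exact h1 h
      · exact h2 h
    · have : ((d1 * d2 : ℕ) : ℂ) * (x + y) =
          (d2 : ℤ) • ((d1 : ℂ) * x) + (d1 : ℤ) • ((d2 : ℂ) * y) := by
        simp only [zsmul_eq_mul]; push_cast; ring
      rw [this]; exact (hx.smul _).add (hy.smul _)
  zero_mem' := ⟨1, by simpa using hl.one_lt.ne', by simpa using isIntegral_zero⟩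
  neg_mem' := by
    rintro x ⟨d, h, hx⟩
    exact ⟨d, h, by rw [mul_neg]; exact hx.neg⟩

theorem mem_Ol {l : ℕ} (hl : l.Prime) {x : ℂ} :
    x ∈ Ol l hl ↔ ∃ d : ℕ, ¬ l ∣ d ∧ IsIntegral ℤ ((d : ℂ) * x) := Iff.rfl

theorem isIntegral_mem_Ol {l : ℕ} (hl : l.Prime) {x : ℂ} (hx : IsIntegral ℤ x) : x ∈ Ol l hl :=
  ⟨1, by simpa using hl.one_lt.ne', by simpa using hx⟩

theorem inv_natCast_mem_Ol {l : ℕ} (hl : l.Prime) {d : ℕ} (hd : ¬ l ∣ d) :
    ((d : ℂ))⁻¹ ∈ Ol l hl := by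
  have hd0 : (d : ℂ) ≠ 0 := by
    rintro h
    have : d = 0 := by exact_mod_cast h
    exact hd (this ▸ dvd_zero l)
  exact ⟨d, hd, by rw [mul_inv_cancel₀ hd0]; exact isIntegral_one⟩

/-- `1 / l ∉ O_l`. -/
theorem inv_self_notMem_Ol {l : ℕ} (hl : l.Prime) : ((l : ℂ))⁻¹ ∉ Ol l hl := by
  rintro ⟨d, hd, hint⟩
  have h1 : (d : ℂ) * ((l : ℂ))⁻¹ = algebraMap ℚ ℂ ((d : ℚ) / (l : ℚ)) := by
    simp [div_eq_mul_inv]
  rw [h1, isIntegral_algebraMap_iff (algebraMap ℚ ℂ).injective] at hint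
  obtain ⟨n, hn⟩ := IsIntegrallyClosed.isIntegral_iff.mp hint
  have hl0 : (l : ℚ) ≠ 0 := by exact_mod_cast hl.ne_zero
  have h2 : (d : ℚ) = (n : ℚ) * l := by
    have : (algebraMap ℤ ℚ n) = (d : ℚ) / l := hn
    rw [eq_div_iff hl0] at this
    rw [← this]; simp
  have h3 : (d : ℤ) = n * l := by exact_mod_cast h2
  apply hd
  have : (l : ℤ) ∣ (d : ℤ) := ⟨n, by rw [h3]; ring⟩
  exact_mod_cast this

/-- The ideal `l O_l` is proper. -/
theorem span_natCast_ne_top {l : ℕ} (hl : l.Prime) :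
    Ideal.span {((l : ℕ) : Ol l hl)} ≠ ⊤ := by
  rw [Ne, Ideal.span_singleton_eq_top]
  rintro ⟨u, hu⟩
  apply inv_self_notMem_Ol hl
  have h1 : ((u⁻¹ : (Ol l hl)ˣ) : Ol l hl) * ((l : ℕ) : Ol l hl) = 1 := by
    rw [← hu]; exact u.inv_mul
  have h2 : (((u⁻¹ : (Ol l hl)ˣ) : Ol l hl) : ℂ) * (l : ℂ) = 1 := by
    have := congrArg (Subtype.val) h1
    simpa using this
  have hl0 : (l : ℂ) ≠ 0 := by exact_mod_cast hl.ne_zero
  have h3 : ((l : ℂ))⁻¹ = (((u⁻¹ : (Ol l hl)ˣ) : Ol l hl) : ℂ) :=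
    (eq_inv_of_mul_eq_one_left h2).symm ▸ rfl
  rw [h3]
  exact ((u⁻¹ : (Ol l hl)ˣ) : Ol l hl).2

/-! ### Interface with the analytic packages -/

/-- The explicit `q^{1/p}`-expansions of the `p + 1` conjugates of `G` (weight 2):
`G` itself (a series in `X^p`), and `-(1/p) ∑ a_{pn} ζ^{jn} X^n`. -/
noncomputable def conjSeries (p : ℕ) (G : ℍ → ℂ) (ζ : ℂ) : Option (ZMod p) → PowerSeries ℂ
  | none => PowerSeries.mk fun n => if p ∣ n then qCoeff G (n / p) else 0
  | some j => PowerSeries.mk fun n => -((p : ℂ))⁻¹ * qCoeff G (p * n) * ζ ^ (j.val * n)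

/-- CONJ + ESYMM (weight 2): the `i`-th elementary symmetric function of the conjugates of `G` is
a level-one form of weight `2 i` whose `q`-expansion is the `p`-decimation of the `i`-th
elementary symmetric function of the explicit `q^{1/p}`-expansions. -/
def ExpStmt : Prop :=
  ∀ (p : ℕ) [Fact p.Prime] (G : ModularForm (Gamma0 p) 2), ∃ ζ : ℂ, ζ ^ p = 1 ∧
    ∀ i : ℕ, ∃ E : ModularForm 𝒮ℒ (2 * (i : ℤ)), ∀ n : ℕ,
      qCoeff (E : ℍ → ℂ) n = PowerSeries.coeff (p * n)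
        (∑ s ∈ powersetCard i (univ : Finset (Option (ZMod p))), ∏ v ∈ s, conjSeries p G ζ v)

/-- Weak Swinnerton-Dyer in level one: a level-one form of weight `k` with coefficients in a
subring `O ⊆ ℂ` which is congruent to an integer constant prime to `l` modulo a proper ideal
`m ∋ l` has `(l - 1) ∣ k`. -/
def SwDStmt : Prop :=
  ∀ (l : ℕ), l.Prime → 5 ≤ l → ∀ (k : ℤ) (f : ModularForm 𝒮ℒ k) (O : Subring ℂ) (m : Ideal O),
    m ≠ ⊤ → ((l : ℕ) : O) ∈ m → ∀ (hO : ∀ n, qCoeff (f : ℍ → ℂ) n ∈ O),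
    (∀ n, 1 ≤ n → (⟨_, hO n⟩ : O) ∈ m) →
    ∀ c : ℤ, ¬ (l : ℤ) ∣ c → ((⟨_, hO 0⟩ : O) - (c : O)) ∈ m → ((l : ℤ) - 1) ∣ k

/-! ### Wiring -/

open UIface39

theorem inPow_mem_Ol {l : ℕ} (hl : l.Prime) {b : ℕ} {x : ℂ} (hx : InPow l b x) :
    ∃ y ∈ Ol l hl, x = (l : ℂ) ^ b * y := by
  obtain ⟨m, d, hd, h⟩ := hx
  have hd0 : (d : ℂ) ≠ 0 := by
    rintro h0
    have : d = 0 := by exact_mod_cast h0
    exact hd (this ▸ dvd_zero l)
  refine ⟨(m : ℂ) * ((d : ℂ))⁻¹, ?_, ?_⟩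
  · exact (Ol l hl).mul_mem (isIntegral_mem_Ol hl (by exact_mod_cast (isIntegral_algebraMap (R := ℤ) (A := ℂ) (x := m))))
      (inv_natCast_mem_Ol hl hd)
  · field_simp
    linear_combination h

/-- **(U2)/(B)**: `USwDStmt` of `UIface39` from CONJ/ESYMM (`ExpStmt`) and weak Swinnerton-Dyer
(`SwDStmt`). -/
theorem uswd_of (hEXP : ExpStmt) (hSwD : SwDStmt) : USwDStmt := by
  intro p l hp hp5 hl hl5 hlp hdvd G hG0 hGk
  have : Fact p.Prime := ⟨hp⟩
  classical
  obtain ⟨ζ, hζ, hE⟩ := hEXP p G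
  have hlp' : ¬ l ∣ p := fun h => hlp ((Nat.prime_dvd_prime_iff_eq hl hp).mp h)
  have hp0 : (p : ℂ) ≠ 0 := by exact_mod_cast hp.ne_zero
  have hpinv : ((p : ℂ))⁻¹ ∈ Ol l hl := inv_natCast_mem_Ol hl hlp'
  have hζO : ∀ e : ℕ, ζ ^ e ∈ Ol l hl := fun e =>
    isIntegral_mem_Ol hl
      ((IsIntegral.of_pow hp.pos (by rw [hζ]; exact isIntegral_one)).pow e)
  have hlO : (l : ℂ) ∈ Ol l hl := natCast_mem _ l
  -- coefficients of `G`
  have hGO : ∀ n, qCoeff (G : ℍ → ℂ) n ∈ Ol l hl := by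
    intro n
    rcases Nat.eq_zero_or_pos n with rfl | hn
    · rw [hG0]; exact (Ol l hl).one_mem
    · obtain ⟨y, hy, hxy⟩ := inPow_mem_Ol hl (hGk n hn)
      rw [hxy]; exact (Ol l hl).mul_mem ((Ol l hl).pow_mem hlO _) hy
  have hGm : ∀ n, 1 ≤ n → ∃ y ∈ Ol l hl, qCoeff (G : ℍ → ℂ) n = (l : ℂ) * y := by
    intro n hn
    obtain ⟨y, hy, hxy⟩ := inPow_mem_Ol hl (hGk n hn)
    exact ⟨y, hy, by rw [hxy, pow_one]⟩
  -- the explicit series and their integrality
  set P := conjSeries p (G : ℍ → ℂ) ζ with hP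
  have hA : ∀ v n, PowerSeries.coeff n (P v) ∈ Ol l hl := by
    intro v n
    cases v with
    | none =>
      simp only [hP, conjSeries, PowerSeries.coeff_mk]
      split_ifs
      · exact hGO _
      · exact (Ol l hl).zero_mem
    | some j =>
      simp only [hP, conjSeries, PowerSeries.coeff_mk]
      exact (Ol l hl).mul_mem ((Ol l hl).mul_mem ((Ol l hl).neg_mem hpinv) (hGO _)) (hζO _)
  have hB : ∀ v n, ∃ y ∈ Ol l hl, PowerSeries.coeff n (P v - 1) = (l : ℂ) * y := by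
    intro v n
    cases v with
    | none =>
      rcases Nat.eq_zero_or_pos n with rfl | hn
      · refine ⟨0, (Ol l hl).zero_mem, ?_⟩
        simp [hP, conjSeries, hG0]
      · simp only [hP, conjSeries, map_sub, PowerSeries.coeff_mk, PowerSeries.coeff_one,
          if_neg hn.ne', sub_zero]
        split_ifs with hpn
        · have : 1 ≤ n / p := Nat.div_pos (Nat.le_of_dvd hn hpn) hp.pos
          exact hGm _ this
        · exact ⟨0, (Ol l hl).zero_mem, by simp⟩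
    | some j =>
      rcases Nat.eq_zero_or_pos n with rfl | hn
      · obtain ⟨t, ht⟩ := hdvd
        refine ⟨-((p : ℂ))⁻¹ * (t : ℂ), (Ol l hl).mul_mem ((Ol l hl).neg_mem hpinv)
          (natCast_mem _ t), ?_⟩
        simp only [hP, conjSeries, map_sub, PowerSeries.coeff_mk, PowerSeries.coeff_one,
          mul_zero, pow_zero, mul_one, hG0, if_true]
        have h1 : ((p : ℂ) + 1) = (l : ℂ) * (t : ℂ) := by exact_mod_cast ht
        field_simp
        linear_combination -h1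
      · obtain ⟨y, hy, hxy⟩ := hGm (p * n) (Nat.mul_pos hp.pos hn)
        refine ⟨-((p : ℂ))⁻¹ * y * ζ ^ (j.val * n),
          (Ol l hl).mul_mem ((Ol l hl).mul_mem ((Ol l hl).neg_mem hpinv) hy) (hζO _), ?_⟩
        simp only [hP, conjSeries, map_sub, PowerSeries.coeff_mk, PowerSeries.coeff_one,
          if_neg hn.ne', sub_zero, hxy]
        ring
  -- lift to power series over `O`
  let P' : Option (ZMod p) → PowerSeries (Ol l hl) := fun v =>
    PowerSeries.mk fun n => ⟨PowerSeries.coeff n (P v), hA v n⟩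
  let Q : Option (ZMod p) → PowerSeries (Ol l hl) := fun v =>
    PowerSeries.mk fun n => ⟨Classical.choose (hB v n), (Classical.choose_spec (hB v n)).1⟩
  have hPQ : ∀ v, P' v - 1 = ((l : ℕ) : PowerSeries (Ol l hl)) * Q v := by
    intro v
    ext n
    rw [← map_natCast (PowerSeries.C (R := Ol l hl)) l, PowerSeries.coeff_C_mul]
    have h1 := (Classical.choose_spec (hB v n)).2
    simp only [map_sub, PowerSeries.coeff_mk, P', Q] at h1 ⊢
    simp only [PowerSeries.coeff_one] at h1 ⊢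
    split_ifs at h1 ⊢ with hn
    · simpa using h1
    · simpa using h1
  let φ : PowerSeries (Ol l hl) →+* PowerSeries ℂ := PowerSeries.map (Ol l hl).subtype
  have hφ : ∀ v, φ (P' v) = P v := by
    intro v; ext n; simp [φ, P']
  -- the exponent
  obtain ⟨k, t, ht, hkt⟩ := Nat.exists_eq_pow_mul_and_not_dvd (Nat.succ_ne_zero p) l hl.ne_one
  set i := l ^ k with hi
  have hcard : Fintype.card (Option (ZMod p)) = p + 1 := by
    rw [Fintype.card_option, ZMod.card]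
  have hmem := esymm_sub_choose_mem (Ideal.span {((l : ℕ) : PowerSeries (Ol l hl))}) P'
    (fun v => Ideal.mem_span_singleton'.mpr ⟨Q v, by rw [hPQ v, mul_comm]⟩) i
  obtain ⟨W, hW⟩ := Ideal.mem_span_singleton'.mp hmem
  rw [hcard] at hW
  set S' := ∑ s ∈ powersetCard i (univ : Finset (Option (ZMod p))), ∏ v ∈ s, P' v with hS'
  have hφS : φ S' = ∑ s ∈ powersetCard i (univ : Finset (Option (ZMod p))), ∏ v ∈ s, P v := by
    rw [hS', map_sum]
    refine Finset.sum_congr rfl fun s _ => ?_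
    rw [map_prod]
    exact Finset.prod_congr rfl fun v _ => hφ v
  obtain ⟨E, hEq⟩ := hE i
  have hcoeff : ∀ n, qCoeff (E : ℍ → ℂ) n = ((PowerSeries.coeff (p * n) S' : Ol l hl) : ℂ) := by
    intro n
    rw [hEq n, ← hφS]
    simp [φ]
  have hEO : ∀ n, qCoeff (E : ℍ → ℂ) n ∈ Ol l hl := fun n => by
    rw [hcoeff n]; exact (PowerSeries.coeff (p * n) S').2
  have hS'W : S' = W * ((l : ℕ) : PowerSeries (Ol l hl)) + (((p + 1).choose i : ℕ) : PowerSeries (Ol l hl)) := by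
    rw [hW]; ring
  have hcoeffW : ∀ n, PowerSeries.coeff n S' =
      PowerSeries.coeff n W * ((l : ℕ) : Ol l hl) +
        (if n = 0 then (((p + 1).choose i : ℕ) : Ol l hl) else 0) := by
    intro n
    rw [hS'W, map_add, ← map_natCast (PowerSeries.C (R := Ol l hl)) l,
      ← map_natCast (PowerSeries.C (R := Ol l hl)) ((p + 1).choose i), PowerSeries.coeff_mul_C,
      PowerSeries.coeff_C]
  have hmtop := span_natCast_ne_top hl
  have hlm : ((l : ℕ) : Ol l hl) ∈ Ideal.span {((l : ℕ) : Ol l hl)} :=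
    Ideal.subset_span rfl
  have hdiv := hSwD l hl hl5 (2 * (i : ℤ)) E (Ol l hl) (Ideal.span {((l : ℕ) : Ol l hl)}) hmtop hlm
    hEO ?_ (((p + 1).choose i : ℕ) : ℤ) ?_ ?_
  · -- contradiction
    apply not_pred_dvd_two_mul_pow hl5 k
    have h1 : ((l : ℤ) - 1) = ((l - 1 : ℕ) : ℤ) := by
      rw [Nat.cast_sub hl.one_lt.le]; simp
    rw [h1] at hdiv
    have h2 : (2 * (i : ℤ)) = ((2 * l ^ k : ℕ) : ℤ) := by rw [hi]; push_cast; ring
    rw [h2] at hdiv
    exact_mod_cast hdiv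
  · intro n hn
    have h1 : (⟨_, hEO n⟩ : Ol l hl) = PowerSeries.coeff (p * n) S' := Subtype.ext (hcoeff n)
    rw [h1, hcoeffW, if_neg (Nat.mul_ne_zero hp.ne_zero (by omega)), add_zero]
    exact Ideal.mul_mem_left _ _ hlm
  · -- `l ∤ C(p+1, l^k)`
    have hL := choose_pow_mul_modEq hl k t
    rw [← hkt] at hL
    intro hdvd'
    have hd2 : l ∣ (p + 1).choose i := by exact_mod_cast hdvd'
    apply ht
    exact (Nat.modEq_zero_iff_dvd.mp (hL.symm.trans (Nat.modEq_zero_iff_dvd.mpr hd2)))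
  · have h1 : (⟨_, hEO 0⟩ : Ol l hl) = PowerSeries.coeff (p * 0) S' := Subtype.ext (hcoeff 0)
    rw [h1, hcoeffW, mul_zero, if_pos rfl, Int.cast_natCast, add_sub_cancel_right]
    exact Ideal.mul_mem_left _ _ hlm

end Fermat.Agent.S16.USwD27
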