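/-
S16, package (U)-SwD, second seat (helper92): WEAK SWINNERTON-DYER IN LEVEL ONE BY THE HECKE TRICK.

`swd : USwD27.SwDStmt`: a level-one form `f` of weight `k` with coefficients in a subring
`O ⊆ ℂ`, congruent to an integer constant `c` prime to `l` modulo a proper ideal `m ∋ l`, has
`(l - 1) ∣ k`.  (Valid for every prime `l`.)

Proof.  Otherwise `k = K ≥ 0` and there is a unit `a` of `ZMod l` with `a ^ K ≠ 1`; by Dirichlet
pick a prime `r > K + 12`, `r ≡ a mod l`.  Put `H = T_r (f Δ) - f · T_r Δ`, a level-one form of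
weight `K + 12`.  Modulo `m`: `f Δ ≡ c Δ`, `f T_r Δ ≡ c T_r Δ`, hence
`H_n ≡ [r ∣ n] c r¹¹ (r^K - 1) τ(n / r)`.  So `H_n ∈ m` for all `n < r`, in particular for all
`n ≤ (K + 12) / 12`; by the Sturm bound modulo `m` (`SturmMod32`) all coefficients of `H` lie in
`m`, but `H_r ≡ c r¹¹ (r^K - 1)` is an integer prime to `l`: contradiction.
-/
import Mathlib
import Fermat.Prelude.Def_ModularForm_HeckeOperatorForms
import Fermat.Prelude.Thm_ModularFormClass_qCoeff_heckeT
import Fermat.Prelude.Thm_CongruenceSubgroup_one_mem_strictPeriods_Gamma0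
import Fermat.Agent.S16.SturmMod32
import Fermat.Agent.S16.LemmaT72
import Fermat.Agent.S16.USwD27

set_option autoImplicit false

open UpperHalfPlane ModularForm ModularFormClass CongruenceSubgroup
open scoped MatrixGroups

namespace Fermat.Agent.S16.SwD92

open Fermat.Agent.S23.LevelOne Fermat.Agent.S16.SturmMod32 Fermat.Agent.S16.LemmaT72

/-- Level-one Hecke operator `T_r` on `M_k(SL₂(ℤ))`, transported from the Prelude operator at
level `Gamma0 1`. -/
noncomputable def heckeL1 {r : ℕ} (hr : r.Prime) (k : ℤ) (f : ModularForm 𝒮ℒ k) :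
    ModularForm 𝒮ℒ k :=
  ModularForm.mcast rfl
    (ModularForm.heckeTLin k hr (fun h => hr.one_lt.ne' (Nat.dvd_one.mp h))
      (ModularForm.mcast rfl f gamma0_one_eq)) gamma0_one_eq.symm

theorem coeff_heckeL1 {r : ℕ} (hr : r.Prime) (k : ℤ) (f : ModularForm 𝒮ℒ k) (n : ℕ) :
    (qExpansion 1 (heckeL1 hr k f)).coeff n =
      (qExpansion 1 f).coeff (n * r) +
        if r ∣ n then (r : ℂ) ^ (k - 1) * (qExpansion 1 f).coeff (n / r) else 0 := by
  have hΓ := CongruenceSubgroup.one_mem_strictPeriods_Gamma0 1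
  exact ModularFormClass.qCoeff_heckeT
    (ModularForm.mcast rfl f gamma0_one_eq : ModularForm (Gamma0 1) k) hΓ hr.ne_zero n

/-- The discriminant as a modular form of level one. -/
noncomputable def deltaForm : ModularForm 𝒮ℒ 12 := CuspForm.toModularFormₗ CuspForm.discriminant

theorem coe_deltaForm : (deltaForm : ℍ → ℂ) = ModularForm.discriminant := rfl

theorem exists_unit_pow_ne_one {l : ℕ} (hl : l.Prime) {K : ℕ} (hK : ¬ (l - 1) ∣ K) :
    ∃ a : (ZMod l)ˣ, a ^ K ≠ 1 := by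
  have := Fact.mk hl
  obtain ⟨g, hg⟩ := IsCyclic.exists_generator (α := (ZMod l)ˣ)
  refine ⟨g, fun h => hK ?_⟩
  have h1 : orderOf g = l - 1 := by
    rw [orderOf_eq_card_of_forall_mem_zpowers hg, Nat.card_eq_fintype_card, ZMod.card_units]
  rw [← h1]
  exact orderOf_dvd_of_pow_eq_one h

theorem exists_prime_gt {l : ℕ} (hl : l.Prime) {K : ℕ} (hK : ¬ (l - 1) ∣ K) (B : ℕ) :
    ∃ r : ℕ, r.Prime ∧ B < r ∧ ¬ (l : ℤ) ∣ (r : ℤ) ^ 11 * ((r : ℤ) ^ K - 1) := by
  have := Fact.mk hl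
  have : NeZero l := ⟨hl.ne_zero⟩
  obtain ⟨a, ha⟩ := exists_unit_pow_ne_one hl hK
  obtain ⟨r, hrB, hr, hra⟩ :=
    Nat.forall_exists_prime_gt_and_eq_mod (q := l) (a := (a : ZMod l)) a.isUnit B
  refine ⟨r, hr, hrB, fun hdvd => ?_⟩
  have h1 : ((((r : ℤ) ^ 11 * ((r : ℤ) ^ K - 1) : ℤ)) : ZMod l) = 0 :=
    (ZMod.intCast_zmod_eq_zero_iff_dvd _ _).mpr hdvd
  push_cast at h1
  rw [hra] at h1
  rcases mul_eq_zero.mp h1 with h2 | h2
  · exact (a ^ 11).ne_zero (by push_cast; exact h2)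
  · apply ha
    ext
    push_cast
    exact sub_eq_zero.mp h2

theorem intCast_notMem {O : Type*} [CommRing O] {m : Ideal O} (hm : m ≠ ⊤) {l : ℕ}
    (hl : l.Prime) (hlm : (l : O) ∈ m) {z : ℤ} (hz : ¬ (l : ℤ) ∣ z) : (z : O) ∉ m := by
  intro hzm
  have hcop : IsCoprime (l : ℤ) z :=
    (Nat.prime_iff_prime_int.mp hl).irreducible.coprime_iff_not_dvd.mpr hz
  obtain ⟨u, v, huv⟩ := hcop
  apply hm
  rw [Ideal.eq_top_iff_one]
  have : (1 : O) = (u : O) * (l : O) + (v : O) * (z : O) := by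
    have := congrArg (Int.cast : ℤ → O) huv
    push_cast at this
    exact this.symm
  rw [this]
  exact m.add_mem (m.mul_mem_left _ hlm) (m.mul_mem_left _ hzm)

/-- If `P ≡ c` coefficientwise modulo `S` and `D` has integer coefficients, then `P * D ≡ c • D`. -/
theorem coeff_mul_sub_mem (S : AddSubgroup ℂ) {P D : PowerSeries ℂ} (hD : D ∈ intSeries) (c : ℂ)
    (h0 : PowerSeries.coeff 0 P - c ∈ S) (hpos : ∀ n, 1 ≤ n → PowerSeries.coeff n P ∈ S) (n : ℕ) :
    PowerSeries.coeff n (P * D) - c * PowerSeries.coeff n D ∈ S := by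
  have h1 : ∀ n, PowerSeries.coeff n (P - PowerSeries.C c) ∈ S := by
    intro n
    rcases Nat.eq_zero_or_pos n with rfl | hn
    · simpa using h0
    · rw [map_sub, PowerSeries.coeff_C, if_neg hn.ne', sub_zero]; exact hpos n hn
  have h2 := coeff_intSeries_mul_mem S hD h1 n
  have h3 : D * (P - PowerSeries.C c) = P * D - PowerSeries.C c * D := by ring
  rw [h3, map_sub, PowerSeries.coeff_C_mul] at h2
  exact h2


/-- The form `H = T_r (f Δ) - f · T_r Δ` of weight `K + 12`. -/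
noncomputable def hForm {r : ℕ} (hr : r.Prime) (K : ℕ) (f : ModularForm 𝒮ℒ (K : ℤ)) :
    ModularForm 𝒮ℒ ((K : ℤ) + 12) :=
  heckeL1 hr ((K : ℤ) + 12) (f.mul deltaForm) - f.mul (heckeL1 hr 12 deltaForm)

theorem qExpansion_deltaForm_mem : qExpansion 1 deltaForm ∈ intSeries := by
  rw [coe_deltaForm, qExpansion_discriminant]
  exact intSeries.mul_mem X_mem_intSeries etaUnitC_mem

theorem coeff_deltaForm (n : ℕ) : (qExpansion 1 deltaForm).coeff n = tau n := rfl

theorem coeff_heckeL1_deltaForm {r : ℕ} (hr : r.Prime) (n : ℕ) :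
    (qExpansion 1 (heckeL1 hr 12 deltaForm)).coeff n =
      tau (n * r) + if r ∣ n then (r : ℂ) ^ 11 * tau (n / r) else 0 := by
  rw [coeff_heckeL1, coeff_deltaForm, coeff_deltaForm]
  norm_num

theorem qExpansion_heckeL1_deltaForm_mem {r : ℕ} (hr : r.Prime) :
    qExpansion 1 (heckeL1 hr 12 deltaForm) ∈ intSeries := by
  rw [mem_intSeries_iff]
  intro n
  obtain ⟨a1, ha1⟩ := (mem_intSeries_iff _).mp qExpansion_deltaForm_mem (n * r)
  obtain ⟨a2, ha2⟩ := (mem_intSeries_iff _).mp qExpansion_deltaForm_mem (n / r)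
  rw [coeff_deltaForm] at ha1 ha2
  rw [coeff_heckeL1_deltaForm, ha1, ha2]
  split_ifs
  · exact ⟨a1 + (r : ℤ) ^ 11 * a2, by push_cast; rfl⟩
  · exact ⟨a1, by rw [add_zero]⟩

theorem coeff_hForm {r : ℕ} (hr : r.Prime) (K : ℕ) (f : ModularForm 𝒮ℒ (K : ℤ)) (n : ℕ) :
    (qExpansion 1 (hForm hr K f)).coeff n =
      ((qExpansion 1 f * qExpansion 1 deltaForm).coeff (n * r) +
        if r ∣ n then (r : ℂ) ^ (K + 11) *
          (qExpansion 1 f * qExpansion 1 deltaForm).coeff (n / r) else 0) -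
      (qExpansion 1 f * qExpansion 1 (heckeL1 hr 12 deltaForm)).coeff n := by
  rw [hForm, FunLike.coe_sub, ModularForm.qExpansion_sub one_pos one_mem_strictPeriods_SL,
    map_sub, coeff_heckeL1,
    ModularForm.qExpansion_mul one_pos one_mem_strictPeriods_SL,
    ModularForm.qExpansion_mul one_pos one_mem_strictPeriods_SL]
  congr 3
  have : (K : ℤ) + 12 - 1 = ((K + 11 : ℕ) : ℤ) := by push_cast; ring
  rw [this, zpow_natCast]

/-- The key congruence: modulo `S`, `H_n ≡ [r ∣ n] c r¹¹ (r^K - 1) τ(n / r)`. -/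
theorem coeff_hForm_sub_mem (S : AddSubgroup ℂ) {r : ℕ} (hr : r.Prime) (K : ℕ)
    (f : ModularForm 𝒮ℒ (K : ℤ)) (c : ℂ)
    (h0 : (qExpansion 1 f).coeff 0 - c ∈ S)
    (hpos : ∀ n, 1 ≤ n → (qExpansion 1 f).coeff n ∈ S) (n : ℕ) :
    (qExpansion 1 (hForm hr K f)).coeff n -
      (if r ∣ n then c * ((r : ℂ) ^ 11 * ((r : ℂ) ^ K - 1)) * tau (n / r) else 0) ∈ S := by
  have hA := coeff_mul_sub_mem S qExpansion_deltaForm_mem c h0 hpos
  have hB := coeff_mul_sub_mem S (qExpansion_heckeL1_deltaForm_mem hr) c h0 hpos n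
  rw [coeff_heckeL1_deltaForm] at hB
  simp only [coeff_deltaForm] at hA
  rw [coeff_hForm]
  by_cases hrn : r ∣ n
  · simp only [if_pos hrn] at hB ⊢
    have h1 := hA (n * r)
    have h2 : ((r ^ (K + 11) : ℕ) : ℂ) *
        ((qExpansion 1 f * qExpansion 1 deltaForm).coeff (n / r) - c * tau (n / r)) ∈ S := by
      rw [← nsmul_eq_mul]
      exact S.nsmul_mem (hA (n / r)) _
    have h3 := S.sub_mem (S.add_mem h1 h2) hB
    convert h3 using 1
    push_cast
    ring
  · simp only [if_neg hrn, add_zero, sub_zero] at hB ⊢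
    have h1 := hA (n * r)
    have h3 := S.sub_mem h1 hB
    convert h3 using 1
    ring

/-- **Weak Swinnerton-Dyer in level one**, by the Hecke trick. -/
theorem swd : USwD27.SwDStmt := by
  intro l hl _ k f O m hm hlm hO hpos c hc h0
  by_contra hdiv
  set S : AddSubgroup ℂ := idealSubgroup O m with hS
  have hnotmem : ∀ z : ℤ, ¬ (l : ℤ) ∣ z → (z : ℂ) ∉ S := by
    intro z hz hzS
    obtain ⟨y, hy, hzy⟩ := (mem_idealSubgroup O).mp hzS
    have hyz : y = (z : O) := Subtype.ext (by rw [← hzy]; simp)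
    exact intCast_notMem hm hl hlm hz (hyz ▸ hy)
  have ha_pos : ∀ n, 1 ≤ n → (qExpansion 1 f).coeff n ∈ S := fun n hn =>
    (mem_idealSubgroup O).mpr ⟨_, hpos n hn, rfl⟩
  have ha0 : (qExpansion 1 f).coeff 0 - (c : ℂ) ∈ S :=
    (mem_idealSubgroup O).mpr ⟨_, h0, by push_cast; rfl⟩
  -- the weight is nonnegative
  have hk0 : 0 ≤ k := by
    by_contra hneg
    have hf : (f : ℍ → ℂ) = 0 := levelOne_neg_weight_eq_zero (by omega) f
    have h00 : (qExpansion 1 f).coeff 0 = 0 := by rw [hf, qExpansion_zero]; simp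
    apply hnotmem c hc
    have h1 := ha0
    rw [h00, zero_sub] at h1
    simpa using S.neg_mem h1
  obtain ⟨K, rfl⟩ := Int.eq_ofNat_of_zero_le hk0
  have hK : ¬ (l - 1) ∣ K := by
    intro h
    apply hdiv
    have := Int.natCast_dvd_natCast.mpr h
    rwa [Nat.cast_sub hl.one_lt.le, Nat.cast_one] at this
  obtain ⟨r, hr, hrB, hrl⟩ := exists_prime_gt hl hK (K + 12)
  have hkey := coeff_hForm_sub_mem S hr K f (c : ℂ) ha0 ha_pos
  -- all low coefficients of `H` lie in `S`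
  have hlow : ∀ n ≤ ((K : ℤ) + 12).toNat / 12, (qExpansion 1 (hForm hr K f)).coeff n ∈ S := by
    intro n hn
    have hnr : n < r := by
      have : ((K : ℤ) + 12).toNat = K + 12 := by omega
      rw [this] at hn
      omega
    have h1 := hkey n
    by_cases hrn : r ∣ n
    · obtain rfl : n = 0 := Nat.eq_zero_of_dvd_of_lt hrn hnr
      simpa [tau_zero] using h1
    · simpa [hrn] using h1
  have hall := coeff_mem_of_forall_le_int S (hForm hr K f) hlow r
  have h1 := hkey r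
  rw [if_pos dvd_rfl, Nat.div_self hr.pos, tau_one, mul_one] at h1
  have h2 := S.sub_mem hall h1
  rw [sub_sub_cancel] at h2
  apply hnotmem (c * ((r : ℤ) ^ 11 * ((r : ℤ) ^ K - 1)))
  · intro hd
    rcases (Nat.prime_iff_prime_int.mp hl).dvd_or_dvd hd with h | h
    · exact hc h
    · exact hrl h
  · convert h2 using 1
    push_cast
    ring

end Fermat.Agent.S16.SwD92
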