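import Mathlib

/-!
# S16 / (L1)-THETA-A2A3 : analytic basics of shifted theta functions (helper91)

`θ_v(w) = ∑_{x ∈ ℤⁿ} exp(π i w (x+v)ᵀ A (x+v))` for a real positive definite symmetric `A`.
Mathlib only.
-/

set_option autoImplicit false

namespace Fermat.Agent.S16.ThetaBasic91

open Complex Real Matrix
open scoped BigOperators

noncomputable section


variable {n : ℕ}

/-- The real quadratic form `u ↦ uᵀ A u`. -/
def qf (A : Matrix (Fin n) (Fin n) ℝ) (u : Fin n → ℝ) : ℝ := u ⬝ᵥ A *ᵥ u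

lemma qf_smul (A : Matrix (Fin n) (Fin n) ℝ) (c : ℝ) (u : Fin n → ℝ) :
    qf A (c • u) = c ^ 2 * qf A u := by
  simp only [qf, Matrix.mulVec_smul, dotProduct_smul, smul_dotProduct, smul_eq_mul]
  ring

lemma qf_neg (A : Matrix (Fin n) (Fin n) ℝ) (u : Fin n → ℝ) : qf A (-u) = qf A u := by
  simp [qf, Matrix.mulVec_neg]

lemma continuous_qf (A : Matrix (Fin n) (Fin n) ℝ) : Continuous (qf A) := by
  unfold qf
  simp only [dotProduct, Matrix.mulVec]
  fun_prop

lemma qf_pos {A : Matrix (Fin n) (Fin n) ℝ} (hA : A.PosDef) {u : Fin n → ℝ} (hu : u ≠ 0) :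
    0 < qf A u := by
  have := hA.dotProduct_mulVec_pos hu
  simpa [qf] using this

/-- coercivity in sup norm -/
lemma exists_pos_le_qf_norm {A : Matrix (Fin n) (Fin n) ℝ} (hA : A.PosDef) :
    ∃ c : ℝ, 0 < c ∧ ∀ u : Fin n → ℝ, c * ‖u‖ ^ 2 ≤ qf A u := by
  by_cases hne : (Metric.sphere (0 : Fin n → ℝ) 1).Nonempty
  · obtain ⟨u0, hu0, hmin⟩ := (isCompact_sphere (0 : Fin n → ℝ) 1).exists_isMinOn hne
      (continuous_qf A).continuousOn
    have hu0n : ‖u0‖ = 1 := by simpa using hu0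
    have hu0ne : u0 ≠ 0 := by
      intro h; rw [h] at hu0n; simp at hu0n
    refine ⟨qf A u0, qf_pos hA hu0ne, fun u => ?_⟩
    by_cases hu : u = 0
    · subst hu; simp [qf]
    · have hun : ‖u‖ ≠ 0 := by simpa using hu
      have hmem : (‖u‖⁻¹ • u) ∈ Metric.sphere (0 : Fin n → ℝ) 1 := by
        simp [norm_smul, hun]
      have h1 : qf A u0 ≤ qf A (‖u‖⁻¹ • u) := hmin hmem
      rw [qf_smul] at h1
      have hpos : 0 < ‖u‖ ^ 2 := by positivity
      calc qf A u0 * ‖u‖ ^ 2 ≤ (‖u‖⁻¹ ^ 2 * qf A u) * ‖u‖ ^ 2 := by gcongr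
        _ = qf A u := by field_simp
  · refine ⟨1, one_pos, fun u => ?_⟩
    have hu : u = 0 := by
      by_contra hu
      have hun : ‖u‖ ≠ 0 := by simpa using hu
      exact hne ⟨‖u‖⁻¹ • u, by simp [norm_smul, hun]⟩
    subst hu; simp [qf]

/-- coercivity against the Euclidean sum of squares -/
lemma exists_pos_le_qf {A : Matrix (Fin n) (Fin n) ℝ} (hA : A.PosDef) :
    ∃ c : ℝ, 0 < c ∧ ∀ u : Fin n → ℝ, c * ∑ i, u i ^ 2 ≤ qf A u := by
  obtain ⟨c, hc, h⟩ := exists_pos_le_qf_norm hA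
  refine ⟨c / (n + 1), by positivity, fun u => le_trans ?_ (h u)⟩
  have h1 : ∑ i, u i ^ 2 ≤ n * ‖u‖ ^ 2 := by
    calc ∑ i, u i ^ 2 ≤ ∑ _i : Fin n, ‖u‖ ^ 2 := by
          apply Finset.sum_le_sum
          intro i _
          have := norm_le_pi_norm u i
          rw [Real.norm_eq_abs] at this
          calc u i ^ 2 = |u i| ^ 2 := (sq_abs _).symm
            _ ≤ ‖u‖ ^ 2 := by gcongr
      _ = n * ‖u‖ ^ 2 := by simp
  have h2 : (0:ℝ) ≤ ‖u‖ ^ 2 := by positivity
  have h3 : (0:ℝ) ≤ ∑ i, u i ^ 2 := Finset.sum_nonneg fun i _ => sq_nonneg _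
  rw [div_mul_eq_mul_div, div_le_iff₀ (by positivity)]
  nlinarith



/-- product summability over `Fin n → ℤ` (nonnegative factors). -/
lemma summable_pi_prod : ∀ (n : ℕ) (f : Fin n → ℤ → ℝ), (∀ i, Summable (f i)) →
    (∀ i m, 0 ≤ f i m) → Summable fun x : Fin n → ℤ => ∏ i, f i (x i)
  | 0, f, _, _ => summable_of_hasFiniteSupport (Set.toFinite _)
  | (n + 1), f, hf, hnn => by
    have ih := summable_pi_prod n (fun i => f i.succ) (fun i => hf _) (fun i m => hnn _ m)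
    have h := Summable.mul_of_nonneg (hf 0) ih (fun m => hnn 0 m)
      (fun y => Finset.prod_nonneg fun i _ => hnn _ _)
    rw [← (Fin.consEquiv (fun _ : Fin (n + 1) => ℤ)).summable_iff]
    refine h.congr fun x => ?_
    simp only [Function.comp_apply, Fin.consEquiv_apply, Fin.prod_univ_succ, Fin.cons_zero,
      Fin.cons_succ]

/-- one-dimensional shifted Gaussian sums converge. -/
lemma summable_gauss_shift {a : ℝ} (ha : 0 < a) (s : ℝ) :
    Summable fun m : ℤ => rexp (-a * ((m : ℝ) + s) ^ 2) := by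
  have hT : 0 < a / π := div_pos ha pi_pos
  have h := summable_pow_mul_jacobiTheta₂_term_bound (a / π * |s|) hT 0
  refine h.of_nonneg_of_le (fun m => (Real.exp_pos _).le) (fun m => ?_)
  simp only [pow_zero, one_mul, Int.cast_abs]
  apply Real.exp_le_exp.mpr
  have hpi : π * (a / π) = a := by field_simp
  have h1 : -π * (a / π * (m : ℝ) ^ 2 - 2 * (a / π * |s|) * |(m : ℝ)|)
      = -a * ((m : ℝ) ^ 2 - 2 * |s| * |(m : ℝ)|) := by
    calc -π * (a / π * (m : ℝ) ^ 2 - 2 * (a / π * |s|) * |(m : ℝ)|)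
        = -(π * (a / π)) * ((m : ℝ) ^ 2 - 2 * |s| * |(m : ℝ)|) := by ring
      _ = _ := by rw [hpi]
  rw [h1]
  have h2 : (m : ℝ) ^ 2 - 2 * |s| * |(m : ℝ)| ≤ ((m : ℝ) + s) ^ 2 := by
    have h3 : -(|s| * |(m : ℝ)|) ≤ (m : ℝ) * s := by
      have := neg_abs_le ((m : ℝ) * s)
      rw [abs_mul] at this
      linarith
    nlinarith [sq_nonneg s]
  nlinarith



/-- lattice point + shift as a real vector -/
def shift (v : Fin n → ℝ) (x : Fin n → ℤ) : Fin n → ℝ := fun i => (x i : ℝ) + v i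

/-- the general term of the shifted theta series (complex variable `w`). -/
def thetaTerm (A : Matrix (Fin n) (Fin n) ℝ) (v : Fin n → ℝ) (w : ℂ) (x : Fin n → ℤ) : ℂ :=
  cexp (π * I * w * (qf A (shift v x) : ℝ))

/-- the shifted theta function `θ_v(w) = ∑_{x ∈ ℤⁿ} exp(π i w (x+v)ᵀ A (x+v))`. -/
def thetaFn (A : Matrix (Fin n) (Fin n) ℝ) (v : Fin n → ℝ) (w : ℂ) : ℂ :=
  ∑' x : Fin n → ℤ, thetaTerm A v w x

lemma norm_thetaTerm (A : Matrix (Fin n) (Fin n) ℝ) (v : Fin n → ℝ) (w : ℂ) (x : Fin n → ℤ) :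
    ‖thetaTerm A v w x‖ = rexp (-π * w.im * qf A (shift v x)) := by
  rw [thetaTerm, Complex.norm_exp]
  congr 1
  have : (π : ℂ) * I * w * (qf A (shift v x) : ℝ) = ((π * qf A (shift v x) : ℝ) : ℂ) * w * I := by
    push_cast; ring
  rw [this, mul_I_re, im_ofReal_mul]
  ring

/-- the dominating product of one-dimensional Gaussians. -/
def gaussBound (c T : ℝ) (v : Fin n → ℝ) (x : Fin n → ℤ) : ℝ :=
  ∏ i, rexp (-(π * T * c) * ((x i : ℝ) + v i) ^ 2)

lemma gaussBound_nonneg (c T : ℝ) (v : Fin n → ℝ) (x : Fin n → ℤ) : 0 ≤ gaussBound c T v x :=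
  Finset.prod_nonneg fun _ _ => (Real.exp_pos _).le

lemma summable_gaussBound {c T : ℝ} (hc : 0 < c) (hT : 0 < T) (v : Fin n → ℝ) :
    Summable (gaussBound (n := n) c T v) := by
  have hpos : 0 < π * T * c := by positivity
  exact summable_pi_prod n (fun i m => rexp (-(π * T * c) * ((m : ℝ) + v i) ^ 2))
    (fun i => summable_gauss_shift hpos (v i)) (fun i m => (Real.exp_pos _).le)

lemma gaussBound_eq (c T : ℝ) (v : Fin n → ℝ) (x : Fin n → ℤ) :
    gaussBound c T v x = rexp (-(π * T * c) * ∑ i, (shift v x i) ^ 2) := by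
  rw [gaussBound, ← Real.exp_sum, Finset.mul_sum]
  rfl

lemma norm_thetaTerm_le {A : Matrix (Fin n) (Fin n) ℝ} {c T : ℝ} (hc0 : 0 < c)
    (hc : ∀ u : Fin n → ℝ, c * ∑ i, u i ^ 2 ≤ qf A u) (hT : 0 < T) (v : Fin n → ℝ) {w : ℂ}
    (hw : T ≤ w.im) (x : Fin n → ℤ) : ‖thetaTerm A v w x‖ ≤ gaussBound c T v x := by
  rw [norm_thetaTerm, gaussBound_eq]
  apply Real.exp_le_exp.mpr
  have h1 := hc (shift v x)
  have h0 : (0 : ℝ) ≤ ∑ i, (shift v x i) ^ 2 := Finset.sum_nonneg fun i _ => sq_nonneg _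
  have h2 : 0 ≤ qf A (shift v x) := le_trans (mul_nonneg hc0.le h0) h1
  have h3 : T * (c * ∑ i, (shift v x i) ^ 2) ≤ w.im * qf A (shift v x) :=
    mul_le_mul hw h1 (mul_nonneg hc0.le h0) (le_trans hT.le hw)
  have : π * (T * (c * ∑ i, (shift v x i) ^ 2)) ≤ π * (w.im * qf A (shift v x)) :=
    mul_le_mul_of_nonneg_left h3 pi_pos.le
  linarith



variable {A : Matrix (Fin n) (Fin n) ℝ}

lemma summable_norm_thetaTerm (hA : A.PosDef) (v : Fin n → ℝ) {w : ℂ} (hw : 0 < w.im) :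
    Summable fun x => ‖thetaTerm A v w x‖ := by
  obtain ⟨c, hc0, hc⟩ := exists_pos_le_qf hA
  exact (summable_gaussBound hc0 hw v).of_nonneg_of_le (fun x => norm_nonneg _)
    (fun x => norm_thetaTerm_le hc0 hc hw v le_rfl x)

lemma summable_thetaTerm (hA : A.PosDef) (v : Fin n → ℝ) {w : ℂ} (hw : 0 < w.im) :
    Summable (thetaTerm A v w) :=
  (summable_norm_thetaTerm hA v hw).of_norm

lemma hasSum_thetaFn (hA : A.PosDef) (v : Fin n → ℝ) {w : ℂ} (hw : 0 < w.im) :
    HasSum (thetaTerm A v w) (thetaFn A v w) :=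
  (summable_thetaTerm hA v hw).hasSum

lemma differentiable_thetaTerm (A : Matrix (Fin n) (Fin n) ℝ) (v : Fin n → ℝ) (x : Fin n → ℤ) :
    Differentiable ℂ (fun w => thetaTerm A v w x) := by
  unfold thetaTerm
  fun_prop

/-- `θ_v` is holomorphic on the upper half plane. -/
lemma differentiableOn_thetaFn (hA : A.PosDef) (v : Fin n → ℝ) :
    DifferentiableOn ℂ (thetaFn A v) {w : ℂ | 0 < w.im} := by
  obtain ⟨c, hc0, hc⟩ := exists_pos_le_qf hA
  intro w0 hw0
  have hw0' : 0 < w0.im := hw0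
  set T := w0.im / 2 with hTdef
  have hT : 0 < T := by positivity
  have hUopen : IsOpen {w : ℂ | T < w.im} := isOpen_lt continuous_const Complex.continuous_im
  have hdiff : DifferentiableOn ℂ (fun w => ∑' x : Fin n → ℤ, thetaTerm A v w x)
      {w : ℂ | T < w.im} :=
    differentiableOn_tsum_of_summable_norm (summable_gaussBound hc0 hT v)
      (fun x => (differentiable_thetaTerm A v x).differentiableOn) hUopen
      (fun x w hw => norm_thetaTerm_le hc0 hc hT v (le_of_lt hw) x)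
  have hmem : w0 ∈ {w : ℂ | T < w.im} := by
    show T < w0.im
    rw [hTdef]; linarith
  exact (hdiff.differentiableAt (hUopen.mem_nhds hmem)).differentiableWithinAt

/-- uniform bound for `1 ≤ im w`. -/
lemma exists_norm_thetaFn_le (hA : A.PosDef) (v : Fin n → ℝ) :
    ∃ C : ℝ, ∀ w : ℂ, 1 ≤ w.im → ‖thetaFn A v w‖ ≤ C := by
  obtain ⟨c, hc0, hc⟩ := exists_pos_le_qf hA
  refine ⟨∑' x, gaussBound c 1 v x, fun w hw => ?_⟩
  exact tsum_of_norm_bounded (summable_gaussBound hc0 one_pos v).hasSum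
    (fun x => norm_thetaTerm_le hc0 hc one_pos v hw x)



/-! ### symmetries in the characteristic `v` -/

lemma shift_add_int (v : Fin n → ℝ) (m x : Fin n → ℤ) :
    shift (fun i => v i + (m i : ℝ)) x = shift v (x + m) := by
  funext i
  simp only [shift, Pi.add_apply, Int.cast_add]
  ring

/-- `θ_{v+m} = θ_v` for `m ∈ ℤⁿ`. -/
lemma thetaFn_add_int (A : Matrix (Fin n) (Fin n) ℝ) (v : Fin n → ℝ) (m : Fin n → ℤ) (w : ℂ) :
    thetaFn A (fun i => v i + (m i : ℝ)) w = thetaFn A v w := by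
  unfold thetaFn thetaTerm
  simp_rw [shift_add_int]
  exact (Equiv.addRight m).tsum_eq (fun x => cexp (π * I * w * (qf A (shift v x) : ℝ)))

lemma shift_neg (v : Fin n → ℝ) (x : Fin n → ℤ) :
    shift (fun i => -v i) x = -shift v (-x) := by
  funext i
  simp only [shift, Pi.neg_apply, Int.cast_neg]
  ring

/-- `θ_{-v} = θ_v`. -/
lemma thetaFn_neg (A : Matrix (Fin n) (Fin n) ℝ) (v : Fin n → ℝ) (w : ℂ) :
    thetaFn A (fun i => -v i) w = thetaFn A v w := by
  unfold thetaFn thetaTerm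
  simp_rw [shift_neg, qf_neg]
  exact (Equiv.neg (Fin n → ℤ)).tsum_eq (fun x => cexp (π * I * w * (qf A (shift v x) : ℝ)))

/-! ### the `T`-law -/

/-- the translation law `θ_v(w+1) = e^{π i vᵀAv} θ_v(w)` under the parity hypothesis. -/
theorem thetaFn_add_one (A : Matrix (Fin n) (Fin n) ℝ) (v : Fin n → ℝ)
    (hv : ∀ x : Fin n → ℤ, ∃ k : ℤ, qf A (shift v x) - qf A v = 2 * (k : ℝ)) (w : ℂ) :
    thetaFn A v (w + 1) = cexp (π * I * (qf A v : ℝ)) * thetaFn A v w := by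
  unfold thetaFn
  rw [← tsum_mul_left]
  refine tsum_congr fun x => ?_
  obtain ⟨k, hk⟩ := hv x
  have hq : (qf A (shift v x) : ℝ) = qf A v + 2 * (k : ℝ) := by linarith
  unfold thetaTerm
  rw [← Complex.exp_add, hq]
  have : (π : ℂ) * I * (w + 1) * ((qf A v + 2 * (k : ℝ) : ℝ) : ℂ)
      = (π * I * (qf A v : ℝ) + π * I * w * ((qf A v + 2 * (k : ℝ) : ℝ) : ℂ)) + k * (2 * π * I) := by
    push_cast; ring
  rw [this, Complex.exp_add, Complex.exp_int_mul_two_pi_mul_I, mul_one]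



/-! ### integral matrices -/

/-- the integral quadratic form `x ↦ xᵀ A x`. -/
def qfZ (A : Matrix (Fin n) (Fin n) ℤ) (x : Fin n → ℤ) : ℤ := x ⬝ᵥ A *ᵥ x

/-- the real matrix attached to an integral one. -/
def toReal (A : Matrix (Fin n) (Fin n) ℤ) : Matrix (Fin n) (Fin n) ℝ :=
  A.map (Int.cast : ℤ → ℝ)

lemma toReal_mulVec_cast (A : Matrix (Fin n) (Fin n) ℤ) (x : Fin n → ℤ) (i : Fin n) :
    (toReal A *ᵥ (fun j => (x j : ℝ))) i = ((A *ᵥ x) i : ℤ) := by
  simp only [toReal, Matrix.mulVec, dotProduct, Matrix.map_apply, Int.cast_sum, Int.cast_mul]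

lemma qf_toReal_cast (A : Matrix (Fin n) (Fin n) ℤ) (x : Fin n → ℤ) :
    qf (toReal A) (fun j => (x j : ℝ)) = (qfZ A x : ℤ) := by
  unfold qf qfZ
  simp only [dotProduct, toReal_mulVec_cast, Int.cast_sum, Int.cast_mul]

lemma shift_zero (x : Fin n → ℤ) : shift (0 : Fin n → ℝ) x = fun j => (x j : ℝ) := by
  funext i; simp [shift]

lemma qfZ_eq_sum (A : Matrix (Fin n) (Fin n) ℤ) (x : Fin n → ℤ) :
    qfZ A x = ∑ p ∈ (Finset.univ : Finset (Fin n)) ×ˢ (Finset.univ : Finset (Fin n)),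
      x p.1 * A p.1 p.2 * x p.2 := by
  rw [Finset.sum_product]
  simp only [qfZ, dotProduct, Matrix.mulVec, Finset.mul_sum, mul_assoc]

/-- an integral symmetric matrix with even diagonal has an even quadratic form. -/
lemma even_qfZ {A : Matrix (Fin n) (Fin n) ℤ} (hs : A.IsSymm) (hd : ∀ i, Even (A i i))
    (x : Fin n → ℤ) : Even (qfZ A x) := by
  rw [← ZMod.intCast_eq_zero_iff_even, qfZ_eq_sum, Int.cast_sum]
  refine Finset.sum_involution (fun p _ => (p.2, p.1)) ?_ ?_ ?_ ?_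
  · rintro ⟨i, j⟩ _
    have hij : A j i = A i j := hs.apply i j
    simp only [hij]
    have : ((x i * A i j * x j : ℤ) : ZMod 2) + ((x j * A i j * x i : ℤ) : ZMod 2)
        = ((2 * (x i * A i j * x j) : ℤ) : ZMod 2) := by
      push_cast; ring
    rw [this, ZMod.intCast_eq_zero_iff_even]
    exact even_two_mul _
  · rintro ⟨i, j⟩ _ hne heq
    simp only [Prod.mk.injEq] at heq
    obtain ⟨rfl, -⟩ := heq
    apply hne
    rw [ZMod.intCast_eq_zero_iff_even]
    exact ((hd j).mul_left (x j)).mul_right (x j)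
  · intro p _; simp
  · intro p _; rfl



lemma toReal_isSymm {A : Matrix (Fin n) (Fin n) ℤ} (hs : A.IsSymm) : (toReal A).IsSymm := by
  ext i j
  simp only [toReal, Matrix.transpose_apply, Matrix.map_apply]
  rw [hs.apply]

lemma qf_add {A : Matrix (Fin n) (Fin n) ℝ} (hs : A.IsSymm) (a v : Fin n → ℝ) :
    qf A (a + v) = qf A a + 2 * (a ⬝ᵥ A *ᵥ v) + qf A v := by
  have h1 : v ⬝ᵥ A *ᵥ a = a ⬝ᵥ A *ᵥ v := by
    rw [Matrix.dotProduct_mulVec, ← Matrix.mulVec_transpose, hs.eq, dotProduct_comm]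
  simp only [qf, Matrix.mulVec_add, dotProduct_add, add_dotProduct, h1]
  ring

/-- the parity hypothesis of `thetaFn_add_one` for integral even `A` and `v ∈ A⁻¹ℤⁿ`. -/
lemma parity_of_integral {A : Matrix (Fin n) (Fin n) ℤ} (hs : A.IsSymm)
    (hd : ∀ i, Even (A i i)) (v : Fin n → ℝ) (y : Fin n → ℤ)
    (hv : ∀ i, (toReal A *ᵥ v) i = (y i : ℝ)) (x : Fin n → ℤ) :
    ∃ k : ℤ, qf (toReal A) (shift v x) - qf (toReal A) v = 2 * (k : ℝ) := by
  obtain ⟨m, hm⟩ := even_qfZ hs hd x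
  refine ⟨m + ∑ i, x i * y i, ?_⟩
  have hsh : shift v x = (fun j => (x j : ℝ)) + v := by
    funext i; simp [shift]
  rw [hsh, qf_add (toReal_isSymm hs), qf_toReal_cast, hm]
  have : (fun j => (x j : ℝ)) ⬝ᵥ toReal A *ᵥ v = ((∑ i, x i * y i : ℤ) : ℝ) := by
    simp only [dotProduct, hv, Int.cast_sum, Int.cast_mul]
  rw [this]
  push_cast
  ring

/-! ### the `q`-expansion of `θ_0` for an even integral lattice -/

/-- representation set `{x ∈ ℤⁿ | xᵀAx = 2k}`. -/
def repSet (A : Matrix (Fin n) (Fin n) ℤ) (k : ℕ) : Set (Fin n → ℤ) :=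
  {x | qfZ A x = 2 * (k : ℤ)}

/-- representation number `r_A(k) = #{x ∈ ℤⁿ | xᵀAx = 2k}`. -/
def repCount (A : Matrix (Fin n) (Fin n) ℤ) (k : ℕ) : ℕ := Nat.card (repSet A k)

lemma thetaTerm_zero_eq (A : Matrix (Fin n) (Fin n) ℤ) (w : ℂ) (x : Fin n → ℤ) :
    thetaTerm (toReal A) 0 w x = cexp (π * I * w * ((qfZ A x : ℤ) : ℂ)) := by
  rw [thetaTerm, shift_zero, qf_toReal_cast]
  push_cast
  rfl

lemma thetaTerm_zero_of_mem {A : Matrix (Fin n) (Fin n) ℤ} {k : ℕ} {x : Fin n → ℤ}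
    (hx : x ∈ repSet A k) (w : ℂ) :
    thetaTerm (toReal A) 0 w x = cexp (2 * π * I * w) ^ k := by
  have hx' : qfZ A x = 2 * (k : ℤ) := hx
  rw [thetaTerm_zero_eq, hx', ← Complex.exp_nat_mul]
  congr 1
  push_cast
  ring

lemma qfZ_nonneg {A : Matrix (Fin n) (Fin n) ℤ} (hA : (toReal A).PosDef) (x : Fin n → ℤ) :
    0 ≤ qfZ A x := by
  have h : (0 : ℝ) ≤ qf (toReal A) (fun j => (x j : ℝ)) := by
    by_cases hx : (fun j => (x j : ℝ)) = 0
    · rw [hx]; simp [qf]
    · exact (qf_pos hA hx).le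
  rw [qf_toReal_cast] at h
  exact_mod_cast h

lemma qfZ_eq_zero_iff {A : Matrix (Fin n) (Fin n) ℤ} (hA : (toReal A).PosDef) (x : Fin n → ℤ) :
    qfZ A x = 0 ↔ x = 0 := by
  constructor
  · intro h
    by_contra hx
    have hx' : (fun j => (x j : ℝ)) ≠ 0 := by
      intro h0
      apply hx
      funext j
      have := congrFun h0 j
      simpa using this
    have := qf_pos hA hx'
    rw [qf_toReal_cast, h] at this
    simp at this
  · rintro rfl
    simp [qfZ]

/-- the representation sets are finite. -/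
lemma finite_repSet {A : Matrix (Fin n) (Fin n) ℤ} (hA : (toReal A).PosDef) (k : ℕ) :
    (repSet A k).Finite := by
  by_contra hinf
  have hinf' : Infinite (repSet A k) := Set.infinite_coe_iff.mpr hinf
  have hI : (0 : ℝ) < (I : ℂ).im := by simp
  have hs := (summable_norm_thetaTerm hA (0 : Fin n → ℝ) hI).subtype (repSet A k)
  have hconst : (fun x : repSet A k => ‖thetaTerm (toReal A) 0 I (x : Fin n → ℤ)‖)
      = fun _ => ‖cexp (2 * π * I * I) ^ k‖ := by
    funext x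
    rw [thetaTerm_zero_of_mem x.2]
  have hs' : Summable (fun x : repSet A k => ‖thetaTerm (toReal A) 0 I (x : Fin n → ℤ)‖) := hs
  rw [hconst, summable_const_iff] at hs'
  exact (norm_ne_zero_iff.mpr (pow_ne_zero _ (Complex.exp_ne_zero _))) hs'

/-- `r_A(0) = 1`. -/
lemma repCount_zero {A : Matrix (Fin n) (Fin n) ℤ} (hA : (toReal A).PosDef) :
    repCount A 0 = 1 := by
  have : repSet A 0 = {0} := by
    ext x
    simp only [repSet, Set.mem_ofPred_eq, Nat.cast_zero, mul_zero, Set.mem_singleton_iff]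
    exact qfZ_eq_zero_iff hA x
  rw [repCount, this]
  simp

lemma qfZ_neg (A : Matrix (Fin n) (Fin n) ℤ) (x : Fin n → ℤ) : qfZ A (-x) = qfZ A x := by
  simp [qfZ, Matrix.mulVec_neg]

/-- `r_A(k)` is even for `k ≥ 1` (the involution `x ↦ -x` has no fixed point). -/
lemma even_repCount {A : Matrix (Fin n) (Fin n) ℤ} (hA : (toReal A).PosDef) {k : ℕ}
    (hk : 1 ≤ k) : Even (repCount A k) := by
  classical
  have hfin := finite_repSet hA k
  rw [repCount, Nat.card_coe_set_eq, Set.ncard_eq_toFinset_card _ hfin,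
    ← ZMod.natCast_eq_zero_iff_even]
  have h1 : ((hfin.toFinset.card : ℕ) : ZMod 2) = ∑ _x ∈ hfin.toFinset, (1 : ZMod 2) := by
    simp
  rw [h1]
  refine Finset.sum_involution (fun x _ => -x) ?_ ?_ ?_ ?_
  · intro x _
    exact CharTwo.add_self_eq_zero (1 : ZMod 2)
  · intro x hx _ hfix
    have hx' : qfZ A x = 2 * (k : ℤ) := by simpa [repSet] using hx
    have hx0 : x = 0 := by
      funext j
      have := congrFun hfix j
      simp only [Pi.neg_apply, Pi.zero_apply] at this ⊢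
      omega
    rw [hx0] at hx'
    have : qfZ A (0 : Fin n → ℤ) = 0 := by simp [qfZ]
    rw [this] at hx'
    omega
  · intro x hx
    simp only [Set.Finite.mem_toFinset, repSet, Set.mem_ofPred_eq] at hx ⊢
    rw [qfZ_neg]; exact hx
  · intro x _
    simp

/-- **`q`-expansion of `θ_0`**: `θ_0(w) = ∑_k r_A(k) q^k`, `q = e^{2π i w}`. -/
theorem hasSum_thetaFn_zero {A : Matrix (Fin n) (Fin n) ℤ} (hA : (toReal A).PosDef)
    (hev : ∀ x : Fin n → ℤ, Even (qfZ A x)) {w : ℂ} (hw : 0 < w.im) :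
    HasSum (fun k : ℕ => (repCount A k : ℂ) * cexp (2 * π * I * w) ^ k)
      (thetaFn (toReal A) 0 w) := by
  classical
  -- the fibre map
  let φ : (Fin n → ℤ) → ℕ := fun x => (qfZ A x / 2).toNat
  have hφ : ∀ x, qfZ A x = 2 * (φ x : ℤ) := by
    intro x
    obtain ⟨m, hm⟩ := hev x
    have hnn := qfZ_nonneg hA x
    have hm0 : 0 ≤ m := by omega
    have : qfZ A x / 2 = m := by omega
    simp only [φ, this, Int.toNat_of_nonneg hm0]
    omega
  have hfib : ∀ k x, φ x = k ↔ x ∈ repSet A k := by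
    intro k x
    simp only [repSet, Set.mem_ofPred_eq]
    constructor
    · intro h; rw [hφ x, h]
    · intro h
      have := hφ x
      rw [h] at this
      omega
  have hsum := hasSum_thetaFn hA (0 : Fin n → ℝ) hw
  have hsum' := (Equiv.sigmaFiberEquiv φ).hasSum_iff.mpr hsum
  refine HasSum.sigma hsum' (fun k => ?_)
  -- each fibre is finite and the summand is constant on it
  have hfin : Finite {x // φ x = k} := by
    have := (finite_repSet hA k).to_subtype
    exact Finite.of_equiv _ (Equiv.subtypeEquivRight (fun x => (hfib k x).symm))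
  have := Fintype.ofFinite {x // φ x = k}
  have hcard : Fintype.card {x // φ x = k} = repCount A k := by
    rw [repCount, ← Nat.card_eq_fintype_card]
    exact Nat.card_congr (Equiv.subtypeEquivRight (fun x => hfib k x))
  have hterm : ∀ c : {x // φ x = k},
      (thetaTerm (toReal A) 0 w ∘ (Equiv.sigmaFiberEquiv φ)) ⟨k, c⟩ = cexp (2 * π * I * w) ^ k := by
    intro c
    simp only [Function.comp_apply, Equiv.sigmaFiberEquiv_apply]
    exact thetaTerm_zero_of_mem ((hfib k c.1).mp c.2) w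
  have h2 := hasSum_fintype (fun c : {x // φ x = k} =>
    (thetaTerm (toReal A) 0 w ∘ (Equiv.sigmaFiberEquiv φ)) ⟨k, c⟩)
  simp only [hterm, Finset.sum_const, Finset.card_univ, hcard, nsmul_eq_mul] at h2
  simpa only [hterm] using h2

/-! ### upper-half-plane versions -/

open UpperHalfPlane hiding I
open scoped Manifold

/-- `θ_v` as a function on the upper half plane. -/
def thetaH (A : Matrix (Fin n) (Fin n) ℝ) (v : Fin n → ℝ) (z : ℍ) : ℂ := thetaFn A v (z : ℂ)

lemma thetaH_apply (A : Matrix (Fin n) (Fin n) ℝ) (v : Fin n → ℝ) (z : ℍ) :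
    thetaH A v z = ∑' x : Fin n → ℤ, cexp (π * I * z * (qf A (shift v x) : ℝ)) := rfl

/-- holomorphy on `ℍ`. -/
theorem mdifferentiable_thetaH {A : Matrix (Fin n) (Fin n) ℝ} (hA : A.PosDef) (v : Fin n → ℝ) :
    MDifferentiable 𝓘(ℂ) 𝓘(ℂ) (thetaH A v) := by
  rw [UpperHalfPlane.mdifferentiable_iff]
  refine (differentiableOn_thetaFn hA v).congr fun w hw => ?_
  have hw' : 0 < w.im := hw
  simp only [Function.comp_apply, thetaH, ofComplex_apply_of_im_pos hw', coe_mk]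

/-- boundedness at `i∞`. -/
theorem isBoundedAtImInfty_thetaH {A : Matrix (Fin n) (Fin n) ℝ} (hA : A.PosDef)
    (v : Fin n → ℝ) : IsBoundedAtImInfty (thetaH A v) := by
  obtain ⟨C, hC⟩ := exists_norm_thetaFn_le hA v
  rw [isBoundedAtImInfty_iff]
  exact ⟨C, 1, fun z hz => hC z hz⟩

/-- the `T`-law on `ℍ`. -/
theorem thetaH_vadd_one (A : Matrix (Fin n) (Fin n) ℝ) (v : Fin n → ℝ)
    (hv : ∀ x : Fin n → ℤ, ∃ k : ℤ, qf A (shift v x) - qf A v = 2 * (k : ℝ)) (z : ℍ) :
    thetaH A v ((1 : ℝ) +ᵥ z) = cexp (π * I * (qf A v : ℝ)) * thetaH A v z := by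
  have h := thetaFn_add_one A v hv (z : ℂ)
  simp only [thetaH, coe_vadd]
  rw [← h]
  congr 1
  push_cast
  ring

/-- `θ_0` has period one for an even integral lattice. -/
theorem thetaH_zero_vadd_one {A : Matrix (Fin n) (Fin n) ℤ} (hs : A.IsSymm)
    (hd : ∀ i, Even (A i i)) (z : ℍ) :
    thetaH (toReal A) 0 ((1 : ℝ) +ᵥ z) = thetaH (toReal A) 0 z := by
  have hv := parity_of_integral hs hd (0 : Fin n → ℝ) 0 (by intro i; simp)
  rw [thetaH_vadd_one (toReal A) 0 hv z]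
  have : qf (toReal A) (0 : Fin n → ℝ) = 0 := by simp [qf]
  simp [this]

/-- `q`-expansion of `θ_0` on `ℍ`. -/
theorem hasSum_thetaH_zero {A : Matrix (Fin n) (Fin n) ℤ} (hA : (toReal A).PosDef)
    (hev : ∀ x : Fin n → ℤ, Even (qfZ A x)) (z : ℍ) :
    HasSum (fun k : ℕ => (repCount A k : ℂ) * cexp (2 * π * I * z) ^ k)
      (thetaH (toReal A) 0 z) :=
  hasSum_thetaFn_zero hA hev z.im_pos

end

end Fermat.Agent.S16.ThetaBasic91
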