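/-
S16 / (L1)-THETA-BRIDGE (helper47): from ONE modular form `Θ ∈ M₂(Γ₀(p))` with `q`-expansion
`1 + ∑ 2 c_m q^m` (e.g. the theta series of an even quaternary lattice of level `p`,
`Lattice47.exists_gram`) and the Eisenstein series `E ∈ M₂(Γ₀(p))` with `q`-expansion
`(p-1)/24 + ∑ σ'(m) q^m`, deduce the LOWER BOUND input of `Dual3.s16_of_UL`:
`Dual3.EisCong p (eisensteinNumerator p)`.

Only `q`-expansions at `∞` are needed: in weight two, a modular form on `Γ₀(p)` whose constant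
term at `∞` vanishes is automatically a cusp form (`cuspFormOfCoeffZero`), because its trace to
level one is a weight-two level-one form, hence zero (`trace_eq_zero`), which forces the value at
the cusp `0` to be `-a₀/p`.
-/
import Fermat.Agent.S16.Conj53.Form
import Fermat.Agent.S16.Dual3

set_option autoImplicit false

open UpperHalfPlane ModularForm CongruenceSubgroup Matrix.SpecialLinearGroup ModularGroup
open ModularFormClass ModularCurve
open scoped MatrixGroups ModularForm Manifold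

namespace Fermat.Agent.S16.ThetaBridge47

open Fermat.Agent.S16

variable {p : ℕ} {k : ℤ}

/-! ### Cusps of `Γ₀(p)` -/

theorem coe_S_mul_T_zpow (n : ℤ) :
    ((S * T ^ n : SL(2, ℤ)) : Matrix (Fin 2) (Fin 2) ℤ) = !![0, -1; 1, n] := by
  rw [Matrix.SpecialLinearGroup.coe_mul, ModularGroup.coe_T_zpow, ModularGroup.coe_S]
  ext i j
  fin_cases i <;> fin_cases j <;> simp [Matrix.mul_apply, Fin.sum_univ_two]

/-- every `γ ∈ SL(2,ℤ)` with `p ∤ γ 1 0` is `γ₀ * (S * T ^ j)` with `γ₀ ∈ Γ₀(p)`. -/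
theorem exists_decomp (hp : p.Prime) (γ : SL(2, ℤ)) (h : ¬ (p : ℤ) ∣ γ 1 0) :
    ∃ (γ₀ : SL(2, ℤ)) (j : ℤ), γ₀ ∈ Gamma0 p ∧ γ = γ₀ * (S * T ^ j) := by
  have : Fact p.Prime := ⟨hp⟩
  have hc : ((γ 1 0 : ℤ) : ZMod p) ≠ 0 := by
    rwa [Ne, ZMod.intCast_zmod_eq_zero_iff_dvd]
  obtain ⟨j, hj⟩ : ∃ j : ℤ, ((j : ℤ) : ZMod p) = ((γ 1 1 : ℤ) : ZMod p) * ((γ 1 0 : ℤ) : ZMod p)⁻¹ :=
    ⟨((((γ 1 1 : ℤ) : ZMod p) * ((γ 1 0 : ℤ) : ZMod p)⁻¹).val : ℤ), by
      rw [Int.cast_natCast, ZMod.natCast_zmod_val]⟩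
  refine ⟨γ * (S * T ^ j)⁻¹, j, ?_, by group⟩
  rw [Gamma0_mem]
  have hentry : (γ * (S * T ^ j)⁻¹) 1 0 = γ 1 0 * j - γ 1 1 := by
    rw [Matrix.SpecialLinearGroup.coe_mul, Matrix.SpecialLinearGroup.coe_inv, coe_S_mul_T_zpow,
      Matrix.adjugate_fin_two]
    simp [Matrix.mul_apply, Fin.sum_univ_two]
    ring
  rw [hentry]
  push_cast
  rw [hj]
  field_simp
  ring

/-- slash by `T ^ n` is translation by `n`. -/
theorem slash_T_zpow_apply (g : ℍ → ℂ) (n : ℤ) (z : ℍ) :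
    (g ∣[k] (T ^ n : SL(2, ℤ))) z = g ((n : ℝ) +ᵥ z) := by
  rw [ModularForm.SL_slash_apply, modular_T_zpow_smul]
  have : denom (toGL ((map (Int.castRingHom ℝ)) (T ^ n : SL(2, ℤ)))) (z : ℂ) = 1 := by
    simp [denom, -map_zpow, ModularGroup.coe_T_zpow]
  rw [this]
  simp

theorem tendsto_vadd_atImInfty (x : ℝ) :
    Filter.Tendsto (fun z : ℍ => x +ᵥ z) atImInfty atImInfty := by
  rw [atImInfty, Filter.tendsto_comap_iff]
  have : (im ∘ fun z : ℍ => x +ᵥ z) = im := by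
    funext z
    simp [UpperHalfPlane.vadd_im]
  rw [this]
  exact Filter.tendsto_comap

/-- Translation preserves vanishing at `i∞`. -/
theorem isZeroAtImInfty_slash_T_zpow {g : ℍ → ℂ} (hg : IsZeroAtImInfty g) (n : ℤ) :
    IsZeroAtImInfty (g ∣[k] (T ^ n : SL(2, ℤ))) := by
  have h1 : (g ∣[k] (T ^ n : SL(2, ℤ))) = g ∘ fun z : ℍ => (n : ℝ) +ᵥ z := by
    funext z
    exact slash_T_zpow_apply g n z
  rw [h1]
  exact Filter.Tendsto.comp hg (tendsto_vadd_atImInfty _)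

theorem slash_of_mem_Gamma0 (f : ModularForm (Gamma0 p) k) (γ : SL(2, ℤ)) (hγ : γ ∈ Gamma0 p) :
    (f : ℍ → ℂ) ∣[k] γ = f :=
  SlashInvariantFormClass.slash_action_eq f (mapGL ℝ γ) (Subgroup.mem_map_of_mem _ hγ)

/-- A modular form on `Γ₀(p)` vanishing at the cusps `∞` and `0` vanishes at every cusp. -/
theorem isZeroAtImInfty_slash (hp : p.Prime) (f : ModularForm (Gamma0 p) k)
    (hinf : IsZeroAtImInfty (f : ℍ → ℂ)) (h0 : IsZeroAtImInfty ((f : ℍ → ℂ) ∣[k] S))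
    (γ : SL(2, ℤ)) : IsZeroAtImInfty ((f : ℍ → ℂ) ∣[k] γ) := by
  by_cases h : (p : ℤ) ∣ γ 1 0
  · have hγ : γ ∈ Gamma0 p := by
      rw [Gamma0_mem, ZMod.intCast_zmod_eq_zero_iff_dvd]
      exact h
    rw [slash_of_mem_Gamma0 f γ hγ]
    exact hinf
  · obtain ⟨γ₀, j, hγ₀, rfl⟩ := exists_decomp hp γ h
    rw [← mul_assoc, SlashAction.slash_mul, SlashAction.slash_mul, slash_of_mem_Gamma0 f γ₀ hγ₀]
    exact isZeroAtImInfty_slash_T_zpow h0 j

/-- The cusp form attached to a modular form on `Γ₀(p)` vanishing at both cusps. -/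
noncomputable def cuspFormOfZero (hp : p.Prime) (f : ModularForm (Gamma0 p) k)
    (hinf : IsZeroAtImInfty (f : ℍ → ℂ)) (h0 : IsZeroAtImInfty ((f : ℍ → ℂ) ∣[k] S)) :
    CuspForm (Gamma0 p) k where
  toSlashInvariantForm := f.toSlashInvariantForm
  holo' := f.holo'
  zero_at_cusps' := by
    intro c hc
    have : NeZero p := ⟨hp.ne_zero⟩
    rw [Subgroup.IsArithmetic.isCusp_iff_isCusp_SL2Z, isCusp_SL2Z_iff'] at hc
    obtain ⟨γ, rfl⟩ := hc
    rw [OnePoint.isZeroAt_iff rfl]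
    exact isZeroAtImInfty_slash hp f hinf h0 γ

theorem coe_cuspFormOfZero (hp : p.Prime) (f : ModularForm (Gamma0 p) k)
    (hinf : IsZeroAtImInfty (f : ℍ → ℂ)) (h0 : IsZeroAtImInfty ((f : ℍ → ℂ) ∣[k] S)) :
    (cuspFormOfZero hp f hinf h0 : ℍ → ℂ) = f := rfl

/-! ### Weight two: the trace to level one vanishes -/

theorem levelOne_weight_eq_two_eq_zero (k' : ℤ) (hk : k' = 2) (F : ModularForm 𝒮ℒ k') : F = 0 := by
  subst hk
  exact rank_zero_iff_forall_zero.mp ModularForm.levelOne_weight_two_rank_zero F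

/-- Weight two: the trace to level one vanishes. -/
theorem trace_eq_zero [Fact p.Prime] (f : ModularForm (Gamma0 p) 2) (z : ℍ) :
    f z + ∑ j : ZMod p, Conj53.tr f (j.val : ℤ) z = 0 := by
  have h0 := levelOne_weight_eq_two_eq_zero _ (by norm_num) (Conj53.esymmForm f 1)
  have h1 : Conj53.esymmForm f 1 z = 0 := by rw [h0]; rfl
  rw [Conj53.esymmForm_apply, Conj53.esymmConj, Conj53.esymmFun, Finset.powersetCard_one,
    Finset.sum_map] at h1
  simp only [Function.Embedding.coeFn_mk, Finset.prod_singleton, Finset.sum_apply,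
    Fintype.sum_option] at h1
  exact h1

/-- A holomorphic function on `ℍ`, periodic and bounded at `i∞`, has a limit at `i∞`. -/
theorem exists_tendsto_atImInfty {g : ℍ → ℂ} {h : ℝ} (hh : 0 < h)
    (hper : ∀ z : ℍ, g (h +ᵥ z) = g z) (hmd : MDiff g) (hbd : IsBoundedAtImInfty g) :
    ∃ L : ℂ, Filter.Tendsto g atImInfty (nhds L) := by
  have hP : Function.Periodic (g ∘ ofComplex) h := by
    intro w
    by_cases hw : 0 < Complex.im w
    · have : 0 < Complex.im (w + h) := by simp [hw]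
      simp only [Function.comp_apply, ofComplex_apply_of_im_pos this, ofComplex_apply_of_im_pos hw]
      rw [← hper ⟨w, hw⟩]
      congr 1
      ext
      simp [add_comm]
    · have hw' : Complex.im w ≤ 0 := not_lt.mp hw
      have : Complex.im (w + h) ≤ 0 := by simpa using hw'
      simp [ofComplex_apply_of_im_nonpos this, ofComplex_apply_of_im_nonpos hw']
  have hanal := analyticAt_cuspFunction_zero hh hP hmd hbd
  refine ⟨cuspFunction h g 0, ?_⟩
  have : (cuspFunction h g ∘ fun τ : ℍ ↦ Function.Periodic.qParam h τ : ℍ → ℂ) = g := by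
    funext τ
    simpa using eq_cuspFunction τ hh.ne' hP
  simpa [this] using hanal.continuousAt.tendsto.comp (qParam_tendsto_atImInfty hh)

/-- The value of `f ∣ S` at `i∞` exists, and `a₀(f) + p · (f ∣ S)(i∞) = 0` (weight two). -/
theorem exists_tendsto_slash_S [hp : Fact p.Prime] (f : ModularForm (Gamma0 p) 2) {a : ℂ}
    (hinf : Filter.Tendsto (f : ℍ → ℂ) atImInfty (nhds a)) :
    Filter.Tendsto ((f : ℍ → ℂ) ∣[(2 : ℤ)] S) atImInfty (nhds (-a / p)) := by
  have hp0 : (0 : ℝ) < p := by exact_mod_cast hp.out.pos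
  have hper : ∀ z : ℍ, Conj53.gS f ((p : ℝ) +ᵥ z) = Conj53.gS f z := by
    intro z
    have h1 := Conj53.tr_add_p f 0
    rw [zero_add, Conj53.tr_zero] at h1
    have h2 := congrFun h1 z
    rw [Conj53.tr, slash_T_zpow_apply] at h2
    simpa using h2
  have hmd : MDiff (Conj53.gS f) := by
    have := Conj53.conj_mdiff f (some (0 : ZMod p))
    simpa [Conj53.conj, Conj53.tr_zero] using this
  have hbd : IsBoundedAtImInfty (Conj53.gS f) := by
    have := Conj53.conj_bdd f (some (0 : ZMod p))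
    simpa [Conj53.conj, Conj53.tr_zero] using this
  obtain ⟨L, hL⟩ := exists_tendsto_atImInfty hp0 hper hmd hbd
  have htr : ∀ j : ZMod p,
      Filter.Tendsto (fun z => Conj53.tr f (j.val : ℤ) z) atImInfty (nhds L) := by
    intro j
    have : (fun z => Conj53.tr f (j.val : ℤ) z) =
        Conj53.gS f ∘ fun z : ℍ => (((j.val : ℤ) : ℝ)) +ᵥ z := by
      funext z
      rw [Conj53.tr, slash_T_zpow_apply]
      rfl
    rw [this]
    exact hL.comp (tendsto_vadd_atImInfty _)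
  have hsum : Filter.Tendsto (fun z => f z + ∑ j : ZMod p, Conj53.tr f (j.val : ℤ) z) atImInfty
      (nhds (a + ∑ _j : ZMod p, L)) :=
    Filter.Tendsto.add hinf (tendsto_finsetSum _ fun j _ => htr j)
  have hzero : (fun z => f z + ∑ j : ZMod p, Conj53.tr f (j.val : ℤ) z) = fun _ => (0 : ℂ) := by
    funext z
    exact trace_eq_zero f z
  rw [hzero] at hsum
  have hL0 : (0 : ℂ) = a + ∑ _j : ZMod p, L := tendsto_nhds_unique tendsto_const_nhds hsum
  have hpc : (p : ℂ) ≠ 0 := by exact_mod_cast hp.out.ne_zero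
  have hL' : L = -a / p := by
    rw [Finset.sum_const, Finset.card_univ, ZMod.card, nsmul_eq_mul] at hL0
    field_simp
    linear_combination -hL0
  rw [hL'] at hL
  exact hL

/-- In weight two, a form on `Γ₀(p)` vanishing at `∞` also vanishes at the cusp `0`. -/
theorem isZeroAtImInfty_slash_S [Fact p.Prime] (f : ModularForm (Gamma0 p) 2)
    (hinf : IsZeroAtImInfty (f : ℍ → ℂ)) : IsZeroAtImInfty ((f : ℍ → ℂ) ∣[(2 : ℤ)] S) := by
  have h := exists_tendsto_slash_S f hinf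
  rw [neg_zero, zero_div] at h
  exact h

/-! ### `q`-expansion bookkeeping -/

theorem hG (N : ℕ) :
    (1 : ℝ) ∈ (Subgroup.map (Matrix.SpecialLinearGroup.mapGL ℝ) (Gamma0 N)).strictPeriods :=
  CongruenceSubgroup.one_mem_strictPeriods_Gamma0 N

theorem qCoeff_smul (N : ℕ) (c : ℂ) (f : ModularForm (Gamma0 N) k) (n : ℕ) :
    qCoeff ⇑(c • f) n = c * qCoeff ⇑f n := by
  have h1 : ⇑(c • f) = c • ⇑f := by
    ext z
    simp
  simp only [qCoeff, h1]
  rw [ModularForm.qExpansion_smul one_pos (hG N) c f]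
  simp

theorem qCoeff_sub (N : ℕ) (f g : ModularForm (Gamma0 N) k) (n : ℕ) :
    qCoeff ⇑(f - g) n = qCoeff ⇑f n - qCoeff ⇑g n := by
  have h1 : ⇑(f - g) = ⇑f - ⇑g := by
    ext z
    simp
  simp only [qCoeff, h1]
  rw [ModularForm.qExpansion_sub one_pos (hG N) f g, map_sub]

/-- vanishing constant term ⇒ zero at `i∞`. -/
theorem isZeroAtImInfty_of_qCoeff_zero (N : ℕ) [NeZero N] (f : ModularForm (Gamma0 N) k)
    (h : qCoeff ⇑f 0 = 0) : IsZeroAtImInfty (f : ℍ → ℂ) := by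
  apply ModularForm.isZeroAtImInfty_of_valueAtInfty_eq_zero f
  rw [← UpperHalfPlane.qExpansion_coeff_zero one_pos
      (ModularFormClass.analyticAt_cuspFunction_zero f one_pos (hG N))
      (SlashInvariantFormClass.periodic_comp_ofComplex f (hG N))]
  exact h

/-- **Weight two, prime level: constant term zero ⇒ cusp form.** -/
noncomputable def cuspFormOfCoeffZero [hp : Fact p.Prime] (f : ModularForm (Gamma0 p) 2)
    (h : qCoeff ⇑f 0 = 0) : CuspForm (Gamma0 p) 2 :=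
  have : NeZero p := ⟨hp.out.ne_zero⟩
  cuspFormOfZero hp.out f (isZeroAtImInfty_of_qCoeff_zero p f h)
    (isZeroAtImInfty_slash_S f (isZeroAtImInfty_of_qCoeff_zero p f h))

theorem coe_cuspFormOfCoeffZero [Fact p.Prime] (f : ModularForm (Gamma0 p) 2)
    (h : qCoeff ⇑f 0 = 0) : (cuspFormOfCoeffZero f h : ℍ → ℂ) = f := rfl

/-! ### Arithmetic of `n = (p-1)/gcd(p-1,12)` -/

/-- `t = 12 / gcd (p-1, 12)` satisfies `t (p-1) = 12 n` and is coprime to `n`. -/
theorem exists_cofactor (p : ℕ) :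
    ∃ t : ℕ, t * (p - 1) = 12 * eisensteinNumerator p ∧ Nat.Coprime t (eisensteinNumerator p) := by
  have hd : 0 < Nat.gcd (p - 1) 12 := Nat.gcd_pos_of_pos_right _ (by norm_num)
  refine ⟨12 / Nat.gcd (p - 1) 12, ?_, ?_⟩
  · unfold eisensteinNumerator
    obtain ⟨a, ha⟩ := Nat.gcd_dvd_left (p - 1) 12
    obtain ⟨b, hb⟩ := Nat.gcd_dvd_right (p - 1) 12
    set d := Nat.gcd (p - 1) 12
    have h1 : 12 / d = b := by
      rw [hb, Nat.mul_div_cancel_left _ hd]
    have h2 : (p - 1) / d = a := by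
      rw [ha, Nat.mul_div_cancel_left _ hd]
    rw [h1, h2]
    calc b * (p - 1) = b * (d * a) := by rw [← ha]
      _ = (d * b) * a := by ring
      _ = 12 * a := by rw [← hb]
  · unfold eisensteinNumerator
    exact (Nat.coprime_div_gcd_div_gcd hd).symm

/-! ### The bridge -/

/-- **THETA-BRIDGE.** If `Θ, E ∈ M₂(Γ₀(p))` have `q`-expansions `1 + ∑ 2 c_m q^m` and
`(p-1)/24 + ∑ σ'(m) q^m`, then some integral cusp form is `≡ ∑ σ'(m) q^m` modulo
`n = (p-1)/gcd(p-1,12)`. -/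
theorem eisCong_of_theta (p : ℕ) [hp : Fact p.Prime] (Θ E : ModularForm (Gamma0 p) 2)
    (hΘ0 : qCoeff ⇑Θ 0 = 1)
    (hΘ : ∀ m : ℕ, 1 ≤ m → ∃ c : ℤ, qCoeff ⇑Θ m = ((2 * c : ℤ) : ℂ))
    (hE0 : qCoeff ⇑E 0 = ((p : ℂ) - 1) / 24)
    (hE : ∀ m : ℕ, 1 ≤ m → qCoeff ⇑E m = ((Dual3.sigmaP p m : ℤ) : ℂ)) :
    Dual3.EisCong p (eisensteinNumerator p) := by
  obtain ⟨t, ht, hcop⟩ := exists_cofactor p
  set n := eisensteinNumerator p with hn
  -- Bezout
  obtain ⟨u, v, huv⟩ : ∃ u v : ℤ, u * t + v * n = 1 := by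
    have := (Nat.Coprime.isCoprime hcop)
    obtain ⟨u, v, h⟩ := this
    exact ⟨u, v, h⟩
  -- the modular form `t E - (n/2) Θ`
  set F : ModularForm (Gamma0 p) 2 := (t : ℂ) • E - ((n : ℂ) / 2) • Θ with hF
  have hFc : ∀ m : ℕ, qCoeff ⇑F m = (t : ℂ) * qCoeff ⇑E m - ((n : ℂ) / 2) * qCoeff ⇑Θ m := by
    intro m
    rw [hF, qCoeff_sub, qCoeff_smul, qCoeff_smul]
  have htC : (t : ℂ) * ((p : ℂ) - 1) = 12 * (n : ℂ) := by
    have hp1 : 1 ≤ p := hp.out.one_le
    have : ((t * (p - 1) : ℕ) : ℂ) = ((12 * n : ℕ) : ℂ) := by rw [ht]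
    push_cast [Nat.cast_sub hp1] at this
    exact this
  have hF0 : qCoeff ⇑F 0 = 0 := by
    rw [hFc, hE0, hΘ0]
    linear_combination (1 / 24 : ℂ) * htC
  set g' : CuspForm (Gamma0 p) 2 := cuspFormOfCoeffZero F hF0 with hg'
  have hg'c : ∀ m : ℕ, qCoeff ⇑g' m = qCoeff ⇑F m := fun m => by
    rw [hg', coe_cuspFormOfCoeffZero]
  refine ⟨u • g', ?_, ?_⟩
  · rw [Fermat.Agent.S49.mem_intLattice_iff_qc]
    intro m
    rcases Nat.eq_zero_or_pos m with rfl | hm
    · exact ⟨0, by rw [Fermat.Agent.S49.qc_cusp_zero]; simp⟩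
    · obtain ⟨c, hc⟩ := hΘ m hm
      refine ⟨u * (t * Dual3.sigmaP p m - n * c), ?_⟩
      rw [Fermat.Agent.S49.qc_zsmul, hg'c, hFc, hE m hm, hc]
      push_cast
      ring
  · intro m hm
    obtain ⟨c, hc⟩ := hΘ m hm
    refine ⟨-(v * Dual3.sigmaP p m) - u * c, ?_⟩
    rw [Fermat.Agent.S49.qc_zsmul, hg'c, hFc, hE m hm, hc]
    have huvC : (u : ℂ) * (t : ℂ) + (v : ℂ) * (n : ℂ) = 1 := by exact_mod_cast huv
    push_cast
    linear_combination ((Dual3.sigmaP p m : ℂ)) * huvC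

end Fermat.Agent.S16.ThetaBridge47
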