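/-
S16 / (L1)-THETA-BRIDGE, part 2 (helper47): the bridge with the Eisenstein side discharged by
helper17's `Eis17.eis2` (`q`-expansion `p - 1 + 24 ∑ σ'(m) q^m`).  What remains for the lower bound
`Dual3.EisCong p (eisensteinNumerator p)` is exactly ONE modular form `Θ ∈ M₂(Γ₀(p))` with
`q`-expansion in `1 + 2 q ℤ[[q]]`.
-/
import Fermat.Agent.S16.ThetaBridge47
import Fermat.Agent.S16.Eis17.QExp

set_option autoImplicit false

open UpperHalfPlane ModularForm CongruenceSubgroup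
open ModularFormClass ModularCurve
open scoped MatrixGroups ModularForm Manifold

namespace Fermat.Agent.S16.ThetaBridge47

open Fermat.Agent.S16

/-- **Lower bound from one theta series.**  If some `Θ ∈ M₂(Γ₀(p))` has `q`-expansion
`1 + ∑_{m ≥ 1} 2 c_m q^m` with `c_m ∈ ℤ`, then `EisCong p n` holds for `n = (p-1)/gcd(p-1,12)`. -/
theorem eisCong_of_theta_only (p : ℕ) [hp : Fact p.Prime] (Θ : ModularForm (Gamma0 p) 2)
    (hΘ0 : qCoeff ⇑Θ 0 = 1)
    (hΘ : ∀ m : ℕ, 1 ≤ m → ∃ c : ℤ, qCoeff ⇑Θ m = ((2 * c : ℤ) : ℂ)) :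
    Dual3.EisCong p (eisensteinNumerator p) := by
  have : NeZero p := ⟨hp.out.ne_zero⟩
  refine eisCong_of_theta p Θ ((1 / 24 : ℂ) • Eis17.eis2 p) hΘ0 hΘ ?_ ?_
  · rw [qCoeff_smul]
    unfold qCoeff
    rw [Eis17.qExpansion_eis2_coeff_zero]
    ring
  · intro m hm
    rw [qCoeff_smul]
    unfold qCoeff
    rw [Eis17.qExpansion_eis2_coeff_of_ne_zero p m (by omega), Dual3.sigmaP_eq]
    unfold Eis17.sigmaNot Dual3.sigmaPn
    push_cast
    ring

/-- The trivial case `n = 1` (in particular `p = 2, 3, 5, 7, 13`). -/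
theorem eisCong_one (p : ℕ) : Dual3.EisCong p 1 := by
  refine ⟨0, Submodule.zero_mem _, fun k _ => ⟨-Dual3.sigmaP p k, ?_⟩⟩
  rw [Fermat.Agent.S49.qc_zero]
  simp

end Fermat.Agent.S16.ThetaBridge47
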