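/-
S16 / (L1) theta route, package (W2) (helper86): Γ₀(p)-invariance of `θ₀` from the abstract
vector-valued transformation formulas (T), (S) of a family `θ : D → ℍ → ℂ`, via explicit Schreier
generators of `Γ₀(p)`.  Mathlib only.
-/
import Mathlib

set_option autoImplicit false
set_option linter.unusedSectionVars false

namespace Fermat.Agent.S16.WeilGen86

open scoped MatrixGroups ModularForm
open ModularGroup Matrix Matrix.SpecialLinearGroup

/-! ### Part 1: Schreier generators of `Γ₀(p)` -/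

section Gens

/-- the word `S T^j S T^c S`. -/
def w (j c : ℤ) : SL(2, ℤ) := S * T ^ j * S * T ^ c * S

theorem coe_w (j c : ℤ) : (w j c : Matrix (Fin 2) (Fin 2) ℤ) = !![-c, 1; j * c - 1, -j] := by
  simp only [w, coe_mul, coe_T_zpow, coe_S, Matrix.mul_fin_two]
  congrm !![?_, ?_; ?_, ?_] <;> ring

/-- the element `S T^n S⁻¹ = [[1,0],[-n,1]]`. -/
def v (n : ℤ) : SL(2, ℤ) := S * T ^ n * S⁻¹

theorem coe_v (n : ℤ) : (v n : Matrix (Fin 2) (Fin 2) ℤ) = !![1, 0; -n, 1] := by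
  simp only [v, S_inv, coe_mul, coe_neg, coe_T_zpow, coe_S, Matrix.mul_fin_two, Matrix.neg_of,
    Matrix.neg_cons, Matrix.neg_empty]
  congrm !![?_, ?_; ?_, ?_] <;> ring

variable (p : ℕ)

/-- The generating set. -/
def gens : Set SL(2, ℤ) :=
  {g | g = T ∨ g = -1 ∨ g = v p ∨ ∃ j c : ℤ, (p : ℤ) ∣ j * c - 1 ∧ g = w j c}

theorem gens_subset : gens p ⊆ (CongruenceSubgroup.Gamma0 p : Set SL(2, ℤ)) := by
  rintro g (rfl | rfl | rfl | ⟨j, c, hjc, rfl⟩)
  · rw [SetLike.mem_coe, CongruenceSubgroup.Gamma0_mem]; simp [coe_T]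
  · rw [SetLike.mem_coe, CongruenceSubgroup.Gamma0_mem]; simp
  · rw [SetLike.mem_coe, CongruenceSubgroup.Gamma0_mem, coe_v]; simp
  · rw [SetLike.mem_coe, CongruenceSubgroup.Gamma0_mem, coe_w]
    simpa using (ZMod.intCast_zmod_eq_zero_iff_dvd _ _).mpr hjc

theorem neg_one_mem : (-1 : SL(2, ℤ)) ∈ Subgroup.closure (gens p) :=
  Subgroup.subset_closure (Or.inr (Or.inl rfl))

theorem T_mem : T ∈ Subgroup.closure (gens p) :=
  Subgroup.subset_closure (Or.inl rfl)

theorem v_add (m n : ℤ) : v (m + n) = v m * v n := by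
  simp only [v, _root_.zpow_add]
  group

theorem v_zero : v 0 = 1 := by simp [v]

theorem v_neg (n : ℤ) : v (-n) = (v n)⁻¹ := by
  simp only [v, _root_.zpow_neg]
  group

theorem v_mul_mem (n : ℤ) : v ((p : ℤ) * n) ∈ Subgroup.closure (gens p) := by
  have hv : v (p : ℤ) ∈ Subgroup.closure (gens p) :=
    Subgroup.subset_closure (Or.inr (Or.inr (Or.inl rfl)))
  induction n using Int.induction_on with
  | zero => rw [mul_zero, v_zero]; exact one_mem _
  | succ n ih => rw [mul_add, mul_one, v_add]; exact mul_mem ih hv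
  | pred n ih => rw [mul_sub, mul_one, sub_eq_add_neg, v_add, v_neg]; exact mul_mem ih (inv_mem hv)

theorem S_mul_T_zpow_mul_S_of_dvd (n : ℤ) : S * T ^ n * S = v n * -1 := by
  apply Subtype.ext
  rw [coe_mul, coe_mul, coe_mul, coe_v, coe_T_zpow, coe_S, coe_neg,
    Matrix.SpecialLinearGroup.coe_one]
  ext i j; fin_cases i <;> fin_cases j <;> simp [Matrix.mul_apply, Fin.sum_univ_two]

theorem S_mul_T_zpow_mul_S (j c : ℤ) : S * T ^ j * S = w j c * -1 * (S * T ^ (-c)) := by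
  apply Subtype.ext
  rw [coe_mul, coe_mul, coe_mul, coe_mul, coe_mul, coe_w, coe_T_zpow, coe_T_zpow, coe_S, coe_neg,
    Matrix.SpecialLinearGroup.coe_one]
  ext a b; fin_cases a <;> fin_cases b <;> simp [Matrix.mul_apply, Fin.sum_univ_two]
  ring

theorem mul_S_inv (x : SL(2, ℤ)) : x * S⁻¹ = -1 * (x * S) := by
  apply Subtype.ext
  rw [S_inv]
  simp [coe_mul, coe_neg]

/-- every `γ ∈ SL(2,ℤ)` is `h * r` with `h` in the closure of the generators and
`r = 1` or `r = S T^j`. -/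
theorem exists_mul (hp : p.Prime) (γ : SL(2, ℤ)) :
    ∃ h ∈ Subgroup.closure (gens p), γ = h ∨ ∃ j : ℤ, γ = h * (S * T ^ j) := by
  have hγ : γ ∈ Subgroup.closure ({S, T} : Set SL(2, ℤ)) := by
    rw [SpecialLinearGroup.SL2Z_generators]; trivial
  -- right multiplication by `S`
  have key_S : ∀ x : SL(2, ℤ),
      (∃ h ∈ Subgroup.closure (gens p), x = h ∨ ∃ j : ℤ, x = h * (S * T ^ j)) →
      ∃ h ∈ Subgroup.closure (gens p), x * S = h ∨ ∃ j : ℤ, x * S = h * (S * T ^ j) := by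
    rintro x ⟨h, hh, hx | ⟨j, hx⟩⟩
    · subst hx
      exact ⟨x, hh, Or.inr ⟨0, by simp⟩⟩
    · subst hx
      by_cases hj : (p : ℤ) ∣ j
      · obtain ⟨n, rfl⟩ := hj
        refine ⟨h * (v ((p : ℤ) * n) * -1), mul_mem hh (mul_mem (v_mul_mem p n) (neg_one_mem p)),
          Or.inl ?_⟩
        rw [← S_mul_T_zpow_mul_S_of_dvd]
        simp only [mul_assoc]
      · -- choose `c` with `j c ≡ 1`
        have hcop : IsCoprime j (p : ℤ) := by
          have h1 : IsCoprime (p : ℤ) j :=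
            (Nat.prime_iff_prime_int.mp hp).coprime_iff_not_dvd.mpr hj
          exact h1.symm
        obtain ⟨c, d, hcd⟩ := hcop
        have hjc : (p : ℤ) ∣ j * c - 1 := ⟨-d, by linear_combination hcd⟩
        refine ⟨h * (w j c * -1), mul_mem hh (mul_mem
          (Subgroup.subset_closure (Or.inr (Or.inr (Or.inr ⟨j, c, hjc, rfl⟩)))) (neg_one_mem p)),
          Or.inr ⟨-c, ?_⟩⟩
        rw [mul_assoc h, mul_assoc h, ← S_mul_T_zpow_mul_S]
  induction hγ using Subgroup.closure_induction_right with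
  | one => exact ⟨1, one_mem _, Or.inl rfl⟩
  | mul_right x hx y hy ih =>
    rcases hy with rfl | rfl
    · exact key_S x ih
    · obtain ⟨h, hh, hx' | ⟨j, hx'⟩⟩ := ih
      · exact ⟨h * T, mul_mem hh (T_mem p), Or.inl (by rw [hx'])⟩
      · exact ⟨h, hh, Or.inr ⟨j + 1, by rw [hx', _root_.zpow_add, zpow_one]; simp only [mul_assoc]⟩⟩
  | mul_inv_cancel x hx y hy ih =>
    rcases hy with rfl | rfl
    · -- `S⁻¹ = -S`
      obtain ⟨h, hh, hcase⟩ := key_S x ih
      refine ⟨-1 * h, mul_mem (neg_one_mem p) hh, ?_⟩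
      rcases hcase with h1 | ⟨j, h1⟩
      · exact Or.inl (by rw [mul_S_inv, h1])
      · exact Or.inr ⟨j, by rw [mul_S_inv, h1, mul_assoc]⟩
    · obtain ⟨h, hh, hx' | ⟨j, hx'⟩⟩ := ih
      · exact ⟨h * T⁻¹, mul_mem hh (inv_mem (T_mem p)), Or.inl (by rw [hx'])⟩
      · exact ⟨h, hh, Or.inr ⟨j - 1, by
          rw [hx', _root_.zpow_sub, zpow_one]; simp only [mul_assoc]⟩⟩

theorem Gamma0_le_closure (hp : p.Prime) :
    CongruenceSubgroup.Gamma0 p ≤ Subgroup.closure (gens p) := by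
  intro γ hγ
  obtain ⟨h, hh, rfl | ⟨j, rfl⟩⟩ := exists_mul p hp γ
  · exact hh
  · exfalso
    have hh' : h ∈ CongruenceSubgroup.Gamma0 p :=
      (Subgroup.closure_le _).mpr (gens_subset p) hh
    have hr : S * T ^ j ∈ CongruenceSubgroup.Gamma0 p := by
      have := mul_mem (inv_mem hh') hγ
      rwa [inv_mul_cancel_left] at this
    rw [CongruenceSubgroup.Gamma0_mem] at hr
    have h10 : ((S * T ^ j : SL(2, ℤ)) 1 0 : ℤ) = 1 := by
      simp [coe_mul, coe_T_zpow, coe_S]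
    rw [h10] at hr
    have : Fact (1 < p) := ⟨hp.one_lt⟩
    simp at hr

end Gens

/-! ### Part 2: finite Gauss-sum algebra on the discriminant group -/

section Finite

variable {p : ℕ} [hp : Fact p.Prime] {D : Type*} [AddCommGroup D] [Fintype D] [DecidableEq D]
  (e : AddChar (ZMod p) ℂ) (q : D → ZMod p) (β : D →+ D →+ ZMod p)

/-- the Gauss sum `G(j) = ∑_h e(j q(h))`. -/
noncomputable def G (j : ZMod p) : ℂ := ∑ h : D, e (j * q h)

variable {q β}

theorem q_zero (hq : ∀ x y, q (x + y) = q x + q y + β x y) : q 0 = 0 := by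
  have h := hq 0 0
  simp only [add_zero, map_zero] at h
  linear_combination -h

theorem q_zsmul (hq : ∀ x y, q (x + y) = q x + q y + β x y) (hself : ∀ x, β x x = 2 * q x)
    (c : ℤ) (x : D) : q (c • x) = (c : ZMod p) ^ 2 * q x := by
  induction c using Int.induction_on with
  | zero => simp [q_zero hq]
  | succ n ih =>
    rw [add_smul, one_smul, hq, ih, map_zsmul, AddMonoidHom.coe_smul, Pi.smul_apply, hself]
    push_cast
    rw [zsmul_eq_mul]
    push_cast
    ring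
  | pred n ih =>
    have h1 : q ((-(n : ℤ)) • x) = q ((-(n : ℤ) - 1) • x) + q x + β ((-(n : ℤ) - 1) • x) x := by
      rw [← hq]; congr 1; rw [sub_smul, one_smul]; abel
    rw [map_zsmul, AddMonoidHom.coe_smul, Pi.smul_apply, hself, ih, zsmul_eq_mul] at h1
    push_cast at h1 ⊢
    linear_combination -h1

/-- completing the square. -/
theorem sum_complete_square
    (hq : ∀ x y, q (x + y) = q x + q y + β x y) (hself : ∀ x, β x x = 2 * q x)
    {j c : ZMod p} (hjc : j * c = 1) (h' : D) :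
    ∑ h : D, e (j * q h - β h h') = e (-(c * q h')) * G e q j := by
  obtain ⟨c', rfl⟩ := ZMod.intCast_surjective c
  rw [G, Finset.mul_sum, ← Equiv.sum_comp (Equiv.addRight (c' • h'))]
  refine Finset.sum_congr rfl fun k _ => ?_
  rw [← AddChar.map_add_eq_mul]
  congr 1
  simp only [Equiv.coe_addRight]
  rw [hq, q_zsmul hq hself, map_add, AddMonoidHom.add_apply, map_zsmul, map_zsmul,
    AddMonoidHom.coe_smul, Pi.smul_apply, hself]
  simp only [zsmul_eq_mul]
  linear_combination ((c' : ZMod p) * q h' + β k h') * hjc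

theorem sum_orthogonality (he : e.IsPrimitive) (hsymm : ∀ x y, β x y = β y x)
    (hnd : ∀ x, (∀ y, β x y = 0) → x = 0) (h' : D) :
    ∑ h : D, e (-(β h h')) = if h' = 0 then (Fintype.card D : ℂ) else 0 := by
  split_ifs with h0
  · subst h0
    simp
  · -- nontrivial character
    let ψ : AddChar D ℂ := e.compAddMonoidHom (-(β.flip h'))
    have hψ : ψ ≠ 1 := by
      intro h1
      apply h0
      apply hnd
      intro y
      by_contra hy
      -- `β h' y = a ≠ 0`
      have hprim := he hy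
      apply hprim
      ext x
      obtain ⟨x', rfl⟩ := ZMod.intCast_surjective x
      have := congrArg (fun χ : AddChar D ℂ => χ (-(x' • y))) h1
      simp only [ψ, AddChar.compAddMonoidHom_apply, AddMonoidHom.neg_apply,
        AddMonoidHom.flip_apply, map_neg, map_zsmul, AddChar.one_apply] at this
      rw [AddChar.mulShift_apply, AddChar.one_apply, ← this]
      congr 1
      rw [hsymm y h', zsmul_eq_mul]
      ring
    have := AddChar.sum_eq_zero_of_ne_one hψ
    simpa [ψ, AddChar.compAddMonoidHom_apply] using this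

omit [DecidableEq D] in
/-- Galois invariance: a rational value of `G(1)` propagates to all `G(j)`, `j ≠ 0`. -/
theorem G_eq_of_G_one (he : e.IsPrimitive) (m : ℚ) (h1 : G e q 1 = (m : ℂ)) {j : ZMod p}
    (hj : j ≠ 0) : G e q j = (m : ℂ) := by
  have hp' := hp.out
  have : NeZero p := ⟨hp'.ne_zero⟩
  set ζ : ℂ := e 1 with hζdef
  have he_pow : ∀ a : ZMod p, e a = ζ ^ a.val := by
    intro a
    conv_lhs => rw [← ZMod.natCast_zmod_val a, ← nsmul_one (a.val), AddChar.map_nsmul_eq_pow]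
  have hζp : ζ ^ p = 1 := by
    rw [hζdef, ← AddChar.map_nsmul_eq_pow, nsmul_one, ZMod.natCast_self, AddChar.map_zero_eq_one]
  have hζ1 : ζ ≠ 1 := by
    intro h
    have h10 := (he.zmod_char_eq_one_iff p 1).mp h
    have : Fact (1 < p) := ⟨hp'.one_lt⟩
    exact one_ne_zero h10
  have hprim : IsPrimitiveRoot ζ p := by
    rw [IsPrimitiveRoot.iff_orderOf]
    exact orderOf_eq_prime hζp hζ1
  -- the polynomial
  let P : Polynomial ℚ := ∑ h : D, Polynomial.X ^ (q h).val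
  have hP : ∀ z : ℂ, Polynomial.aeval z P = ∑ h : D, z ^ (q h).val := by
    intro z; simp [P, map_sum]
  have hG1 : Polynomial.aeval ζ (P - Polynomial.C m) = 0 := by
    rw [map_sub, hP, Polynomial.aeval_C, sub_eq_zero, eq_ratCast, ← h1, G]
    refine Finset.sum_congr rfl fun h _ => ?_
    rw [one_mul, he_pow]
  have hdvd : Polynomial.cyclotomic p ℚ ∣ P - Polynomial.C m := by
    rw [Polynomial.cyclotomic_eq_minpoly_rat hprim hp'.pos]
    exact minpoly.dvd ℚ ζ hG1
  have hcop : Nat.Coprime j.val p := by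
    rw [Nat.coprime_comm, Nat.Prime.coprime_iff_not_dvd hp']
    intro hdiv
    exact hj ((ZMod.val_eq_zero j).mp (Nat.eq_zero_of_dvd_of_lt hdiv (ZMod.val_lt j)))
  have hprim' : IsPrimitiveRoot (ζ ^ j.val) p := hprim.pow_of_coprime _ hcop
  have hroot : Polynomial.aeval (ζ ^ j.val) (P - Polynomial.C m) = 0 := by
    obtain ⟨R, hR⟩ := hdvd
    rw [hR, map_mul]
    have : Polynomial.aeval (ζ ^ j.val) (Polynomial.cyclotomic p ℚ) = 0 := by
      have h2 := hprim'.isRoot_cyclotomic hp'.pos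
      rw [Polynomial.aeval_def, Polynomial.eval₂_eq_eval_map, Polynomial.map_cyclotomic]
      exact h2
    rw [this, zero_mul]
  rw [map_sub, hP, Polynomial.aeval_C, sub_eq_zero, eq_ratCast] at hroot
  rw [G, ← hroot]
  refine Finset.sum_congr rfl fun h _ => ?_
  rw [he_pow, ← pow_mul]
  -- `(j * q h).val ≡ j.val * (q h).val mod p`
  have hmod : (j * q h).val ≡ j.val * (q h).val [MOD p] := by
    rw [ZMod.val_mul]; exact Nat.mod_modEq _ _
  exact pow_eq_pow_of_modEq hmod hζp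

end Finite

/-! ### Part 3: the slash calculus on coefficient vectors -/

section Slash

open UpperHalfPlane

variable {p : ℕ} [hp : Fact p.Prime] {D : Type*} [AddCommGroup D] [Fintype D] [DecidableEq D]
  (e : AddChar (ZMod p) ℂ) (q : D → ZMod p) (β : D →+ D →+ ZMod p) (θ : D → ℍ → ℂ)

/-- the linear combination `∑ v_h θ_h`. -/
noncomputable def Θ (v : D → ℂ) : ℍ → ℂ := ∑ h : D, v h • θ h

/-- action of `T^j` on coefficient vectors. -/
noncomputable def TT (j : ZMod p) (v : D → ℂ) : D → ℂ := fun h => e (j * q h) * v h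

/-- action of `S` on coefficient vectors. -/
noncomputable def SS (v : D → ℂ) : D → ℂ :=
  fun h' => (-(1 : ℂ) / p) * ∑ h : D, v h * e (-(β h h'))

/-- the delta vector at `0`. -/
noncomputable def δ0 : D → ℂ := fun h => if h = 0 then 1 else 0

theorem Θ_δ0 : Θ θ (δ0 (D := D)) = θ 0 := by
  simp [Θ, δ0]

theorem slash_neg_one (f : ℍ → ℂ) : f ∣[(2 : ℤ)] (-1 : SL(2, ℤ)) = f := by
  ext τ
  rw [ModularForm.SL_slash_apply]
  have h1 : ((-1 : SL(2, ℤ)) • τ) = τ := by
    rw [ModularGroup.SL_neg_smul, one_smul]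
  rw [h1]
  simp [UpperHalfPlane.denom]

variable {e q β θ}

theorem Θ_slash_S
    (hS : ∀ h, θ h ∣[(2 : ℤ)] S = (-(1 : ℂ) / p) • ∑ h' : D, e (-(β h h')) • θ h') (v : D → ℂ) :
    Θ θ v ∣[(2 : ℤ)] S = Θ θ (SS e β v) := by
  simp only [Θ, SS, SlashAction.sum_slash, ModularForm.SL_smul_slash, hS, Finset.smul_sum,
    Finset.mul_sum, Finset.sum_smul, smul_smul]
  rw [Finset.sum_comm]
  refine Finset.sum_congr rfl fun h' _ => Finset.sum_congr rfl fun h _ => ?_
  congr 1
  ring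

theorem Θ_slash_T (hT : ∀ h, θ h ∣[(2 : ℤ)] T = e (q h) • θ h) (v : D → ℂ) :
    Θ θ v ∣[(2 : ℤ)] T = Θ θ (TT e q 1 v) := by
  simp only [Θ, TT, SlashAction.sum_slash, ModularForm.SL_smul_slash, hT, smul_smul, one_mul]
  refine Finset.sum_congr rfl fun h _ => ?_
  congr 1
  ring

theorem TT_add (j k : ZMod p) (v : D → ℂ) : TT e q (j + k) v = TT e q j (TT e q k v) := by
  funext h
  simp only [TT, add_mul, AddChar.map_add_eq_mul]
  ring

theorem TT_zero (v : D → ℂ) : TT e q 0 v = v := by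
  funext h
  simp [TT]

theorem Θ_slash_T_inv (hT : ∀ h, θ h ∣[(2 : ℤ)] T = e (q h) • θ h) (v : D → ℂ) :
    Θ θ v ∣[(2 : ℤ)] T⁻¹ = Θ θ (TT e q (-1) v) := by
  have h1 : Θ θ (TT e q (-1) v) ∣[(2 : ℤ)] T = Θ θ v := by
    rw [Θ_slash_T hT, ← TT_add, add_neg_cancel, TT_zero]
  rw [← h1, ← SlashAction.slash_mul, mul_inv_cancel, SlashAction.slash_one]

theorem Θ_slash_T_zpow (hT : ∀ h, θ h ∣[(2 : ℤ)] T = e (q h) • θ h) (j : ℤ) (v : D → ℂ) :
    Θ θ v ∣[(2 : ℤ)] (T ^ j) = Θ θ (TT e q (j : ZMod p) v) := by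
  induction j using Int.induction_on generalizing v with
  | zero => simp [TT_zero]
  | succ n ih =>
    rw [_root_.zpow_add, zpow_one, SlashAction.slash_mul, ih, Θ_slash_T hT, ← TT_add]
    push_cast
    rw [add_comm]
  | pred n ih =>
    rw [_root_.zpow_sub, zpow_one, SlashAction.slash_mul, ih, Θ_slash_T_inv hT, ← TT_add]
    push_cast
    rw [add_comm, sub_eq_add_neg]

/-! #### vector computations -/

theorem SS_δ0 : SS e β (δ0 (D := D)) = fun _ => (-(1 : ℂ) / p) := by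
  funext h'
  simp [SS, δ0]

theorem TT_const (j : ZMod p) (a : ℂ) :
    TT e q j (fun _ => a) = fun h => a * e (j * q h) := by
  funext h
  simp [TT, mul_comm]

theorem SS_gauss (hq : ∀ x y, q (x + y) = q x + q y + β x y) (hself : ∀ x, β x x = 2 * q x)
    {j c : ZMod p} (hjc : j * c = 1) (a : ℂ) :
    SS e β (fun h => a * e (j * q h)) =
      fun h' => ((-(1 : ℂ) / p) * a * G e q j) * e (-(c * q h')) := by
  funext h'
  simp only [SS]
  have : ∑ h : D, a * e (j * q h) * e (-(β h h')) = a * ∑ h : D, e (j * q h - β h h') := by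
    rw [Finset.mul_sum]
    refine Finset.sum_congr rfl fun h _ => ?_
    rw [mul_assoc, ← AddChar.map_add_eq_mul, sub_eq_add_neg]
  rw [this, sum_complete_square e hq hself hjc]
  ring

theorem TT_cancel (c : ZMod p) (b : ℂ) :
    TT e q c (fun h' => b * e (-(c * q h'))) = fun _ => b := by
  funext h'
  simp only [TT]
  rw [mul_comm, mul_assoc, ← AddChar.map_add_eq_mul, neg_add_cancel, AddChar.map_zero_eq_one,
    mul_one]

theorem SS_const (he : e.IsPrimitive) (hsymm : ∀ x y, β x y = β y x)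
    (hnd : ∀ x, (∀ y, β x y = 0) → x = 0) (b : ℂ) :
    SS e β (fun _ : D => b) =
      fun h'' => ((-(1 : ℂ) / p) * b * (Fintype.card D : ℂ)) * δ0 h'' := by
  funext h''
  simp only [SS, ← Finset.mul_sum, sum_orthogonality e he hsymm hnd, δ0]
  split_ifs <;> ring

theorem smul_δ0 (b : ℂ) : Θ θ (fun h'' : D => b * δ0 h'') = b • θ 0 := by
  simp [Θ, δ0]

/-- the key word computation. -/
theorem slash_w (he : e.IsPrimitive) (hsymm : ∀ x y, β x y = β y x)
    (hq : ∀ x y, q (x + y) = q x + q y + β x y) (hself : ∀ x, β x x = 2 * q x)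
    (hnd : ∀ x, (∀ y, β x y = 0) → x = 0)
    (hT : ∀ h, θ h ∣[(2 : ℤ)] T = e (q h) • θ h)
    (hS : ∀ h, θ h ∣[(2 : ℤ)] S = (-(1 : ℂ) / p) • ∑ h' : D, e (-(β h h')) • θ h')
    {j c : ℤ} (hjc : (j : ZMod p) * (c : ZMod p) = 1) :
    θ 0 ∣[(2 : ℤ)] (w j c) =
      ((-(1 : ℂ) / p) ^ 3 * G e q (j : ZMod p) * (Fintype.card D : ℂ)) • θ 0 := by
  have h0 : θ 0 = Θ θ (δ0 (D := D)) := (Θ_δ0 θ).symm
  conv_lhs => rw [h0]
  rw [w, SlashAction.slash_mul, SlashAction.slash_mul, SlashAction.slash_mul, SlashAction.slash_mul,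
    Θ_slash_S hS, Θ_slash_T_zpow hT, Θ_slash_S hS, Θ_slash_T_zpow hT, Θ_slash_S hS,
    SS_δ0, TT_const, SS_gauss hq hself hjc, TT_cancel, SS_const he hsymm hnd, smul_δ0]
  congr 1
  ring

/-! #### main theorems -/

theorem w_one_one_mul_T : w 1 1 * T = -1 := by
  apply Subtype.ext
  rw [coe_mul, coe_w, coe_T, coe_neg, Matrix.SpecialLinearGroup.coe_one]
  ext a b; fin_cases a <;> fin_cases b <;> simp [Matrix.mul_apply, Fin.sum_univ_two]

/-- Milgram for free: `G(1) = -p`. -/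
theorem G_one (he : e.IsPrimitive) (hsymm : ∀ x y, β x y = β y x)
    (hq : ∀ x y, q (x + y) = q x + q y + β x y) (hself : ∀ x, β x x = 2 * q x)
    (hnd : ∀ x, (∀ y, β x y = 0) → x = 0) (hcard : Fintype.card D = p ^ 2)
    (h0 : θ 0 ≠ 0)
    (hT : ∀ h, θ h ∣[(2 : ℤ)] T = e (q h) • θ h)
    (hS : ∀ h, θ h ∣[(2 : ℤ)] S = (-(1 : ℂ) / p) • ∑ h' : D, e (-(β h h')) • θ h') :
    G e q 1 = -(p : ℂ) := by
  have hp0 : (p : ℂ) ≠ 0 := Nat.cast_ne_zero.mpr hp.out.ne_zero
  have h1 : θ 0 ∣[(2 : ℤ)] (w 1 1 * T) = θ 0 := by rw [w_one_one_mul_T, slash_neg_one]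
  have hjc : ((1 : ℤ) : ZMod p) * ((1 : ℤ) : ZMod p) = 1 := by simp
  rw [SlashAction.slash_mul, slash_w he hsymm hq hself hnd hT hS hjc, ModularForm.SL_smul_slash,
    hT 0, q_zero hq, AddChar.map_zero_eq_one, one_smul] at h1
  have h2 : ((-(1 : ℂ) / p) ^ 3 * G e q ((1 : ℤ) : ZMod p) * (Fintype.card D : ℂ) - 1) • θ 0 = 0 := by
    rw [sub_smul, one_smul, h1, sub_self]
  rcases smul_eq_zero.mp h2 with h3 | h3
  · rw [hcard] at h3
    push_cast at h3
    have h4 : G e q 1 * (-(1 : ℂ) / p) = 1 := by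
      have : (-(1 : ℂ) / p) ^ 3 * G e q 1 * (p : ℂ) ^ 2 = G e q 1 * (-(1 : ℂ) / p) := by
        field_simp
      rw [← this]
      linear_combination h3
    field_simp at h4
    linear_combination -h4
  · exact absurd h3 h0

/-- **Main theorem 1.** `θ₀` is invariant under `Γ₀(p)`. -/
theorem slash_eq_self (he : e.IsPrimitive) (hsymm : ∀ x y, β x y = β y x)
    (hq : ∀ x y, q (x + y) = q x + q y + β x y) (hself : ∀ x, β x x = 2 * q x)
    (hnd : ∀ x, (∀ y, β x y = 0) → x = 0) (hcard : Fintype.card D = p ^ 2)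
    (h0 : θ 0 ≠ 0)
    (hT : ∀ h, θ h ∣[(2 : ℤ)] T = e (q h) • θ h)
    (hS : ∀ h, θ h ∣[(2 : ℤ)] S = (-(1 : ℂ) / p) • ∑ h' : D, e (-(β h h')) • θ h')
    (γ : SL(2, ℤ)) (hγ : γ ∈ CongruenceSubgroup.Gamma0 p) :
    θ 0 ∣[(2 : ℤ)] γ = θ 0 := by
  have hp0 : (p : ℂ) ≠ 0 := Nat.cast_ne_zero.mpr hp.out.ne_zero
  -- the stabiliser subgroup
  let stab : Subgroup SL(2, ℤ) :=
    { carrier := {g | θ 0 ∣[(2 : ℤ)] g = θ 0}
      mul_mem' := fun {a b} (ha : θ 0 ∣[(2 : ℤ)] a = θ 0) (hb : θ 0 ∣[(2 : ℤ)] b = θ 0) => by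
        show θ 0 ∣[(2 : ℤ)] (a * b) = θ 0
        rw [SlashAction.slash_mul, ha, hb]
      one_mem' := by simp
      inv_mem' := fun {a} (ha : θ 0 ∣[(2 : ℤ)] a = θ 0) => by
        show θ 0 ∣[(2 : ℤ)] a⁻¹ = θ 0
        conv_lhs => rw [← ha]
        rw [← SlashAction.slash_mul, mul_inv_cancel, SlashAction.slash_one] }
  have hG1 := G_one he hsymm hq hself hnd hcard h0 hT hS
  have hgens : gens p ⊆ (stab : Set SL(2, ℤ)) := by
    rintro g (rfl | rfl | rfl | ⟨j, c, hjc, rfl⟩)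
    · show θ 0 ∣[(2 : ℤ)] T = θ 0
      rw [hT 0, q_zero hq, AddChar.map_zero_eq_one, one_smul]
    · exact slash_neg_one _
    · show θ 0 ∣[(2 : ℤ)] (v p) = θ 0
      have h1 : (θ 0 ∣[(2 : ℤ)] S) ∣[(2 : ℤ)] (T ^ (p : ℤ)) = θ 0 ∣[(2 : ℤ)] S := by
        conv_lhs => rw [← Θ_δ0 θ]
        rw [Θ_slash_S hS, Θ_slash_T_zpow hT]
        have : (((p : ℕ) : ℤ) : ZMod p) = 0 := by simp
        rw [this, TT_zero, ← Θ_slash_S hS, Θ_δ0]
      rw [v, SlashAction.slash_mul, SlashAction.slash_mul, h1, ← SlashAction.slash_mul,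
        mul_inv_cancel, SlashAction.slash_one]
    · show θ 0 ∣[(2 : ℤ)] (w j c) = θ 0
      have hjc' : (j : ZMod p) * (c : ZMod p) = 1 := by
        have := (ZMod.intCast_zmod_eq_zero_iff_dvd (j * c - 1) p).mpr hjc
        push_cast at this
        linear_combination this
      have hj0 : (j : ZMod p) ≠ 0 := by
        intro h
        rw [h, zero_mul] at hjc'
        have : Fact (1 < p) := ⟨hp.out.one_lt⟩
        exact zero_ne_one hjc'
      have hGj : G e q (j : ZMod p) = -(p : ℂ) := by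
        have := G_eq_of_G_one e he (-(p : ℚ)) (by rw [hG1]; push_cast; rfl) hj0
        rw [this]; push_cast; rfl
      rw [slash_w he hsymm hq hself hnd hT hS hjc', hGj, hcard]
      push_cast
      have : (-(1 : ℂ) / p) ^ 3 * -(p : ℂ) * (p : ℂ) ^ 2 = 1 := by field_simp
      rw [this, one_smul]
  exact (Subgroup.closure_le stab).mpr hgens (Gamma0_le_closure p hp.out hγ)

theorem S_inv_eq : (S⁻¹ : SL(2, ℤ)) = S * S * S := by decide

/-- **Main theorem 2.** every `SL(2,ℤ)`-translate of `θ₀` is a linear combination of the `θ_h`. -/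
theorem slash_mem_span
    (hT : ∀ h, θ h ∣[(2 : ℤ)] T = e (q h) • θ h)
    (hS : ∀ h, θ h ∣[(2 : ℤ)] S = (-(1 : ℂ) / p) • ∑ h' : D, e (-(β h h')) • θ h')
    (γ : SL(2, ℤ)) :
    ∃ v : D → ℂ, θ 0 ∣[(2 : ℤ)] γ = ∑ h : D, v h • θ h := by
  have hγ : γ ∈ Subgroup.closure ({S, T} : Set SL(2, ℤ)) := by
    rw [SpecialLinearGroup.SL2Z_generators]; trivial
  have key : ∀ v : D → ℂ, ∃ v' : D → ℂ, Θ θ v ∣[(2 : ℤ)] γ = Θ θ v' := by
    induction hγ using Subgroup.closure_induction'' with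
    | one => intro v; exact ⟨v, by simp⟩
    | mem x hx =>
      intro v
      rcases hx with rfl | rfl
      · exact ⟨_, Θ_slash_S hS v⟩
      · exact ⟨_, Θ_slash_T hT v⟩
    | inv_mem x hx =>
      intro v
      rcases hx with rfl | rfl
      · refine ⟨SS e β (SS e β (SS e β v)), ?_⟩
        rw [S_inv_eq, SlashAction.slash_mul, SlashAction.slash_mul, Θ_slash_S hS, Θ_slash_S hS,
          Θ_slash_S hS]
      · exact ⟨_, Θ_slash_T_inv hT v⟩
    | mul x y _ _ ihx ihy =>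
      intro v
      obtain ⟨v1, h1⟩ := ihx v
      obtain ⟨v2, h2⟩ := ihy v1
      exact ⟨v2, by rw [SlashAction.slash_mul, h1, h2]⟩
  obtain ⟨v, hv⟩ := key δ0
  exact ⟨v, by rw [← Θ_δ0 θ, hv]; rfl⟩

end Slash

end Fermat.Agent.S16.WeilGen86
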