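/-
S16 / (L1)-THETA (helper94): the `T`-law and the `S`-law of the shifted theta functions
`θ_h`, `h ∈ L#/L = Disc A`, in the EXACT shape consumed by `WeilGen86.slash_eq_self`.

Everything is proved from two abstract inputs about a family `θv : (Fin n → ℝ) → ℍ → ℂ`:

* `hsum` : `θv v z` is the sum of the theta terms `exp(π i z (x+v)ᵀ A (x+v))`, `x ∈ ℤ^n`
  (helper91 `ThetaBasic91`);
* `hP`   : the Poisson/inversion formula for Gaussians (helper56 `Theta56.Poisson`), in the form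
  `θv v (S • z)` is `c z` times the sum over `ξ ∈ ℤ^n` of
  `exp(2 π i ξ·v) exp(π i z ξᵀ A⁻¹ ξ)`, with `A⁻¹ ξ = vec B p ξ`.

No analysis is done here: only termwise manipulation of `HasSum` and the splitting of `ℤ^n`
into the cosets of `A ℤ^n`.
-/
import Mathlib
import Fermat.Agent.S16.Disc94
import Fermat.Agent.S16.WeilGen86

set_option autoImplicit false

namespace Fermat.Agent.S16.ThetaST94

open Matrix UpperHalfPlane ModularGroup Fermat.Agent.S16.Disc94
open Complex hiding I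

local notation "I" => Complex.I
open scoped MatrixGroups ModularForm Real

variable {n : ℕ}

/-- The real quadratic form `uᵀ A u` of an integral matrix. -/
def quadR (A : Matrix (Fin n) (Fin n) ℤ) (u : Fin n → ℝ) : ℝ :=
  u ⬝ᵥ (A.map (Int.cast : ℤ → ℝ)) *ᵥ u

/-- The theta term `exp(π i z (x+v)ᵀ A (x+v))`. -/
noncomputable def term (A : Matrix (Fin n) (Fin n) ℤ) (v : Fin n → ℝ) (z : ℍ)
    (x : Fin n → ℤ) : ℂ :=
  cexp (π * I * z * (quadR A (castV x + v) : ℝ))

/-! ### Splitting `ℤ^n` into cosets of `A ℤ^n` -/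

section Split

variable {A : Matrix (Fin n) (Fin n) ℤ}

/-- A chosen representative of a class. -/
noncomputable def rep (d : Disc A) : Fin n → ℤ := Quotient.out d

@[simp] theorem mk_rep (d : Disc A) : Disc.mk A (rep d) = d := by
  unfold rep Disc.mk
  exact Quotient.out_eq d

/-- `ℤ^n ≃ (ℤ^n / A ℤ^n) × ℤ^n`, `ξ = rep d + A x`. -/
noncomputable def splitEquiv (hdet : A.det ≠ 0) : Disc A × (Fin n → ℤ) ≃ (Fin n → ℤ) := by
  refine Equiv.ofBijective (fun dx => rep dx.1 + A *ᵥ dx.2) ⟨?_, ?_⟩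
  · rintro ⟨d, x⟩ ⟨d', x'⟩ h
    simp only at h
    have hd : d = d' := by
      have := congrArg (Disc.mk A) h
      simpa using this
    subst hd
    have hx : A *ᵥ x = A *ᵥ x' := add_left_cancel h
    have := mulVec_injective_of_det_ne_zero hdet hx
    rw [this]
  · intro ξ
    have h : Disc.mk A ξ = Disc.mk A (rep (Disc.mk A ξ)) := (mk_rep _).symm
    obtain ⟨x, hx⟩ := Disc.mk_eq_mk_iff.mp h
    exact ⟨(Disc.mk A ξ, x), by simp only; rw [← hx]; abel⟩

@[simp] theorem splitEquiv_apply (hdet : A.det ≠ 0) (d : Disc A) (x : Fin n → ℤ) :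
    splitEquiv hdet (d, x) = rep d + A *ᵥ x := rfl

/-- Regrouping a sum over `ℤ^n` along the cosets of `A ℤ^n`. -/
theorem hasSum_split [Fintype (Disc A)] (hdet : A.det ≠ 0) {F : (Fin n → ℤ) → ℂ} {a : ℂ}
    {g : Disc A → ℂ} (hF : HasSum F a)
    (hfib : ∀ d : Disc A, HasSum (fun x : Fin n → ℤ => F (rep d + A *ᵥ x)) (g d)) :
    a = ∑ d : Disc A, g d := by
  have h1 : HasSum (fun dx : Disc A × (Fin n → ℤ) => F (splitEquiv hdet dx)) a :=
    (splitEquiv hdet).hasSum_iff.mpr hF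
  have h2 : HasSum g a := HasSum.prod_fiberwise h1 (fun d => by simpa using hfib d)
  exact h2.unique (hasSum_fintype g)

end Split

/-! ### The `T`-law -/

section TLaw

variable {A B : Matrix (Fin n) (Fin n) ℤ} {p : ℕ}

theorem cexp_pi_I_even {m : ℤ} (hm : Even m) : cexp (π * I * (m : ℂ)) = 1 := by
  obtain ⟨k, rfl⟩ := hm
  have : (π : ℂ) * I * ((k + k : ℤ) : ℂ) = (k : ℂ) * (2 * π * I) := by push_cast; ring
  rw [this, Complex.exp_int_mul_two_pi_mul_I]

theorem term_T (hp : p ≠ 0) (hA : A.IsSymm) (hAev : ∀ i, Even (A i i))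
    (hAB : A * B = (p : ℤ) • (1 : Matrix (Fin n) (Fin n) ℤ)) (y x : Fin n → ℤ) (z : ℍ) :
    term A (vec B p y) (T • z) x =
      cexp (π * I * (quadR A (vec B p y) : ℝ)) * term A (vec B p y) z x := by
  have hsq := shift_quad hp hA hAB x y
  have hev := even_shift_quad hA hAev x y
  have hq : quadR A (castV x + vec B p y) =
      quadR A (vec B p y) + ((quad A x + 2 * (x ⬝ᵥ y) : ℤ) : ℝ) := by
    unfold quadR
    linarith [hsq]
  unfold term
  rw [modular_T_smul, coe_vadd, hq, ← Complex.exp_add]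
  have h1 := cexp_pi_I_even hev
  set m : ℤ := quad A x + 2 * (x ⬝ᵥ y) with hm
  set Q : ℝ := quadR A (vec B p y) with hQ
  have : (π : ℂ) * I * ((1 : ℝ) + (z : ℂ)) * ((Q + (m : ℝ) : ℝ) : ℂ) =
      π * I * (Q : ℂ) + π * I * z * ((Q + (m : ℝ) : ℝ) : ℂ) + π * I * (m : ℂ) := by
    push_cast; ring
  rw [this, Complex.exp_add, h1, mul_one, Complex.exp_add]

theorem denom_T (z : ℍ) : denom (T : SL(2, ℤ)) z = 1 := by
  simp [denom, ModularGroup.T]

theorem denom_S (z : ℍ) : denom (S : SL(2, ℤ)) z = z := by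
  simp [denom, ModularGroup.S]

/-- The `T`-law for a family given by theta sums. -/
theorem slash_T_of_hasSum [Fact p.Prime] (hp2 : p ≠ 2) (hA : A.IsSymm) (hB : B.IsSymm)
    (hAev : ∀ i, Even (A i i)) (hBev : ∀ i, Even (B i i))
    (hAB : A * B = (p : ℤ) • (1 : Matrix (Fin n) (Fin n) ℤ))
    (hBA : B * A = (p : ℤ) • (1 : Matrix (Fin n) (Fin n) ℤ))
    (θv : (Fin n → ℝ) → ℍ → ℂ)
    (hsum : ∀ v z, HasSum (term A v z) (θv v z)) (y : Fin n → ℤ) :
    (θv (vec B p y)) ∣[(2 : ℤ)] T =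
      ZMod.stdAddChar (qD hA hAB hBA (Disc.mk A y)) • θv (vec B p y) := by
  have hp : p.Prime := Fact.out
  ext z
  rw [ModularForm.SL_slash_apply, denom_T, _root_.one_zpow, mul_one, Pi.smul_apply, smul_eq_mul,
    stdAddChar_qD hp2 hA hB hBev hAB hBA]
  have h1 := hsum (vec B p y) (T • z)
  have h2 := (hsum (vec B p y) z).mul_left
    (cexp (π * I * ((vec B p y ⬝ᵥ (A.map (Int.cast : ℤ → ℝ)) *ᵥ vec B p y : ℝ) : ℂ)))
  have hfun : term A (vec B p y) (T • z) = fun x =>
      cexp (π * I * ((vec B p y ⬝ᵥ (A.map (Int.cast : ℤ → ℝ)) *ᵥ vec B p y : ℝ) : ℂ)) *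
        term A (vec B p y) z x :=
    funext fun x => term_T hp.ne_zero hA hAev hAB y x z
  rw [hfun] at h1
  exact h1.unique h2

end TLaw

/-! ### Symmetries of theta sums: integral shifts and `v ↦ -v` -/

section Symm

variable {A : Matrix (Fin n) (Fin n) ℤ}

theorem term_add_castV (v : Fin n → ℝ) (m x : Fin n → ℤ) (z : ℍ) :
    term A (v + castV m) z x = term A v z (x + m) := by
  unfold term
  rw [castV_add]
  congr 4
  abel

theorem quadR_neg (u : Fin n → ℝ) : quadR A (-u) = quadR A u := by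
  unfold quadR
  rw [mulVec_neg, neg_dotProduct, dotProduct_neg, neg_neg]

theorem term_neg (v : Fin n → ℝ) (x : Fin n → ℤ) (z : ℍ) :
    term A (-v) z x = term A v z (-x) := by
  unfold term
  have : castV x + -v = -(castV (-x) + v) := by
    ext i; simp; ring
  rw [this, quadR_neg]

variable (θv : (Fin n → ℝ) → ℍ → ℂ) (hsum : ∀ v z, HasSum (term A v z) (θv v z))

include hsum in
theorem θv_add_castV (v : Fin n → ℝ) (m : Fin n → ℤ) (z : ℍ) :
    θv (v + castV m) z = θv v z := by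
  have h1 := hsum (v + castV m) z
  have h2 : HasSum (fun x => term A v z (x + m)) (θv v z) :=
    (Equiv.addRight m).hasSum_iff.mpr (hsum v z)
  have hfun : term A (v + castV m) z = fun x => term A v z (x + m) :=
    funext fun x => term_add_castV v m x z
  rw [hfun] at h1
  exact h1.unique h2

include hsum in
theorem θv_neg (v : Fin n → ℝ) (z : ℍ) : θv (-v) z = θv v z := by
  have h1 := hsum (-v) z
  have h2 : HasSum (fun x => term A v z (-x)) (θv v z) :=
    (Equiv.neg (Fin n → ℤ)).hasSum_iff.mpr (hsum v z)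
  have hfun : term A (-v) z = fun x => term A v z (-x) := funext fun x => term_neg v x z
  rw [hfun] at h1
  exact h1.unique h2

end Symm

/-! ### The family indexed by the discriminant module -/

section Family

variable {A B : Matrix (Fin n) (Fin n) ℤ} {p : ℕ}

/-- `θ_h`, `h ∈ Disc A`, through a chosen representative. -/
noncomputable def θD (B : Matrix (Fin n) (Fin n) ℤ) (p : ℕ) (θv : (Fin n → ℝ) → ℍ → ℂ)
    (h : Disc A) : ℍ → ℂ :=
  θv (vec B p (rep h))

variable (θv : (Fin n → ℝ) → ℍ → ℂ) (hsum : ∀ v z, HasSum (term A v z) (θv v z))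

include hsum in
/-- `θ_h` does not depend on the representative. -/
theorem θD_mk (hp : p ≠ 0) (hBA : B * A = (p : ℤ) • (1 : Matrix (Fin n) (Fin n) ℤ))
    (y : Fin n → ℤ) : θD B p θv (Disc.mk A y) = θv (vec B p y) := by
  have h : Disc.mk A y = Disc.mk A (rep (Disc.mk A y)) := (mk_rep _).symm
  obtain ⟨x, hx⟩ := Disc.mk_eq_mk_iff.mp h
  have hy : y = rep (Disc.mk A y) + A *ᵥ x := by rw [← hx]; abel
  ext z
  unfold θD
  conv_rhs => rw [hy, vec_add_range hp hBA, θv_add_castV θv hsum]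

include hsum in
theorem θD_neg (hp : p ≠ 0) (hBA : B * A = (p : ℤ) • (1 : Matrix (Fin n) (Fin n) ℤ))
    (h : Disc A) : θD B p θv (-h) = θD B p θv h := by
  obtain ⟨y, rfl⟩ := Disc.mk_surjective h
  rw [← Disc.mk_neg, θD_mk θv hsum hp hBA, θD_mk θv hsum hp hBA]
  ext z
  have : Disc94.vec B p (-y) = -Disc94.vec B p y := by
    ext i
    simp [Disc94.vec, mulVec_neg]
  rw [this, θv_neg θv hsum]

include hsum in
/-- The `T`-law in the `WeilGen86` shape. -/
theorem θD_slash_T [Fact p.Prime] (hp2 : p ≠ 2) (hA : A.IsSymm) (hB : B.IsSymm)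
    (hAev : ∀ i, Even (A i i)) (hBev : ∀ i, Even (B i i))
    (hAB : A * B = (p : ℤ) • (1 : Matrix (Fin n) (Fin n) ℤ))
    (hBA : B * A = (p : ℤ) • (1 : Matrix (Fin n) (Fin n) ℤ)) (h : Disc A) :
    θD B p θv h ∣[(2 : ℤ)] T = ZMod.stdAddChar (qD hA hAB hBA h) • θD B p θv h := by
  have hp : p.Prime := Fact.out
  obtain ⟨y, rfl⟩ := Disc.mk_surjective h
  rw [θD_mk θv hsum hp.ne_zero hBA]
  exact slash_T_of_hasSum hp2 hA hB hAev hBev hAB hBA θv hsum y

end Family

/-! ### The `S`-law from the Poisson/inversion formula -/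

section SLaw

variable {A B : Matrix (Fin n) (Fin n) ℤ} {p : ℕ}

/-- The dual-side term of the inversion formula: `exp(2πi ξ·v) exp(πi z ξᵀA⁻¹ξ)`,
with `A⁻¹ ξ = vec B p ξ`. -/
noncomputable def dualTerm (A B : Matrix (Fin n) (Fin n) ℤ) (p : ℕ) (v : Fin n → ℝ) (z : ℍ)
    (ξ : Fin n → ℤ) : ℂ :=
  cexp (2 * π * I * ((castV ξ ⬝ᵥ v : ℝ) : ℂ)) * cexp (π * I * z * (quadR A (vec B p ξ) : ℝ))

theorem cexp_two_pi_I_int (m : ℤ) : cexp (2 * π * I * (m : ℂ)) = 1 := by
  have : (2 : ℂ) * π * I * (m : ℂ) = (m : ℂ) * (2 * π * I) := by ring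
  rw [this, Complex.exp_int_mul_two_pi_mul_I]

/-- The dual term along a coset `rep d + A x`, for `v = vec B p y`. -/
theorem dualTerm_split [Fact p.Prime] (hA : A.IsSymm) (hB : B.IsSymm)
    (hAB : A * B = (p : ℤ) • (1 : Matrix (Fin n) (Fin n) ℤ))
    (hBA : B * A = (p : ℤ) • (1 : Matrix (Fin n) (Fin n) ℤ)) (y : Fin n → ℤ) (z : ℍ)
    (d : Disc A) (x : Fin n → ℤ) :
    dualTerm A B p (vec B p y) z (rep d + A *ᵥ x) =
      ZMod.stdAddChar (betaD hA hAB hBA d (Disc.mk A y)) * term A (vec B p (rep d)) z x := by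
  have hp : p.Prime := Fact.out
  unfold dualTerm
  congr 1
  · -- the phase
    conv_rhs => rw [← mk_rep d]
    rw [stdAddChar_betaD hA hB hAB hBA, castV_add, add_dotProduct]
    have h1 : castV (rep d) ⬝ᵥ vec B p y =
        vec B p (rep d) ⬝ᵥ (A.map (Int.cast : ℤ → ℝ)) *ᵥ vec B p y := by
      rw [vec_bilin hp.ne_zero hB hAB]
      unfold Disc94.vec bil
      rw [dotProduct_smul, castV_dotProduct, smul_eq_mul]
      ring
    have h2 : castV (A *ᵥ x) ⬝ᵥ vec B p y = ((x ⬝ᵥ y : ℤ) : ℝ) := by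
      have hAR : (A.map (Int.cast : ℤ → ℝ)).IsSymm := by
        ext i j
        simp only [transpose_apply, map_apply]
        rw [← hA.apply i j]
      rw [castV_mulVec, dotProduct_comm, dotProduct_mulVec, ← mulVec_transpose, hAR.eq,
        dotProduct_comm, castV_dot_map_mulVec_vec hp.ne_zero hAB]
    rw [h1, h2]
    push_cast
    rw [mul_add, Complex.exp_add]
    have := cexp_two_pi_I_int (x ⬝ᵥ y)
    rw [this, mul_one]
  · -- the Gaussian
    unfold term
    rw [vec_add_range hp.ne_zero hBA, add_comm (vec B p (rep d))]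

variable (θv : (Fin n → ℝ) → ℍ → ℂ) (hsum : ∀ v z, HasSum (term A v z) (θv v z))

include hsum in
/-- **The `S`-law** in the `WeilGen86` shape, from the inversion formula `hP`
(for `n = 4`, `det A = p ^ 2` the constant is `K z = -p / z ^ 2`). -/
theorem θD_slash_S [Fact p.Prime] [Fintype (Disc A)] (hdet : A.det ≠ 0)
    (hA : A.IsSymm) (hB : B.IsSymm)
    (hAB : A * B = (p : ℤ) • (1 : Matrix (Fin n) (Fin n) ℤ))
    (hBA : B * A = (p : ℤ) • (1 : Matrix (Fin n) (Fin n) ℤ))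
    (hP : ∀ (y : Fin n → ℤ) (z : ℍ), HasSum (dualTerm A B p (vec B p y) z)
      (-(p : ℂ) / (z : ℂ) ^ 2 * θv (vec B p y) (S • z)))
    (h : Disc A) :
    θD B p θv h ∣[(2 : ℤ)] S =
      (-(1 : ℂ) / p) • ∑ h' : Disc A,
        ZMod.stdAddChar (-(betaD hA hAB hBA h h')) • θD B p θv h' := by
  have hp : p.Prime := Fact.out
  have hp' : (p : ℂ) ≠ 0 := by exact_mod_cast hp.ne_zero
  obtain ⟨y, rfl⟩ := Disc.mk_surjective h
  rw [θD_mk θv hsum hp.ne_zero hBA]
  ext z
  have hz : (z : ℂ) ≠ 0 := ne_zero z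
  rw [ModularForm.SL_slash_apply, denom_S]
  -- regroup the dual sum
  have hsplit := hasSum_split hdet (hP y z)
    (g := fun d => ZMod.stdAddChar (betaD hA hAB hBA d (Disc.mk A y)) * θD B p θv d z)
    (fun d => by
      have := (hsum (vec B p (rep d)) z).mul_left
        (ZMod.stdAddChar (betaD hA hAB hBA d (Disc.mk A y)))
      have hfun : (fun x : Fin n → ℤ => dualTerm A B p (vec B p y) z (rep d + A *ᵥ x)) =
          fun x => ZMod.stdAddChar (betaD hA hAB hBA d (Disc.mk A y)) *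
            term A (vec B p (rep d)) z x :=
        funext fun x => dualTerm_split hA hB hAB hBA y z d x
      rw [hfun]
      exact this)
  -- reindex `d ↦ -d`
  have hre : ∑ d : Disc A, ZMod.stdAddChar (betaD hA hAB hBA d (Disc.mk A y)) * θD B p θv d z =
      ∑ d : Disc A, ZMod.stdAddChar (-(betaD hA hAB hBA (Disc.mk A y) d)) * θD B p θv d z := by
    rw [← Equiv.sum_comp (Equiv.neg (Disc A))]
    refine Finset.sum_congr rfl fun d _ => ?_
    simp only [Equiv.neg_apply]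
    rw [θD_neg θv hsum hp.ne_zero hBA, map_neg, AddMonoidHom.neg_apply,
      betaD_symm hA hB hAB hBA d (Disc.mk A y)]
  rw [hre] at hsplit
  have hval : θv (vec B p y) (S • z) =
      -((z : ℂ) ^ 2 / p) * ∑ d : Disc A,
        ZMod.stdAddChar (-(betaD hA hAB hBA (Disc.mk A y) d)) * θD B p θv d z := by
    rw [← hsplit]
    field_simp
  rw [hval]
  simp only [Pi.smul_apply, Finset.sum_apply, smul_eq_mul]
  rw [_root_.zpow_neg, zpow_ofNat]
  field_simp

end SLaw

/-! ### Assembly with `WeilGen86`: `Γ₀(p)`-invariance of `θ₀` -/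

section Assembly

variable {A B : Matrix (Fin n) (Fin n) ℤ} {p : ℕ}
variable (θv : (Fin n → ℝ) → ℍ → ℂ) (hsum : ∀ v z, HasSum (term A v z) (θv v z))

theorem quadR_zero : quadR A (0 : Fin n → ℝ) = 0 := by
  simp [quadR]

include hsum in
/-- `θ₀ ≠ 0`: at `z = i` all terms are positive reals and the term of `x = 0` is `1`. -/
theorem θv_zero_ne_zero (hpos : ∀ u : Fin n → ℝ, 0 ≤ quadR A u) : θv 0 ≠ 0 := by
  intro h0
  have h1 := hsum 0 UpperHalfPlane.I
  rw [h0, Pi.zero_apply] at h1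
  have h2 : HasSum (fun x => (term A 0 UpperHalfPlane.I x).re) (0 : ℂ).re :=
    (Complex.hasSum_re h1)
  have hterm : ∀ x : Fin n → ℤ, term A 0 UpperHalfPlane.I x =
      ((Real.exp (-(π * quadR A (castV x + 0))) : ℝ) : ℂ) := by
    intro x
    unfold term
    rw [UpperHalfPlane.coe_I]
    have : (π : ℂ) * I * I * ((quadR A (castV x + 0) : ℝ) : ℂ) =
        ((-(π * quadR A (castV x + 0)) : ℝ) : ℂ) := by
      push_cast
      linear_combination (π : ℂ) * ((quadR A (castV x + 0) : ℝ) : ℂ) * Complex.I_mul_I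
    rw [this, Complex.ofReal_exp]
  have hnn : ∀ x : Fin n → ℤ, 0 ≤ (term A 0 UpperHalfPlane.I x).re := by
    intro x
    rw [hterm, Complex.ofReal_re]
    exact (Real.exp_pos _).le
  have hle := le_hasSum h2 (0 : Fin n → ℤ) (fun x _ => hnn x)
  have h00 : (term A 0 UpperHalfPlane.I (0 : Fin n → ℤ)).re = 1 := by
    rw [hterm, Complex.ofReal_re]
    have : castV (0 : Fin n → ℤ) + (0 : Fin n → ℝ) = 0 := by
      ext i; simp
    rw [this, quadR_zero, mul_zero, neg_zero, Real.exp_zero]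
  rw [h00, Complex.zero_re] at hle
  linarith

include hsum in
/-- **`Γ₀(p)`-invariance of `θ₀ = θv 0`** from the theta sums `hsum` and the inversion
formula `hP`. -/
theorem θv_zero_slash_eq_self [Fact p.Prime] (hp2 : p ≠ 2) (hA : A.IsSymm) (hB : B.IsSymm)
    (hAev : ∀ i, Even (A i i)) (hBev : ∀ i, Even (B i i))
    (hAB : A * B = (p : ℤ) • (1 : Matrix (Fin n) (Fin n) ℤ))
    (hBA : B * A = (p : ℤ) • (1 : Matrix (Fin n) (Fin n) ℤ))
    (hdet : A.det = (p : ℤ) ^ 2) (hpos : ∀ u : Fin n → ℝ, 0 ≤ quadR A u)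
    (hP : ∀ (y : Fin n → ℤ) (z : ℍ), HasSum (dualTerm A B p (vec B p y) z)
      (-(p : ℂ) / (z : ℂ) ^ 2 * θv (vec B p y) (S • z)))
    (γ : SL(2, ℤ)) (hγ : γ ∈ CongruenceSubgroup.Gamma0 p) :
    θv 0 ∣[(2 : ℤ)] γ = θv 0 := by
  classical
  have hp : p.Prime := Fact.out
  letI : Fintype (Disc A) := Disc.fintypeOfDet hp.ne_zero hdet
  have hdet0 : A.det ≠ 0 := by
    rw [hdet]; exact pow_ne_zero _ (by exact_mod_cast hp.ne_zero)
  have h00 : θD (A := A) B p θv 0 = θv 0 := by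
    have := θD_mk (A := A) θv hsum hp.ne_zero hBA (0 : Fin n → ℤ)
    rw [Disc.mk_zero] at this
    rw [this]
    congr 1
    ext i
    simp [Disc94.vec]
  have := WeilGen86.slash_eq_self (p := p) (D := Disc A) (e := ZMod.stdAddChar)
    (q := qD hA hAB hBA) (β := betaD hA hAB hBA) (θ := θD B p θv)
    (ZMod.isPrimitive_stdAddChar p) (betaD_symm hA hB hAB hBA)
    (qD_add hp2 hA hB hAB hBA) (betaD_self hp2 hA hAB hBA)
    (betaD_nondeg hA hB hAB hBA) (Disc.fintype_card_eq_sq hp.ne_zero hdet)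
    (by rw [h00]; exact θv_zero_ne_zero θv hsum hpos)
    (θD_slash_T θv hsum hp2 hA hB hAev hBev hAB hBA)
    (θD_slash_S θv hsum hdet0 hA hB hAB hBA hP) γ hγ
  rwa [h00] at this

include hsum in
/-- Every `SL(2,ℤ)`-translate of `θ₀` is a linear combination of the `θ_h` (for boundedness at
all cusps). -/
theorem θv_zero_slash_mem_span [Fact p.Prime] (hp2 : p ≠ 2) (hA : A.IsSymm) (hB : B.IsSymm)
    (hAev : ∀ i, Even (A i i)) (hBev : ∀ i, Even (B i i))
    (hAB : A * B = (p : ℤ) • (1 : Matrix (Fin n) (Fin n) ℤ))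
    (hBA : B * A = (p : ℤ) • (1 : Matrix (Fin n) (Fin n) ℤ))
    (hdet : A.det = (p : ℤ) ^ 2)
    (hP : ∀ (y : Fin n → ℤ) (z : ℍ), HasSum (dualTerm A B p (vec B p y) z)
      (-(p : ℂ) / (z : ℂ) ^ 2 * θv (vec B p y) (S • z)))
    (γ : SL(2, ℤ)) :
    ∃ (s : Finset (Fin n → ℤ)) (c : (Fin n → ℤ) → ℂ),
      θv 0 ∣[(2 : ℤ)] γ = ∑ y ∈ s, c y • θv (vec B p y) := by
  classical
  have hp : p.Prime := Fact.out
  letI : Fintype (Disc A) := Disc.fintypeOfDet hp.ne_zero hdet
  have hdet0 : A.det ≠ 0 := by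
    rw [hdet]; exact pow_ne_zero _ (by exact_mod_cast hp.ne_zero)
  have h00 : θD (A := A) B p θv 0 = θv 0 := by
    have := θD_mk (A := A) θv hsum hp.ne_zero hBA (0 : Fin n → ℤ)
    rw [Disc.mk_zero] at this
    rw [this]
    congr 1
    ext i
    simp [Disc94.vec]
  obtain ⟨c, hc⟩ := WeilGen86.slash_mem_span (p := p) (D := Disc A) (e := ZMod.stdAddChar)
    (q := qD hA hAB hBA) (β := betaD hA hAB hBA) (θ := θD B p θv)
    (θD_slash_T θv hsum hp2 hA hB hAev hBev hAB hBA)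
    (θD_slash_S θv hsum hdet0 hA hB hAB hBA hP) γ
  rw [h00] at hc
  refine ⟨Finset.univ.image (fun d : Disc A => rep d), fun y => c (Disc.mk A y), ?_⟩
  rw [hc, Finset.sum_image]
  · refine Finset.sum_congr rfl fun d _ => ?_
    simp only [mk_rep]
    rfl
  · intro d _ d' _ h
    have := congrArg (Disc.mk A) h
    simpa using this

end Assembly

end Fermat.Agent.S16.ThetaST94
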