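/-
S16 / (L1)-THETA (helper94): packaging `θ₀` into a `ModularForm (Γ₀(p)) 2` and the lower
bound `hL : Dual3.EisCong p (eisensteinNumerator p)` of S16 from the THETA DATA:

* algebra (helper47 `Lattice47`): `A B` symmetric, even diagonals, `A B = B A = p`, `det A = p²`,
  `A` positive semidefinite on `ℝ^n`;
* analysis (helper91 / helper56), for a family `θv : (Fin n → ℝ) → ℍ → ℂ`:
  `hsum` (theta sums), `hP` (inversion formula), `hhol` (holomorphy of `θv 0`),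
  `hbdd` (every `θv v` bounded at `i∞`), `hq` (`q`-expansion of `θv 0` with coefficients
  `a 0 = 1`, `a k ∈ 2ℤ`).
-/
import Mathlib
import Fermat.Agent.S16.ThetaST94
import Fermat.Agent.S16.ThetaBridge47
import Fermat.Agent.S16.Eis62

set_option autoImplicit false

namespace Fermat.Agent.S16.ThetaForm94

open Matrix UpperHalfPlane ModularGroup Fermat.Agent.S16.Disc94 Fermat.Agent.S16.ThetaST94
open Complex hiding I
open scoped MatrixGroups ModularForm Real Manifold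

local notation "I" => Complex.I

variable {n : ℕ} {A B : Matrix (Fin n) (Fin n) ℤ} {p : ℕ}

/-- A finite linear combination of functions bounded at `i∞` is bounded at `i∞`. -/
theorem isBoundedAtImInfty_finset_sum {ι : Type*} (s : Finset ι) (c : ι → ℂ) (f : ι → ℍ → ℂ)
    (hf : ∀ i ∈ s, IsBoundedAtImInfty (f i)) :
    IsBoundedAtImInfty (∑ i ∈ s, c i • f i) := by
  classical
  induction s using Finset.induction_on with
  | empty =>
    simp only [Finset.sum_empty]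
    exact Filter.const_boundedAtFilter _ (0 : ℂ)
  | insert a s ha ih =>
    rw [Finset.sum_insert ha]
    exact ((hf a (Finset.mem_insert_self a s)).const_smul_left (c a)).add
      (ih fun i hi => hf i (Finset.mem_insert_of_mem hi))

section Form

variable (θv : (Fin n → ℝ) → ℍ → ℂ) (hsum : ∀ v z, HasSum (term A v z) (θv v z))

/-- **The theta series as a modular form of weight 2 on `Γ₀(p)`.** -/
noncomputable def thetaForm [Fact p.Prime] (hp2 : p ≠ 2) (hA : A.IsSymm) (hB : B.IsSymm)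
    (hAev : ∀ i, Even (A i i)) (hBev : ∀ i, Even (B i i))
    (hAB : A * B = (p : ℤ) • (1 : Matrix (Fin n) (Fin n) ℤ))
    (hBA : B * A = (p : ℤ) • (1 : Matrix (Fin n) (Fin n) ℤ))
    (hdet : A.det = (p : ℤ) ^ 2) (hpos : ∀ u : Fin n → ℝ, 0 ≤ quadR A u)
    (hP : ∀ (y : Fin n → ℤ) (z : ℍ), HasSum (dualTerm A B p (vec B p y) z)
      (-(p : ℂ) / (z : ℂ) ^ 2 * θv (vec B p y) (S • z)))
    (hhol : MDiff (θv 0)) (hbdd : ∀ v, IsBoundedAtImInfty (θv v)) :
    ModularForm (CongruenceSubgroup.Gamma0 p) 2 where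
  toFun := θv 0
  slash_action_eq' γ hγ := by
    obtain ⟨h, hh, rfl⟩ := Subgroup.mem_map.mp hγ
    exact θv_zero_slash_eq_self θv hsum hp2 hA hB hAev hBev hAB hBA hdet hpos hP h hh
  holo' := hhol
  bdd_at_cusps' {c} hc := by
    rw [Subgroup.IsArithmetic.isCusp_iff_isCusp_SL2Z] at hc
    rw [OnePoint.isBoundedAt_iff_forall_SL2Z hc]
    intro γ _
    obtain ⟨s, c, hc⟩ := θv_zero_slash_mem_span θv hsum hp2 hA hB hAev hBev hAB hBA hdet hP γ
    rw [hc]
    exact isBoundedAtImInfty_finset_sum s c _ (fun y _ => hbdd _)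

@[simp] theorem coe_thetaForm [Fact p.Prime] (hp2 : p ≠ 2) (hA : A.IsSymm) (hB : B.IsSymm)
    (hAev : ∀ i, Even (A i i)) (hBev : ∀ i, Even (B i i))
    (hAB : A * B = (p : ℤ) • (1 : Matrix (Fin n) (Fin n) ℤ))
    (hBA : B * A = (p : ℤ) • (1 : Matrix (Fin n) (Fin n) ℤ))
    (hdet : A.det = (p : ℤ) ^ 2) (hpos : ∀ u : Fin n → ℝ, 0 ≤ quadR A u)
    (hP : ∀ (y : Fin n → ℤ) (z : ℍ), HasSum (dualTerm A B p (vec B p y) z)
      (-(p : ℂ) / (z : ℂ) ^ 2 * θv (vec B p y) (S • z)))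
    (hhol : MDiff (θv 0)) (hbdd : ∀ v, IsBoundedAtImInfty (θv v)) :
    ⇑(thetaForm θv hsum hp2 hA hB hAev hBev hAB hBA hdet hpos hP hhol hbdd) = θv 0 := rfl

end Form

/-! ### The lower bound of S16 from the theta data -/

open ModularFormClass in
/-- `E = (1/24) (p E₂(pz) - E₂(z))` has the `q`-expansion `(p-1)/24 + ∑ σ'(m) q^m`. -/
theorem qCoeff_eis (p : ℕ) [Fact p.Prime] :
    haveI : NeZero p := ⟨(Fact.out : p.Prime).ne_zero⟩
    qCoeff ⇑((1 / 24 : ℂ) • Eis62.eis2 p) 0 = ((p : ℂ) - 1) / 24 ∧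
    ∀ m : ℕ, 1 ≤ m → qCoeff ⇑((1 / 24 : ℂ) • Eis62.eis2 p) m = ((Dual3.sigmaP p m : ℤ) : ℂ) := by
  have : NeZero p := ⟨(Fact.out : p.Prime).ne_zero⟩
  have hp : p.Prime := Fact.out
  constructor
  · rw [ThetaBridge47.qCoeff_smul, qCoeff, Eis62.qExpansion_eis2_coeff, Eis62.coeffEis2_zero]
    ring
  · intro m hm
    rw [ThetaBridge47.qCoeff_smul, qCoeff, Eis62.qExpansion_eis2_coeff,
      Eis62.coeffEis2_of_ne_zero p m hp.ne_zero (by omega)]
    have : Eis62.sigmaP p m = Dual3.sigmaP p m := rfl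
    rw [this]
    ring

open ModularFormClass in
/-- **(L) from the theta data**: the lower-bound half `hL` of `Dual3.s16_of_UL`. -/
theorem eisCong_of_thetaData [Fact p.Prime] (hp2 : p ≠ 2) (hA : A.IsSymm) (hB : B.IsSymm)
    (hAev : ∀ i, Even (A i i)) (hBev : ∀ i, Even (B i i))
    (hAB : A * B = (p : ℤ) • (1 : Matrix (Fin n) (Fin n) ℤ))
    (hBA : B * A = (p : ℤ) • (1 : Matrix (Fin n) (Fin n) ℤ))
    (hdet : A.det = (p : ℤ) ^ 2) (hpos : ∀ u : Fin n → ℝ, 0 ≤ quadR A u)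
    (θv : (Fin n → ℝ) → ℍ → ℂ) (hsum : ∀ v z, HasSum (term A v z) (θv v z))
    (hP : ∀ (y : Fin n → ℤ) (z : ℍ), HasSum (dualTerm A B p (vec B p y) z)
      (-(p : ℂ) / (z : ℂ) ^ 2 * θv (vec B p y) (S • z)))
    (hhol : MDiff (θv 0)) (hbdd : ∀ v, IsBoundedAtImInfty (θv v))
    (a : ℕ → ℂ) (ha0 : a 0 = 1) (ha : ∀ m : ℕ, 1 ≤ m → ∃ c : ℤ, a m = ((2 * c : ℤ) : ℂ))
    (hq : ∀ z : ℍ, HasSum (fun m : ℕ => a m • Function.Periodic.qParam 1 z ^ m) (θv 0 z)) :
    Dual3.EisCong p (ModularCurve.eisensteinNumerator p) := by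
  have : NeZero p := ⟨(Fact.out : p.Prime).ne_zero⟩
  set Θ := thetaForm θv hsum hp2 hA hB hAev hBev hAB hBA hdet hpos hP hhol hbdd with hΘ
  have hcoeff : ∀ m : ℕ, qCoeff ⇑Θ m = a m := by
    intro m
    rw [qCoeff]
    exact (ModularFormClass.qExpansion_coeff_unique (f := Θ) (c := a) one_pos
      (CongruenceSubgroup.one_mem_strictPeriods_Gamma0 p) (fun τ => hq τ) m).symm
  obtain ⟨hE0, hE⟩ := qCoeff_eis p
  exact ThetaBridge47.eisCong_of_theta p Θ ((1 / 24 : ℂ) • Eis62.eis2 p)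
    (by rw [hcoeff, ha0]) (fun m hm => by rw [hcoeff]; exact ha m hm) hE0 hE

end Fermat.Agent.S16.ThetaForm94
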