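import Fermat.Agent.S16.ThetaBasic91
import Fermat.Prelude.Thm_CongruenceSubgroup_one_mem_strictPeriods_Gamma0
import Fermat.Prelude.Def_FLTPrelim_Modularity

/-!
# S16 / (L1)-THETA-A3 : `qExpansion` coefficients of a modular form equal to `θ_0` (helper91)

If a modular form `f` (any level `Γ` having the strict period `1`, any weight) coincides on `ℍ`
with the theta function `θ_0` of an even positive definite integral matrix `A`, then its Mathlib
`q`-expansion is `∑ r_A(m) q^m`; in particular the constant term is `1` and all higher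
coefficients are even integers.
-/

set_option autoImplicit false

namespace Fermat.Agent.S16.ThetaQExp91

open Complex Real Matrix UpperHalfPlane ModularFormClass
open Fermat.Agent.S16.ThetaBasic91

variable {n : ℕ}

theorem qExpansion_coeff_eq_repCount {Γ : Subgroup (GL (Fin 2) ℝ)} {k : ℤ} {F : Type*}
    [FunLike F ℍ ℂ] [ModularFormClass F Γ k] (f : F) (hΓ : (1 : ℝ) ∈ Γ.strictPeriods)
    {A : Matrix (Fin n) (Fin n) ℤ} (hA : (toReal A).PosDef)
    (hev : ∀ x : Fin n → ℤ, Even (qfZ A x))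
    (hf : ∀ z : ℍ, f z = thetaH (toReal A) 0 z) (m : ℕ) :
    (qExpansion 1 f).coeff m = (repCount A m : ℂ) := by
  refine (ModularFormClass.qExpansion_coeff_unique (c := fun m => (repCount A m : ℂ))
    one_pos hΓ (f := f) (fun τ => ?_) m).symm
  have h := hasSum_thetaH_zero hA hev τ
  rw [← hf τ] at h
  refine h.congr_fun fun j => ?_
  simp only [smul_eq_mul, Function.Periodic.qParam, ofReal_one, div_one]

theorem qExpansion_coeff_zero_eq_one {Γ : Subgroup (GL (Fin 2) ℝ)} {k : ℤ} {F : Type*}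
    [FunLike F ℍ ℂ] [ModularFormClass F Γ k] (f : F) (hΓ : (1 : ℝ) ∈ Γ.strictPeriods)
    {A : Matrix (Fin n) (Fin n) ℤ} (hA : (toReal A).PosDef)
    (hev : ∀ x : Fin n → ℤ, Even (qfZ A x))
    (hf : ∀ z : ℍ, f z = thetaH (toReal A) 0 z) :
    (qExpansion 1 f).coeff 0 = 1 := by
  rw [qExpansion_coeff_eq_repCount f hΓ hA hev hf, repCount_zero hA, Nat.cast_one]

theorem qExpansion_coeff_even {Γ : Subgroup (GL (Fin 2) ℝ)} {k : ℤ} {F : Type*}
    [FunLike F ℍ ℂ] [ModularFormClass F Γ k] (f : F) (hΓ : (1 : ℝ) ∈ Γ.strictPeriods)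
    {A : Matrix (Fin n) (Fin n) ℤ} (hA : (toReal A).PosDef)
    (hev : ∀ x : Fin n → ℤ, Even (qfZ A x))
    (hf : ∀ z : ℍ, f z = thetaH (toReal A) 0 z) {m : ℕ} (hm : 1 ≤ m) :
    ∃ c : ℤ, (qExpansion 1 f).coeff m = ((2 * c : ℤ) : ℂ) := by
  obtain ⟨r, hr⟩ := even_repCount hA hm
  refine ⟨r, ?_⟩
  rw [qExpansion_coeff_eq_repCount f hΓ hA hev hf, hr]
  push_cast
  ring

/-- The two `Θ`-hypotheses of `ThetaBridge47.eisCong_of_theta`, for a modular form on `Γ₀(N)`
that coincides with the theta function of an even positive definite integral matrix. -/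
theorem qCoeff_theta_inputs (N : ℕ) {k : ℤ} (Θ : ModularForm (CongruenceSubgroup.Gamma0 N) k)
    {A : Matrix (Fin n) (Fin n) ℤ} (hA : (toReal A).PosDef) (hs : A.IsSymm)
    (hd : ∀ i, Even (A i i)) (hΘ : ∀ z : ℍ, Θ z = thetaH (toReal A) 0 z) :
    ModularFormClass.qCoeff ⇑Θ 0 = 1 ∧
      ∀ m : ℕ, 1 ≤ m → ∃ c : ℤ, ModularFormClass.qCoeff ⇑Θ m = ((2 * c : ℤ) : ℂ) := by
  have hΓ : (1 : ℝ) ∈ (Subgroup.map (Matrix.SpecialLinearGroup.mapGL ℝ)
      (CongruenceSubgroup.Gamma0 N)).strictPeriods :=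
    CongruenceSubgroup.one_mem_strictPeriods_Gamma0 N
  exact ⟨qExpansion_coeff_zero_eq_one Θ hΓ hA (even_qfZ hs hd) hΘ,
    fun m hm => qExpansion_coeff_even Θ hΓ hA (even_qfZ hs hd) hΘ hm⟩

end Fermat.Agent.S16.ThetaQExp91
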