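/-
S16, upper bound, case l = p: algebra core of the SwD-free finish (helper55).

If `P1, P2 ∈ K[Q, R]` (weights `4, 6`) are isobaric of weights `m + 2` and `m`, `P2 ≠ 0`,
then `P1 ^ a = P2 ^ (a + 1)` is impossible for `a ≥ 1`.

Use: `P2 = E_{p-1} mod p` (weight `p - 1`), `P1 = Tr(G h) mod p` (weight `p + 1`), both with
`q`-expansion `1`, `a = (p - 1) / 2`; then `P1 ^ a` and `P2 ^ (a + 1)` have the same weight and the
same `q`-expansion, hence are equal, contradiction.
-/
import Mathlib

set_option autoImplicit false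

namespace Fermat.Agent.S16.TwoWeights55

open MvPolynomial

/-- the weights of `Q = E₄` and `R = E₆`. -/
def wt : Fin 2 → ℕ := ![4, 6]

section general

variable {σ : Type*} {R : Type*} [CommSemiring R] {w : σ → ℕ}

/-- Multiplying by an isobaric polynomial of weight `m` shifts isobaric components by `m`. -/
theorem component_mul_of_isWeightedHomogeneous (C P : MvPolynomial σ R) (m e : ℕ)
    (hP : IsWeightedHomogeneous w P m) :
    weightedHomogeneousComponent w (e + m) (C * P) = weightedHomogeneousComponent w e C * P := by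
  classical
  ext d
  rw [coeff_weightedHomogeneousComponent, coeff_mul, coeff_mul]
  have key : ∀ x ∈ Finset.HasAntidiagonal.antidiagonal d,
      coeff x.1 (weightedHomogeneousComponent w e C) * coeff x.2 P =
        if Finsupp.weight w d = e + m then coeff x.1 C * coeff x.2 P else 0 := by
    intro x hx
    have hx : x.1 + x.2 = d := Finset.HasAntidiagonal.mem_antidiagonal.mp hx
    by_cases hP0 : coeff x.2 P = 0
    · simp [hP0]
    · have hw2 : Finsupp.weight w x.2 = m := hP hP0
      have hwd : Finsupp.weight w d = Finsupp.weight w x.1 + m := by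
        rw [← hx, map_add, hw2]
      rw [coeff_weightedHomogeneousComponent]
      by_cases h1 : Finsupp.weight w x.1 = e
      · rw [if_pos h1, if_pos (by rw [hwd, h1])]
      · rw [if_neg h1, if_neg (by rw [hwd]; omega), zero_mul]
  rw [Finset.sum_congr rfl key]
  split_ifs with h
  · rfl
  · simp

end general

section main

variable {K : Type*} [Field K]

/-- No monomial in `Q, R` has weight `2`. -/
theorem eq_zero_of_weight_two {C : MvPolynomial (Fin 2) K}
    (hC : IsWeightedHomogeneous wt C 2) : C = 0 := by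
  apply hC.eq_zero_of_no_monomials
  intro d
  rw [Finsupp.weight_apply, Finsupp.sum_fintype _ _ (by intro i; simp)]
  simp only [Fin.sum_univ_two, wt, Matrix.cons_val_zero, Matrix.cons_val_one, smul_eq_mul]
  omega

/-- If `C * P2 = P1` with `P2 ≠ 0` isobaric of weight `m` and `P1` isobaric of weight `m + k`,
then `C` is isobaric of weight `k`. -/
theorem isWeightedHomogeneous_of_mul_eq {σ : Type*} {w : σ → ℕ}
    {C P1 P2 : MvPolynomial σ K} {m k : ℕ}
    (h1 : IsWeightedHomogeneous w P1 (m + k)) (h2 : IsWeightedHomogeneous w P2 m) (h2ne : P2 ≠ 0)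
    (h : C * P2 = P1) : IsWeightedHomogeneous w C k := by
  have hzero : ∀ e : ℕ, e ≠ k → weightedHomogeneousComponent w e C = 0 := by
    intro e he
    have h3 := component_mul_of_isWeightedHomogeneous C P2 m e h2
    rw [h, h1.weightedHomogeneousComponent_ne (e + m) (by omega)] at h3
    rcases mul_eq_zero.mp h3.symm with h4 | h4
    · exact h4
    · exact absurd h4 h2ne
  have hC : C = weightedHomogeneousComponent w k C := by
    conv_lhs => rw [← sum_weightedHomogeneousComponent (w := w) C]
    exact finsum_eq_single _ k hzero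
  rw [hC]
  exact weightedHomogeneousComponent_isWeightedHomogeneous k C

/-- **Two-weights lemma.** In `K[Q, R]` with weights `4, 6`: if `P1`, `P2` are isobaric of
weights `m + 2` and `m`, `P2 ≠ 0` and `a ≥ 1`, then `P1 ^ a ≠ P2 ^ (a + 1)`. -/
theorem false_of_pow_eq (P1 P2 : MvPolynomial (Fin 2) K) (m a : ℕ) (ha : 1 ≤ a)
    (h1 : IsWeightedHomogeneous wt P1 (m + 2)) (h2 : IsWeightedHomogeneous wt P2 m)
    (h2ne : P2 ≠ 0) (h : P1 ^ a = P2 ^ (a + 1)) : False := by
  have hinj : Function.Injective
      (algebraMap (MvPolynomial (Fin 2) K) (FractionRing (MvPolynomial (Fin 2) K))) :=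
    IsFractionRing.injective _ _
  have h2F : algebraMap (MvPolynomial (Fin 2) K) (FractionRing (MvPolynomial (Fin 2) K)) P2 ≠ 0 := by
    intro h0
    exact h2ne (hinj (by rw [h0, map_zero]))
  -- ρ = P1 / P2 satisfies ρ ^ a = P2
  have hρ : (algebraMap (MvPolynomial (Fin 2) K) (FractionRing (MvPolynomial (Fin 2) K)) P1 /
      algebraMap (MvPolynomial (Fin 2) K) (FractionRing (MvPolynomial (Fin 2) K)) P2) ^ a =
      algebraMap (MvPolynomial (Fin 2) K) (FractionRing (MvPolynomial (Fin 2) K)) P2 := by
    rw [div_pow, ← map_pow, h, map_pow, pow_succ]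
    exact mul_div_cancel_left₀ _ (pow_ne_zero _ h2F)
  have hint : IsIntegral (MvPolynomial (Fin 2) K)
      (algebraMap (MvPolynomial (Fin 2) K) (FractionRing (MvPolynomial (Fin 2) K)) P1 /
      algebraMap (MvPolynomial (Fin 2) K) (FractionRing (MvPolynomial (Fin 2) K)) P2) := by
    apply IsIntegral.of_pow (n := a) (by omega)
    rw [hρ]
    exact isIntegral_algebraMap
  obtain ⟨C, hC⟩ := IsIntegrallyClosed.isIntegral_iff.mp hint
  have hCP : C * P2 = P1 := by
    apply hinj
    rw [map_mul, hC, div_mul_cancel₀ _ h2F]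
  have hChom : IsWeightedHomogeneous wt C 2 :=
    isWeightedHomogeneous_of_mul_eq h1 h2 h2ne hCP
  have hC0 : C = 0 := eq_zero_of_weight_two hChom
  have hP1 : P1 = 0 := by rw [← hCP, hC0, zero_mul]
  have h0 : P2 ^ (a + 1) = 0 := by rw [← h, hP1, zero_pow (by omega)]
  exact h2ne (pow_eq_zero_iff (by omega) |>.mp h0)

end main

end Fermat.Agent.S16.TwoWeights55
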