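/-
S16 / (U): `U8Stmt` — no `G ∈ M₂(Γ₀(p))` is `≡ 1 mod 8` when `8 ∣ p + 1` (helper44, on top of
helper51's level-`p` norm step `NormP51` and helper53's `Conj53`).

`ψ(G) = (E₄² + 10 E₄ G² - 8 E₆ G - 3 G⁴)/256 ∈ M₈(Γ₀(p))`: for every series `G' = 1 + 8u`,
`ψ(G') = psi2Quot s₃ s₅ t u = (t + s₃²) + 2·psi2Rem`, where `E₄ = 1 + 240 s₃`, `E₆ = 1 - 504 s₅`,
`5 s₃ + 7 s₅ = 12 t` (`NormCore44`).  So all conjugates are `≡ t + s₃² = q + ⋯ mod 2`: norm step.
-/
import Fermat.Agent.S16.NormP51.Core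
import Fermat.Agent.S16.NormP51.ExpG
import Fermat.Agent.S16.NormP51.LevelOne
import Fermat.Agent.S16.NormP51.Quot
import Fermat.Agent.S16.Conj53.WeightTwo
import Fermat.Agent.S16.NormCore44

set_option autoImplicit false

open UpperHalfPlane ModularForm CongruenceSubgroup ModularGroup Function
open scoped MatrixGroups ModularForm Manifold

namespace Fermat.Agent.S16.U8_44

open Fermat.Agent.S24.HasQExp Fermat.Agent.S16.Conj53 ModularFormClass ModularCurve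
open Fermat.Agent.S16.UIface39 EisensteinSeries Fermat.Agent.S16.NormP51
open Fermat.Agent.S16.NormCore44

/-- helper53's `Conj53.bS_weight_two` is `C4Stmt`. -/
theorem c4 : C4Stmt := by
  intro p _ G m
  rw [bS_weight_two, one_div]

/-! ### Spreading integral series into an arbitrary commutative ring -/

section Sp

variable (A : Type*) [CommRing A] (p : ℕ)

/-- `g(X^p)` with coefficients cast into `A`. -/
noncomputable def Sp (g : PowerSeries ℤ) : PowerSeries A :=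
  spread p (g.map (Int.castRingHom A))

theorem coeff_Sp (g : PowerSeries ℤ) (m : ℕ) :
    PowerSeries.coeff m (Sp A p g)
      = if p ∣ m then ((PowerSeries.coeff (m / p) g : ℤ) : A) else 0 := by
  rw [Sp, coeff_spread]
  split_ifs
  · rw [PowerSeries.coeff_map]; rfl
  · rfl

theorem ofNat_eq_C (n : ℕ) [n.AtLeastTwo] :
    (OfNat.ofNat n : PowerSeries A) = PowerSeries.C (OfNat.ofNat n : A) :=
  (map_ofNat (PowerSeries.C (R := A)) n).symm

/-- The relation `5 s₃ + 7 s₅ = 12 t`, spread into `A`. -/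
theorem rel_Sp :
    (5 : PowerSeries A) * Sp A p s3 + 7 * Sp A p s5 = 12 * Sp A p tser := by
  have hcoef : ∀ n, 5 * PowerSeries.coeff n s3 + 7 * PowerSeries.coeff n s5
      = 12 * PowerSeries.coeff n tser := by
    intro n
    have h := congrArg (PowerSeries.coeff n) five_s3_add_seven_s5
    have h5 : (5 : PowerSeries ℤ) = PowerSeries.C (5 : ℤ) := by simp
    have h7 : (7 : PowerSeries ℤ) = PowerSeries.C (7 : ℤ) := by simp
    have h12 : (12 : PowerSeries ℤ) = PowerSeries.C (12 : ℤ) := by simp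
    rw [h5, h7, h12, map_add, PowerSeries.coeff_C_mul, PowerSeries.coeff_C_mul,
      PowerSeries.coeff_C_mul] at h
    exact h
  have h5 : (5 : PowerSeries A) = PowerSeries.C (5 : A) := ofNat_eq_C A 5
  have h7 : (7 : PowerSeries A) = PowerSeries.C (7 : A) := ofNat_eq_C A 7
  have h12 : (12 : PowerSeries A) = PowerSeries.C (12 : A) := ofNat_eq_C A 12
  ext m
  rw [h5, h7, h12, map_add, PowerSeries.coeff_C_mul, PowerSeries.coeff_C_mul,
    PowerSeries.coeff_C_mul, coeff_Sp, coeff_Sp, coeff_Sp]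
  split_ifs
  · have := congrArg (Int.cast : ℤ → A) (hcoef (m / p))
    push_cast at this
    exact this
  · simp

theorem map_Sp {B : Type*} [CommRing B] (φ : A →+* B) (g : PowerSeries ℤ) :
    PowerSeries.map φ (Sp A p g) = Sp B p g :=
  map_spread_int φ p g

theorem coeff_Sp_of_lt (g : PowerSeries ℤ) (hg : PowerSeries.coeff 0 g = 0) {m : ℕ}
    (hm : m < p) : PowerSeries.coeff m (Sp A p g) = 0 := by
  rcases Nat.eq_zero_or_pos m with rfl | hm0
  · rw [coeff_Sp, if_pos (dvd_zero p), Nat.zero_div, hg, Int.cast_zero]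
  · exact coeff_spread_of_lt _ hm0 hm

theorem coeff_Sp_self (hp : 0 < p) (g : PowerSeries ℤ) :
    PowerSeries.coeff p (Sp A p g) = ((PowerSeries.coeff 1 g : ℤ) : A) := by
  rw [coeff_Sp, if_pos (dvd_refl p), Nat.div_self hp]

/-- The fixed series `t(X^p) + s₃(X^p)²`: its coefficients below `p` vanish and the `p`-th one
is `1`. -/
theorem coeff_target (hp : 0 < p) :
    (∀ m < p, PowerSeries.coeff m (Sp A p tser + Sp A p s3 ^ 2) = 0) ∧
      PowerSeries.coeff p (Sp A p tser + Sp A p s3 ^ 2) = 1 := by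
  have hs3 : ∀ m < p, PowerSeries.coeff m (Sp A p s3) = 0 := fun m hm =>
    coeff_Sp_of_lt A p s3 (coeff_zero_sig 3) hm
  obtain ⟨hlow, -⟩ := coeff_pow_of_low (Sp A p s3) p 2 hs3
  refine ⟨fun m hm => ?_, ?_⟩
  · rw [map_add, coeff_Sp_of_lt A p tser coeff_zero_tser hm, hlow m (by omega), add_zero]
  · rw [map_add, coeff_Sp_self A p hp, coeff_one_tser, hlow p (by omega), add_zero,
      Int.cast_one]

end Sp

/-! ### The form `ψ(G)` -/

variable {p : ℕ} [hp : Fact p.Prime]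

/-- `ψ(G) = (E₄² + 10 E₄ G² - 8 E₆ G - 3 G⁴)/256`. -/
noncomputable def psi2 (G : ModularForm (Gamma0 p) 2) : ModularForm (Gamma0 p) 8 :=
  (1 / 256 : ℂ) •
    (ModularForm.mcast (by norm_num : (4 : ℤ) + 4 = 8) ((resLevel p E₄).mul (resLevel p E₄))
      + (10 : ℂ) • ModularForm.mcast (by norm_num : (4 : ℤ) + (2 + 2) = 8)
          ((resLevel p E₄).mul (G.mul G))
      - (8 : ℂ) • ModularForm.mcast (by norm_num : (6 : ℤ) + 2 = 8) ((resLevel p E₆).mul G)
      - (3 : ℂ) • ModularForm.mcast (by norm_num : ((2 : ℤ) + 2) + (2 + 2) = 8)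
          ((G.mul G).mul (G.mul G)))

theorem coe_psi2 (G : ModularForm (Gamma0 p) 2) :
    (psi2 G : ℍ → ℂ) = (1 / 256 : ℂ) •
      ((E₄ : ℍ → ℂ) * (E₄ : ℍ → ℂ)
        + (10 : ℂ) • ((E₄ : ℍ → ℂ) * ((G : ℍ → ℂ) * (G : ℍ → ℂ)))
        - (8 : ℂ) • ((E₆ : ℍ → ℂ) * (G : ℍ → ℂ))
        - (3 : ℂ) • (((G : ℍ → ℂ) * (G : ℍ → ℂ)) * ((G : ℍ → ℂ) * (G : ℍ → ℂ)))) := rfl

theorem cjFun_mul' {k₁ k₂ k : ℤ} (hk : k₁ + k₂ = k) (F F' : ℍ → ℂ) (a : Option (ZMod p)) :
    cjFun k (F * F') a = cjFun k₁ F a * cjFun k₂ F' a := by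
  subst hk
  exact cjFun_mul k₁ k₂ F F' a

theorem conj_psi2 (G : ModularForm (Gamma0 p) 2) (a : Option (ZMod p)) (τ : ℍ) :
    conj (psi2 G) a τ = (256 : ℂ)⁻¹ *
      (E₄ τ * E₄ τ + 10 * (E₄ τ * (conj G a τ * conj G a τ)) - 8 * (E₆ τ * conj G a τ)
        - 3 * ((conj G a τ * conj G a τ) * (conj G a τ * conj G a τ))) := by
  have hGG : cjFun (4 : ℤ) ((G : ℍ → ℂ) * (G : ℍ → ℂ)) a
      = cjFun 2 (G : ℍ → ℂ) a * cjFun 2 (G : ℍ → ℂ) a :=
    cjFun_mul' (by norm_num) _ _ a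
  rw [conj_eq_cjFun, coe_psi2, cjFun_smul, cjFun_sub, cjFun_sub, cjFun_add, cjFun_smul,
    cjFun_smul, cjFun_smul,
    cjFun_mul' (by norm_num : (4 : ℤ) + 4 = 8) (E₄ : ℍ → ℂ) (E₄ : ℍ → ℂ),
    cjFun_mul' (by norm_num : (4 : ℤ) + 4 = 8) (E₄ : ℍ → ℂ) ((G : ℍ → ℂ) * (G : ℍ → ℂ)),
    cjFun_mul' (by norm_num : (6 : ℤ) + 2 = 8) (E₆ : ℍ → ℂ) (G : ℍ → ℂ),
    cjFun_mul' (by norm_num : (4 : ℤ) + 4 = 8) ((G : ℍ → ℂ) * (G : ℍ → ℂ))
      ((G : ℍ → ℂ) * (G : ℍ → ℂ)),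
    hGG, cjFun_levelOne, cjFun_levelOne, conj_eq_cjFun]
  simp only [Pi.smul_apply, Pi.add_apply, Pi.sub_apply, Pi.mul_apply, smul_eq_mul]
  norm_num

/-! ### The theorem -/

theorem u8 : U8Stmt := by
  intro p hpp hp5 h8 G hG0 hGk
  haveI : Fact p.Prime := ⟨hpp⟩
  haveI : Fact (Nat.Prime 2) := ⟨Nat.prime_two⟩
  have hℓp : 2 ≠ p := by omega
  have hdvd : 2 ^ 3 ∣ p + 1 := by norm_num; exact h8
  have hG0' : (qExpansion 1 G).coeff 0 = 1 := hG0
  have hGk' : ∀ k : ℕ, 1 ≤ k → InPow 2 3 ((qExpansion 1 G).coeff k) := hGk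
  have hp0 : 0 < p := hpp.pos
  choose u hu using exists_EG'_eq G c4 hℓp hdvd hG0' hGk'
  obtain ⟨hlow, htop⟩ :=
    coeff_target (lInt 2 ⧸ Ideal.span {((2 : ℕ) : lInt 2)}) p hp0
  refine false_of_norm (w := 8) (by norm_num) (by norm_num) (psi2 G) (lInt 2) 2
    (fun a => psi2Quot (Sp (lInt 2) p s3) (Sp (lInt 2) p s5) (Sp (lInt 2) p tser) (u a)) ?_
    (Sp (lInt 2 ⧸ Ideal.span {((2 : ℕ) : lInt 2)}) p tser
      + Sp (lInt 2 ⧸ Ideal.span {((2 : ℕ) : lInt 2)}) p s3 ^ 2) ?_ hlow ?_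
  · -- expansions
    intro a τ
    rw [conj_psi2]
    have h1 := psum_EG' G c4 hℓp hG0' hGk' a τ
    have h4 := psum_levelOne E₄ eisenstein4 MillerSturm46.qExpansion_E4_eq hp0 τ
    have h6 := psum_levelOne E₆ MillerSturm46.eisenstein6 MillerSturm46.qExpansion_E6_eq hp0 τ
    have hsum := (((h4.mul h4).add ((PSum.C 10 (qN p τ)).mul (h4.mul (h1.mul h1)))).sub
      ((PSum.C 8 (qN p τ)).mul (h6.mul h1))).sub
      ((PSum.C 3 (qN p τ)).mul ((h1.mul h1).mul (h1.mul h1)))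
    refine psum_of_eq_C_mul (c := 256) (by norm_num) ?_ hsum
    -- the power series identity
    have hE4 : spread p (eisenstein4.map (Int.castRingHom ℂ)) = 1 + 240 * Sp ℂ p s3 := by
      rw [NormP51.eisenstein4_eq, map_add, map_mul, map_one, PowerSeries.map_C,
        spread_one_add_C_mul hp0, ofNat_eq_C ℂ 240]
      simp only [eq_intCast, Int.cast_ofNat]
      rfl
    have hE6 : spread p (MillerSturm46.eisenstein6.map (Int.castRingHom ℂ))
        = 1 - 504 * Sp ℂ p s5 := by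
      rw [NormP51.eisenstein6_eq, map_add, map_mul, map_one, PowerSeries.map_C,
        spread_one_add_C_mul hp0, ofNat_eq_C ℂ 504, sub_eq_add_neg, ← neg_mul, ← map_neg]
      simp only [eq_intCast, Int.cast_neg, Int.cast_ofNat]
      rfl
    have hG' : PowerSeries.map (lInt 2).subtype (EG' G c4 hℓp hG0' hGk' a)
        = 1 + 8 * PowerSeries.map (lInt 2).subtype (u a) := by
      rw [hu a, map_add, map_mul, map_one, PowerSeries.map_C, ofNat_eq_C ℂ 8]
      congr 3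
      simp only [map_pow, map_natCast]
      norm_num
    have hquot : PowerSeries.map (lInt 2).subtype
        (psi2Quot (Sp (lInt 2) p s3) (Sp (lInt 2) p s5) (Sp (lInt 2) p tser) (u a))
        = psi2Quot (Sp ℂ p s3) (Sp ℂ p s5) (Sp ℂ p tser)
            (PowerSeries.map (lInt 2).subtype (u a)) := by
      unfold psi2Quot
      simp only [map_add, map_sub, map_mul, map_pow, map_ofNat, map_Sp]
    have hC10 : (PowerSeries.C (10 : ℂ) : PowerSeries ℂ) = 10 := (ofNat_eq_C ℂ 10).symm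
    have hC8 : (PowerSeries.C (8 : ℂ) : PowerSeries ℂ) = 8 := (ofNat_eq_C ℂ 8).symm
    have hC3 : (PowerSeries.C (3 : ℂ) : PowerSeries ℂ) = 3 := (ofNat_eq_C ℂ 3).symm
    have hC256 : (PowerSeries.C (256 : ℂ) : PowerSeries ℂ) = 256 := (ofNat_eq_C ℂ 256).symm
    rw [hquot, hE4, hE6, hG', hC10, hC8, hC3, hC256,
      ← psi2_eq (Sp ℂ p s3) (Sp ℂ p s5) (Sp ℂ p tser) _ (rel_Sp ℂ p)]
    ring
  · -- reduction modulo 2
    intro a
    have h2 : (2 : PowerSeries (lInt 2 ⧸ Ideal.span {((2 : ℕ) : lInt 2)})) = 0 := by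
      have := natCast_powerSeries_eq_zero (quot_natCast_eq_zero (ℓ := 2))
      exact_mod_cast this
    rw [psi2Quot_eq]
    simp only [map_add, map_mul, map_pow, map_ofNat, map_Sp]
    rw [h2, zero_mul, add_zero]
  · -- the leading coefficient
    rw [htop, one_pow]
    exact one_ne_zero

end Fermat.Agent.S16.U8_44
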