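/-
S16, upper bound (U), case (U2)/(B) (helper27): discharge of `USwD27.ExpStmt` on top of helper53's
CONJ library (`Conj53`), modulo the weight-2 identity (C4)
`bS G m = -(1/p) a_{pm}(G)`.

The `i`-th elementary symmetric function `Conj53.esymmForm G i` of the `p + 1` conjugates of `G` is a
level-one form; its `q`-expansion is the `p`-decimation of the formal elementary symmetric function
of the explicit `q^{1/p}`-expansions `USwD27.conjSeries` of the conjugates.
-/
import Mathlib
import Fermat.Agent.S16.USwD27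
import Fermat.Agent.S16.Conj53.Expansion
import Fermat.Agent.S16.Esymm74
import Fermat.Prelude.Thm_CongruenceSubgroup_one_mem_strictPeriods_Gamma0
import Fermat.Prelude.Thm_UpperHalfPlane_qExpansion_coeff_nat_mul

set_option autoImplicit false

open Finset

namespace Fermat.Agent.S16.UExp27

open CongruenceSubgroup ModularFormClass UpperHalfPlane Function
open scoped MatrixGroups ModularForm Manifold
open Fermat.Agent.S24.HasQExp (qN)

local notation "PS" => Fermat.Agent.S24.HasQExp.PSum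

/-- (C4): the weight-2 identity for the `q^{1/p}`-coefficients of `G ∣ S`. -/
def C4Stmt : Prop :=
  ∀ (p : ℕ) [Fact p.Prime] (G : ModularForm (Gamma0 p) 2) (m : ℕ),
    Conj53.bS G m = -((p : ℂ))⁻¹ * (qExpansion 1 G).coeff (p * m)

variable {p : ℕ} [hp : Fact p.Prime]

/-- The `q^{1/p}`-expansion of `G` itself. -/
theorem psum_none {k : ℤ} (G : ModularForm (Gamma0 p) k) (ζ : ℂ) (τ : ℍ) :
    PS (USwD27.conjSeries p (G : ℍ → ℂ) ζ none) (qN p τ) (G τ) := by
  have : NeZero p := ⟨hp.out.ne_zero⟩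
  have h1 := ModularForm.hasSum_qExpansion (f := G) one_pos
    (CongruenceSubgroup.one_mem_strictPeriods_Gamma0 p) τ
  have hinj : Injective (fun n : ℕ => p * n) := fun a b hab =>
    Nat.eq_of_mul_eq_mul_left hp.out.pos hab
  set F : ℕ → ℂ := fun m =>
    PowerSeries.coeff m (USwD27.conjSeries p (G : ℍ → ℂ) ζ none) * qN p τ ^ m with hF
  have h3 : ∀ x ∉ Set.range (fun n : ℕ => p * n), F x = 0 := by
    intro x hx
    have hx' : ¬ p ∣ x := by
      rintro ⟨c, rfl⟩
      exact hx ⟨c, rfl⟩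
    simp [hF, USwD27.conjSeries, hx']
  unfold Fermat.Agent.S24.HasQExp.PSum
  rw [← hinj.hasSum_iff h3]
  convert h1 using 1
  funext n
  simp only [comp_apply, hF, USwD27.conjSeries, PowerSeries.coeff_mk, if_pos (dvd_mul_right p n),
    Nat.mul_div_cancel_left n hp.out.pos]
  rw [pow_mul, qN, Conj53.qParam_p_pow_p]
  rfl

/-- The `q^{1/p}`-expansion of `G ∣ S T^j` in weight 2. -/
theorem psum_some (hC4 : C4Stmt) (G : ModularForm (Gamma0 p) 2) (j : ZMod p) (τ : ℍ) :
    PS (USwD27.conjSeries p (G : ℍ → ℂ) (Conj53.zeta p) (some j)) (qN p τ)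
      (Conj53.tr G (j.val : ℤ) τ) := by
  have : NeZero p := ⟨hp.out.ne_zero⟩
  have h1 := Conj53.hasSum_tr G (j.val : ℤ) τ
  unfold Fermat.Agent.S24.HasQExp.PSum
  convert h1 using 1
  funext m
  simp only [USwD27.conjSeries, PowerSeries.coeff_mk]
  rw [hC4 p G m, zpow_natCast, ← pow_mul]
  rfl

theorem psum_conj (hC4 : C4Stmt) (G : ModularForm (Gamma0 p) 2) (v : Option (ZMod p)) (τ : ℍ) :
    PS (USwD27.conjSeries p (G : ℍ → ℂ) (Conj53.zeta p) v) (qN p τ) (Conj53.conj G v τ) := by
  cases v with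
  | none => exact psum_none G _ τ
  | some j => exact psum_some hC4 G j τ

/-- The formal `i`-th elementary symmetric function of the expansions of the conjugates. -/
noncomputable def esymmSeries (p : ℕ) [Fact p.Prime] (G : ℍ → ℂ) (ζ : ℂ) (i : ℕ) : PowerSeries ℂ :=
  ∑ s ∈ powersetCard i (univ : Finset (Option (ZMod p))), ∏ v ∈ s, USwD27.conjSeries p G ζ v

theorem psum_esymm (hC4 : C4Stmt) (G : ModularForm (Gamma0 p) 2) (i : ℕ) (τ : ℍ) :
    PS (esymmSeries p (G : ℍ → ℂ) (Conj53.zeta p) i) (qN p τ) (Conj53.esymmForm G i τ) := by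
  have h : Conj53.esymmForm G i τ
      = ∑ s ∈ powersetCard i (univ : Finset (Option (ZMod p))), ∏ v ∈ s, Conj53.conj G v τ := by
    rw [Conj53.esymmForm_apply]
    unfold Conj53.esymmConj Conj53.esymmFun
    rw [Finset.sum_apply]
    refine Finset.sum_congr rfl fun s _ => ?_
    rw [Finset.prod_apply]
  rw [h]
  unfold esymmSeries
  exact Esymm74.PSum.finset_sum _ fun s _ => Esymm74.PSum.finset_prod _ fun v _ =>
    psum_conj hC4 G v τ

/-- **Transfer.** The `q`-expansion of `Conj53.esymmForm G i` is the `p`-decimation of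
`esymmSeries`. -/
theorem qCoeff_esymmForm (hC4 : C4Stmt) (G : ModularForm (Gamma0 p) 2) (i n : ℕ) :
    qCoeff (Conj53.esymmForm G i : ℍ → ℂ) n
      = PowerSeries.coeff (p * n) (esymmSeries p (G : ℍ → ℂ) (Conj53.zeta p) i) := by
  have hp0 : 0 < p := hp.out.pos
  have hp' : (0 : ℝ) < p := by exact_mod_cast hp0
  have h1 := ModularFormClass.qExpansion_coeff_unique (f := Conj53.esymmForm G i)
    (c := fun m => PowerSeries.coeff m (esymmSeries p (G : ℍ → ℂ) (Conj53.zeta p) i))
    hp' (Esymm74.natCast_mem_strictPeriods_SL p)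
    (fun τ => by
      have := psum_esymm hC4 G i τ
      simpa [Fermat.Agent.S24.HasQExp.PSum, qN, smul_eq_mul] using this) (p * n)
  rw [h1]
  have h2 := UpperHalfPlane.qExpansion_coeff_nat_mul (h := 1) one_pos
    (F := Conj53.esymmForm G i)
    (SlashInvariantFormClass.periodic_comp_ofComplex (Conj53.esymmForm G i)
      one_mem_strictPeriods_SL)
    (ModularFormClass.holo (Conj53.esymmForm G i))
    (ModularFormClass.bdd_at_infty (Conj53.esymmForm G i)) hp0 (p * n)
  rw [mul_one] at h2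
  rw [h2, if_pos (dvd_mul_right p n), Nat.mul_div_cancel_left n hp0]
  rfl

/-- `USwD27.ExpStmt` from (C4). -/
theorem expStmt_of_C4 (hC4 : C4Stmt) : USwD27.ExpStmt := by
  intro p _ G
  have : NeZero p := ⟨(Fact.out : p.Prime).ne_zero⟩
  refine ⟨Conj53.zeta p, Conj53.zeta_pow_p, fun i => ⟨Conj53.esymmForm G i, fun n => ?_⟩⟩
  exact qCoeff_esymmForm hC4 G i n

/-- `UIface39.USwDStmt` from (C4) and weak Swinnerton-Dyer. -/
theorem uswd_of_C4 (hC4 : C4Stmt) (hSwD : USwD27.SwDStmt) : UIface39.USwDStmt :=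
  USwD27.uswd_of (expStmt_of_C4 hC4) hSwD

end Fermat.Agent.S16.UExp27
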