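/-
S16, upper bound (U), case (U2)/(B) of `UIface39` (helper27): `USwDStmt`, UNCONDITIONAL.

Assembly of
* `USwD27.uswd_of` (Lucas + elementary symmetric functions, helper27),
* `UExp27.expStmt_of_C4` (expansion transfer for `Conj53.esymmForm`, helper27),
* `Conj53.bS_weight_two` (helper53: `b_n(G ∣ S) = -(1/p) a_{pn}(G)` in weight two),
* `SwD92.swd` (helper92: weak Swinnerton-Dyer in level one).
-/
import Mathlib
import Fermat.Agent.S16.UExp27
import Fermat.Agent.S16.Conj53.WeightTwo
import Fermat.Agent.S16.SwD92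

set_option autoImplicit false

namespace Fermat.Agent.S16.USwDFinal27

theorem c4Stmt : UExp27.C4Stmt := fun _ _ G m => Conj53.bS_weight_two G m

theorem expStmt : USwD27.ExpStmt := UExp27.expStmt_of_C4 c4Stmt

/-- **(U2)/(B)**: for `l ≥ 5` prime, `l ≠ p`, `l ∣ p + 1`, there is no `G ∈ M₂(Γ₀(p))` with
`l`-integral `q`-expansion and `G ≡ 1 mod l`. -/
theorem uswd : UIface39.USwDStmt := UExp27.uswd_of_C4 c4Stmt SwD92.swd

end Fermat.Agent.S16.USwDFinal27
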