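/-
S16 / (U)-P via the `E₄`-trace identity (helper99; second seat on helper97's route #1186).

For every `G ∈ M₂(Γ₀(p))`:  `g · V_p e₄ - p⁻⁴ U_p((U_p g) · e₄) = a₀(G) (1 - p⁻⁴) e₆`
(`Tr(G · E₄(p·)) ∈ M₆(SL₂ℤ) = ℂ E₆`, from `LemmaT99.qExpansion_trace_mul_raise`).  Applied to
`H = E - 24 f` (integer coefficients, `h₀ = p - 1`, `p ∣ h_k` for `k ≥ 1`) it gives
`240 σ₃(pn) ≡ -504 σ₅(n) mod p` for all `n ≥ 1`; `n = 1, 2` force `p ∣ gcd(744, 18792) = 24`.
-/
import Mathlib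
import Fermat.Agent.S16.LemmaT99.Final
import Fermat.Agent.S16.MillerSturm46
import Fermat.Agent.S16.Eis17.Iface39

set_option autoImplicit false
set_option linter.unusedSectionVars false
set_option linter.unusedVariables false

namespace Fermat.Agent.S16.UpE4_99

open UpperHalfPlane ModularForm CongruenceSubgroup PowerSeries EisensteinSeries
open scoped MatrixGroups ModularForm
open Fermat.Agent.S16.LemmaT99 (psU psV coeff_psU coeff_psV)
open Fermat.Agent.S16.EllP40 (raise)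
open Fermat.Agent.S16.MillerSturm46 (eisenstein6 qExpansion_E6_eq qExpansion_E4_eq)
open ModularCurve (eisenstein4)

/-! ### `M₆(SL₂ℤ) = ℂ E₆` in `q`-expansion form -/

theorem coeff_zero_E6 : (qExpansion 1 E₆).coeff 0 = 1 := by
  rw [qExpansion_E6_eq, coeff_map, coeff_zero_eq_constantCoeff]
  simp

theorem coeff_zero_E4 : (qExpansion 1 E₄).coeff 0 = 1 := by
  rw [qExpansion_E4_eq, coeff_map, coeff_zero_eq_constantCoeff]
  simp

theorem one_mem_strictPeriods_SL' : (1 : ℝ) ∈ (𝒮ℒ : Subgroup (GL (Fin 2) ℝ)).strictPeriods := by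
  rw [Subgroup.strictPeriods_SL2Z]; exact AddSubgroup.mem_zmultiples 1

theorem levelOne_weight_six {k : ℤ} (hk : k = 6) (F : ModularForm 𝒮ℒ k) :
    qExpansion 1 F = (qExpansion 1 F).coeff 0 • qExpansion 1 E₆ := by
  subst hk
  set c := (qExpansion 1 F).coeff 0 with hc
  have hq : qExpansion 1 (F - c • E₆ : ModularForm 𝒮ℒ 6) = qExpansion 1 F - c • qExpansion 1 E₆ := by
    have h1 : ((F - c • E₆ : ModularForm 𝒮ℒ 6) : ℍ → ℂ) = ⇑F - ⇑(c • E₆) := rfl
    have h2 : ((c • E₆ : ModularForm 𝒮ℒ 6) : ℍ → ℂ) = c • ⇑E₆ := rfl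
    rw [h1, ModularForm.qExpansion_sub one_pos one_mem_strictPeriods_SL' F (c • E₆), h2,
      ModularForm.qExpansion_smul one_pos one_mem_strictPeriods_SL' c E₆]
  have hD0 : (qExpansion 1 (F - c • E₆ : ModularForm 𝒮ℒ 6)).coeff 0 = 0 := by
    rw [hq, map_sub, coeff_smul, coeff_zero_E6, smul_eq_mul, mul_one, hc, sub_self]
  have hcusp : ModularForm.toCuspForm (F - c • E₆) hD0 = 0 :=
    (rank_zero_iff_forall_zero.mp (CuspForm.rank_eq_zero_of_weight_lt_twelve (by norm_num))) _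
  have hzero : (F - c • E₆ : ModularForm 𝒮ℒ 6) = 0 := by
    ext z
    have := congrArg (fun g : CuspForm 𝒮ℒ 6 => g z) hcusp
    simpa [ModularForm.toCuspForm_apply] using this
  have hq0 : qExpansion 1 ((0 : ModularForm 𝒮ℒ 6) : ℍ → ℂ) = 0 := by
    have : ((0 : ModularForm 𝒮ℒ 6) : ℍ → ℂ) = 0 := rfl
    rw [this, UpperHalfPlane.qExpansion_zero]
  rw [hzero, hq0] at hq
  exact sub_eq_zero.mp hq.symm

/-! ### The `E₄`-trace identity -/

variable {p : ℕ} [hp : Fact p.Prime]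

/-- **`E₄`-trace identity**: for every `G ∈ M₂(Γ₀(p))`,
`g · V_p e₄ - p⁻⁴ U_p((U_p g) e₄) = a₀(G)(1 - p⁻⁴) e₆`. -/
theorem e4_trace (G : ModularForm (Gamma0 p) 2) :
    qExpansion 1 G * psV p (qExpansion 1 E₄) -
        (p : ℂ) ^ (-(4 : ℤ)) • psU p (psU p (qExpansion 1 G) * qExpansion 1 E₄) =
      ((qExpansion 1 G).coeff 0 * (1 - (p : ℂ) ^ (-(4 : ℤ)))) • qExpansion 1 E₆ := by
  have h1 := Fermat.Agent.S16.LemmaT99.qExpansion_trace_mul_raise G
    (Fermat.Agent.S16.LemmaT99.frickeCoeff G) E₄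
  have h2 := levelOne_weight_six (by norm_num) (ModularForm.trace 𝒮ℒ (G.mul (raise p E₄)))
  rw [h1] at h2
  rw [h2]
  congr 1
  rw [map_sub, coeff_smul, coeff_psU, mul_zero, PowerSeries.coeff_mul, PowerSeries.coeff_mul]
  simp [coeff_zero_E4]
  ring

/-- Coefficientwise, multiplied by `p⁴`. -/
theorem e4_trace_coeff (G : ModularForm (Gamma0 p) 2) (n : ℕ) :
    (p : ℂ) ^ 4 * (∑ x ∈ Finset.HasAntidiagonal.antidiagonal n, (qExpansion 1 G).coeff x.1 *
        (if p ∣ x.2 then (qExpansion 1 E₄).coeff (x.2 / p) else 0)) -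
      ∑ x ∈ Finset.HasAntidiagonal.antidiagonal (p * n),
        (qExpansion 1 G).coeff (p * x.1) * (qExpansion 1 E₄).coeff x.2 =
      ((p : ℂ) ^ 4 - 1) * (qExpansion 1 G).coeff 0 * (qExpansion 1 E₆).coeff n := by
  have hp0 : (p : ℂ) ≠ 0 := Nat.cast_ne_zero.mpr hp.out.ne_zero
  have h := congrArg (fun s => (p : ℂ) ^ 4 * coeff n s) (e4_trace G)
  simp only [map_sub, coeff_smul, smul_eq_mul, coeff_psU, PowerSeries.coeff_mul, coeff_psV] at h
  have h4 : (p : ℂ) ^ (-(4 : ℤ)) = ((p : ℂ) ^ 4)⁻¹ := by rw [zpow_neg]; norm_cast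
  rw [h4] at h
  have hp4 : (p : ℂ) ^ 4 ≠ 0 := pow_ne_zero _ hp0
  rw [mul_sub, ← mul_assoc, mul_inv_cancel₀ hp4, one_mul] at h
  rw [h]
  field_simp

/-! ### Integer arithmetic -/

/-- `n`-th coefficient of `E₄`, as an integer. -/
noncomputable def e4Z (n : ℕ) : ℤ := coeff n eisenstein4

/-- `n`-th coefficient of `E₆`, as an integer. -/
noncomputable def e6Z (n : ℕ) : ℤ := coeff n eisenstein6

theorem coeff_E4 (n : ℕ) : (qExpansion 1 E₄).coeff n = (e4Z n : ℂ) := by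
  rw [qExpansion_E4_eq, coeff_map]; rfl

theorem coeff_E6 (n : ℕ) : (qExpansion 1 E₆).coeff n = (e6Z n : ℂ) := by
  rw [qExpansion_E6_eq, coeff_map]; rfl

theorem e4Z_of_ne_zero {n : ℕ} (hn : n ≠ 0) : e4Z n = 240 * ∑ d ∈ n.divisors, (d : ℤ) ^ 3 := by
  simp [e4Z, eisenstein4, hn]

theorem e6Z_of_ne_zero {n : ℕ} (hn : n ≠ 0) : e6Z n = -504 * ∑ d ∈ n.divisors, (d : ℤ) ^ 5 := by
  simp [e6Z, eisenstein6, hn]

theorem sum_divisors_pow_eq_sigma (k n : ℕ) :
    ∑ d ∈ n.divisors, (d : ℤ) ^ k = ((ArithmeticFunction.sigma k n : ℕ) : ℤ) := by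
  rw [ArithmeticFunction.sigma_apply]
  push_cast
  rfl

omit hp in
theorem sigma_prime {q : ℕ} (hq : q.Prime) (k : ℕ) :
    ArithmeticFunction.sigma k q = 1 + q ^ k := by
  rw [ArithmeticFunction.sigma_apply, hq.divisors, Finset.sum_insert, Finset.sum_singleton, one_pow]
  rw [Finset.mem_singleton]
  exact hq.one_lt.ne

omit hp in
theorem e6Z_one : e6Z 1 = -504 := by
  rw [e6Z_of_ne_zero one_ne_zero]; simp

omit hp in
theorem e6Z_two : e6Z 2 = -504 * 33 := by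
  rw [e6Z_of_ne_zero two_ne_zero, sum_divisors_pow_eq_sigma, sigma_prime Nat.prime_two]
  norm_num

omit hp in
theorem e4Z_prime {q : ℕ} (hq : q.Prime) : e4Z q = 240 * (1 + (q : ℤ) ^ 3) := by
  rw [e4Z_of_ne_zero hq.ne_zero, sum_divisors_pow_eq_sigma, sigma_prime hq]
  push_cast; ring

omit hp in
theorem e4Z_two_mul_prime {q : ℕ} (hq : q.Prime) (hq2 : q ≠ 2) :
    e4Z (q * 2) = 240 * (9 * (1 + (q : ℤ) ^ 3)) := by
  have hcop : Nat.Coprime q 2 := (Nat.coprime_primes hq Nat.prime_two).mpr hq2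
  rw [e4Z_of_ne_zero (Nat.mul_ne_zero hq.ne_zero two_ne_zero), sum_divisors_pow_eq_sigma,
    ArithmeticFunction.isMultiplicative_sigma.map_mul_of_coprime hcop, sigma_prime hq,
    sigma_prime Nat.prime_two]
  push_cast; ring

omit hp in
/-- Pure integer core: the `E₄`-trace identity at `q^n` forces `e₄(pn) ≡ e₆(n) mod p`. -/
theorem core_dvd {p : ℕ} (hZ : ℕ → ℤ) (h0 : hZ 0 = (p : ℤ) - 1)
    (hdiv : ∀ k, 1 ≤ k → (p : ℤ) ∣ hZ k) (n : ℕ) (A : ℤ)
    (hid : (p : ℤ) ^ 4 * A - ∑ x ∈ Finset.HasAntidiagonal.antidiagonal (p * n),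
        hZ (p * x.1) * e4Z x.2 = ((p : ℤ) ^ 4 - 1) * hZ 0 * e6Z n) :
    (p : ℤ) ∣ e4Z (p * n) - e6Z n := by
  classical
  have hmem : ((0, p * n) : ℕ × ℕ) ∈ Finset.HasAntidiagonal.antidiagonal (p * n) := by
    rw [Finset.HasAntidiagonal.mem_antidiagonal]; simp
  obtain ⟨r, hr⟩ : (p : ℤ) ∣ ∑ x ∈ (Finset.HasAntidiagonal.antidiagonal (p * n)).erase (0, p * n),
      hZ (p * x.1) * e4Z x.2 := by
    apply Finset.dvd_sum
    rintro ⟨i, j⟩ hx
    rw [Finset.mem_erase, Finset.HasAntidiagonal.mem_antidiagonal] at hx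
    obtain ⟨hne, hij⟩ := hx
    simp only at hij
    have hi : i ≠ 0 := by
      rintro rfl
      apply hne
      simp only [zero_add] at hij
      rw [hij]
    by_cases hp0 : p = 0
    · subst hp0
      simp only [zero_mul] at hij
      omega
    · have h1 : 1 ≤ p * i := Nat.mul_pos (Nat.pos_of_ne_zero hp0) (Nat.pos_of_ne_zero hi)
      exact Dvd.dvd.mul_right (hdiv _ h1) _
  have hsum : ∑ x ∈ Finset.HasAntidiagonal.antidiagonal (p * n), hZ (p * x.1) * e4Z x.2 =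
      hZ 0 * e4Z (p * n) + (p : ℤ) * r := by
    rw [← Finset.add_sum_erase _ _ hmem, hr]
    simp
  refine ⟨e4Z (p * n) + r - (p : ℤ) ^ 3 * A + ((p : ℤ) ^ 4 - (p : ℤ) ^ 3 - 1) * e6Z n, ?_⟩
  rw [hsum, h0] at hid
  linear_combination hid

omit hp in
/-- The final numerical contradiction. -/
theorem false_of_dvd {p : ℕ} (hpp : p.Prime) (hp5 : 5 ≤ p)
    (h1 : (p : ℤ) ∣ e4Z (p * 1) - e6Z 1) (h2 : (p : ℤ) ∣ e4Z (p * 2) - e6Z 2) : False := by
  have hp2 : p ≠ 2 := by omega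
  rw [mul_one, e4Z_prime hpp, e6Z_one] at h1
  rw [e4Z_two_mul_prime hpp hp2, e6Z_two] at h2
  have h744 : (p : ℤ) ∣ 744 := by
    have h3 : (p : ℤ) ∣ 240 * (p : ℤ) ^ 3 := Dvd.intro_left (240 * (p : ℤ) ^ 2) (by ring)
    have := dvd_sub h1 h3
    have e : 240 * (1 + (p : ℤ) ^ 3) - -504 - 240 * (p : ℤ) ^ 3 = 744 := by ring
    rwa [e] at this
  have h18792 : (p : ℤ) ∣ 18792 := by
    have h3 : (p : ℤ) ∣ 2160 * (p : ℤ) ^ 3 := Dvd.intro_left (2160 * (p : ℤ) ^ 2) (by ring)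
    have := dvd_sub h2 h3
    have e : 240 * (9 * (1 + (p : ℤ) ^ 3)) - -504 * 33 - 2160 * (p : ℤ) ^ 3 = 18792 := by ring
    rwa [e] at this
  have h24 : (p : ℤ) ∣ 24 := by
    have := dvd_sub (Dvd.dvd.mul_left h18792 4) (Dvd.dvd.mul_left h744 101)
    norm_num at this
    exact this
  have h24' : p ∣ 24 := by exact_mod_cast h24
  have h24'' : p ∣ 2 ^ 3 * 3 := by
    have e : 2 ^ 3 * 3 = 24 := by norm_num
    rw [e]; exact h24'
  rcases (Nat.Prime.dvd_mul hpp).mp h24'' with h | h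
  · have := Nat.le_of_dvd (by norm_num) (hpp.dvd_of_dvd_pow h)
    omega
  · have := Nat.le_of_dvd (by norm_num) h
    omega

omit hp in
/-- **`UpStmt` (the case `l = p`)** from the Eisenstein series of level `p`. -/
theorem upStmt_of_eis (hE : Fermat.Agent.S16.UIface39.EisStmt) :
    Fermat.Agent.S16.UIface39.UpStmt := by
  classical
  intro p hpp hp5 f hint hf
  have : Fact p.Prime := ⟨hpp⟩
  obtain ⟨E, hE0, hEk⟩ := hE p hpp
  have hΓ := Fermat.Agent.S16.LemmaT99.one_mem_strictPeriods_Gamma0' (p := p)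
  -- the form `H = E - 24 f`
  set F : ModularForm (Gamma0 p) 2 := CuspForm.toModularFormₗ f with hF
  set H : ModularForm (Gamma0 p) 2 := E - (24 : ℂ) • F with hH
  have hHq : qExpansion 1 H = qExpansion 1 E - (24 : ℂ) • qExpansion 1 f := by
    have h1 : (H : ℍ → ℂ) = ⇑E - ⇑((24 : ℂ) • F) := rfl
    have h2 : (((24 : ℂ) • F : ModularForm (Gamma0 p) 2) : ℍ → ℂ) = (24 : ℂ) • ⇑F := rfl
    have h3 : (F : ℍ → ℂ) = f := rfl
    rw [h1, ModularForm.qExpansion_sub one_pos hΓ E ((24 : ℂ) • F), h2,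
      ModularForm.qExpansion_smul one_pos hΓ (24 : ℂ) F, h3]
  have hf0 : (qExpansion 1 f).coeff 0 = 0 := CuspFormClass.qExpansion_coeff_zero f one_pos hΓ
  -- integer coefficients
  have hf' : ∀ k, ∃ c : ℤ, 1 ≤ k → (qExpansion 1 f).coeff k =
      ((Fermat.Agent.S16.UIface39.sigmaP p k + (p : ℤ) * c : ℤ) : ℂ) := by
    intro k
    by_cases hk : 1 ≤ k
    · obtain ⟨c, hc⟩ := hf k hk
      exact ⟨c, fun _ => hc⟩
    · exact ⟨0, fun h => absurd h hk⟩
  choose c hc using hf'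
  let hZ : ℕ → ℤ := fun k => if k = 0 then (p : ℤ) - 1 else -24 * ((p : ℤ) * c k)
  have hHZ : ∀ k, (qExpansion 1 H).coeff k = (hZ k : ℂ) := by
    intro k
    rw [hHq, map_sub, coeff_smul, smul_eq_mul]
    by_cases hk : k = 0
    · subst hk
      have h1 : (qExpansion 1 E).coeff 0 = (p : ℂ) - 1 := hE0
      simp [hZ, h1, hf0]
    · have hk1 : 1 ≤ k := Nat.one_le_iff_ne_zero.mpr hk
      have h1 : (qExpansion 1 E).coeff k =
          24 * ((Fermat.Agent.S16.UIface39.sigmaP p k : ℤ) : ℂ) := hEk k hk1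
      rw [h1, hc k hk1]
      simp only [hZ, hk, if_false]
      push_cast
      ring
  have h0 : hZ 0 = (p : ℤ) - 1 := by simp [hZ]
  have hdiv : ∀ k, 1 ≤ k → (p : ℤ) ∣ hZ k := by
    intro k hk
    have hk0 : k ≠ 0 := by omega
    simp only [hZ, hk0, if_false]
    exact Dvd.intro (-24 * c k) (by ring)
  have key : ∀ n, (p : ℤ) ∣ e4Z (p * n) - e6Z n := by
    intro n
    have hid := e4_trace_coeff H n
    simp only [hHZ, coeff_E4, coeff_E6] at hid
    apply core_dvd hZ h0 hdiv n (∑ x ∈ Finset.HasAntidiagonal.antidiagonal n,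
      hZ x.1 * (if p ∣ x.2 then e4Z (x.2 / p) else 0))
    exact_mod_cast hid
  exact false_of_dvd hpp hp5 (key 1) (key 2)

/-- **`UpStmt`**, unconditional (with helper17's `eisStmt`). -/
theorem upStmt : Fermat.Agent.S16.UIface39.UpStmt :=
  upStmt_of_eis Fermat.Agent.S16.Eis17.eisStmt

end Fermat.Agent.S16.UpE4_99
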